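import Mathlib

/-!
# S41 (level raising), abstract coset sums (helper16, package UNEW/shared)

Pure group theory.  `G` a group, `ι₁ : Γ₁ →* G`, `ι₂ : Γ₂ →* G`, `h : X → G` a finite family.
A *coset datum* for `γ : Γ₂` is a permutation `σ` of `X` and `g' : X → Γ₁` with
`h i * ι₂ γ = ι₁ (g' i) * h (σ i)`.  For a homomorphism `χ : Γ₁ → A` the *coset sum* is
`∑ i, χ (g' i)`.  All cohomological operators of the level-raising chain (restriction, conjugation,
transfer, Hecke operators, Atkin–Lehner involution) are coset sums for explicit families in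
`GL(2,ℝ)`; the statements `GRD_heckeL_heckeT/U` are of this form.

* `S41C_sum_indep`   : the coset sum does not depend on the datum (`ι₁` injective);
* `S41C_datum_change`, `S41C_sum_change` : change of representatives `h' j = ι₁ (k j) * h (e j)`;
* `S41C_datum_one`, `S41C_datum_mul` : data for `1` and products (homomorphism property);
* `S41C_datum_prod`, `S41C_sum_prod` : product families (composition of operators);
* `S41C_datum_sum`   : disjoint unions (sums of operators);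
* `S41C_datum_central` : multiplying the family by a central element changes nothing;
* `S41C_tr`          : the operator `Hom(Γ₁, A) → Hom(Γ₂, A)` of an admissible family.
-/

set_option autoImplicit false

namespace Fermat.Agent.S41

section coset

variable {G Γ₁ Γ₂ A X : Type*} [Group G] [Group Γ₁] [Group Γ₂] [AddCommGroup A]
  (ι₁ : Γ₁ →* G) (ι₂ : Γ₂ →* G)

/-- `(σ, g')` is a coset datum for the family `h` and the element `γ`:
`h i * γ = g' i * h (σ i)`. -/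
def S41C_Datum (h : X → G) (γ : Γ₂) (σ : Equiv.Perm X) (g' : X → Γ₁) : Prop :=
  ∀ i, h i * ι₂ γ = ι₁ (g' i) * h (σ i)

/-- the family `h` is admissible: every `γ : Γ₂` has a coset datum. -/
def S41C_Adm (h : X → G) : Prop :=
  ∀ γ : Γ₂, ∃ (σ : Equiv.Perm X) (g' : X → Γ₁), S41C_Datum ι₁ ι₂ h γ σ g'

variable {ι₁ ι₂}

theorem S41C_datum_one (h : X → G) :
    S41C_Datum ι₁ ι₂ h 1 (Equiv.refl X) (fun _ => 1) := by
  intro i
  simp

theorem S41C_datum_mul {h : X → G} {γ₁ γ₂ : Γ₂} {σ₁ σ₂ : Equiv.Perm X} {g₁ g₂ : X → Γ₁}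
    (h₁ : S41C_Datum ι₁ ι₂ h γ₁ σ₁ g₁) (h₂ : S41C_Datum ι₁ ι₂ h γ₂ σ₂ g₂) :
    S41C_Datum ι₁ ι₂ h (γ₁ * γ₂) (σ₁.trans σ₂) (fun i => g₁ i * g₂ (σ₁ i)) := by
  intro i
  rw [map_mul, ← mul_assoc, h₁ i, mul_assoc, h₂ (σ₁ i), map_mul, mul_assoc]
  rfl

/-- potential lemma: if `h (π j) = k j * h j` for a permutation `π`, then `∑ χ (k j) = 0`. -/
theorem S41C_sum_potential [Fintype X] (hι₁ : Function.Injective ι₁) (χ : Additive Γ₁ →+ A)
    (h : X → G) (π : Equiv.Perm X) (k : X → Γ₁) (hk : ∀ j, h (π j) = ι₁ (k j) * h j) :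
    ∑ j, χ (Additive.ofMul (k j)) = 0 := by
  classical
  -- the equivalence relation "same left coset"
  let s : Setoid X :=
    { r := fun j j' => ∃ c : Γ₁, h j' = ι₁ c * h j
      iseqv :=
        { refl := fun j => ⟨1, by simp⟩
          symm := fun {j j'} ⟨c, hc⟩ => ⟨c⁻¹, by rw [hc, map_inv, inv_mul_cancel_left]⟩
          trans := fun {j j' j''} ⟨c, hc⟩ ⟨c', hc'⟩ =>
            ⟨c' * c, by rw [hc', hc, map_mul, mul_assoc]⟩ } }
  let b : X → X := fun j => (Quotient.mk s j).out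
  have hb : ∀ j, ∃ c : Γ₁, h j = ι₁ c * h (b j) := fun j =>
    (Quotient.mk_out (s := s) j)
  choose κ hκ using hb
  have hbπ : ∀ j, b (π j) = b j := by
    intro j
    have : Quotient.mk s (π j) = Quotient.mk s j :=
      Quotient.sound (show s.r (π j) j from s.iseqv.symm ⟨k j, hk j⟩)
    show (Quotient.mk s (π j)).out = (Quotient.mk s j).out
    rw [this]
  have hκπ : ∀ j, κ (π j) = k j * κ j := by
    intro j
    apply hι₁
    have h1 : h (π j) = ι₁ (κ (π j)) * h (b j) := by rw [← hbπ j]; exact hκ (π j)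
    have h2 : h (π j) = ι₁ (k j * κ j) * h (b j) := by
      rw [hk j, map_mul, mul_assoc, ← hκ j]
    exact mul_right_cancel (h1.symm.trans h2)
  have hsum : ∑ j, χ (Additive.ofMul (κ (π j)))
      = ∑ j, χ (Additive.ofMul (k j)) + ∑ j, χ (Additive.ofMul (κ j)) := by
    rw [← Finset.sum_add_distrib]
    refine Finset.sum_congr rfl fun j _ => ?_
    rw [hκπ j, ofMul_mul, map_add]
  have hperm : ∑ j, χ (Additive.ofMul (κ (π j))) = ∑ j, χ (Additive.ofMul (κ j)) :=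
    Equiv.sum_comp π (fun j => χ (Additive.ofMul (κ j)))
  rw [hperm] at hsum
  exact (add_eq_right.mp hsum.symm)

/-- **independence of the datum.** -/
theorem S41C_sum_indep [Fintype X] (hι₁ : Function.Injective ι₁) (χ : Additive Γ₁ →+ A)
    {h : X → G} {γ : Γ₂} {σ₁ σ₂ : Equiv.Perm X} {g₁ g₂ : X → Γ₁}
    (h₁ : S41C_Datum ι₁ ι₂ h γ σ₁ g₁) (h₂ : S41C_Datum ι₁ ι₂ h γ σ₂ g₂) :
    ∑ i, χ (Additive.ofMul (g₁ i)) = ∑ i, χ (Additive.ofMul (g₂ i)) := by
  have hk : ∀ i, h ((σ₁.symm.trans σ₂) (σ₁ i)) = ι₁ ((g₂ i)⁻¹ * g₁ i) * h (σ₁ i) := by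
    intro i
    have e : ι₁ (g₁ i) * h (σ₁ i) = ι₁ (g₂ i) * h (σ₂ i) := (h₁ i).symm.trans (h₂ i)
    show h (σ₂ (σ₁.symm (σ₁ i))) = _
    rw [Equiv.symm_apply_apply, map_mul, map_inv, mul_assoc, e, inv_mul_cancel_left]
  have hpot := S41C_sum_potential hι₁ χ h (σ₁.symm.trans σ₂)
    (fun j => (g₂ (σ₁.symm j))⁻¹ * g₁ (σ₁.symm j)) (fun j => by
      have := hk (σ₁.symm j)
      rwa [Equiv.apply_symm_apply] at this)
  have hre : ∑ j, χ (Additive.ofMul ((g₂ (σ₁.symm j))⁻¹ * g₁ (σ₁.symm j)))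
      = ∑ i, χ (Additive.ofMul ((g₂ i)⁻¹ * g₁ i)) :=
    Equiv.sum_comp σ₁.symm (fun i => χ (Additive.ofMul ((g₂ i)⁻¹ * g₁ i)))
  rw [hre] at hpot
  have hsplit : ∑ i, χ (Additive.ofMul ((g₂ i)⁻¹ * g₁ i))
      = ∑ i, χ (Additive.ofMul (g₁ i)) - ∑ i, χ (Additive.ofMul (g₂ i)) := by
    rw [← Finset.sum_sub_distrib]
    refine Finset.sum_congr rfl fun i _ => ?_
    rw [ofMul_mul, map_add, ofMul_inv, map_neg]
    abel
  rw [hsplit] at hpot
  exact sub_eq_zero.mp hpot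

/-- change of representatives: `h' j = k j * h (e j)`. -/
theorem S41C_datum_change {Y : Type*} (e : Y ≃ X) (k : Y → Γ₁) {h : X → G} {h' : Y → G}
    (hh : ∀ j, h' j = ι₁ (k j) * h (e j)) {γ : Γ₂} {σ : Equiv.Perm X} {g' : X → Γ₁}
    (hd : S41C_Datum ι₁ ι₂ h γ σ g') :
    S41C_Datum ι₁ ι₂ h' γ (e.trans (σ.trans e.symm))
      (fun j => k j * g' (e j) * (k (e.symm (σ (e j))))⁻¹) := by
  intro j
  show h' j * ι₂ γ = _ * h' (e.symm (σ (e j)))
  rw [hh j, hh (e.symm (σ (e j))), Equiv.apply_symm_apply, mul_assoc, hd (e j)]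
  simp only [map_mul, map_inv, mul_assoc, inv_mul_cancel_left]

theorem S41C_sum_change [Fintype X] {Y : Type*} [Fintype Y] (hι₁ : Function.Injective ι₁)
    (χ : Additive Γ₁ →+ A) (e : Y ≃ X) (k : Y → Γ₁) {h : X → G} {h' : Y → G}
    (hh : ∀ j, h' j = ι₁ (k j) * h (e j)) {γ : Γ₂} {σ : Equiv.Perm X} {g : X → Γ₁}
    (hd : S41C_Datum ι₁ ι₂ h γ σ g) {σ' : Equiv.Perm Y} {g' : Y → Γ₁}
    (hd' : S41C_Datum ι₁ ι₂ h' γ σ' g') :
    ∑ j, χ (Additive.ofMul (g' j)) = ∑ i, χ (Additive.ofMul (g i)) := by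
  rw [S41C_sum_indep hι₁ χ hd' (S41C_datum_change e k hh hd)]
  have h1 : ∀ j, χ (Additive.ofMul (k j * g (e j) * (k (e.symm (σ (e j))))⁻¹))
      = χ (Additive.ofMul (k j)) + χ (Additive.ofMul (g (e j)))
        - χ (Additive.ofMul (k ((e.trans (σ.trans e.symm)) j))) := by
    intro j
    rw [ofMul_mul, ofMul_mul, map_add, map_add, ofMul_inv, map_neg, sub_eq_add_neg]
    rfl
  simp only [h1]
  rw [Finset.sum_sub_distrib, Finset.sum_add_distrib,
    Equiv.sum_comp (e.trans (σ.trans e.symm)) (fun j => χ (Additive.ofMul (k j))),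
    Equiv.sum_comp e (fun i => χ (Additive.ofMul (g i)))]
  abel

/-- product families: composition of coset operators. -/
theorem S41C_datum_prod {Γ₃ Y : Type*} [Group Γ₃] {ι₃ : Γ₃ →* G} {h : X → G} {h' : Y → G}
    {γ : Γ₃} {σ' : Equiv.Perm Y} {g' : Y → Γ₂} (hd' : S41C_Datum ι₂ ι₃ h' γ σ' g')
    {σ : Y → Equiv.Perm X} {g : Y → X → Γ₁}
    (hd : ∀ j, S41C_Datum ι₁ ι₂ h (g' j) (σ j) (g j)) :
    S41C_Datum ι₁ ι₃ (fun p : Y × X => h p.2 * h' p.1) γ (Equiv.prodShear σ' σ)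
      (fun p => g p.1 p.2) := by
  rintro ⟨j, i⟩
  show h i * h' j * ι₃ γ = ι₁ (g j i) * (h (σ j i) * h' (σ' j))
  rw [mul_assoc, hd' j, ← mul_assoc, hd j i, mul_assoc]

theorem S41C_sum_prod [Fintype X] {Y : Type*} [Fintype Y] (χ : Additive Γ₁ →+ A)
    (g : Y → X → Γ₁) :
    ∑ p : Y × X, χ (Additive.ofMul (g p.1 p.2)) = ∑ j, ∑ i, χ (Additive.ofMul (g j i)) :=
  Fintype.sum_prod_type _

/-- disjoint unions: sums of coset operators. -/
theorem S41C_datum_sum {Y : Type*} {h : X → G} {h' : Y → G} {γ : Γ₂}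
    {σ : Equiv.Perm X} {g : X → Γ₁} {σ' : Equiv.Perm Y} {g' : Y → Γ₁}
    (hd : S41C_Datum ι₁ ι₂ h γ σ g) (hd' : S41C_Datum ι₁ ι₂ h' γ σ' g') :
    S41C_Datum ι₁ ι₂ (Sum.elim h h') γ (Equiv.sumCongr σ σ') (Sum.elim g g') := by
  rintro (i | j)
  · exact hd i
  · exact hd' j

/-- multiplying the family by an element commuting with `ι₁ Γ₁` changes nothing. -/
theorem S41C_datum_central {h : X → G} {γ : Γ₂} {σ : Equiv.Perm X} {g : X → Γ₁}
    (z : G) (hz : ∀ c : Γ₁, z * ι₁ c = ι₁ c * z) (hd : S41C_Datum ι₁ ι₂ h γ σ g) :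
    S41C_Datum ι₁ ι₂ (fun i => z * h i) γ σ g := by
  intro i
  show z * h i * ι₂ γ = ι₁ (g i) * (z * h (σ i))
  rw [mul_assoc, hd i, ← mul_assoc, hz, mul_assoc]

theorem S41C_datum_of_central {h : X → G} {γ : Γ₂} {σ : Equiv.Perm X} {g : X → Γ₁}
    (z : G) (hz : ∀ c : Γ₁, z * ι₁ c = ι₁ c * z)
    (hd : S41C_Datum ι₁ ι₂ (fun i => z * h i) γ σ g) :
    S41C_Datum ι₁ ι₂ h γ σ g := by
  intro i
  have := hd i
  simp only at this
  rw [mul_assoc, ← mul_assoc (ι₁ (g i)), ← hz, mul_assoc] at this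
  exact mul_left_cancel this

/-- a single normalising element: the datum is the conjugate. -/
theorem S41C_datum_single (w : G) (γ : Γ₂) (g' : Γ₁) (hw : w * ι₂ γ = ι₁ g' * w) :
    S41C_Datum ι₁ ι₂ (fun _ : Unit => w) γ (Equiv.refl Unit) (fun _ => g') :=
  fun _ => hw

/-! ### the operator of an admissible family -/

section operator

variable [Fintype X] (hι₁ : Function.Injective ι₁) (h : X → G) (hadm : S41C_Adm ι₁ ι₂ h)

/-- the coset sum as a function of `γ`. -/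
noncomputable def S41C_trFun (χ : Additive Γ₁ →+ A) (γ : Γ₂) : A :=
  ∑ i, χ (Additive.ofMul ((hadm γ).choose_spec.choose i))

include hι₁ in
theorem S41C_trFun_eq (χ : Additive Γ₁ →+ A) {γ : Γ₂} {σ : Equiv.Perm X} {g' : X → Γ₁}
    (hd : S41C_Datum ι₁ ι₂ h γ σ g') :
    S41C_trFun h hadm χ γ = ∑ i, χ (Additive.ofMul (g' i)) :=
  S41C_sum_indep hι₁ χ (hadm γ).choose_spec.choose_spec hd

/-- the operator `Hom(Γ₁, A) → Hom(Γ₂, A)` of an admissible family. -/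
noncomputable def S41C_tr (χ : Additive Γ₁ →+ A) : Additive Γ₂ →+ A where
  toFun γ := S41C_trFun h hadm χ (Additive.toMul γ)
  map_zero' := by
    show S41C_trFun h hadm χ 1 = 0
    rw [S41C_trFun_eq hι₁ h hadm χ (S41C_datum_one h)]
    simp
  map_add' γ₁ γ₂ := by
    show S41C_trFun h hadm χ (Additive.toMul γ₁ * Additive.toMul γ₂) = _
    obtain ⟨σ₁, g₁, h₁⟩ := hadm (Additive.toMul γ₁)
    obtain ⟨σ₂, g₂, h₂⟩ := hadm (Additive.toMul γ₂)
    rw [S41C_trFun_eq hι₁ h hadm χ (S41C_datum_mul h₁ h₂)]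
    show _ = S41C_trFun h hadm χ (Additive.toMul γ₁) + S41C_trFun h hadm χ (Additive.toMul γ₂)
    rw [S41C_trFun_eq hι₁ h hadm χ h₁, S41C_trFun_eq hι₁ h hadm χ h₂]
    simp only [ofMul_mul, map_add, Finset.sum_add_distrib]
    congr 1
    exact Equiv.sum_comp σ₁ (fun i => χ (Additive.ofMul (g₂ i)))

theorem S41C_tr_apply (χ : Additive Γ₁ →+ A) {γ : Γ₂} {σ : Equiv.Perm X} {g' : X → Γ₁}
    (hd : S41C_Datum ι₁ ι₂ h γ σ g') :
    S41C_tr hι₁ h hadm χ (Additive.ofMul γ) = ∑ i, χ (Additive.ofMul (g' i)) :=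
  S41C_trFun_eq hι₁ h hadm χ hd

theorem S41C_tr_add (χ ψ : Additive Γ₁ →+ A) :
    S41C_tr hι₁ h hadm (χ + ψ) = S41C_tr hι₁ h hadm χ + S41C_tr hι₁ h hadm ψ := by
  ext γ
  obtain ⟨σ, g, hd⟩ := hadm (Additive.toMul γ)
  show S41C_tr hι₁ h hadm (χ + ψ) (Additive.ofMul (Additive.toMul γ))
    = S41C_tr hι₁ h hadm χ (Additive.ofMul (Additive.toMul γ))
      + S41C_tr hι₁ h hadm ψ (Additive.ofMul (Additive.toMul γ))
  rw [S41C_tr_apply hι₁ h hadm _ hd, S41C_tr_apply hι₁ h hadm _ hd,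
    S41C_tr_apply hι₁ h hadm _ hd]
  simp only [AddMonoidHom.add_apply, Finset.sum_add_distrib]

theorem S41C_tr_zsmul (n : ℤ) (χ : Additive Γ₁ →+ A) :
    S41C_tr hι₁ h hadm (n • χ) = n • S41C_tr hι₁ h hadm χ := by
  ext γ
  obtain ⟨σ, g, hd⟩ := hadm (Additive.toMul γ)
  show S41C_tr hι₁ h hadm (n • χ) (Additive.ofMul (Additive.toMul γ))
    = n • S41C_tr hι₁ h hadm χ (Additive.ofMul (Additive.toMul γ))
  rw [S41C_tr_apply hι₁ h hadm _ hd, S41C_tr_apply hι₁ h hadm _ hd]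
  simp only [AddMonoidHom.smul_apply, Finset.smul_sum]

end operator

end coset

end Fermat.Agent.S41
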