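import Mathlib

/-!
# S41 / AMALG — definitions (helper6)

* `S41A_inc : SL(2,ℤ) →* SL(2,ℚ)`
* `S41A_conj q : SL(2,ℚ) →* SL(2,ℚ)`, `M ↦ δ⁻¹ M δ` with `δ = diag(q,1)`:
  `[[a,b],[c,d]] ↦ [[a, b/q],[q c, d]]`
* `S41A_res N q, S41A_deg N q : Γ₀(N q) →* Γ₀(N)`: the inclusion and `γ ↦ δ γ δ⁻¹ = [[a, q b],[c/q, d]]`
* `S41A_R q = ℤ[1/q] ⊂ ℚ`, `S41A_G N q = {M ∈ SL₂(ℤ[1/q]) : c ∈ N ℤ[1/q]} ≤ SL(2,ℚ)`
* `S41A_i1, S41A_i2 : Γ₀(N) →* S41A_G N q`: `γ ↦ γ` and `γ ↦ δ⁻¹ γ δ`.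
-/

set_option autoImplicit false

open Matrix CongruenceSubgroup
open scoped MatrixGroups

noncomputable section

/-- `SL(2,ℤ) → SL(2,ℚ)`. -/
def S41A_inc : SL(2, ℤ) →* SL(2, ℚ) := Matrix.SpecialLinearGroup.map (Int.castRingHom ℚ)

theorem S41A_inc_apply (g : SL(2, ℤ)) (i j : Fin 2) :
    (S41A_inc g) i j = ((g i j : ℤ) : ℚ) := rfl

theorem S41A_inc_injective : Function.Injective S41A_inc := by
  intro g h hgh
  ext i j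
  have := congrArg (fun M : SL(2, ℚ) => M i j) hgh
  simpa [S41A_inc_apply] using this

/-- explicit constructor of an element of `SL(2,ℚ)`. -/
def S41A_mk (a b c d : ℚ) (h : a * d - b * c = 1) : SL(2, ℚ) :=
  ⟨!![a, b; c, d], by rw [Matrix.det_fin_two_of]; exact h⟩

@[simp] theorem S41A_mk_00 (a b c d : ℚ) (h : a * d - b * c = 1) : S41A_mk a b c d h 0 0 = a := rfl
@[simp] theorem S41A_mk_01 (a b c d : ℚ) (h : a * d - b * c = 1) : S41A_mk a b c d h 0 1 = b := rfl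
@[simp] theorem S41A_mk_10 (a b c d : ℚ) (h : a * d - b * c = 1) : S41A_mk a b c d h 1 0 = c := rfl
@[simp] theorem S41A_mk_11 (a b c d : ℚ) (h : a * d - b * c = 1) : S41A_mk a b c d h 1 1 = d := rfl

/-- explicit constructor of an element of `SL(2,ℤ)`. -/
def S41A_imk (a b c d : ℤ) (h : a * d - b * c = 1) : SL(2, ℤ) :=
  ⟨!![a, b; c, d], by rw [Matrix.det_fin_two_of]; exact h⟩

@[simp] theorem S41A_imk_00 (a b c d : ℤ) (h : a * d - b * c = 1) : S41A_imk a b c d h 0 0 = a := rfl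
@[simp] theorem S41A_imk_01 (a b c d : ℤ) (h : a * d - b * c = 1) : S41A_imk a b c d h 0 1 = b := rfl
@[simp] theorem S41A_imk_10 (a b c d : ℤ) (h : a * d - b * c = 1) : S41A_imk a b c d h 1 0 = c := rfl
@[simp] theorem S41A_imk_11 (a b c d : ℤ) (h : a * d - b * c = 1) : S41A_imk a b c d h 1 1 = d := rfl

theorem S41A_det_eq (M : SL(2, ℚ)) : M 0 0 * M 1 1 - M 0 1 * M 1 0 = 1 := by
  have := M.det_coe
  rwa [Matrix.det_fin_two] at this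

theorem S41A_det_eq_int (M : SL(2, ℤ)) : M 0 0 * M 1 1 - M 0 1 * M 1 0 = 1 := by
  have := M.det_coe
  rwa [Matrix.det_fin_two] at this

theorem S41A_ext {M M' : SL(2, ℚ)} (h00 : M 0 0 = M' 0 0) (h01 : M 0 1 = M' 0 1)
    (h10 : M 1 0 = M' 1 0) (h11 : M 1 1 = M' 1 1) : M = M' := by
  ext i j
  fin_cases i <;> fin_cases j <;> assumption

theorem S41A_ext_int {M M' : SL(2, ℤ)} (h00 : M 0 0 = M' 0 0) (h01 : M 0 1 = M' 0 1)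
    (h10 : M 1 0 = M' 1 0) (h11 : M 1 1 = M' 1 1) : M = M' := by
  ext i j
  fin_cases i <;> fin_cases j <;> assumption

theorem S41A_mul_00 (M M' : SL(2, ℚ)) : (M * M') 0 0 = M 0 0 * M' 0 0 + M 0 1 * M' 1 0 := by
  simp [Matrix.mul_apply, Fin.sum_univ_two]
theorem S41A_mul_01 (M M' : SL(2, ℚ)) : (M * M') 0 1 = M 0 0 * M' 0 1 + M 0 1 * M' 1 1 := by
  simp [Matrix.mul_apply, Fin.sum_univ_two]
theorem S41A_mul_10 (M M' : SL(2, ℚ)) : (M * M') 1 0 = M 1 0 * M' 0 0 + M 1 1 * M' 1 0 := by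
  simp [Matrix.mul_apply, Fin.sum_univ_two]
theorem S41A_mul_11 (M M' : SL(2, ℚ)) : (M * M') 1 1 = M 1 0 * M' 0 1 + M 1 1 * M' 1 1 := by
  simp [Matrix.mul_apply, Fin.sum_univ_two]

theorem S41A_imul_00 (M M' : SL(2, ℤ)) : (M * M') 0 0 = M 0 0 * M' 0 0 + M 0 1 * M' 1 0 := by
  simp [Matrix.mul_apply, Fin.sum_univ_two]
theorem S41A_imul_01 (M M' : SL(2, ℤ)) : (M * M') 0 1 = M 0 0 * M' 0 1 + M 0 1 * M' 1 1 := by
  simp [Matrix.mul_apply, Fin.sum_univ_two]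
theorem S41A_imul_10 (M M' : SL(2, ℤ)) : (M * M') 1 0 = M 1 0 * M' 0 0 + M 1 1 * M' 1 0 := by
  simp [Matrix.mul_apply, Fin.sum_univ_two]
theorem S41A_imul_11 (M M' : SL(2, ℤ)) : (M * M') 1 1 = M 1 0 * M' 0 1 + M 1 1 * M' 1 1 := by
  simp [Matrix.mul_apply, Fin.sum_univ_two]

theorem S41A_one_00 : (1 : SL(2, ℚ)) 0 0 = 1 := by simp
theorem S41A_one_01 : (1 : SL(2, ℚ)) 0 1 = 0 := by simp
theorem S41A_one_10 : (1 : SL(2, ℚ)) 1 0 = 0 := by simp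
theorem S41A_one_11 : (1 : SL(2, ℚ)) 1 1 = 1 := by simp

theorem S41A_ione_00 : (1 : SL(2, ℤ)) 0 0 = 1 := by simp
theorem S41A_ione_01 : (1 : SL(2, ℤ)) 0 1 = 0 := by simp
theorem S41A_ione_10 : (1 : SL(2, ℤ)) 1 0 = 0 := by simp
theorem S41A_ione_11 : (1 : SL(2, ℤ)) 1 1 = 1 := by simp

theorem S41A_inv_00 (M : SL(2, ℚ)) : (M⁻¹) 0 0 = M 1 1 := by
  simp [Matrix.SpecialLinearGroup.coe_inv, Matrix.adjugate_fin_two]
theorem S41A_inv_01 (M : SL(2, ℚ)) : (M⁻¹) 0 1 = - M 0 1 := by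
  simp [Matrix.SpecialLinearGroup.coe_inv, Matrix.adjugate_fin_two]
theorem S41A_inv_10 (M : SL(2, ℚ)) : (M⁻¹) 1 0 = - M 1 0 := by
  simp [Matrix.SpecialLinearGroup.coe_inv, Matrix.adjugate_fin_two]
theorem S41A_inv_11 (M : SL(2, ℚ)) : (M⁻¹) 1 1 = M 0 0 := by
  simp [Matrix.SpecialLinearGroup.coe_inv, Matrix.adjugate_fin_two]

theorem S41A_iinv_00 (M : SL(2, ℤ)) : (M⁻¹) 0 0 = M 1 1 := by
  simp [Matrix.SpecialLinearGroup.coe_inv, Matrix.adjugate_fin_two]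
theorem S41A_iinv_01 (M : SL(2, ℤ)) : (M⁻¹) 0 1 = - M 0 1 := by
  simp [Matrix.SpecialLinearGroup.coe_inv, Matrix.adjugate_fin_two]
theorem S41A_iinv_10 (M : SL(2, ℤ)) : (M⁻¹) 1 0 = - M 1 0 := by
  simp [Matrix.SpecialLinearGroup.coe_inv, Matrix.adjugate_fin_two]
theorem S41A_iinv_11 (M : SL(2, ℤ)) : (M⁻¹) 1 1 = M 0 0 := by
  simp [Matrix.SpecialLinearGroup.coe_inv, Matrix.adjugate_fin_two]

/-- the unit of `ℚ` used for the conjugation: `q` if `q ≠ 0`, else `1`. -/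
def S41A_u (q : ℕ) : ℚˣ := if h : (q : ℚ) = 0 then 1 else Units.mk0 (q : ℚ) h

theorem S41A_u_val {q : ℕ} (hq : q ≠ 0) : ((S41A_u q : ℚˣ) : ℚ) = q := by
  have h : ¬ (q : ℚ) = 0 := by exact_mod_cast hq
  simp [S41A_u, h]

/-- `M ↦ diag(u,1)⁻¹ M diag(u,1) = [[a, b/u],[u c, d]]` as a function. -/
def S41A_conjFun (u : ℚˣ) (M : SL(2, ℚ)) : SL(2, ℚ) :=
  S41A_mk (M 0 0) (M 0 1 * (u : ℚ)⁻¹) ((u : ℚ) * M 1 0) (M 1 1) (by
    have h := S41A_det_eq M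
    have hu : (u : ℚ) ≠ 0 := u.ne_zero
    field_simp
    linarith)

theorem S41A_conjFun_00 (u : ℚˣ) (M : SL(2, ℚ)) : S41A_conjFun u M 0 0 = M 0 0 := rfl
theorem S41A_conjFun_01 (u : ℚˣ) (M : SL(2, ℚ)) :
    S41A_conjFun u M 0 1 = M 0 1 * (u : ℚ)⁻¹ := rfl
theorem S41A_conjFun_10 (u : ℚˣ) (M : SL(2, ℚ)) : S41A_conjFun u M 1 0 = (u : ℚ) * M 1 0 := rfl
theorem S41A_conjFun_11 (u : ℚˣ) (M : SL(2, ℚ)) : S41A_conjFun u M 1 1 = M 1 1 := rfl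

theorem S41A_conjFun_one (u : ℚˣ) : S41A_conjFun u 1 = 1 := by
  apply S41A_ext
  · rw [S41A_conjFun_00]
  · rw [S41A_conjFun_01, S41A_one_01, zero_mul]
  · rw [S41A_conjFun_10, S41A_one_10, mul_zero]
  · rw [S41A_conjFun_11]

theorem S41A_conjFun_mul (u : ℚˣ) (M M' : SL(2, ℚ)) :
    S41A_conjFun u (M * M') = S41A_conjFun u M * S41A_conjFun u M' := by
  have hu : (u : ℚ) ≠ 0 := u.ne_zero
  apply S41A_ext
  · rw [S41A_mul_00, S41A_conjFun_00, S41A_conjFun_00, S41A_conjFun_01, S41A_conjFun_10,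
      S41A_conjFun_00, S41A_mul_00]; field_simp
  · rw [S41A_mul_01, S41A_conjFun_01, S41A_conjFun_00, S41A_conjFun_01, S41A_conjFun_01,
      S41A_conjFun_11, S41A_mul_01]; field_simp
  · rw [S41A_mul_10, S41A_conjFun_10, S41A_conjFun_10, S41A_conjFun_00, S41A_conjFun_11,
      S41A_conjFun_10, S41A_mul_10]; ring
  · rw [S41A_mul_11, S41A_conjFun_11, S41A_conjFun_10, S41A_conjFun_01, S41A_conjFun_11,
      S41A_conjFun_11, S41A_mul_11]; field_simp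

/-- conjugation by `diag(u,1)`: `M ↦ diag(u,1)⁻¹ M diag(u,1) = [[a, b/u],[u c, d]]`. -/
def S41A_conjU (u : ℚˣ) : SL(2, ℚ) →* SL(2, ℚ) where
  toFun := S41A_conjFun u
  map_one' := S41A_conjFun_one u
  map_mul' := S41A_conjFun_mul u

/-- `M ↦ δ⁻¹ M δ`, `δ = diag(q,1)`. -/
def S41A_conj (q : ℕ) : SL(2, ℚ) →* SL(2, ℚ) := S41A_conjU (S41A_u q)

theorem S41A_conj_00 (q : ℕ) (M : SL(2, ℚ)) : S41A_conj q M 0 0 = M 0 0 := rfl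
theorem S41A_conj_11 (q : ℕ) (M : SL(2, ℚ)) : S41A_conj q M 1 1 = M 1 1 := rfl
theorem S41A_conj_01 {q : ℕ} (hq : q ≠ 0) (M : SL(2, ℚ)) : S41A_conj q M 0 1 = M 0 1 / q := by
  show M 0 1 * ((S41A_u q : ℚˣ) : ℚ)⁻¹ = _
  rw [S41A_u_val hq, div_eq_mul_inv]
theorem S41A_conj_10 {q : ℕ} (hq : q ≠ 0) (M : SL(2, ℚ)) : S41A_conj q M 1 0 = q * M 1 0 := by
  show ((S41A_u q : ℚˣ) : ℚ) * M 1 0 = _
  rw [S41A_u_val hq]

theorem S41A_conj_injective (q : ℕ) : Function.Injective (S41A_conj q) := by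
  intro M M' h
  have hu : ((S41A_u q : ℚˣ) : ℚ) ≠ 0 := (S41A_u q).ne_zero
  have h00 : S41A_conj q M 0 0 = S41A_conj q M' 0 0 := by rw [h]
  have h01 : S41A_conj q M 0 1 = S41A_conj q M' 0 1 := by rw [h]
  have h10 : S41A_conj q M 1 0 = S41A_conj q M' 1 0 := by rw [h]
  have h11 : S41A_conj q M 1 1 = S41A_conj q M' 1 1 := by rw [h]
  apply S41A_ext
  · exact h00
  · have : M 0 1 * ((S41A_u q : ℚˣ) : ℚ)⁻¹ = M' 0 1 * ((S41A_u q : ℚˣ) : ℚ)⁻¹ := h01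
    exact mul_right_cancel₀ (inv_ne_zero hu) this
  · have : ((S41A_u q : ℚˣ) : ℚ) * M 1 0 = ((S41A_u q : ℚˣ) : ℚ) * M' 1 0 := h10
    exact mul_left_cancel₀ hu this
  · exact h11

/-! ### the two maps `Γ₀(N q) → Γ₀(N)` -/

theorem S41A_Gamma0_mem_iff {N : ℕ} {A : SL(2, ℤ)} : A ∈ Gamma0 N ↔ (N : ℤ) ∣ A 1 0 := by
  rw [Gamma0_mem, ZMod.intCast_zmod_eq_zero_iff_dvd]

theorem S41A_Gamma0_le (N q : ℕ) : Gamma0 (N * q) ≤ Gamma0 N := by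
  intro A hA
  rw [S41A_Gamma0_mem_iff] at hA ⊢
  exact dvd_trans ⟨(q : ℤ), by push_cast; ring⟩ hA

/-- the inclusion `Γ₀(N q) → Γ₀(N)`. -/
def S41A_res (N q : ℕ) : Gamma0 (N * q) →* Gamma0 N := Subgroup.inclusion (S41A_Gamma0_le N q)

@[simp] theorem S41A_res_coe (N q : ℕ) (γ : Gamma0 (N * q)) :
    ((S41A_res N q γ : Gamma0 N) : SL(2, ℤ)) = (γ : SL(2, ℤ)) := rfl

theorem S41A_q_dvd {N q : ℕ} (γ : Gamma0 (N * q)) : (q : ℤ) ∣ (γ : SL(2, ℤ)) 1 0 :=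
  dvd_trans ⟨(N : ℤ), by push_cast; ring⟩ (S41A_Gamma0_mem_iff.1 γ.2)

/-- the integral matrix `δ γ δ⁻¹ = [[a, q b],[c/q, d]]` for `γ ∈ Γ₀(N q)`. -/
def S41A_degMat {N q : ℕ} (γ : Gamma0 (N * q)) : SL(2, ℤ) :=
  S41A_imk ((γ : SL(2, ℤ)) 0 0) (q * (γ : SL(2, ℤ)) 0 1) ((γ : SL(2, ℤ)) 1 0 / q)
    ((γ : SL(2, ℤ)) 1 1) (by
    have h := S41A_det_eq_int (γ : SL(2, ℤ))
    have hq : (q : ℤ) * ((γ : SL(2, ℤ)) 1 0 / q) = (γ : SL(2, ℤ)) 1 0 :=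
      Int.mul_ediv_cancel' (S41A_q_dvd γ)
    calc (γ : SL(2, ℤ)) 0 0 * (γ : SL(2, ℤ)) 1 1 - q * (γ : SL(2, ℤ)) 0 1 * ((γ : SL(2, ℤ)) 1 0 / q)
        = (γ : SL(2, ℤ)) 0 0 * (γ : SL(2, ℤ)) 1 1
            - (γ : SL(2, ℤ)) 0 1 * ((q : ℤ) * ((γ : SL(2, ℤ)) 1 0 / q)) := by ring
      _ = 1 := by rw [hq]; exact h)

theorem S41A_degMat_00 {N q : ℕ} (γ : Gamma0 (N * q)) :
    S41A_degMat γ 0 0 = (γ : SL(2, ℤ)) 0 0 := rfl
theorem S41A_degMat_01 {N q : ℕ} (γ : Gamma0 (N * q)) :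
    S41A_degMat γ 0 1 = q * (γ : SL(2, ℤ)) 0 1 := rfl
theorem S41A_degMat_10 {N q : ℕ} (γ : Gamma0 (N * q)) :
    S41A_degMat γ 1 0 = (γ : SL(2, ℤ)) 1 0 / q := rfl
theorem S41A_degMat_11 {N q : ℕ} (γ : Gamma0 (N * q)) :
    S41A_degMat γ 1 1 = (γ : SL(2, ℤ)) 1 1 := rfl

theorem S41A_q_mul_degMat_10 {N q : ℕ} (γ : Gamma0 (N * q)) :
    (q : ℤ) * S41A_degMat γ 1 0 = (γ : SL(2, ℤ)) 1 0 :=
  Int.mul_ediv_cancel' (S41A_q_dvd γ)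

theorem S41A_degMat_mem {N q : ℕ} (γ : Gamma0 (N * q)) : S41A_degMat γ ∈ Gamma0 N := by
  rw [S41A_Gamma0_mem_iff, S41A_degMat_10]
  obtain ⟨m, hm⟩ := S41A_Gamma0_mem_iff.1 γ.2
  rcases Nat.eq_zero_or_pos q with h0 | hpos
  · subst h0; simp
  · have hq0 : (q : ℤ) ≠ 0 := by exact_mod_cast hpos.ne'
    refine ⟨m, ?_⟩
    rw [hm]
    push_cast
    rw [show (N : ℤ) * q * m = q * (N * m) by ring, Int.mul_ediv_cancel_left _ hq0]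

theorem S41A_degMat_one {N q : ℕ} : S41A_degMat (1 : Gamma0 (N * q)) = 1 := by
  apply S41A_ext_int
  · rw [S41A_degMat_00]; rfl
  · rw [S41A_degMat_01, S41A_ione_01]
    show (q : ℤ) * (1 : SL(2, ℤ)) 0 1 = 0
    rw [S41A_ione_01, mul_zero]
  · rw [S41A_degMat_10, S41A_ione_10]
    show (1 : SL(2, ℤ)) 1 0 / (q : ℤ) = 0
    rw [S41A_ione_10, Int.zero_ediv]
  · rw [S41A_degMat_11]; rfl

theorem S41A_degMat_mul {N q : ℕ} (γ γ' : Gamma0 (N * q)) :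
    S41A_degMat (γ * γ') = S41A_degMat γ * S41A_degMat γ' := by
  have h1 := S41A_q_mul_degMat_10 γ
  have h2 := S41A_q_mul_degMat_10 γ'
  have h3 := S41A_q_mul_degMat_10 (γ * γ')
  have e : ((γ * γ' : Gamma0 (N * q)) : SL(2, ℤ)) = (γ : SL(2, ℤ)) * (γ' : SL(2, ℤ)) := rfl
  apply S41A_ext_int
  · rw [S41A_imul_00, S41A_degMat_00, S41A_degMat_00, S41A_degMat_01, S41A_degMat_00, e,
      S41A_imul_00, ← h2]
    ring
  · rw [S41A_imul_01, S41A_degMat_01, S41A_degMat_00, S41A_degMat_01, S41A_degMat_01,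
      S41A_degMat_11, e, S41A_imul_01]
    ring
  · rcases Nat.eq_zero_or_pos q with h0 | hpos
    · subst h0
      rw [S41A_imul_10, S41A_degMat_10, S41A_degMat_10, S41A_degMat_10]
      simp
    · have hq0 : (q : ℤ) ≠ 0 := by exact_mod_cast hpos.ne'
      apply mul_left_cancel₀ hq0
      rw [h3, e, S41A_imul_10, S41A_imul_10, S41A_degMat_00, S41A_degMat_11, ← h1, ← h2]
      ring
  · rw [S41A_imul_11, S41A_degMat_11, S41A_degMat_11, S41A_degMat_11, S41A_degMat_01, e,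
      S41A_imul_11, ← h1]
    ring

/-- the second degeneracy homomorphism `Γ₀(N q) → Γ₀(N)`, `γ ↦ δ γ δ⁻¹ = [[a, q b],[c/q, d]]`. -/
def S41A_deg (N q : ℕ) : Gamma0 (N * q) →* Gamma0 N where
  toFun γ := ⟨S41A_degMat γ, S41A_degMat_mem γ⟩
  map_one' := Subtype.ext S41A_degMat_one
  map_mul' γ γ' := Subtype.ext (S41A_degMat_mul γ γ')

theorem S41A_deg_coe (N q : ℕ) (γ : Gamma0 (N * q)) :
    ((S41A_deg N q γ : Gamma0 N) : SL(2, ℤ)) = S41A_degMat γ := rfl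

/-- `δ⁻¹ (δ γ δ⁻¹) δ = γ` in `SL(2,ℚ)`. -/
theorem S41A_conj_inc_deg {N q : ℕ} (hq : q ≠ 0) (γ : Gamma0 (N * q)) :
    S41A_conj q (S41A_inc (S41A_deg N q γ : Gamma0 N)) = S41A_inc (γ : SL(2, ℤ)) := by
  have hq0 : (q : ℚ) ≠ 0 := by exact_mod_cast hq
  apply S41A_ext
  · rw [S41A_conj_00, S41A_inc_apply, S41A_inc_apply, S41A_deg_coe, S41A_degMat_00]
  · rw [S41A_conj_01 hq, S41A_inc_apply, S41A_inc_apply, S41A_deg_coe, S41A_degMat_01]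
    push_cast
    field_simp
  · rw [S41A_conj_10 hq, S41A_inc_apply, S41A_inc_apply, S41A_deg_coe]
    have := S41A_q_mul_degMat_10 γ
    exact_mod_cast this
  · rw [S41A_conj_11, S41A_inc_apply, S41A_inc_apply, S41A_deg_coe, S41A_degMat_11]

/-! ### the group `G = Γ₀(N)[1/q]` -/

/-- `ℤ[1/q] ⊂ ℚ`. -/
def S41A_R (q : ℕ) : Subring ℚ := Subring.closure {((q : ℚ))⁻¹}

theorem S41A_inv_mem_R (q : ℕ) : ((q : ℚ))⁻¹ ∈ S41A_R q := Subring.subset_closure rfl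

theorem S41A_int_mem_R (q : ℕ) (m : ℤ) : (m : ℚ) ∈ S41A_R q := intCast_mem _ m

theorem S41A_nat_mem_R (q : ℕ) (m : ℕ) : (m : ℚ) ∈ S41A_R q := natCast_mem _ m

theorem S41A_div_pow_mem_R (q : ℕ) (m : ℤ) (k : ℕ) : (m : ℚ) / (q : ℚ) ^ k ∈ S41A_R q := by
  rw [div_eq_mul_inv, ← inv_pow]
  exact mul_mem (S41A_int_mem_R q m) (pow_mem (S41A_inv_mem_R q) k)

theorem S41A_mem_R_iff {q : ℕ} (hq : q ≠ 0) (x : ℚ) :
    x ∈ S41A_R q ↔ ∃ (m : ℤ) (k : ℕ), x = (m : ℚ) / (q : ℚ) ^ k := by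
  have hq0 : (q : ℚ) ≠ 0 := by exact_mod_cast hq
  constructor
  · intro hx
    induction hx using Subring.closure_induction with
    | mem x hx =>
      rw [Set.mem_singleton_iff] at hx
      exact ⟨1, 1, by rw [hx]; simp⟩
    | zero => exact ⟨0, 0, by simp⟩
    | one => exact ⟨1, 0, by simp⟩
    | add x y _ _ hx hy =>
      obtain ⟨m, k, rfl⟩ := hx
      obtain ⟨m', k', rfl⟩ := hy
      refine ⟨m * (q : ℤ) ^ k' + m' * (q : ℤ) ^ k, k + k', ?_⟩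
      push_cast
      field_simp
      ring
    | neg x _ hx =>
      obtain ⟨m, k, rfl⟩ := hx
      exact ⟨-m, k, by push_cast; ring⟩
    | mul x y _ _ hx hy =>
      obtain ⟨m, k, rfl⟩ := hx
      obtain ⟨m', k', rfl⟩ := hy
      refine ⟨m * m', k + k', ?_⟩
      push_cast
      field_simp
      ring
  · rintro ⟨m, k, rfl⟩
    exact S41A_div_pow_mem_R q m k

/-- `G = Γ₀(N)[1/q] = {M ∈ SL₂(ℤ[1/q]) : c ∈ N ℤ[1/q]}` as a subgroup of `SL(2,ℚ)`. -/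
def S41A_G (N q : ℕ) : Subgroup SL(2, ℚ) where
  carrier := {M | (M 0 0 ∈ S41A_R q ∧ M 0 1 ∈ S41A_R q ∧ M 1 1 ∈ S41A_R q) ∧
    ∃ r ∈ S41A_R q, M 1 0 = N * r}
  one_mem' := by
    refine ⟨⟨?_, ?_, ?_⟩, 0, zero_mem _, ?_⟩
    · rw [S41A_one_00]; exact one_mem _
    · rw [S41A_one_01]; exact zero_mem _
    · rw [S41A_one_11]; exact one_mem _
    · rw [S41A_one_10, mul_zero]
  mul_mem' := by
    rintro M M' ⟨⟨ha, hb, hd⟩, r, hr, hc⟩ ⟨⟨ha', hb', hd'⟩, r', hr', hc'⟩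
    have hcR : M 1 0 ∈ S41A_R q := by rw [hc]; exact mul_mem (S41A_nat_mem_R q N) hr
    have hcR' : M' 1 0 ∈ S41A_R q := by rw [hc']; exact mul_mem (S41A_nat_mem_R q N) hr'
    refine ⟨⟨?_, ?_, ?_⟩, r * M' 0 0 + M 1 1 * r', ?_, ?_⟩
    · rw [S41A_mul_00]; exact add_mem (mul_mem ha ha') (mul_mem hb hcR')
    · rw [S41A_mul_01]; exact add_mem (mul_mem ha hb') (mul_mem hb hd')
    · rw [S41A_mul_11]; exact add_mem (mul_mem hcR hb') (mul_mem hd hd')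
    · exact add_mem (mul_mem hr ha') (mul_mem hd hr')
    · rw [S41A_mul_10, hc, hc']; ring
  inv_mem' := by
    rintro M ⟨⟨ha, hb, hd⟩, r, hr, hc⟩
    refine ⟨⟨?_, ?_, ?_⟩, -r, neg_mem hr, ?_⟩
    · rw [S41A_inv_00]; exact hd
    · rw [S41A_inv_01]; exact neg_mem hb
    · rw [S41A_inv_11]; exact ha
    · rw [S41A_inv_10, hc]; ring

theorem S41A_mem_G_iff {N q : ℕ} {M : SL(2, ℚ)} :
    M ∈ S41A_G N q ↔ (M 0 0 ∈ S41A_R q ∧ M 0 1 ∈ S41A_R q ∧ M 1 1 ∈ S41A_R q) ∧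
      ∃ r ∈ S41A_R q, M 1 0 = N * r := Iff.rfl

theorem S41A_inc_mem_G {N : ℕ} (q : ℕ) {γ : SL(2, ℤ)} (hγ : γ ∈ Gamma0 N) :
    S41A_inc γ ∈ S41A_G N q := by
  obtain ⟨m, hm⟩ := S41A_Gamma0_mem_iff.1 hγ
  refine ⟨⟨S41A_int_mem_R q _, S41A_int_mem_R q _, S41A_int_mem_R q _⟩, m, S41A_int_mem_R q m, ?_⟩
  rw [S41A_inc_apply, hm]
  push_cast
  ring

theorem S41A_conj_inc_mem_G {N q : ℕ} (hq : q ≠ 0) {γ : SL(2, ℤ)} (hγ : γ ∈ Gamma0 N) :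
    S41A_conj q (S41A_inc γ) ∈ S41A_G N q := by
  obtain ⟨m, hm⟩ := S41A_Gamma0_mem_iff.1 hγ
  refine ⟨⟨?_, ?_, ?_⟩, (q : ℚ) * m, mul_mem (S41A_nat_mem_R q q) (S41A_int_mem_R q m), ?_⟩
  · rw [S41A_conj_00]; exact S41A_int_mem_R q _
  · rw [S41A_conj_01 hq, S41A_inc_apply]
    have := S41A_div_pow_mem_R q (γ 0 1) 1
    rwa [pow_one] at this
  · rw [S41A_conj_11]; exact S41A_int_mem_R q _
  · rw [S41A_conj_10 hq, S41A_inc_apply, hm]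
    push_cast
    ring

/-- `Γ₀(N) → G`, `γ ↦ γ`. -/
def S41A_i1 (N q : ℕ) : Gamma0 N →* S41A_G N q :=
  (S41A_inc.comp (Gamma0 N).subtype).codRestrict (S41A_G N q) (fun γ => S41A_inc_mem_G q γ.2)

/-- `Γ₀(N) → G`, `γ ↦ δ⁻¹ γ δ` (for `q ≠ 0`; the trivial map for `q = 0`). -/
def S41A_i2 (N q : ℕ) : Gamma0 N →* S41A_G N q :=
  if hq : q ≠ 0 then
    ((S41A_conj q).comp (S41A_inc.comp (Gamma0 N).subtype)).codRestrict (S41A_G N q)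
      (fun γ => S41A_conj_inc_mem_G hq γ.2)
  else 1

theorem S41A_i1_coe (N q : ℕ) (γ : Gamma0 N) :
    ((S41A_i1 N q γ : S41A_G N q) : SL(2, ℚ)) = S41A_inc (γ : SL(2, ℤ)) := rfl

theorem S41A_i2_coe {N q : ℕ} (hq : q ≠ 0) (γ : Gamma0 N) :
    ((S41A_i2 N q γ : S41A_G N q) : SL(2, ℚ)) = S41A_conj q (S41A_inc (γ : SL(2, ℤ))) := by
  simp only [S41A_i2, dif_pos hq]
  rfl

/-- on `Γ₀(N q)` the two embeddings are compatible: `i1 (res γ) = i2 (deg γ)`. -/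
theorem S41A_i1_res_eq_i2_deg {N q : ℕ} (hq : q ≠ 0) (γ : Gamma0 (N * q)) :
    S41A_i1 N q (S41A_res N q γ) = S41A_i2 N q (S41A_deg N q γ) := by
  apply Subtype.ext
  rw [S41A_i1_coe, S41A_i2_coe hq, S41A_res_coe, S41A_conj_inc_deg hq]

end
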