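import Mathlib
import Fermat.Agent.S16.LB.LiftB
import Fermat.Agent.S41.AmalgamDefs

/-!
# S41 / DEGEN — definitions (helper5)

`L = parInt N = Hom_par(Γ₀(N), ℤ)`, `L' = parInt (N * q)`.  With helper6's homomorphisms
`S41A_res N q, S41A_deg N q : Γ₀(N q) →* Γ₀(N)` (inclusion and `γ ↦ δ γ δ⁻¹`, `δ = diag(q,1)`):

* `S41D_alpha N q, S41D_beta N q : parInt N →ₗ[ℤ] parInt (N * q)` — pull back along `res`, `deg`;
* `S41D_trA N q, S41D_trB N q : parInt (N * q) →ₗ[ℤ] parInt N` — the transfers (corestrictions)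
  along `res`, `deg` (Mathlib's `MonoidHom.transfer` for the range of the injective map);
* `S41D_transfer_eq_prod`, `S41D_tr_apply` — the transfer computed from ARBITRARY coset data
  `g * t (σ i) = t i * j (h i)`;
* `S41D_trA_apply`, `S41D_trB_apply` — the same for `trA`, `trB`.
-/

set_option autoImplicit false

open Matrix MatrixGroups CongruenceSubgroup Matrix.SpecialLinearGroup
open ModularCurve ModularCurve.Period

namespace Fermat.Agent.S41

open Fermat.Agent.S16

section general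

variable {G : Type*} [Group G]

/-- **transfer via coset data**: if `t : ι → G` represents the left cosets of `K` and
`g * t (σ i) = t i * h i` with `h i ∈ K`, then `transfer ϕ g = ∏ i, ϕ (h i)`. -/
theorem S41D_transfer_eq_prod {K : Subgroup G} [K.FiniteIndex] {A : Type*} [CommGroup A]
    (ϕ : K →* A) {ι : Type*} [Fintype ι] (t : ι → G)
    (ht : Function.Bijective (fun i => (t i : G ⧸ K))) (g : G) (σ : ι → ι) (h : ι → K)
    (hmul : ∀ i, g * t (σ i) = t i * h i) :
    MonoidHom.transfer ϕ g = ∏ i, ϕ (h i) := by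
  classical
  set e : ι ≃ G ⧸ K := Equiv.ofBijective _ ht with he
  set f : G ⧸ K → G := fun q => t (e.symm q) with hf
  have hfq : ∀ q, (f q : G ⧸ K) = q := fun q => by
    show e (e.symm q) = q
    exact e.apply_symm_apply q
  set T : K.LeftTransversal := ⟨Set.range f, Subgroup.isComplement_range_left hfq⟩ with hT
  have hTq : ∀ q, (T.2.leftQuotientEquiv q : G) = f q := fun q =>
    Subgroup.IsComplement.leftQuotientEquiv_apply hfq q
  have hσ : ∀ i, g⁻¹ • e i = e (σ i) := by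
    intro i
    have h1 : ((g * t (σ i) : G) : G ⧸ K) = ((t i : G) : G ⧸ K) := by
      rw [hmul i]
      exact QuotientGroup.mk_mul_of_mem _ (h i).2
    have h2 : g • e (σ i) = e i := h1
    rw [← h2, inv_smul_smul]
  rw [MonoidHom.transfer_def ϕ T g]
  unfold Subgroup.leftTransversals.diff
  simp only
  let _ : Fintype (G ⧸ K) := K.fintypeQuotientOfFiniteIndex
  refine (Fintype.prod_equiv e _ _ fun i => ?_).symm
  congr 1
  apply Subtype.ext
  simp only
  rw [Subgroup.smul_apply_eq_smul_apply_inv_smul, hTq, hTq, hσ i]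
  simp only [hf, Equiv.symm_apply_apply, smul_eq_mul]
  rw [hmul i, inv_mul_cancel_left]

/-- the transfer is multiplicative in the character. -/
theorem S41D_transfer_mul {K : Subgroup G} [K.FiniteIndex] {A : Type*} [CommGroup A]
    (ϕ ψ : K →* A) (g : G) :
    MonoidHom.transfer (ϕ * ψ) g = MonoidHom.transfer ϕ g * MonoidHom.transfer ψ g := by
  classical
  rw [MonoidHom.transfer_def (ϕ * ψ) default g, MonoidHom.transfer_def ϕ default g,
    MonoidHom.transfer_def ψ default g]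
  unfold Subgroup.leftTransversals.diff
  simp only [MonoidHom.mul_apply]
  exact Finset.prod_mul_distrib

variable {H : Type*} [Group H]

/-- the character of the range of an injective homomorphism `j : H →* G` induced by an additive
character of `H`. -/
noncomputable def S41D_rangeChar (j : H →* G) (hj : Function.Injective j)
    (χ : Additive H →+ ℤ) : j.range →* Multiplicative ℤ :=
  (AddMonoidHom.toMultiplicativeRight χ).comp (MonoidHom.ofInjective hj).symm.toMonoidHom

theorem S41D_rangeChar_apply (j : H →* G) (hj : Function.Injective j)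
    (χ : Additive H →+ ℤ) (x : H) (y : j.range) (hxy : j x = (y : G)) :
    S41D_rangeChar j hj χ y = Multiplicative.ofAdd (χ (Additive.ofMul x)) := by
  have h1 : (MonoidHom.ofInjective hj).symm y = x := by
    rw [MulEquiv.symm_apply_eq]
    apply Subtype.ext
    rw [MonoidHom.ofInjective_apply]
    exact hxy.symm
  show Multiplicative.ofAdd (χ (Additive.ofMul ((MonoidHom.ofInjective hj).symm y))) = _
  rw [h1]

theorem S41D_rangeChar_add (j : H →* G) (hj : Function.Injective j)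
    (χ ψ : Additive H →+ ℤ) :
    S41D_rangeChar j hj (χ + ψ) = S41D_rangeChar j hj χ * S41D_rangeChar j hj ψ := by
  refine MonoidHom.ext fun y => ?_
  obtain ⟨x, hx⟩ := y.2
  rw [MonoidHom.mul_apply, S41D_rangeChar_apply j hj _ x y hx, S41D_rangeChar_apply j hj _ x y hx,
    S41D_rangeChar_apply j hj _ x y hx]
  rfl

/-- **the transfer of additive characters** along an injective homomorphism `j : H →* G` whose
range has finite index. -/
noncomputable def S41D_tr (j : H →* G) (hj : Function.Injective j) [j.range.FiniteIndex]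
    (χ : Additive H →+ ℤ) : Additive G →+ ℤ :=
  MonoidHom.toAdditiveLeft (MonoidHom.transfer (S41D_rangeChar j hj χ))

theorem S41D_tr_def (j : H →* G) (hj : Function.Injective j) [j.range.FiniteIndex]
    (χ : Additive H →+ ℤ) (g : G) :
    S41D_tr j hj χ (Additive.ofMul g)
      = Multiplicative.toAdd (MonoidHom.transfer (S41D_rangeChar j hj χ) g) := rfl

theorem S41D_tr_add (j : H →* G) (hj : Function.Injective j) [j.range.FiniteIndex]
    (χ ψ : Additive H →+ ℤ) :
    S41D_tr j hj (χ + ψ) = S41D_tr j hj χ + S41D_tr j hj ψ := by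
  refine AddMonoidHom.ext fun g => ?_
  obtain ⟨g, rfl⟩ := Additive.ofMul.surjective g
  rw [AddMonoidHom.add_apply, S41D_tr_def, S41D_tr_def, S41D_tr_def, S41D_rangeChar_add,
    S41D_transfer_mul]
  rfl

/-- **the transfer of additive characters via coset data**: if `t : ι → G` represents the left
cosets of `j(H)` and `g * t (σ i) = t i * j (h i)`, then `(tr χ) g = ∑ i, χ (h i)`. -/
theorem S41D_tr_apply (j : H →* G) (hj : Function.Injective j) [j.range.FiniteIndex]
    (χ : Additive H →+ ℤ) {ι : Type*} [Fintype ι] (t : ι → G)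
    (ht : Function.Bijective (fun i => (t i : G ⧸ j.range))) (g : G) (σ : ι → ι) (h : ι → H)
    (hmul : ∀ i, g * t (σ i) = t i * j (h i)) :
    S41D_tr j hj χ (Additive.ofMul g) = ∑ i, χ (Additive.ofMul (h i)) := by
  rw [S41D_tr_def, S41D_transfer_eq_prod (S41D_rangeChar j hj χ) t ht g σ
    (fun i => ⟨j (h i), h i, rfl⟩) hmul, toAdd_prod]
  refine Finset.sum_congr rfl fun i _ => ?_
  rw [S41D_rangeChar_apply j hj χ (h i) _ rfl]
  rfl

end general

section trace

/-- the trace recursion `tr(A·(A·M)) = tr(A)·tr(A·M) − det(A)·tr(M)` (Cayley–Hamilton). -/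
theorem S41D_trace_rec (A M : Matrix (Fin 2) (Fin 2) ℤ) :
    (A * (A * M)).trace = A.trace * (A * M).trace - A.det * M.trace := by
  simp only [Matrix.trace_fin_two, Matrix.mul_apply, Fin.sum_univ_two, Matrix.det_fin_two]
  ring

/-- powers of parabolic elements (trace² = 4) of `SL(2,ℤ)` are parabolic. -/
theorem S41D_trace_pow (γ : SL(2, ℤ))
    (h : (γ : Matrix (Fin 2) (Fin 2) ℤ).trace ^ 2 = 4) (k : ℕ) :
    ((γ ^ k : SL(2, ℤ)) : Matrix (Fin 2) (Fin 2) ℤ).trace ^ 2 = 4 := by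
  set t := (γ : Matrix (Fin 2) (Fin 2) ℤ).trace with ht
  -- `2 * tr(γ^k) = t^k * 2`-type statement: we prove `tr(γ^(k+1)) * 2 = t * tr(γ^k)` jointly
  have key : ∀ k : ℕ, ((γ ^ k : SL(2, ℤ)) : Matrix (Fin 2) (Fin 2) ℤ).trace ^ 2 = 4 ∧
      2 * ((γ ^ (k + 1) : SL(2, ℤ)) : Matrix (Fin 2) (Fin 2) ℤ).trace
        = t * ((γ ^ k : SL(2, ℤ)) : Matrix (Fin 2) (Fin 2) ℤ).trace := by
    intro k
    induction k with
    | zero =>
      refine ⟨?_, ?_⟩
      · rw [pow_zero, Matrix.SpecialLinearGroup.coe_one, Matrix.trace_one]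
        simp
      · rw [zero_add, pow_one, pow_zero, Matrix.SpecialLinearGroup.coe_one, Matrix.trace_one]
        simp
        ring
    | succ k ih =>
      obtain ⟨ih1, ih2⟩ := ih
      have hrec := S41D_trace_rec (γ : Matrix (Fin 2) (Fin 2) ℤ)
        ((γ ^ k : SL(2, ℤ)) : Matrix (Fin 2) (Fin 2) ℤ)
      rw [γ.det_coe, one_mul, ← Matrix.SpecialLinearGroup.coe_mul,
        ← Matrix.SpecialLinearGroup.coe_mul, ← pow_succ', ← pow_succ', ← ht] at hrec
      set a := ((γ ^ k : SL(2, ℤ)) : Matrix (Fin 2) (Fin 2) ℤ).trace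
      set b := ((γ ^ (k + 1) : SL(2, ℤ)) : Matrix (Fin 2) (Fin 2) ℤ).trace
      set c := ((γ ^ (k + 1 + 1) : SL(2, ℤ)) : Matrix (Fin 2) (Fin 2) ℤ).trace
      have hb : b ^ 2 = 4 := by
        have : (2 * b) ^ 2 = 4 * 4 := by rw [ih2]; rw [mul_pow, h, ih1]
        linarith
      refine ⟨hb, ?_⟩
      -- c = t b - a, and 2 b = t a, t² = 4 ⇒ 2 c = 2 t b − 2 a = t b + (t b − 2a), t b = t² a / 2 = 2 a
      have h3 : t * b = 2 * a := by
        have : 2 * (t * b) = 2 * (2 * a) := by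
          calc 2 * (t * b) = t * (2 * b) := by ring
            _ = t * (t * a) := by rw [ih2]
            _ = t ^ 2 * a := by ring
            _ = 2 * (2 * a) := by rw [h]; ring
        linarith
      rw [hrec]
      linarith
  exact (key k).1

theorem S41D_trace_conj (g x : SL(2, ℤ)) :
    ((g⁻¹ * x * g : SL(2, ℤ)) : Matrix (Fin 2) (Fin 2) ℤ).trace
      = (x : Matrix (Fin 2) (Fin 2) ℤ).trace := by
  rw [Matrix.SpecialLinearGroup.coe_mul, Matrix.trace_mul_comm, ← Matrix.SpecialLinearGroup.coe_mul,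
    ← mul_assoc, mul_inv_cancel, one_mul]

end trace

section parabolic

variable {Γ Γ' : Subgroup SL(2, ℤ)}

/-- pull-back along a trace preserving homomorphism preserves parabolic classes. -/
theorem S41D_comp_parabolic (j : Γ' →* Γ)
    (htr : ∀ x : Γ', ((j x : SL(2, ℤ)) : Matrix (Fin 2) (Fin 2) ℤ).trace
      = ((x : SL(2, ℤ)) : Matrix (Fin 2) (Fin 2) ℤ).trace)
    (χ : Additive Γ →+ ℤ) (hχ : IsParabolicHom Γ χ) :
    IsParabolicHom Γ' (χ.comp (MonoidHom.toAdditive j)) := by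
  intro x hx
  rw [← htr x] at hx
  exact hχ (j x) hx

/-- the transfer along a trace preserving injective homomorphism preserves parabolic classes. -/
theorem S41D_tr_parabolic (j : Γ' →* Γ) (hj : Function.Injective j) [j.range.FiniteIndex]
    (htr : ∀ x : Γ', ((j x : SL(2, ℤ)) : Matrix (Fin 2) (Fin 2) ℤ).trace
      = ((x : SL(2, ℤ)) : Matrix (Fin 2) (Fin 2) ℤ).trace)
    (χ : Additive Γ' →+ ℤ) (hχ : IsParabolicHom Γ' χ) :
    IsParabolicHom Γ (S41D_tr j hj χ) := by
  classical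
  intro γ hγ
  have : Finite (Γ ⧸ j.range) := Subgroup.finite_quotient_of_finiteIndex
  let _ : Fintype (Quotient (MulAction.orbitRel (Subgroup.zpowers γ) (Γ ⧸ j.range))) :=
    Fintype.ofFinite _
  rw [S41D_tr_def, MonoidHom.transfer_eq_prod_quotient_orbitRel_zpowers_quot, toAdd_prod]
  refine Finset.sum_eq_zero fun q _ => ?_
  set y : j.range := ⟨q.out.out⁻¹ * γ ^ Function.minimalPeriod (γ • ·) q.out * q.out.out,
    QuotientGroup.out_conj_pow_minimalPeriod_mem j.range γ q.out⟩ with hy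
  obtain ⟨x, hx⟩ := y.2
  rw [S41D_rangeChar_apply j hj χ x y hx, toAdd_ofAdd]
  apply hχ x
  rw [← htr x, hx]
  show (((q.out.out⁻¹ * γ ^ Function.minimalPeriod (γ • ·) q.out * q.out.out : Γ) : SL(2, ℤ)) :
    Matrix (Fin 2) (Fin 2) ℤ).trace ^ 2 = 4
  rw [Subgroup.coe_mul, Subgroup.coe_mul, Subgroup.coe_inv, Subgroup.coe_pow, S41D_trace_conj]
  exact S41D_trace_pow _ hγ _

end parabolic

section maps

variable (N q : ℕ)

theorem S41D_res_injective : Function.Injective (S41A_res N q) :=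
  Subgroup.inclusion_injective _

theorem S41D_deg_injective [NeZero q] : Function.Injective (S41A_deg N q) := by
  intro γ γ' h
  have h1 := S41A_conj_inc_deg (NeZero.ne q) γ
  have h2 := S41A_conj_inc_deg (NeZero.ne q) γ'
  rw [h, h2] at h1
  exact Subtype.ext (S41A_inc_injective h1.symm)

theorem S41D_res_trace (x : Gamma0 (N * q)) :
    ((S41A_res N q x : SL(2, ℤ)) : Matrix (Fin 2) (Fin 2) ℤ).trace
      = ((x : SL(2, ℤ)) : Matrix (Fin 2) (Fin 2) ℤ).trace := rfl

theorem S41D_deg_trace (x : Gamma0 (N * q)) :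
    ((S41A_deg N q x : SL(2, ℤ)) : Matrix (Fin 2) (Fin 2) ℤ).trace
      = ((x : SL(2, ℤ)) : Matrix (Fin 2) (Fin 2) ℤ).trace := by
  rw [Matrix.trace_fin_two, Matrix.trace_fin_two, S41A_deg_coe]
  rfl

theorem S41D_res_finiteIndex [NeZero N] [NeZero q] : (S41A_res N q).range.FiniteIndex := by
  have h1 : ((Gamma0 (N * q)).subgroupOf (Gamma0 N)).FiniteIndex := inferInstance
  refine Subgroup.finiteIndex_of_le (H := (Gamma0 (N * q)).subgroupOf (Gamma0 N)) ?_
  intro g hg
  exact ⟨⟨(g : SL(2, ℤ)), hg⟩, Subtype.ext rfl⟩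

theorem S41D_deg_finiteIndex [NeZero N] [NeZero q] : (S41A_deg N q).range.FiniteIndex := by
  have h1 : ((Gamma (N * q)).subgroupOf (Gamma0 N)).FiniteIndex := inferInstance
  refine Subgroup.finiteIndex_of_le (H := (Gamma (N * q)).subgroupOf (Gamma0 N)) ?_
  intro g hg
  have hg' : (g : SL(2, ℤ)) ∈ Gamma (N * q) := hg
  rw [Gamma_mem] at hg'
  obtain ⟨h00, h01, h10, h11⟩ := hg'
  have hq0 : (q : ℤ) ≠ 0 := by exact_mod_cast NeZero.ne q
  have hb : ((N * q : ℕ) : ℤ) ∣ (g : SL(2, ℤ)) 0 1 :=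
    (ZMod.intCast_zmod_eq_zero_iff_dvd _ _).mp h01
  have hc : ((N * q : ℕ) : ℤ) ∣ (g : SL(2, ℤ)) 1 0 :=
    (ZMod.intCast_zmod_eq_zero_iff_dvd _ _).mp h10
  have hbq : (q : ℤ) ∣ (g : SL(2, ℤ)) 0 1 := dvd_trans ⟨(N : ℤ), by push_cast; ring⟩ hb
  obtain ⟨b', hb'⟩ := hbq
  have hdet := S41A_det_eq_int (g : SL(2, ℤ))
  let x0 : SL(2, ℤ) := S41A_imk ((g : SL(2, ℤ)) 0 0) b' (q * (g : SL(2, ℤ)) 1 0)
    ((g : SL(2, ℤ)) 1 1) (by linear_combination hdet + (g : SL(2, ℤ)) 1 0 * hb')
  have hx0 : x0 ∈ Gamma0 (N * q) := by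
    rw [S41A_Gamma0_mem_iff]
    show ((N * q : ℕ) : ℤ) ∣ q * (g : SL(2, ℤ)) 1 0
    exact Dvd.dvd.mul_left hc _
  refine ⟨⟨x0, hx0⟩, ?_⟩
  apply Subtype.ext
  rw [S41A_deg_coe]
  apply S41A_ext_int
  · rfl
  · rw [S41A_degMat_01, hb']; rfl
  · rw [S41A_degMat_10]
    show q * (g : SL(2, ℤ)) 1 0 / (q : ℤ) = _
    rw [Int.mul_ediv_cancel_left _ hq0]
  · rfl

variable [NeZero N] [NeZero q]

/-- **`α*`**: restriction of classes from `Γ₀(N)` to `Γ₀(N q)`. -/
noncomputable def S41D_alpha : ↥(parInt N) →ₗ[ℤ] ↥(parInt (N * q)) where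
  toFun χ := ⟨(χ : Additive (Gamma0 N) →+ ℤ).comp (MonoidHom.toAdditive (S41A_res N q)),
    S41D_comp_parabolic _ (S41D_res_trace N q) _ χ.2⟩
  map_add' _ _ := Subtype.ext rfl
  map_smul' _ _ := Subtype.ext rfl

/-- **`β*`**: pull-back of classes along `γ ↦ δ γ δ⁻¹`, `δ = diag(q,1)`. -/
noncomputable def S41D_beta : ↥(parInt N) →ₗ[ℤ] ↥(parInt (N * q)) where
  toFun χ := ⟨(χ : Additive (Gamma0 N) →+ ℤ).comp (MonoidHom.toAdditive (S41A_deg N q)),
    S41D_comp_parabolic _ (S41D_deg_trace N q) _ χ.2⟩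
  map_add' _ _ := Subtype.ext rfl
  map_smul' _ _ := Subtype.ext rfl

omit [NeZero N] [NeZero q] in
theorem S41D_alpha_apply (χ : ↥(parInt N)) (γ : Gamma0 (N * q)) :
    ((S41D_alpha N q χ : ↥(parInt (N * q))) : Additive (Gamma0 (N * q)) →+ ℤ) (Additive.ofMul γ)
      = (χ : Additive (Gamma0 N) →+ ℤ) (Additive.ofMul (S41A_res N q γ)) := rfl

omit [NeZero N] [NeZero q] in
theorem S41D_beta_apply (χ : ↥(parInt N)) (γ : Gamma0 (N * q)) :
    ((S41D_beta N q χ : ↥(parInt (N * q))) : Additive (Gamma0 (N * q)) →+ ℤ) (Additive.ofMul γ)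
      = (χ : Additive (Gamma0 N) →+ ℤ) (Additive.ofMul (S41A_deg N q γ)) := rfl

/-- **`α_*` = `trA`**: the transfer (corestriction) from `Γ₀(N q)` to `Γ₀(N)` along the
inclusion. -/
noncomputable def S41D_trA : ↥(parInt (N * q)) →ₗ[ℤ] ↥(parInt N) :=
  haveI := S41D_res_finiteIndex N q
  AddMonoidHom.toIntLinearMap
    { toFun := fun χ => ⟨S41D_tr (S41A_res N q) (S41D_res_injective N q)
          (χ : Additive (Gamma0 (N * q)) →+ ℤ),
        S41D_tr_parabolic _ _ (S41D_res_trace N q) _ χ.2⟩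
      map_zero' := by
        apply Subtype.ext
        have h := S41D_tr_add (S41A_res N q) (S41D_res_injective N q) 0 0
        rw [add_zero] at h
        exact left_eq_add.mp h
      map_add' := fun χ ψ => Subtype.ext
        (S41D_tr_add (S41A_res N q) (S41D_res_injective N q) _ _) }

/-- **`β_*` = `trB`**: the transfer from `Γ₀(N q)` to `Γ₀(N)` along `γ ↦ δ γ δ⁻¹`. -/
noncomputable def S41D_trB : ↥(parInt (N * q)) →ₗ[ℤ] ↥(parInt N) :=
  haveI := S41D_deg_finiteIndex N q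
  AddMonoidHom.toIntLinearMap
    { toFun := fun χ => ⟨S41D_tr (S41A_deg N q) (S41D_deg_injective N q)
          (χ : Additive (Gamma0 (N * q)) →+ ℤ),
        S41D_tr_parabolic _ _ (S41D_deg_trace N q) _ χ.2⟩
      map_zero' := by
        apply Subtype.ext
        have h := S41D_tr_add (S41A_deg N q) (S41D_deg_injective N q) 0 0
        rw [add_zero] at h
        exact left_eq_add.mp h
      map_add' := fun χ ψ => Subtype.ext
        (S41D_tr_add (S41A_deg N q) (S41D_deg_injective N q) _ _) }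

/-- **`trA` from arbitrary coset data**: if `t : ι → Γ₀(N)` represents `Γ₀(N)/Γ₀(N q)` and
`γ * t (σ i) = t i * h i` with `h i ∈ Γ₀(N q)`, then `(trA χ) γ = ∑ i, χ (h i)`. -/
theorem S41D_trA_apply (χ : ↥(parInt (N * q))) {ι : Type*} [Fintype ι] (t : ι → Gamma0 N)
    (ht : Function.Bijective (fun i => (t i : Gamma0 N ⧸ (S41A_res N q).range)))
    (γ : Gamma0 N) (σ : ι → ι) (h : ι → Gamma0 (N * q))
    (hmul : ∀ i, γ * t (σ i) = t i * S41A_res N q (h i)) :
    ((S41D_trA N q χ : ↥(parInt N)) : Additive (Gamma0 N) →+ ℤ) (Additive.ofMul γ)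
      = ∑ i, (χ : Additive (Gamma0 (N * q)) →+ ℤ) (Additive.ofMul (h i)) :=
  haveI := S41D_res_finiteIndex N q
  S41D_tr_apply (S41A_res N q) (S41D_res_injective N q) _ t ht γ σ h hmul

/-- **`trB` from arbitrary coset data**: if `t : ι → Γ₀(N)` represents `Γ₀(N)/δΓ₀(N q)δ⁻¹` and
`γ * t (σ i) = t i * (δ h_i δ⁻¹)` with `h i ∈ Γ₀(N q)`, then `(trB χ) γ = ∑ i, χ (h i)`. -/
theorem S41D_trB_apply (χ : ↥(parInt (N * q))) {ι : Type*} [Fintype ι] (t : ι → Gamma0 N)
    (ht : Function.Bijective (fun i => (t i : Gamma0 N ⧸ (S41A_deg N q).range)))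
    (γ : Gamma0 N) (σ : ι → ι) (h : ι → Gamma0 (N * q))
    (hmul : ∀ i, γ * t (σ i) = t i * S41A_deg N q (h i)) :
    ((S41D_trB N q χ : ↥(parInt N)) : Additive (Gamma0 N) →+ ℤ) (Additive.ofMul γ)
      = ∑ i, (χ : Additive (Gamma0 (N * q)) →+ ℤ) (Additive.ofMul (h i)) :=
  haveI := S41D_deg_finiteIndex N q
  S41D_tr_apply (S41A_deg N q) (S41D_deg_injective N q) _ t ht γ σ h hmul

/-- `φ = α* + β* : L × L → L'`. -/
noncomputable def S41D_phi : (↥(parInt N) × ↥(parInt N)) →ₗ[ℤ] ↥(parInt (N * q)) :=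
  (S41D_alpha N q).coprod (S41D_beta N q)

/-- `ψ = (α_*, β_*) : L' → L × L`. -/
noncomputable def S41D_psi : ↥(parInt (N * q)) →ₗ[ℤ] (↥(parInt N) × ↥(parInt N)) :=
  (S41D_trA N q).prod (S41D_trB N q)

end maps

end Fermat.Agent.S41
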