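import Mathlib
import Fermat.Agent.S41.DegDefs

/-!
# S41 / DEGEN — explicit transversals (helper5)

For a prime `q ∤ N` and integers `a b` with `q a − N b = 1`:

* `S41D_mem_range_res`, `S41D_mem_range_deg` : `x ∈ range res ↔ q ∣ x 1 0`, `x ∈ range deg ↔ q ∣ x 0 1`;
* `S41D_T N m = [[1,m],[0,1]]`, `S41D_r = [[a,b],[N,q]]`, `S41D_sInf = [[q a,b],[N,1]]` in `Γ₀(N)`;
* `S41D_sA`, `S41D_sB : OnePoint (ZMod q) → Γ₀(N)` : `sA ∞ = 1`, `sA j = r · T^j`;
  `sB ∞ = s∞`, `sB j = T^j`;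
* `S41D_sA_bijective`, `S41D_sB_bijective` : the inverses `(sA i)⁻¹`, `(sB i)⁻¹` represent the left
  cosets of `range res`, `range deg` in `Γ₀(N)`;
* `S41D_exists_data` : coset data exist for every transversal, with `σ` a permutation;
* `S41D_index_res`, `S41D_index_deg` : both ranges have index `q + 1`.
-/

set_option autoImplicit false

open Matrix MatrixGroups CongruenceSubgroup Matrix.SpecialLinearGroup
open ModularCurve ModularCurve.Period

namespace Fermat.Agent.S41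

open Fermat.Agent.S16

section general

variable {G : Type*} [Group G]

/-- criterion for `i ↦ (s i)⁻¹` to represent the left cosets of `K`. -/
theorem S41D_bijective_of (K : Subgroup G) {ι : Type*} (s : ι → G)
    (hinj : ∀ i j, s i * (s j)⁻¹ ∈ K → i = j) (hsurj : ∀ g, ∃ i, s i * g ∈ K) :
    Function.Bijective (fun i => (((s i)⁻¹ : G) : G ⧸ K)) := by
  constructor
  · intro i j h
    have h' : (((s i)⁻¹ : G) : G ⧸ K) = (((s j)⁻¹ : G) : G ⧸ K) := h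
    rw [QuotientGroup.eq, inv_inv] at h'
    exact hinj i j h'
  · intro x
    induction x using QuotientGroup.induction_on with
    | H g =>
      obtain ⟨i, hi⟩ := hsurj g
      refine ⟨i, ?_⟩
      show (((s i)⁻¹ : G) : G ⧸ K) = (g : G ⧸ K)
      rw [QuotientGroup.eq, inv_inv]
      exact hi

/-- coset data exist for every transversal, with `σ` a permutation. -/
theorem S41D_exists_data (K : Subgroup G) {ι : Type*} (t : ι → G)
    (ht : Function.Bijective (fun i => (t i : G ⧸ K))) (g : G) :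
    ∃ (σ : Equiv.Perm ι) (h : ι → K), ∀ i, g * t (σ i) = t i * h i := by
  set e : ι ≃ G ⧸ K := Equiv.ofBijective _ ht with he
  set σ : Equiv.Perm ι := (e.trans (MulAction.toPerm (g⁻¹ : G))).trans e.symm with hσ
  have hσe : ∀ i, e (σ i) = g⁻¹ • e i := fun i => by
    simp [hσ]
  have hmem : ∀ i, (t i)⁻¹ * (g * t (σ i)) ∈ K := by
    intro i
    have h1 : ((t (σ i) : G) : G ⧸ K) = g⁻¹ • ((t i : G) : G ⧸ K) := hσe i
    have h2 : ((g * t (σ i) : G) : G ⧸ K) = ((t i : G) : G ⧸ K) := by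
      show g • ((t (σ i) : G) : G ⧸ K) = _
      rw [h1, smul_inv_smul]
    exact QuotientGroup.eq.mp h2.symm
  refine ⟨σ, fun i => ⟨_, hmem i⟩, fun i => ?_⟩
  simp

end general

section ranges

variable {N q : ℕ}

theorem S41D_mem_range_deg (hq : q ≠ 0) (x : Gamma0 N) :
    x ∈ (S41A_deg N q).range ↔ (q : ℤ) ∣ (x : SL(2, ℤ)) 0 1 := by
  constructor
  · rintro ⟨γ, rfl⟩
    rw [S41A_deg_coe, S41A_degMat_01]
    exact Dvd.intro _ rfl
  · rintro ⟨b', hb'⟩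
    have hq0 : (q : ℤ) ≠ 0 := by exact_mod_cast hq
    have hdet := S41A_det_eq_int (x : SL(2, ℤ))
    have hc : ((N : ℕ) : ℤ) ∣ (x : SL(2, ℤ)) 1 0 := S41A_Gamma0_mem_iff.mp x.2
    let x0 : SL(2, ℤ) := S41A_imk ((x : SL(2, ℤ)) 0 0) b' (q * (x : SL(2, ℤ)) 1 0)
      ((x : SL(2, ℤ)) 1 1) (by linear_combination hdet + (x : SL(2, ℤ)) 1 0 * hb')
    have hx0 : x0 ∈ Gamma0 (N * q) := by
      rw [S41A_Gamma0_mem_iff]
      show ((N * q : ℕ) : ℤ) ∣ q * (x : SL(2, ℤ)) 1 0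
      obtain ⟨m, hm⟩ := hc
      exact ⟨m, by rw [hm]; push_cast; ring⟩
    refine ⟨⟨x0, hx0⟩, ?_⟩
    apply Subtype.ext
    rw [S41A_deg_coe]
    apply S41A_ext_int
    · rfl
    · rw [S41A_degMat_01, hb']; rfl
    · rw [S41A_degMat_10]
      show q * (x : SL(2, ℤ)) 1 0 / (q : ℤ) = _
      rw [Int.mul_ediv_cancel_left _ hq0]
    · rfl

theorem S41D_mem_range_res (hqN : IsCoprime (q : ℤ) (N : ℤ)) (x : Gamma0 N) :
    x ∈ (S41A_res N q).range ↔ (q : ℤ) ∣ (x : SL(2, ℤ)) 1 0 := by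
  constructor
  · rintro ⟨γ, rfl⟩
    exact S41A_q_dvd γ
  · intro h
    have hc : ((N : ℕ) : ℤ) ∣ (x : SL(2, ℤ)) 1 0 := S41A_Gamma0_mem_iff.mp x.2
    have h2 : ((N * q : ℕ) : ℤ) ∣ (x : SL(2, ℤ)) 1 0 := by
      push_cast
      exact IsCoprime.mul_dvd hqN.symm hc h
    exact ⟨⟨(x : SL(2, ℤ)), S41A_Gamma0_mem_iff.mpr h2⟩, Subtype.ext rfl⟩

end ranges

section elements

variable (N : ℕ)

/-- the translation `[[1,m],[0,1]] ∈ Γ₀(N)`. -/
def S41D_T (m : ℤ) : Gamma0 N :=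
  ⟨S41A_imk 1 m 0 1 (by ring), by rw [S41A_Gamma0_mem_iff]; exact ⟨0, by simp⟩⟩

/-- `r = [[a,b],[N,q]] ∈ Γ₀(N)` for `q a − N b = 1`. -/
def S41D_r {q : ℕ} {a b : ℤ} (h : (q : ℤ) * a - N * b = 1) : Gamma0 N :=
  ⟨S41A_imk a b N q (by linear_combination h), by
    rw [S41A_Gamma0_mem_iff]; exact ⟨1, by simp⟩⟩

/-- `s∞ = [[q a,b],[N,1]] ∈ Γ₀(N)` for `q a − N b = 1`. -/
def S41D_sInf {q : ℕ} {a b : ℤ} (h : (q : ℤ) * a - N * b = 1) : Gamma0 N :=
  ⟨S41A_imk (q * a) b N 1 (by linear_combination h), by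
    rw [S41A_Gamma0_mem_iff]; exact ⟨1, by simp⟩⟩

variable {N}

/-- the family `{1} ∪ {r · T^j}` (for `trA`). -/
def S41D_sA {q : ℕ} {a b : ℤ} (h : (q : ℤ) * a - N * b = 1) (i : OnePoint (ZMod q)) : Gamma0 N :=
  i.elim 1 (fun j => S41D_r N h * S41D_T N (j.val : ℤ))

/-- the family `{s∞} ∪ {T^j}` (for `trB`). -/
def S41D_sB {q : ℕ} {a b : ℤ} (h : (q : ℤ) * a - N * b = 1) (i : OnePoint (ZMod q)) : Gamma0 N :=
  i.elim (S41D_sInf N h) (fun j => S41D_T N (j.val : ℤ))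

end elements

section entries

variable {N : ℕ}

theorem S41D_mul_00 (x y : Gamma0 N) : ((x * y : Gamma0 N) : SL(2, ℤ)) 0 0
    = (x : SL(2, ℤ)) 0 0 * (y : SL(2, ℤ)) 0 0 + (x : SL(2, ℤ)) 0 1 * (y : SL(2, ℤ)) 1 0 :=
  S41A_imul_00 _ _
theorem S41D_mul_01 (x y : Gamma0 N) : ((x * y : Gamma0 N) : SL(2, ℤ)) 0 1
    = (x : SL(2, ℤ)) 0 0 * (y : SL(2, ℤ)) 0 1 + (x : SL(2, ℤ)) 0 1 * (y : SL(2, ℤ)) 1 1 :=
  S41A_imul_01 _ _
theorem S41D_mul_10 (x y : Gamma0 N) : ((x * y : Gamma0 N) : SL(2, ℤ)) 1 0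
    = (x : SL(2, ℤ)) 1 0 * (y : SL(2, ℤ)) 0 0 + (x : SL(2, ℤ)) 1 1 * (y : SL(2, ℤ)) 1 0 :=
  S41A_imul_10 _ _
theorem S41D_mul_11 (x y : Gamma0 N) : ((x * y : Gamma0 N) : SL(2, ℤ)) 1 1
    = (x : SL(2, ℤ)) 1 0 * (y : SL(2, ℤ)) 0 1 + (x : SL(2, ℤ)) 1 1 * (y : SL(2, ℤ)) 1 1 :=
  S41A_imul_11 _ _
theorem S41D_inv_00 (x : Gamma0 N) : ((x⁻¹ : Gamma0 N) : SL(2, ℤ)) 0 0 = (x : SL(2, ℤ)) 1 1 :=
  S41A_iinv_00 _
theorem S41D_inv_01 (x : Gamma0 N) : ((x⁻¹ : Gamma0 N) : SL(2, ℤ)) 0 1 = -(x : SL(2, ℤ)) 0 1 :=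
  S41A_iinv_01 _
theorem S41D_inv_10 (x : Gamma0 N) : ((x⁻¹ : Gamma0 N) : SL(2, ℤ)) 1 0 = -(x : SL(2, ℤ)) 1 0 :=
  S41A_iinv_10 _
theorem S41D_inv_11 (x : Gamma0 N) : ((x⁻¹ : Gamma0 N) : SL(2, ℤ)) 1 1 = (x : SL(2, ℤ)) 0 0 :=
  S41A_iinv_11 _
theorem S41D_one_00 : ((1 : Gamma0 N) : SL(2, ℤ)) 0 0 = 1 := S41A_ione_00
theorem S41D_one_01 : ((1 : Gamma0 N) : SL(2, ℤ)) 0 1 = 0 := S41A_ione_01
theorem S41D_one_10 : ((1 : Gamma0 N) : SL(2, ℤ)) 1 0 = 0 := S41A_ione_10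
theorem S41D_one_11 : ((1 : Gamma0 N) : SL(2, ℤ)) 1 1 = 1 := S41A_ione_11

theorem S41D_T_00 (m : ℤ) : ((S41D_T N m : Gamma0 N) : SL(2, ℤ)) 0 0 = 1 := rfl
theorem S41D_T_01 (m : ℤ) : ((S41D_T N m : Gamma0 N) : SL(2, ℤ)) 0 1 = m := rfl
theorem S41D_T_10 (m : ℤ) : ((S41D_T N m : Gamma0 N) : SL(2, ℤ)) 1 0 = 0 := rfl
theorem S41D_T_11 (m : ℤ) : ((S41D_T N m : Gamma0 N) : SL(2, ℤ)) 1 1 = 1 := rfl

variable {q : ℕ} {a b : ℤ} (h : (q : ℤ) * a - N * b = 1)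

theorem S41D_r_00 : ((S41D_r N h : Gamma0 N) : SL(2, ℤ)) 0 0 = a := rfl
theorem S41D_r_01 : ((S41D_r N h : Gamma0 N) : SL(2, ℤ)) 0 1 = b := rfl
theorem S41D_r_10 : ((S41D_r N h : Gamma0 N) : SL(2, ℤ)) 1 0 = N := rfl
theorem S41D_r_11 : ((S41D_r N h : Gamma0 N) : SL(2, ℤ)) 1 1 = q := rfl
theorem S41D_sInf_00 : ((S41D_sInf N h : Gamma0 N) : SL(2, ℤ)) 0 0 = q * a := rfl
theorem S41D_sInf_01 : ((S41D_sInf N h : Gamma0 N) : SL(2, ℤ)) 0 1 = b := rfl
theorem S41D_sInf_10 : ((S41D_sInf N h : Gamma0 N) : SL(2, ℤ)) 1 0 = N := rfl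
theorem S41D_sInf_11 : ((S41D_sInf N h : Gamma0 N) : SL(2, ℤ)) 1 1 = 1 := rfl

theorem S41D_sA_infty : S41D_sA h (OnePoint.infty) = 1 := rfl
theorem S41D_sA_coe (j : ZMod q) :
    S41D_sA h (j : OnePoint (ZMod q)) = S41D_r N h * S41D_T N (j.val : ℤ) := rfl
theorem S41D_sB_infty : S41D_sB h (OnePoint.infty) = S41D_sInf N h := rfl
theorem S41D_sB_coe (j : ZMod q) :
    S41D_sB h (j : OnePoint (ZMod q)) = S41D_T N (j.val : ℤ) := rfl

end entries

section bij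

variable {N q : ℕ} [Fact q.Prime] {a b : ℤ} (h : (q : ℤ) * a - N * b = 1)

include h in
theorem S41D_not_dvd_b : ¬ (q : ℤ) ∣ b := by
  intro hb
  have h1 : (q : ℤ) ∣ 1 := by
    rw [← h]
    exact dvd_sub (Dvd.intro _ rfl) (Dvd.dvd.mul_left hb _)
  have hq : (q : ℕ).Prime := Fact.out
  have := Int.natCast_dvd_natCast.mp (by exact_mod_cast h1 : ((q : ℕ) : ℤ) ∣ ((1 : ℕ) : ℤ))
  exact hq.one_lt.ne' (Nat.dvd_one.mp this)

include h in
theorem S41D_not_dvd_N : ¬ (q : ℤ) ∣ (N : ℤ) := by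
  intro hb
  have h1 : (q : ℤ) ∣ 1 := by
    rw [← h]
    exact dvd_sub (Dvd.intro _ rfl) (Dvd.dvd.mul_right hb _)
  have hq : (q : ℕ).Prime := Fact.out
  have := Int.natCast_dvd_natCast.mp (by exact_mod_cast h1 : ((q : ℕ) : ℤ) ∣ ((1 : ℕ) : ℤ))
  exact hq.one_lt.ne' (Nat.dvd_one.mp this)

omit [Fact q.Prime] in
include h in
theorem S41D_isCoprime : IsCoprime (q : ℤ) (N : ℤ) :=
  ⟨a, -b, by linear_combination h⟩

theorem S41D_zmod_eq_of_dvd (j j' : ZMod q) (hd : (q : ℤ) ∣ (j.val : ℤ) - (j'.val : ℤ)) :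
    j = j' := by
  have h1 := (ZMod.intCast_zmod_eq_zero_iff_dvd _ q).mpr hd
  push_cast at h1
  rw [ZMod.natCast_zmod_val, ZMod.natCast_zmod_val] at h1
  exact sub_eq_zero.mp h1

/-- solving `u + j v ≡ 0 (q)` for `v` prime to `q`. -/
theorem S41D_exists_j (u v : ℤ) (hv : ¬ (q : ℤ) ∣ v) :
    ∃ j : ZMod q, (q : ℤ) ∣ u + (j.val : ℤ) * v := by
  have hv' : ((v : ℤ) : ZMod q) ≠ 0 := fun h0 => hv ((ZMod.intCast_zmod_eq_zero_iff_dvd _ q).mp h0)
  refine ⟨-(u : ZMod q) * ((v : ℤ) : ZMod q)⁻¹, ?_⟩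
  rw [← ZMod.intCast_zmod_eq_zero_iff_dvd]
  push_cast
  rw [ZMod.natCast_zmod_val]
  field_simp
  ring

/-- **the transversal for `trB`**: the `(sB i)⁻¹` represent `Γ₀(N) / range deg`. -/
theorem S41D_sB_bijective :
    Function.Bijective (fun i : OnePoint (ZMod q) =>
      (((S41D_sB h i)⁻¹ : Gamma0 N) : Gamma0 N ⧸ (S41A_deg N q).range)) := by
  have hq : (q : ℕ).Prime := Fact.out
  apply S41D_bijective_of
  · intro i j hij
    rw [S41D_mem_range_deg hq.ne_zero] at hij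
    induction i using OnePoint.rec with
    | infty =>
      induction j using OnePoint.rec with
      | infty => rfl
      | coe j =>
        exfalso
        have key : ((S41D_sB h OnePoint.infty * (S41D_sB h (j : OnePoint (ZMod q)))⁻¹ :
            Gamma0 N) : SL(2, ℤ)) 0 1 = b - (q : ℤ) * (a * (j.val : ℤ)) := by
          simp only [S41D_sB_infty, S41D_sB_coe, S41D_mul_01, S41D_inv_01, S41D_inv_11,
            S41D_sInf_00, S41D_sInf_01, S41D_T_00, S41D_T_01]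
          ring
        rw [key] at hij
        apply S41D_not_dvd_b h
        have h3 := dvd_add hij (Dvd.intro (a * (j.val : ℤ)) rfl)
        simpa using h3
    | coe i =>
      induction j using OnePoint.rec with
      | infty =>
        exfalso
        have key : ((S41D_sB h (i : OnePoint (ZMod q)) * (S41D_sB h OnePoint.infty)⁻¹ :
            Gamma0 N) : SL(2, ℤ)) 0 1 = -b + (q : ℤ) * (a * (i.val : ℤ)) := by
          simp only [S41D_sB_infty, S41D_sB_coe, S41D_mul_01, S41D_inv_01, S41D_inv_11,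
            S41D_sInf_00, S41D_sInf_01, S41D_T_00, S41D_T_01]
          ring
        rw [key] at hij
        apply S41D_not_dvd_b h
        have h3 := dvd_sub hij (Dvd.intro (a * (i.val : ℤ)) rfl)
        have h4 : -b + (q : ℤ) * (a * (i.val : ℤ)) - (q : ℤ) * (a * (i.val : ℤ)) = -b := by ring
        rw [h4] at h3
        exact (dvd_neg.mp h3)
      | coe j =>
        have key : ((S41D_sB h (i : OnePoint (ZMod q)) * (S41D_sB h (j : OnePoint (ZMod q)))⁻¹ :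
            Gamma0 N) : SL(2, ℤ)) 0 1 = (i.val : ℤ) - (j.val : ℤ) := by
          simp only [S41D_sB_coe, S41D_mul_01, S41D_inv_01, S41D_inv_11, S41D_T_00, S41D_T_01]
          ring
        rw [key] at hij
        rw [S41D_zmod_eq_of_dvd i j hij]
  · intro x
    by_cases hx : (q : ℤ) ∣ (x : SL(2, ℤ)) 1 1
    · refine ⟨OnePoint.infty, ?_⟩
      rw [S41D_mem_range_deg hq.ne_zero, S41D_mul_01, S41D_sB_infty, S41D_sInf_00, S41D_sInf_01]
      exact dvd_add ⟨a * (x : SL(2, ℤ)) 0 1, by ring⟩ (Dvd.dvd.mul_left hx _)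
    · obtain ⟨j, hj⟩ := S41D_exists_j ((x : SL(2, ℤ)) 0 1) ((x : SL(2, ℤ)) 1 1) hx
      refine ⟨(j : OnePoint (ZMod q)), ?_⟩
      rw [S41D_mem_range_deg hq.ne_zero, S41D_mul_01, S41D_sB_coe, S41D_T_00, S41D_T_01, one_mul]
      exact hj

/-- **the transversal for `trA`**: the `(sA i)⁻¹` represent `Γ₀(N) / Γ₀(N q)`. -/
theorem S41D_sA_bijective :
    Function.Bijective (fun i : OnePoint (ZMod q) =>
      (((S41D_sA h i)⁻¹ : Gamma0 N) : Gamma0 N ⧸ (S41A_res N q).range)) := by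
  have hq : (q : ℕ).Prime := Fact.out
  have hqp : Prime (q : ℤ) := Nat.prime_iff_prime_int.mp hq
  have hcop := S41D_isCoprime h
  have hN := S41D_not_dvd_N h
  apply S41D_bijective_of
  · intro i j hij
    rw [S41D_mem_range_res hcop] at hij
    induction i using OnePoint.rec with
    | infty =>
      induction j using OnePoint.rec with
      | infty => rfl
      | coe j =>
        exfalso
        have key : ((S41D_sA h OnePoint.infty * (S41D_sA h (j : OnePoint (ZMod q)))⁻¹ :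
            Gamma0 N) : SL(2, ℤ)) 1 0 = -(N : ℤ) := by
          simp only [S41D_sA_infty, S41D_sA_coe, S41D_mul_10, S41D_mul_11, S41D_inv_00,
            S41D_inv_10, S41D_one_10, S41D_one_11, S41D_r_10, S41D_r_11, S41D_T_00, S41D_T_01,
            S41D_T_10, S41D_T_11]
          ring
        rw [key] at hij
        exact hN (dvd_neg.mp hij)
    | coe i =>
      induction j using OnePoint.rec with
      | infty =>
        exfalso
        have key : ((S41D_sA h (i : OnePoint (ZMod q)) * (S41D_sA h OnePoint.infty)⁻¹ :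
            Gamma0 N) : SL(2, ℤ)) 1 0 = (N : ℤ) := by
          simp only [S41D_sA_infty, S41D_sA_coe, S41D_mul_10, S41D_mul_11, S41D_inv_00,
            S41D_inv_10, S41D_one_10, S41D_one_11, S41D_r_10, S41D_r_11, S41D_T_00, S41D_T_01,
            S41D_T_10, S41D_T_11]
          ring
        rw [key] at hij
        exact hN hij
      | coe j =>
        have key : ((S41D_sA h (i : OnePoint (ZMod q)) * (S41D_sA h (j : OnePoint (ZMod q)))⁻¹ :
            Gamma0 N) : SL(2, ℤ)) 1 0 = (N : ℤ) * ((N : ℤ) * ((j.val : ℤ) - (i.val : ℤ))) := by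
          simp only [S41D_sA_coe, S41D_mul_10, S41D_mul_11, S41D_inv_00,
            S41D_inv_10, S41D_r_10, S41D_r_11, S41D_T_00, S41D_T_01,
            S41D_T_10, S41D_T_11]
          ring
        rw [key] at hij
        have h5 := (hqp.dvd_or_dvd hij).resolve_left hN
        have h6 := (hqp.dvd_or_dvd h5).resolve_left hN
        rw [S41D_zmod_eq_of_dvd j i h6]
  · intro x
    by_cases hx : (q : ℤ) ∣ (x : SL(2, ℤ)) 1 0
    · refine ⟨OnePoint.infty, ?_⟩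
      rw [S41D_mem_range_res hcop, S41D_sA_infty, one_mul]
      exact hx
    · obtain ⟨j, hj⟩ := S41D_exists_j ((x : SL(2, ℤ)) 0 0) ((x : SL(2, ℤ)) 1 0) hx
      refine ⟨(j : OnePoint (ZMod q)), ?_⟩
      have key : ((S41D_sA h (j : OnePoint (ZMod q)) * x : Gamma0 N) : SL(2, ℤ)) 1 0
          = (N : ℤ) * ((x : SL(2, ℤ)) 0 0 + (j.val : ℤ) * (x : SL(2, ℤ)) 1 0)
            + (q : ℤ) * (x : SL(2, ℤ)) 1 0 := by
        simp only [S41D_sA_coe, S41D_mul_10, S41D_mul_11, S41D_r_10, S41D_r_11, S41D_T_00,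
          S41D_T_01, S41D_T_10, S41D_T_11]
        ring
      rw [S41D_mem_range_res hcop, key]
      exact dvd_add (Dvd.dvd.mul_left hj _) (Dvd.intro _ rfl)

omit [Fact q.Prime] in
/-- Bezout data for a prime `q ∤ N`. -/
theorem S41D_exists_ab (hq : q.Prime) (hqN : ¬ q ∣ N) :
    ∃ a b : ℤ, (q : ℤ) * a - N * b = 1 := by
  have h1 : IsCoprime (q : ℤ) (N : ℤ) :=
    Nat.isCoprime_iff_coprime.mpr ((Nat.Prime.coprime_iff_not_dvd hq).mpr hqN)
  obtain ⟨u, v, huv⟩ := h1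
  exact ⟨u, -v, by linear_combination huv⟩

omit [Fact q.Prime] in
theorem S41D_card_onePoint [NeZero q] : Fintype.card (OnePoint (ZMod q)) = q + 1 := by
  rw [← Nat.card_eq_fintype_card]
  have : Nat.card (Option (ZMod q)) = q + 1 := by
    rw [Nat.card_eq_fintype_card, Fintype.card_option, ZMod.card]
  exact this

end bij

end Fermat.Agent.S41
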