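import Mathlib
import Fermat.Agent.GalRep.DimHecke
import Fermat.Agent.S41.DegTransv

/-!
# S41 / DEGEN — the identities `ψ ∘ φ = [[q+1, T_q],[T_q, q+1]]` (helper5)

For a prime `q ∤ N`:

* `S41D_trA_alpha`, `S41D_trB_beta` : `trA ∘ α* = q + 1 = trB ∘ β*`;
* `S41D_trB_alpha`, `S41D_trA_beta` : `trB ∘ α* = T_q = trA ∘ β*` (`T_q = GRD_heckeL N (heckeGen q)`);
* `S41D_alpha_hecke`, `S41D_beta_hecke` : `α*`, `β*` commute with `T_ℓ` for primes `ℓ ∤ N q`.
-/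

set_option autoImplicit false

open Matrix MatrixGroups CongruenceSubgroup Matrix.SpecialLinearGroup
open ModularCurve ModularCurve.Period
open P2MW.S_ModularForm_heckeT_slash_eq_self_of_mem_Gamma0.ModularForm.HeckeSlashInvariance
open ModularForm

namespace Fermat.Agent.S41

open Fermat.Agent.S16 Fermat.Agent.GalRep

section general

variable {G H : Type*} [Group G] [Group H]

/-- `cor ∘ res = index`. -/
theorem S41D_tr_comp (j : H →* G) (hj : Function.Injective j) [j.range.FiniteIndex]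
    (c : Additive G →+ ℤ) {ι : Type*} [Fintype ι] (t : ι → G)
    (ht : Function.Bijective (fun i => (t i : G ⧸ j.range))) :
    S41D_tr j hj (c.comp (MonoidHom.toAdditive j)) = (Fintype.card ι : ℤ) • c := by
  refine AddMonoidHom.ext fun g => ?_
  obtain ⟨g, rfl⟩ := Additive.ofMul.surjective g
  obtain ⟨σ, h, hmul⟩ := S41D_exists_data j.range t ht g
  choose h' hh' using fun i => (h i).2
  rw [S41D_tr_apply j hj _ t ht g σ h' (fun i => by rw [hh']; exact hmul i)]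
  have h1 : ∀ i, (c.comp (MonoidHom.toAdditive j)) (Additive.ofMul (h' i))
      = c (Additive.ofMul g) + (c (Additive.ofMul (t (σ i))) - c (Additive.ofMul (t i))) := by
    intro i
    have h2 : j (h' i) = (t i)⁻¹ * (g * t (σ i)) := by
      rw [hh', hmul i, inv_mul_cancel_left]
    show c (Additive.ofMul (j (h' i))) = _
    rw [h2, ofMul_mul, ofMul_mul, ofMul_inv, map_add, map_add, map_neg]
    ring
  simp only [h1]
  rw [Finset.sum_add_distrib, Finset.sum_sub_distrib, Equiv.sum_comp σ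
    (fun i => c (Additive.ofMul (t i))), sub_self, add_zero, Finset.sum_const, Finset.card_univ]
  simp

end general

section glmat

/-- the real matrix of `mapGL ℝ x`. -/
theorem S41D_mapGL_val (x : SL(2, ℤ)) :
    ((mapGL ℝ x : GL (Fin 2) ℝ) : Matrix (Fin 2) (Fin 2) ℝ)
      = !![((x 0 0 : ℤ) : ℝ), ((x 0 1 : ℤ) : ℝ); ((x 1 0 : ℤ) : ℝ), ((x 1 1 : ℤ) : ℝ)] := by
  ext i j
  fin_cases i <;> fin_cases j <;> simp

variable {N q : ℕ}

/-- `D · deg(h) = h · D`, `D = diag(1,q)`. -/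
theorem S41D_D_deg (hq : q ≠ 0) (h : Gamma0 (N * q)) :
    heckeMatrix q 0 * mapGL ℝ ((S41A_deg N q h : Gamma0 N) : SL(2, ℤ))
      = mapGL ℝ ((S41A_res N q h : Gamma0 N) : SL(2, ℤ)) * heckeMatrix q 0 := by
  have h10 : (((h : SL(2, ℤ)) 1 0 : ℤ) : ℝ) = (q : ℝ) * ((S41A_degMat h 1 0 : ℤ) : ℝ) := by
    exact_mod_cast (S41A_q_mul_degMat_10 h).symm
  apply Units.ext
  rw [Units.val_mul, Units.val_mul, S41D_mapGL_val, S41D_mapGL_val, val_heckeMatrix hq,
    S41A_res_coe, S41A_deg_coe, S41A_degMat_00, S41A_degMat_01, S41A_degMat_11, h10]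
  ext i j
  fin_cases i <;> fin_cases j <;> simp [Matrix.mul_apply, Fin.sum_univ_two] <;> ring

/-- `δ · h = deg(h) · δ`, `δ = diag(q,1)`. -/
theorem S41D_delta_res (hq : q ≠ 0) (h : Gamma0 (N * q)) :
    heckeDiagMatrix q * mapGL ℝ ((S41A_res N q h : Gamma0 N) : SL(2, ℤ))
      = mapGL ℝ ((S41A_deg N q h : Gamma0 N) : SL(2, ℤ)) * heckeDiagMatrix q := by
  have h10 : (((h : SL(2, ℤ)) 1 0 : ℤ) : ℝ) = (q : ℝ) * ((S41A_degMat h 1 0 : ℤ) : ℝ) := by
    exact_mod_cast (S41A_q_mul_degMat_10 h).symm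
  apply Units.ext
  rw [Units.val_mul, Units.val_mul, S41D_mapGL_val, S41D_mapGL_val, val_heckeDiagMatrix hq,
    S41A_res_coe, S41A_deg_coe, S41A_degMat_00, S41A_degMat_01, S41A_degMat_11, h10]
  ext i j
  fin_cases i <;> fin_cases j <;> simp [Matrix.mul_apply, Fin.sum_univ_two] <;> ring

/-- `D · T^j = heckeMatrix q j`. -/
theorem S41D_D_T (hq : q ≠ 0) (j : ℕ) :
    heckeMatrix q 0 * mapGL ℝ ((S41D_T N (j : ℤ) : Gamma0 N) : SL(2, ℤ))
      = mapGL ℝ (((1 : Gamma0 N) : Gamma0 N) : SL(2, ℤ)) * heckeMatrix q j := by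
  apply Units.ext
  rw [Units.val_mul, Units.val_mul, S41D_mapGL_val, S41D_mapGL_val, val_heckeMatrix hq,
    val_heckeMatrix hq, S41D_T_00, S41D_T_01, S41D_T_10, S41D_T_11, S41D_one_00, S41D_one_01,
    S41D_one_10, S41D_one_11]
  ext i j
  fin_cases i <;> fin_cases j <;> simp [Matrix.mul_apply, Fin.sum_univ_two]

/-- `D · s∞ = r · δ`. -/
theorem S41D_D_sInf (hq : q ≠ 0) {a b : ℤ} (h : (q : ℤ) * a - N * b = 1) :
    heckeMatrix q 0 * mapGL ℝ ((S41D_sInf N h : Gamma0 N) : SL(2, ℤ))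
      = mapGL ℝ ((S41D_r N h : Gamma0 N) : SL(2, ℤ)) * heckeDiagMatrix q := by
  apply Units.ext
  rw [Units.val_mul, Units.val_mul, S41D_mapGL_val, S41D_mapGL_val, val_heckeMatrix hq,
    val_heckeDiagMatrix hq, S41D_sInf_00, S41D_sInf_01, S41D_sInf_10, S41D_sInf_11, S41D_r_00,
    S41D_r_01, S41D_r_10, S41D_r_11]
  ext i j
  fin_cases i <;> fin_cases j <;> simp [Matrix.mul_apply, Fin.sum_univ_two] <;> ring

/-- `δ · (r · T^j) = s∞ · heckeMatrix q j`. -/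
theorem S41D_delta_rT (hq : q ≠ 0) {a b : ℤ} (h : (q : ℤ) * a - N * b = 1) (j : ℕ) :
    heckeDiagMatrix q * mapGL ℝ ((S41D_r N h * S41D_T N (j : ℤ) : Gamma0 N) : SL(2, ℤ))
      = mapGL ℝ ((S41D_sInf N h : Gamma0 N) : SL(2, ℤ)) * heckeMatrix q j := by
  apply Units.ext
  rw [Units.val_mul, Units.val_mul, S41D_mapGL_val, S41D_mapGL_val, val_heckeMatrix hq,
    val_heckeDiagMatrix hq, S41D_sInf_00, S41D_sInf_01, S41D_sInf_10, S41D_sInf_11,
    S41D_mul_00, S41D_mul_01, S41D_mul_10, S41D_mul_11, S41D_r_00,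
    S41D_r_01, S41D_r_10, S41D_r_11, S41D_T_00, S41D_T_01, S41D_T_10, S41D_T_11]
  ext i j
  fin_cases i <;> fin_cases j <;> simp [Matrix.mul_apply, Fin.sum_univ_two]
  ring

/-- the `Γ₀(N)`-corrections between `D · sB` and the family `heckeRep q`. -/
def S41D_kB {a b : ℤ} (h : (q : ℤ) * a - N * b = 1) (i : OnePoint (ZMod q)) : Gamma0 N :=
  i.elim (S41D_r N h) (fun _ => 1)

/-- the `Γ₀(N)`-corrections between `δ · sA` and the family `heckeRep q`. -/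
def S41D_kA {a b : ℤ} (h : (q : ℤ) * a - N * b = 1) (i : OnePoint (ZMod q)) : Gamma0 N :=
  i.elim 1 (fun _ => S41D_sInf N h)

theorem S41D_D_sB (hq : q ≠ 0) {a b : ℤ} (h : (q : ℤ) * a - N * b = 1)
    (i : OnePoint (ZMod q)) :
    heckeMatrix q 0 * mapGL ℝ ((S41D_sB h i : Gamma0 N) : SL(2, ℤ))
      = mapGL ℝ ((S41D_kB h i : Gamma0 N) : SL(2, ℤ)) * heckeRep q i := by
  induction i using OnePoint.rec with
  | infty => exact S41D_D_sInf hq h
  | coe j => exact S41D_D_T hq j.val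

theorem S41D_delta_sA (hq : q ≠ 0) {a b : ℤ} (h : (q : ℤ) * a - N * b = 1)
    (i : OnePoint (ZMod q)) :
    heckeDiagMatrix q * mapGL ℝ ((S41D_sA h i : Gamma0 N) : SL(2, ℤ))
      = mapGL ℝ ((S41D_kA h i : Gamma0 N) : SL(2, ℤ)) * heckeRep q i := by
  induction i using OnePoint.rec with
  | infty =>
    show heckeDiagMatrix q * mapGL ℝ (((1 : Gamma0 N) : Gamma0 N) : SL(2, ℤ))
      = mapGL ℝ (((1 : Gamma0 N) : Gamma0 N) : SL(2, ℤ)) * heckeDiagMatrix q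
    rw [OneMemClass.coe_one, map_one, one_mul, mul_one]
  | coe j => exact S41D_delta_rT hq h j.val

end glmat

section pattern

variable {N q : ℕ} [NeZero N] [Fact q.Prime]

/-- **the pattern `cor_j ∘ (j')* = T_q`.** -/
theorem S41D_tr_pull_eq_hecke (hqN : ¬ q ∣ N)
    (j j' : Gamma0 (N * q) →* Gamma0 N) (hj : Function.Injective j) [j.range.FiniteIndex]
    (s k : OnePoint (ZMod q) → Gamma0 N)
    (hs : Function.Bijective (fun i => (((s i)⁻¹ : Gamma0 N) : Gamma0 N ⧸ j.range)))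
    (E : GL (Fin 2) ℝ)
    (ha : ∀ h : Gamma0 (N * q), E * mapGL ℝ ((j h : Gamma0 N) : SL(2, ℤ))
      = mapGL ℝ ((j' h : Gamma0 N) : SL(2, ℤ)) * E)
    (hb : ∀ i, E * mapGL ℝ ((s i : Gamma0 N) : SL(2, ℤ))
      = mapGL ℝ ((k i : Gamma0 N) : SL(2, ℤ)) * heckeRep q i)
    (χ : ↥(parInt N)) (γ : Gamma0 N) :
    S41D_tr j hj ((χ : Additive (Gamma0 N) →+ ℤ).comp (MonoidHom.toAdditive j'))
        (Additive.ofMul γ)
      = ((GRD_heckeL N (ModularCurve.heckeGen ⟨q, Fact.out⟩) χ : ↥(parInt N)) :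
          Additive (Gamma0 N) →+ ℤ) (Additive.ofMul γ) := by
  obtain ⟨σ, h, hmul⟩ := S41D_exists_data j.range (fun i => (s i)⁻¹) hs γ
  choose h' hh' using fun i => (h i).2
  have hmul' : ∀ i, γ * (s (σ i))⁻¹ = (s i)⁻¹ * j (h' i) := fun i => by
    rw [hh']; exact hmul i
  have hsγ : ∀ i, s i * γ = j (h' i) * s (σ i) := by
    intro i
    have := hmul' i
    calc s i * γ = s i * (γ * (s (σ i))⁻¹) * s (σ i) := by group
      _ = j (h' i) * s (σ i) := by rw [this]; group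
  rw [S41D_tr_apply j hj _ (fun i => (s i)⁻¹) hs γ σ h' hmul']
  haveI : Fact ((⟨q, Fact.out⟩ : Nat.Primes) : ℕ).Prime := ⟨(Fact.out : q.Prime)⟩
  rw [GRD_heckeL_heckeT N ⟨q, Fact.out⟩ hqN χ γ σ (fun i => (k i)⁻¹ * j' (h' i) * k (σ i)) ?_]
  · have h1 : ∀ i, (χ : Additive (Gamma0 N) →+ ℤ)
        (Additive.ofMul ((k i)⁻¹ * j' (h' i) * k (σ i)))
        = (χ : Additive (Gamma0 N) →+ ℤ) (Additive.ofMul (j' (h' i)))
          + ((χ : Additive (Gamma0 N) →+ ℤ) (Additive.ofMul (k (σ i)))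
            - (χ : Additive (Gamma0 N) →+ ℤ) (Additive.ofMul (k i))) := by
      intro i
      rw [ofMul_mul, ofMul_mul, ofMul_inv, map_add, map_add, map_neg]
      ring
    simp only [h1]
    rw [Finset.sum_add_distrib, Finset.sum_sub_distrib, Equiv.sum_comp σ
      (fun i => (χ : Additive (Gamma0 N) →+ ℤ) (Additive.ofMul (k i))), sub_self, add_zero]
    rfl
  · intro i
    show heckeRep q i * mapGL ℝ ((γ : Gamma0 N) : SL(2, ℤ))
      = mapGL ℝ (((k i)⁻¹ * j' (h' i) * k (σ i) : Gamma0 N) : SL(2, ℤ)) * heckeRep q (σ i)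
    have e1 : mapGL ℝ ((k i : Gamma0 N) : SL(2, ℤ)) * (heckeRep q i
        * mapGL ℝ ((γ : Gamma0 N) : SL(2, ℤ)))
        = mapGL ℝ ((j' (h' i) : Gamma0 N) : SL(2, ℤ))
          * (mapGL ℝ ((k (σ i) : Gamma0 N) : SL(2, ℤ)) * heckeRep q (σ i)) := by
      rw [← mul_assoc, ← hb i, mul_assoc, ← map_mul, ← Subgroup.coe_mul, hsγ i,
        Subgroup.coe_mul, map_mul, ← mul_assoc, ha, mul_assoc, hb (σ i)]
    rw [Subgroup.coe_mul, Subgroup.coe_mul, Subgroup.coe_inv, map_mul, map_mul, map_inv,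
      mul_assoc, mul_assoc, ← e1, inv_mul_cancel_left]

end pattern

section identities

variable (N q : ℕ) [NeZero N] [Fact q.Prime]

theorem S41D_trA_coe (χ : ↥(parInt (N * q))) :
    ((S41D_trA N q χ : ↥(parInt N)) : Additive (Gamma0 N) →+ ℤ)
      = @S41D_tr _ _ _ _ (S41A_res N q) (S41D_res_injective N q) (S41D_res_finiteIndex N q)
          (χ : Additive (Gamma0 (N * q)) →+ ℤ) := rfl

theorem S41D_trB_coe (χ : ↥(parInt (N * q))) :
    ((S41D_trB N q χ : ↥(parInt N)) : Additive (Gamma0 N) →+ ℤ)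
      = @S41D_tr _ _ _ _ (S41A_deg N q) (S41D_deg_injective N q) (S41D_deg_finiteIndex N q)
          (χ : Additive (Gamma0 (N * q)) →+ ℤ) := rfl

/-- **`trA ∘ α* = q + 1`.** -/
theorem S41D_trA_alpha (hqN : ¬ q ∣ N) (χ : ↥(parInt N)) :
    S41D_trA N q (S41D_alpha N q χ) = ((q : ℤ) + 1) • χ := by
  obtain ⟨a, b, h⟩ := S41D_exists_ab (Fact.out : q.Prime) hqN
  haveI := S41D_res_finiteIndex N q
  apply Subtype.ext
  rw [S41D_trA_coe]
  have h1 := S41D_tr_comp (S41A_res N q) (S41D_res_injective N q)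
    (χ : Additive (Gamma0 N) →+ ℤ) (fun i => (S41D_sA h i)⁻¹) (S41D_sA_bijective h)
  rw [S41D_card_onePoint] at h1
  push_cast at h1
  exact h1

/-- **`trB ∘ β* = q + 1`.** -/
theorem S41D_trB_beta (hqN : ¬ q ∣ N) (χ : ↥(parInt N)) :
    S41D_trB N q (S41D_beta N q χ) = ((q : ℤ) + 1) • χ := by
  obtain ⟨a, b, h⟩ := S41D_exists_ab (Fact.out : q.Prime) hqN
  haveI := S41D_deg_finiteIndex N q
  apply Subtype.ext
  rw [S41D_trB_coe]
  have h1 := S41D_tr_comp (S41A_deg N q) (S41D_deg_injective N q)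
    (χ : Additive (Gamma0 N) →+ ℤ) (fun i => (S41D_sB h i)⁻¹) (S41D_sB_bijective h)
  rw [S41D_card_onePoint] at h1
  push_cast at h1
  exact h1

/-- **`trB ∘ α* = T_q`.** -/
theorem S41D_trB_alpha (hqN : ¬ q ∣ N) (χ : ↥(parInt N)) :
    S41D_trB N q (S41D_alpha N q χ) = GRD_heckeL N (ModularCurve.heckeGen ⟨q, Fact.out⟩) χ := by
  have hq : q.Prime := Fact.out
  obtain ⟨a, b, h⟩ := S41D_exists_ab hq hqN
  haveI := S41D_deg_finiteIndex N q
  apply Subtype.ext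
  refine AddMonoidHom.ext fun γ => ?_
  obtain ⟨γ, rfl⟩ := Additive.ofMul.surjective γ
  rw [S41D_trB_coe]
  exact S41D_tr_pull_eq_hecke hqN (S41A_deg N q) (S41A_res N q) (S41D_deg_injective N q)
    (S41D_sB h) (S41D_kB h) (S41D_sB_bijective h) (heckeMatrix q 0)
    (S41D_D_deg hq.ne_zero) (S41D_D_sB hq.ne_zero h) χ γ

/-- **`trA ∘ β* = T_q`.** -/
theorem S41D_trA_beta (hqN : ¬ q ∣ N) (χ : ↥(parInt N)) :
    S41D_trA N q (S41D_beta N q χ) = GRD_heckeL N (ModularCurve.heckeGen ⟨q, Fact.out⟩) χ := by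
  have hq : q.Prime := Fact.out
  obtain ⟨a, b, h⟩ := S41D_exists_ab hq hqN
  haveI := S41D_res_finiteIndex N q
  apply Subtype.ext
  refine AddMonoidHom.ext fun γ => ?_
  obtain ⟨γ, rfl⟩ := Additive.ofMul.surjective γ
  rw [S41D_trA_coe]
  exact S41D_tr_pull_eq_hecke hqN (S41A_res N q) (S41A_deg N q) (S41D_res_injective N q)
    (S41D_sA h) (S41D_kA h) (S41D_sA_bijective h) (heckeDiagMatrix q)
    (S41D_delta_res hq.ne_zero) (S41D_delta_sA hq.ne_zero h) χ γ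

/-- **`ψ ∘ φ = [[q+1, T_q],[T_q, q+1]]`.** -/
theorem S41D_psi_phi (hqN : ¬ q ∣ N) (x y : ↥(parInt N)) :
    S41D_psi N q (S41D_phi N q (x, y))
      = (((q : ℤ) + 1) • x + GRD_heckeL N (ModularCurve.heckeGen ⟨q, Fact.out⟩) y,
         GRD_heckeL N (ModularCurve.heckeGen ⟨q, Fact.out⟩) x + ((q : ℤ) + 1) • y) := by
  show ((S41D_trA N q) (S41D_alpha N q x + S41D_beta N q y),
    (S41D_trB N q) (S41D_alpha N q x + S41D_beta N q y)) = _
  rw [map_add, map_add, S41D_trA_alpha N q hqN, S41D_trB_beta N q hqN, S41D_trA_beta N q hqN,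
    S41D_trB_alpha N q hqN]

end identities

section equivariance

variable (N q : ℕ) [NeZero N] [NeZero q]

omit [NeZero q] in
/-- **`α*` commutes with `T_ℓ`**, `ℓ ∤ N q`. -/
theorem S41D_alpha_heckeT [NeZero (N * q)] (ℓ : Nat.Primes) (hℓ : ¬ (ℓ : ℕ) ∣ N * q)
    (χ : ↥(parInt N)) :
    GRD_heckeL (N * q) (ModularCurve.heckeGen ℓ) (S41D_alpha N q χ)
      = S41D_alpha N q (GRD_heckeL N (ModularCurve.heckeGen ℓ) χ) := by
  haveI : Fact (ℓ : ℕ).Prime := ⟨ℓ.2⟩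
  have hℓN : ¬ (ℓ : ℕ) ∣ N := fun h => hℓ (Dvd.dvd.mul_right h q)
  apply Subtype.ext
  refine AddMonoidHom.ext fun γ => ?_
  obtain ⟨γ, rfl⟩ := Additive.ofMul.surjective γ
  obtain ⟨σ, g', hmul⟩ := S16_exists_heckeT_data (N := N * q) hℓ γ
  rw [GRD_heckeL_heckeT (N * q) ℓ hℓ _ γ σ g' hmul, S41D_alpha_apply,
    GRD_heckeL_heckeT N ℓ hℓN χ (S41A_res N q γ) σ (fun i => S41A_res N q (g' i)) hmul]
  rfl

omit [NeZero q] in
/-- **`α*` commutes with `U_r`**, `r ∣ N`. -/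
theorem S41D_alpha_heckeU [NeZero (N * q)] (r : Nat.Primes) (hr : (r : ℕ) ∣ N)
    (χ : ↥(parInt N)) :
    GRD_heckeL (N * q) (ModularCurve.heckeGen r) (S41D_alpha N q χ)
      = S41D_alpha N q (GRD_heckeL N (ModularCurve.heckeGen r) χ) := by
  haveI : Fact (r : ℕ).Prime := ⟨r.2⟩
  have hrNq : (r : ℕ) ∣ N * q := Dvd.dvd.mul_right hr q
  apply Subtype.ext
  refine AddMonoidHom.ext fun γ => ?_
  obtain ⟨γ, rfl⟩ := Additive.ofMul.surjective γ
  obtain ⟨σ, g', hmul⟩ := S16_exists_heckeU_data (N := N * q) hrNq γ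
  rw [GRD_heckeL_heckeU (N * q) r hrNq _ γ σ g' hmul, S41D_alpha_apply,
    GRD_heckeL_heckeU N r hr χ (S41A_res N q γ) σ (fun i => S41A_res N q (g' i)) hmul]
  rfl

end equivariance

end Fermat.Agent.S41
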