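import Mathlib
import Fermat.Agent.S41.DegId
import Fermat.Agent.S41.CosetSum

/-!
# S41 / DEGEN — Hecke equivariance of the degeneracy maps and transfers (helper5)

Abstract part.  `ι_M : Γ₀(M) →* GL(2,ℝ)`.  For a transfer along an injective `J : Γ₀(N q) →* Γ₀(N)`
with an intertwiner `E` (`E · J(h) = h · E`), a transversal `s` and a "Hecke family"
`R : X → GL(2,ℝ)` which is admissible at the levels `N` and `N q`:

* `S41D_exchange` : the two iterated coset sums agree when the product families `R · C` and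
  `C · R` are related by an injective map;
* `S41D_tr_hecke_comm` : the transfer commutes with the operators of the family;
* `S41D_pull_hecke_comm` : the pull-back along `J'` commutes with the operators of the family.
-/

set_option autoImplicit false

open Matrix MatrixGroups CongruenceSubgroup Matrix.SpecialLinearGroup
open ModularCurve ModularCurve.Period
open P2MW.S_ModularForm_heckeT_slash_eq_self_of_mem_Gamma0.ModularForm.HeckeSlashInvariance
open ModularForm

namespace Fermat.Agent.S41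

open Fermat.Agent.S16 Fermat.Agent.GalRep

section abstract

variable {G Γ Γ' A X Y : Type*} [Group G] [Group Γ] [Group Γ'] [AddCommGroup A]
  [Fintype X] [Fintype Y]

/-- **exchange of two coset operators.** -/
theorem S41D_exchange (ι : Γ →* G) (ι' : Γ' →* G) (hι' : Function.Injective ι')
    (R : X → G) (C : Y → G)
    (F : Y × X → X × Y) (hF : Function.Injective F) (k : Y × X → Γ')
    (hrel : ∀ p, R p.2 * C p.1 = ι' (k p) * (C (F p).2 * R (F p).1))
    (χ : Additive Γ' →+ A) (γ : Γ)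
    (σ : Equiv.Perm X) (g : X → Γ) (hg : S41C_Datum ι ι R γ σ g)
    (τi : X → Equiv.Perm Y) (hi : X → Y → Γ')
    (hhi : ∀ i, S41C_Datum ι' ι C (g i) (τi i) (hi i))
    (τ : Equiv.Perm Y) (h : Y → Γ') (hh : S41C_Datum ι' ι C γ τ h)
    (σj : Y → Equiv.Perm X) (gj : Y → X → Γ')
    (hgj : ∀ j, S41C_Datum ι' ι' R (h j) (σj j) (gj j)) :
    ∑ i, ∑ j, χ (Additive.ofMul (hi i j)) = ∑ j, ∑ i, χ (Additive.ofMul (gj j i)) := by
  classical
  have hbij : Function.Bijective F := by
    rw [Fintype.bijective_iff_injective_and_card]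
    exact ⟨hF, by rw [Fintype.card_prod, Fintype.card_prod, mul_comm]⟩
  set e : (Y × X) ≃ (X × Y) := Equiv.ofBijective F hbij with he
  have d1 := S41C_datum_prod (ι₁ := ι') hg hhi
  have d2 := S41C_datum_prod (ι₁ := ι') hh hgj
  have h3 := S41C_sum_change hι' χ e k (h := fun p : X × Y => C p.2 * R p.1)
    (h' := fun p : Y × X => R p.2 * C p.1) (fun p => hrel p) d1 d2
  rw [← Fintype.sum_prod_type (f := fun p : X × Y => χ (Additive.ofMul (hi p.1 p.2))),
    ← Fintype.sum_prod_type (f := fun p : Y × X => χ (Additive.ofMul (gj p.1 p.2)))]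
  exact h3.symm

end abstract

section concrete

/-- `ι_M : Γ₀(M) →* GL(2,ℝ)`. -/
noncomputable def S41D_iota (M : ℕ) : Gamma0 M →* GL (Fin 2) ℝ :=
  (mapGL ℝ).comp (Gamma0 M).subtype

theorem S41D_iota_apply (M : ℕ) (γ : Gamma0 M) :
    S41D_iota M γ = mapGL ℝ ((γ : Gamma0 M) : SL(2, ℤ)) := rfl

theorem S41D_iota_injective (M : ℕ) : Function.Injective (S41D_iota M) := by
  intro x y h
  exact Subtype.ext (mapGL_injective (R := ℤ) (S := ℝ) (n := Fin 2) h)

variable {N q : ℕ} (J : Gamma0 (N * q) →* Gamma0 N) (hJ : Function.Injective J)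
  [J.range.FiniteIndex] (E : GL (Fin 2) ℝ)
  (hE : ∀ h, E * S41D_iota N (J h) = S41D_iota (N * q) h * E)
  {Y : Type*} [Fintype Y] (s : Y → Gamma0 N)
  (hs : Function.Bijective (fun i => (((s i)⁻¹ : Gamma0 N) : Gamma0 N ⧸ J.range)))

omit [J.range.FiniteIndex] [Fintype Y] in
include hE in
/-- a transfer datum in `GL(2,ℝ)`-form gives the group-level relation. -/
theorem S41D_datum_group {γ : Gamma0 N} {τ : Equiv.Perm Y} {h : Y → Gamma0 (N * q)}
    (hd : S41C_Datum (S41D_iota (N * q)) (S41D_iota N) (fun j => E * S41D_iota N (s j)) γ τ h)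
    (j : Y) : s j * γ = J (h j) * s (τ j) := by
  apply S41D_iota_injective N
  have h1 := hd j
  simp only at h1
  rw [← mul_assoc, ← hE, mul_assoc, mul_assoc] at h1
  rw [map_mul, map_mul]
  exact mul_left_cancel h1

include hE hs in
/-- **the transfer from a datum in `GL(2,ℝ)`-form.** -/
theorem S41D_tr_apply_datum (χ : Additive (Gamma0 (N * q)) →+ ℤ) {γ : Gamma0 N}
    {τ : Equiv.Perm Y} {h : Y → Gamma0 (N * q)}
    (hd : S41C_Datum (S41D_iota (N * q)) (S41D_iota N) (fun j => E * S41D_iota N (s j)) γ τ h) :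
    S41D_tr J hJ χ (Additive.ofMul γ) = ∑ j, χ (Additive.ofMul (h j)) := by
  refine S41D_tr_apply J hJ χ (fun i => (s i)⁻¹) hs γ τ h fun j => ?_
  have := S41D_datum_group J E hE s hd j
  calc γ * (s (τ j))⁻¹ = (s j)⁻¹ * (s j * γ) * (s (τ j))⁻¹ := by group
    _ = (s j)⁻¹ * J (h j) := by rw [this]; group

omit [J.range.FiniteIndex] [Fintype Y] in
include hE hs in
/-- transfer data exist. -/
theorem S41D_tr_adm (γ : Gamma0 N) :
    ∃ (τ : Equiv.Perm Y) (h : Y → Gamma0 (N * q)),
      S41C_Datum (S41D_iota (N * q)) (S41D_iota N) (fun j => E * S41D_iota N (s j)) γ τ h := by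
  obtain ⟨τ, h, hmul⟩ := S41D_exists_data J.range (fun i => (s i)⁻¹) hs γ
  choose h' hh' using fun i => (h i).2
  refine ⟨τ, h', fun j => ?_⟩
  have h1 : s j * γ = J (h' j) * s (τ j) := by
    have := hmul j
    rw [← hh'] at this
    calc s j * γ = s j * (γ * (s (τ j))⁻¹) * s (τ j) := by group
      _ = J (h' j) * s (τ j) := by rw [this]; group
  show E * S41D_iota N (s j) * S41D_iota N γ = S41D_iota (N * q) (h' j) * (E * S41D_iota N (s (τ j)))
  rw [mul_assoc, ← map_mul, h1, map_mul, ← mul_assoc, hE, mul_assoc]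

include hE hs in
/-- **the transfer commutes with the operators of a Hecke family.** -/
theorem S41D_tr_hecke_comm {X : Type*} [Fintype X] (R : X → GL (Fin 2) ℝ)
    (admN : ∀ γ : Gamma0 N, ∃ (σ : Equiv.Perm X) (g' : X → Gamma0 N),
      S41C_Datum (S41D_iota N) (S41D_iota N) R γ σ g')
    (admNq : ∀ γ : Gamma0 (N * q), ∃ (σ : Equiv.Perm X) (g' : X → Gamma0 (N * q)),
      S41C_Datum (S41D_iota (N * q)) (S41D_iota (N * q)) R γ σ g')
    (hsep : ∀ i i' (k : Gamma0 (N * q)), R i = S41D_iota (N * q) k * R i' → i = i')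
    (hlev : ∀ i i' (y : Gamma0 N) (k : Gamma0 (N * q)),
      R i * (E * S41D_iota N y) = S41D_iota (N * q) k * (R i' * E) → y ∈ J.range)
    (hconj : ∀ i, ∃ (u : Gamma0 N) (i₁ : X), R i * E = E * S41D_iota N u * R i₁)
    (χ Pχ : Additive (Gamma0 (N * q)) →+ ℤ)
    (hP' : ∀ (γ : Gamma0 (N * q)) (σ : Equiv.Perm X) (g' : X → Gamma0 (N * q)),
      S41C_Datum (S41D_iota (N * q)) (S41D_iota (N * q)) R γ σ g' →
        Pχ (Additive.ofMul γ) = ∑ i, χ (Additive.ofMul (g' i)))
    (Ptr : Additive (Gamma0 N) →+ ℤ)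
    (hP : ∀ (γ : Gamma0 N) (σ : Equiv.Perm X) (g' : X → Gamma0 N),
      S41C_Datum (S41D_iota N) (S41D_iota N) R γ σ g' →
        Ptr (Additive.ofMul γ) = ∑ i, S41D_tr J hJ χ (Additive.ofMul (g' i)))
    (γ : Gamma0 N) :
    S41D_tr J hJ Pχ (Additive.ofMul γ) = Ptr (Additive.ofMul γ) := by
  classical
  set C : Y → GL (Fin 2) ℝ := fun j => E * S41D_iota N (s j) with hC
  -- the exchange relation
  have hex : ∀ p : Y × X, ∃ (i : X) (j : Y) (k : Gamma0 (N * q)),
      R p.2 * C p.1 = S41D_iota (N * q) k * (C j * R i) := by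
    rintro ⟨j', i'⟩
    obtain ⟨u, i₁, hu⟩ := hconj i'
    obtain ⟨σ', g', hd'⟩ := admN (s j')
    have h1 := hd' i₁
    obtain ⟨j, hj⟩ := hs.2 (((u * g' i₁)⁻¹ : Gamma0 N) : Gamma0 N ⧸ J.range)
    have hj' : s j * (u * g' i₁)⁻¹ ∈ J.range := by
      have := QuotientGroup.eq.mp hj
      rwa [inv_inv] at this
    obtain ⟨k₀, hk₀⟩ := hj'
    have hx : u * g' i₁ = J k₀⁻¹ * s j := by
      rw [map_inv, hk₀]; group
    refine ⟨σ' i₁, j, k₀⁻¹, ?_⟩
    show R i' * (E * S41D_iota N (s j')) = S41D_iota (N * q) k₀⁻¹ * (E * S41D_iota N (s j) * R (σ' i₁))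
    calc R i' * (E * S41D_iota N (s j'))
        = (R i' * E) * S41D_iota N (s j') := by rw [mul_assoc]
      _ = E * S41D_iota N u * (R i₁ * S41D_iota N (s j')) := by rw [hu]; simp only [mul_assoc]
      _ = E * S41D_iota N u * (S41D_iota N (g' i₁) * R (σ' i₁)) := by rw [h1]
      _ = E * S41D_iota N (u * g' i₁) * R (σ' i₁) := by rw [map_mul]; simp only [mul_assoc]
      _ = E * S41D_iota N (J k₀⁻¹) * S41D_iota N (s j) * R (σ' i₁) := by
          rw [hx, map_mul]; simp only [mul_assoc]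
      _ = S41D_iota (N * q) k₀⁻¹ * (E * S41D_iota N (s j) * R (σ' i₁)) := by
          rw [hE]; simp only [mul_assoc]
  choose Fi Fj k hrel using hex
  set F : Y × X → X × Y := fun p => (Fi p, Fj p) with hFdef
  have hF : Function.Injective F := by
    rintro ⟨j', i'⟩ ⟨j'', i''⟩ hpp
    have hFi : Fi (j', i') = Fi (j'', i'') := congrArg Prod.fst hpp
    have hFj : Fj (j', i') = Fj (j'', i'') := congrArg Prod.snd hpp
    have r1 := hrel (j', i')
    have r2 := hrel (j'', i'')
    rw [hFi, hFj] at r1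
    simp only at r1 r2
    -- R i' * C j' = ι (k₁ k₂⁻¹) * (R i'' * C j'')
    have r3 : R i' * C j' = S41D_iota (N * q) (k (j', i') * (k (j'', i''))⁻¹) * (R i'' * C j'') := by
      rw [r2, r1, map_mul, map_inv]
      simp only [mul_assoc, inv_mul_cancel_left]
    have r4 : R i' * (E * S41D_iota N (s j' * (s j'')⁻¹))
        = S41D_iota (N * q) (k (j', i') * (k (j'', i''))⁻¹) * (R i'' * E) := by
      have : R i' * (E * S41D_iota N (s j' * (s j'')⁻¹))
          = (R i' * C j') * (S41D_iota N (s j''))⁻¹ := by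
        rw [hC, map_mul, map_inv]; simp only [mul_assoc]
      rw [this, r3, hC]
      simp only [mul_assoc, mul_inv_cancel, mul_one]
    have hy := hlev i' i'' _ _ r4
    have hjj : j' = j'' := by
      apply hs.1
      show (((s j')⁻¹ : Gamma0 N) : Gamma0 N ⧸ J.range) = (((s j'')⁻¹ : Gamma0 N) : Gamma0 N ⧸ J.range)
      rw [QuotientGroup.eq, inv_inv]
      exact hy
    subst hjj
    have r5 : R i' = S41D_iota (N * q) (k (j', i') * (k (j', i''))⁻¹) * R i'' := by
      have := r3
      rw [← mul_assoc (S41D_iota (N * q) (k (j', i') * (k (j', i''))⁻¹))] at this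
      exact mul_right_cancel this
    rw [hsep i' i'' _ r5]
  -- the data
  obtain ⟨σ, g, hg⟩ := admN γ
  choose τi hi hhi using fun i => S41D_tr_adm J E hE s hs (g i)
  obtain ⟨τ, h, hh⟩ := S41D_tr_adm J E hE s hs γ
  choose σj gj hgj using fun j => admNq (h j)
  rw [S41D_tr_apply_datum J hJ E hE s hs Pχ hh, hP γ σ g hg]
  simp only [fun i => S41D_tr_apply_datum J hJ E hE s hs χ (hhi i), fun j => hP' (h j) (σj j) (gj j) (hgj j)]
  exact (S41D_exchange (S41D_iota N) (S41D_iota (N * q)) (S41D_iota_injective _) R C F hF k hrel χ γ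
    σ g hg τi hi hhi τ h hh σj gj hgj).symm

end concrete

section pull

variable {N q : ℕ}

/-- **the pull-back along `J'` commutes with the operators of a Hecke family.** -/
theorem S41D_pull_hecke_comm (J' : Gamma0 (N * q) →* Gamma0 N) (E' : GL (Fin 2) ℝ)
    (hE' : ∀ h, E' * S41D_iota (N * q) h = S41D_iota N (J' h) * E')
    {X : Type*} [Fintype X] (R : X → GL (Fin 2) ℝ)
    (admNq : ∀ γ : Gamma0 (N * q), ∃ (σ : Equiv.Perm X) (g' : X → Gamma0 (N * q)),
      S41C_Datum (S41D_iota (N * q)) (S41D_iota (N * q)) R γ σ g')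
    (π : Equiv.Perm X) (u : X → Gamma0 N)
    (hconj' : ∀ i, E' * R i = S41D_iota N (u i) * R (π i) * E')
    (χ Pχ : Additive (Gamma0 N) →+ ℤ)
    (hP : ∀ (γ : Gamma0 N) (σ : Equiv.Perm X) (g' : X → Gamma0 N),
      S41C_Datum (S41D_iota N) (S41D_iota N) R γ σ g' →
        Pχ (Additive.ofMul γ) = ∑ i, χ (Additive.ofMul (g' i)))
    (Ppull : Additive (Gamma0 (N * q)) →+ ℤ)
    (hP' : ∀ (γ : Gamma0 (N * q)) (σ : Equiv.Perm X) (g' : X → Gamma0 (N * q)),
      S41C_Datum (S41D_iota (N * q)) (S41D_iota (N * q)) R γ σ g' →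
        Ppull (Additive.ofMul γ) = ∑ i, χ (Additive.ofMul (J' (g' i))))
    (γ : Gamma0 (N * q)) :
    Ppull (Additive.ofMul γ) = Pχ (Additive.ofMul (J' γ)) := by
  obtain ⟨σ, g', hd⟩ := admNq γ
  rw [hP' γ σ g' hd]
  have key : ∀ i, R (π i) * S41D_iota N (J' γ)
      = S41D_iota N ((u i)⁻¹ * J' (g' i) * u (σ i)) * R (π (σ i)) := by
    intro i
    have e1 : S41D_iota N (u i) * (R (π i) * S41D_iota N (J' γ)) * E'
        = S41D_iota N (J' (g' i)) * (S41D_iota N (u (σ i)) * R (π (σ i))) * E' := by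
      calc S41D_iota N (u i) * (R (π i) * S41D_iota N (J' γ)) * E'
          = S41D_iota N (u i) * R (π i) * (S41D_iota N (J' γ) * E') := by simp only [mul_assoc]
        _ = (S41D_iota N (u i) * R (π i) * E') * S41D_iota (N * q) γ := by
            rw [← hE']; simp only [mul_assoc]
        _ = E' * (R i * S41D_iota (N * q) γ) := by rw [← hconj']; simp only [mul_assoc]
        _ = E' * (S41D_iota (N * q) (g' i) * R (σ i)) := by rw [hd i]
        _ = S41D_iota N (J' (g' i)) * (E' * R (σ i)) := by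
            rw [← mul_assoc, hE']; simp only [mul_assoc]
        _ = S41D_iota N (J' (g' i)) * (S41D_iota N (u (σ i)) * R (π (σ i))) * E' := by
            rw [hconj']; simp only [mul_assoc]
    have e2 := mul_right_cancel e1
    rw [map_mul, map_mul, map_inv, mul_assoc, mul_assoc, ← e2, inv_mul_cancel_left]
  have hd'' : S41C_Datum (S41D_iota N) (S41D_iota N) R (J' γ) (π.symm.trans (σ.trans π))
      (fun i' => (u (π.symm i'))⁻¹ * J' (g' (π.symm i')) * u (σ (π.symm i'))) := by
    intro i'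
    have := key (π.symm i')
    rw [Equiv.apply_symm_apply] at this
    exact this
  rw [hP (J' γ) _ _ hd'']
  rw [← Equiv.sum_comp π (fun i' => χ (Additive.ofMul
    ((u (π.symm i'))⁻¹ * J' (g' (π.symm i')) * u (σ (π.symm i')))))]
  simp only [Equiv.symm_apply_apply]
  have h1 : ∀ i, χ (Additive.ofMul ((u i)⁻¹ * J' (g' i) * u (σ i)))
      = χ (Additive.ofMul (J' (g' i)))
        + (χ (Additive.ofMul (u (σ i))) - χ (Additive.ofMul (u i))) := by
    intro i
    rw [ofMul_mul, ofMul_mul, ofMul_inv, map_add, map_add, map_neg]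
    ring
  simp only [h1]
  rw [Finset.sum_add_distrib, Finset.sum_sub_distrib, Equiv.sum_comp σ
    (fun i => χ (Additive.ofMul (u i))), sub_self, add_zero]

end pull

end Fermat.Agent.S41
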