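import Mathlib
import Fermat.Agent.S41.DegEquiv

/-!
# S41 / DEGEN — Hecke equivariance of `α*`, `β*`, `trA`, `trB` (helper5)

For a prime `q ∤ N`, primes `ℓ ∤ N q` and `r ∣ N`:

* `S41D_beta_heckeT`, `S41D_beta_heckeU` : `β*` commutes with `T_ℓ`, `U_r`;
* `S41D_trA_heckeT`, `S41D_trA_heckeU`, `S41D_trB_heckeT`, `S41D_trB_heckeU` : the transfers commute
  with `T_ℓ`, `U_r`.
-/

set_option autoImplicit false

open Matrix MatrixGroups CongruenceSubgroup Matrix.SpecialLinearGroup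
open ModularCurve ModularCurve.Period
open P2MW.S_ModularForm_heckeT_slash_eq_self_of_mem_Gamma0.ModularForm.HeckeSlashInvariance
open ModularForm

namespace Fermat.Agent.S41

open Fermat.Agent.S16 Fermat.Agent.GalRep

section tri

/-- the entries of `M · y = k · M'` for upper triangular integral `M`, `M'`. -/
theorem S41D_tri_entries (M M' : GL (Fin 2) ℝ) (a b d a' b' d' : ℤ)
    (hM : (M : Matrix (Fin 2) (Fin 2) ℝ) = !![(a : ℝ), (b : ℝ); 0, (d : ℝ)])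
    (hM' : (M' : Matrix (Fin 2) (Fin 2) ℝ) = !![(a' : ℝ), (b' : ℝ); 0, (d' : ℝ)])
    (y k : SL(2, ℤ)) (h : M * mapGL ℝ y = mapGL ℝ k * M') :
    a * y 0 0 + b * y 1 0 = k 0 0 * a' ∧ a * y 0 1 + b * y 1 1 = k 0 0 * b' + k 0 1 * d' ∧
      d * y 1 0 = k 1 0 * a' ∧ d * y 1 1 = k 1 0 * b' + k 1 1 * d' := by
  have h1 := congrArg (fun A : GL (Fin 2) ℝ => (A : Matrix (Fin 2) (Fin 2) ℝ)) h
  simp only [Units.val_mul, S41D_mapGL_val, hM, hM'] at h1
  have e00 := congrFun (congrFun h1 0) 0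
  have e01 := congrFun (congrFun h1 0) 1
  have e10 := congrFun (congrFun h1 1) 0
  have e11 := congrFun (congrFun h1 1) 1
  simp [Matrix.mul_apply, Fin.sum_univ_two] at e00 e01 e10 e11
  refine ⟨?_, ?_, ?_, ?_⟩
  · exact_mod_cast e00
  · exact_mod_cast e01
  · exact_mod_cast e10
  · exact_mod_cast e11

/-- the integral entries `(a, b, d)` of `heckeRep p i`. -/
def S41D_abd (p : ℕ) (i : OnePoint (ZMod p)) : ℤ × ℤ × ℤ :=
  i.elim ((p : ℤ), 0, 1) (fun j => (1, (j.val : ℤ), (p : ℤ)))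

theorem S41D_abd_infty (p : ℕ) : S41D_abd p OnePoint.infty = ((p : ℤ), 0, 1) := rfl
theorem S41D_abd_coe (p : ℕ) (j : ZMod p) :
    S41D_abd p (j : OnePoint (ZMod p)) = (1, (j.val : ℤ), (p : ℤ)) := rfl

theorem S41D_heckeRep_val {p : ℕ} (hp : p ≠ 0) (i : OnePoint (ZMod p)) :
    ((heckeRep p i : GL (Fin 2) ℝ) : Matrix (Fin 2) (Fin 2) ℝ)
      = !![((S41D_abd p i).1 : ℝ), ((S41D_abd p i).2.1 : ℝ); 0, ((S41D_abd p i).2.2 : ℝ)] := by
  induction i using OnePoint.rec with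
  | infty =>
    show ((heckeDiagMatrix p : GL (Fin 2) ℝ) : Matrix (Fin 2) (Fin 2) ℝ) = _
    rw [val_heckeDiagMatrix hp]
    simp [S41D_abd]
  | coe j =>
    show ((heckeMatrix p j.val : GL (Fin 2) ℝ) : Matrix (Fin 2) (Fin 2) ℝ) = _
    rw [val_heckeMatrix hp]
    simp [S41D_abd]

theorem S41D_abd_cases (p : ℕ) (i : OnePoint (ZMod p)) :
    ((S41D_abd p i).1 = 1 ∧ (S41D_abd p i).2.2 = p) ∨
      ((S41D_abd p i).1 = p ∧ (S41D_abd p i).2.2 = 1) := by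
  induction i using OnePoint.rec with
  | infty => right; exact ⟨rfl, rfl⟩
  | coe j => left; exact ⟨rfl, rfl⟩

/-- distinct members of `heckeRep p` lie in distinct left `SL(2,ℤ)`-cosets. -/
theorem S41D_heckeRep_sep {p : ℕ} (hp : p.Prime) (i i' : OnePoint (ZMod p)) (k : SL(2, ℤ))
    (h : heckeRep p i = mapGL ℝ k * heckeRep p i') : i = i' := by
  haveI : Fact p.Prime := ⟨hp⟩
  have h' : heckeRep p i * mapGL ℝ (1 : SL(2, ℤ)) = mapGL ℝ k * heckeRep p i' := by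
    rw [map_one, mul_one]; exact h
  obtain ⟨e00, e01, e10, e11⟩ := S41D_tri_entries _ _ _ _ _ _ _ _
    (S41D_heckeRep_val hp.ne_zero i) (S41D_heckeRep_val hp.ne_zero i') 1 k h'
  have hp1 : ¬ (p : ℤ) ∣ 1 := by
    intro hd
    have := Int.natCast_dvd_natCast.mp (by exact_mod_cast hd : ((p : ℕ) : ℤ) ∣ ((1 : ℕ) : ℤ))
    exact hp.one_lt.ne' (Nat.dvd_one.mp this)
  have hp0 : (p : ℤ) ≠ 0 := by exact_mod_cast hp.ne_zero
  induction i using OnePoint.rec with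
  | infty =>
    induction i' using OnePoint.rec with
    | infty => rfl
    | coe j' =>
      exfalso
      simp only [S41D_abd_infty, S41D_abd_coe, S41A_ione_00, S41A_ione_01, S41A_ione_10,
        S41A_ione_11] at e00 e01 e10 e11
      apply hp1
      have hk10 : k 1 0 = 0 := by linear_combination -e10
      exact ⟨k 1 1, by linear_combination e11 + (j'.val : ℤ) * hk10⟩
  | coe j =>
    induction i' using OnePoint.rec with
    | infty =>
      exfalso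
      simp only [S41D_abd_infty, S41D_abd_coe, S41A_ione_00, S41A_ione_01, S41A_ione_10,
        S41A_ione_11] at e00 e01 e10 e11
      apply hp1
      exact ⟨k 0 0, by linear_combination e00⟩
    | coe j' =>
      simp only [S41D_abd_coe, S41A_ione_00, S41A_ione_01, S41A_ione_10,
        S41A_ione_11] at e00 e01 e10 e11
      have : j = j' := S41D_zmod_eq_of_dvd j j' ⟨k 0 1, by
        linear_combination e01 - (j'.val : ℤ) * e00⟩
      rw [this]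

theorem S41D_isCoprime_abd {p q : ℕ} (hpq : IsCoprime (p : ℤ) (q : ℤ)) (i : OnePoint (ZMod p)) :
    IsCoprime (S41D_abd p i).1 (q : ℤ) ∧ IsCoprime (S41D_abd p i).2.2 (q : ℤ) := by
  rcases S41D_abd_cases p i with ⟨h1, h2⟩ | ⟨h1, h2⟩
  · rw [h1, h2]; exact ⟨isCoprime_one_left, hpq⟩
  · rw [h1, h2]; exact ⟨hpq, isCoprime_one_left⟩

/-- level preservation, `E = 1`. -/
theorem S41D_heckeRep_lev1 {N p q : ℕ} (hp : p ≠ 0) (hpq : IsCoprime (p : ℤ) (q : ℤ))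
    (i i' : OnePoint (ZMod p)) (y : Gamma0 N) (k : Gamma0 (N * q))
    (h : heckeRep p i * ((1 : GL (Fin 2) ℝ) * S41D_iota N y)
      = S41D_iota (N * q) k * (heckeRep p i' * 1)) :
    (q : ℤ) ∣ (y : SL(2, ℤ)) 1 0 := by
  rw [one_mul, mul_one] at h
  obtain ⟨-, -, e10, -⟩ := S41D_tri_entries _ _ _ _ _ _ _ _
    (S41D_heckeRep_val hp i) (S41D_heckeRep_val hp i') (y : SL(2, ℤ)) (k : SL(2, ℤ)) h
  have hk : (q : ℤ) ∣ (k : SL(2, ℤ)) 1 0 := S41A_q_dvd k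
  have h1 : (q : ℤ) ∣ (S41D_abd p i).2.2 * (y : SL(2, ℤ)) 1 0 := by
    rw [e10]; exact Dvd.dvd.mul_right hk _
  exact (S41D_isCoprime_abd hpq i).2.symm.dvd_of_dvd_mul_left h1

theorem S41D_heckeRep_mul_D_val {p q : ℕ} (hp : p ≠ 0) (hq : q ≠ 0) (i : OnePoint (ZMod p)) :
    ((heckeRep p i * heckeMatrix q 0 : GL (Fin 2) ℝ) : Matrix (Fin 2) (Fin 2) ℝ)
      = !![((S41D_abd p i).1 : ℝ), (((S41D_abd p i).2.1 * q : ℤ) : ℝ);
          0, (((S41D_abd p i).2.2 * q : ℤ) : ℝ)] := by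
  rw [Units.val_mul, S41D_heckeRep_val hp, val_heckeMatrix hq]
  ext a b
  fin_cases a <;> fin_cases b <;> simp [Matrix.mul_apply, Fin.sum_univ_two]

/-- level preservation, `E = D = diag(1,q)`. -/
theorem S41D_heckeRep_levD {N p q : ℕ} (hp : p ≠ 0) (hq : q ≠ 0)
    (hpq : IsCoprime (p : ℤ) (q : ℤ))
    (i i' : OnePoint (ZMod p)) (y : Gamma0 N) (k : Gamma0 (N * q))
    (h : heckeRep p i * (heckeMatrix q 0 * S41D_iota N y)
      = S41D_iota (N * q) k * (heckeRep p i' * heckeMatrix q 0)) :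
    (q : ℤ) ∣ (y : SL(2, ℤ)) 0 1 := by
  rw [← mul_assoc] at h
  obtain ⟨-, e01, -, -⟩ := S41D_tri_entries _ _ _ _ _ _ _ _
    (S41D_heckeRep_mul_D_val hp hq i) (S41D_heckeRep_mul_D_val hp hq i') (y : SL(2, ℤ))
    (k : SL(2, ℤ)) h
  have h1 : (q : ℤ) ∣ (S41D_abd p i).1 * (y : SL(2, ℤ)) 0 1 :=
    ⟨(k : SL(2, ℤ)) 0 0 * (S41D_abd p i').2.1 + (k : SL(2, ℤ)) 0 1 * (S41D_abd p i').2.2
      - (S41D_abd p i).2.1 * (y : SL(2, ℤ)) 1 1, by linear_combination e01⟩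
  exact (S41D_isCoprime_abd hpq i).1.symm.dvd_of_dvd_mul_left h1

end tri

section conj

theorem S41D_exists_m (p q : ℕ) [NeZero p] (j : ZMod p) :
    ∃ m : ℤ, (q : ℤ) * (j.val : ℤ) = ((((q : ZMod p) * j).val : ℕ) : ℤ) + m * p := by
  have hdvd : (p : ℤ) ∣ (q : ℤ) * (j.val : ℤ) - ((((q : ZMod p) * j).val : ℕ) : ℤ) := by
    rw [← ZMod.intCast_zmod_eq_zero_iff_dvd]
    push_cast
    rw [ZMod.natCast_zmod_val, ZMod.natCast_zmod_val]
    ring
  obtain ⟨e, he⟩ := hdvd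
  exact ⟨e, by linear_combination he⟩

variable {N p q : ℕ}

theorem S41D_conjδ_fin (hp : p ≠ 0) (hq : q ≠ 0) (j j₁ : ℕ) (m : ℤ)
    (h : (q : ℤ) * (j : ℤ) = (j₁ : ℤ) + m * p) :
    heckeDiagMatrix q * heckeMatrix p j
      = S41D_iota N (S41D_T N m) * heckeMatrix p j₁ * heckeDiagMatrix q := by
  have h' : (q : ℝ) * (j : ℝ) = (j₁ : ℝ) + (m : ℝ) * (p : ℝ) := by exact_mod_cast h
  apply Units.ext
  rw [Units.val_mul, Units.val_mul, Units.val_mul, S41D_iota_apply, S41D_mapGL_val,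
    val_heckeMatrix hp, val_heckeMatrix hp, val_heckeDiagMatrix hq, S41D_T_00, S41D_T_01,
    S41D_T_10, S41D_T_11]
  ext a b
  fin_cases a <;> fin_cases b <;> simp [Matrix.mul_apply, Fin.sum_univ_two]
  linear_combination h'

theorem S41D_conjD_fin (hp : p ≠ 0) (hq : q ≠ 0) (j j₁ : ℕ) (m : ℤ)
    (h : (q : ℤ) * (j : ℤ) = (j₁ : ℤ) + m * p) :
    heckeMatrix p j * heckeMatrix q 0
      = heckeMatrix q 0 * S41D_iota N (S41D_T N m) * heckeMatrix p j₁ := by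
  have h' : (q : ℝ) * (j : ℝ) = (j₁ : ℝ) + (m : ℝ) * (p : ℝ) := by exact_mod_cast h
  apply Units.ext
  rw [Units.val_mul, Units.val_mul, Units.val_mul, S41D_iota_apply, S41D_mapGL_val,
    val_heckeMatrix hp, val_heckeMatrix hp, val_heckeMatrix hq, S41D_T_00, S41D_T_01,
    S41D_T_10, S41D_T_11]
  ext a b
  fin_cases a <;> fin_cases b <;> simp [Matrix.mul_apply, Fin.sum_univ_two]
  · linear_combination h'
  · ring

theorem S41D_conjδ_inf (hp : p ≠ 0) (hq : q ≠ 0) :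
    heckeDiagMatrix q * heckeDiagMatrix p
      = S41D_iota N (1 : Gamma0 N) * heckeDiagMatrix p * heckeDiagMatrix q := by
  rw [map_one, one_mul]
  apply Units.ext
  rw [Units.val_mul, Units.val_mul, val_heckeDiagMatrix hp, val_heckeDiagMatrix hq]
  ext a b
  fin_cases a <;> fin_cases b <;> simp [Matrix.mul_apply, Fin.sum_univ_two]
  ring

theorem S41D_conjD_inf (hp : p ≠ 0) (hq : q ≠ 0) :
    heckeDiagMatrix p * heckeMatrix q 0
      = heckeMatrix q 0 * S41D_iota N (1 : Gamma0 N) * heckeDiagMatrix p := by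
  rw [map_one, mul_one]
  apply Units.ext
  rw [Units.val_mul, Units.val_mul, val_heckeDiagMatrix hp, val_heckeMatrix hq]
  ext a b
  fin_cases a <;> fin_cases b <;> simp [Matrix.mul_apply, Fin.sum_univ_two]

end conj

section families

variable {N : ℕ} (p q : ℕ) [Fact p.Prime]

/-- multiplication by `q` on `ℙ¹(𝔽_p)`, fixing `∞`. -/
noncomputable def S41D_pi (h : (q : ZMod p) ≠ 0) : Equiv.Perm (OnePoint (ZMod p)) :=
  Equiv.optionCongr (Equiv.mulLeft₀ (q : ZMod p) h)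

theorem S41D_pi_infty (h : (q : ZMod p) ≠ 0) : S41D_pi p q h OnePoint.infty = OnePoint.infty := rfl

theorem S41D_pi_coe (h : (q : ZMod p) ≠ 0) (j : ZMod p) :
    S41D_pi p q h (j : OnePoint (ZMod p)) = (((q : ZMod p) * j : ZMod p) : OnePoint (ZMod p)) := rfl

/-- the translations correcting the `δ`-conjugates of `heckeRep p`. -/
noncomputable def S41D_u (N : ℕ) (i : OnePoint (ZMod p)) : Gamma0 N :=
  i.elim 1 (fun j => S41D_T N (Classical.choose (S41D_exists_m p q j)))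

theorem S41D_u_spec (j : ZMod p) :
    (q : ℤ) * (j.val : ℤ) = ((((q : ZMod p) * j).val : ℕ) : ℤ)
      + Classical.choose (S41D_exists_m p q j) * p :=
  Classical.choose_spec (S41D_exists_m p q j)

variable {p q}

theorem S41D_heckeRep_conjδ (hq : q ≠ 0) (h : (q : ZMod p) ≠ 0) (i : OnePoint (ZMod p)) :
    heckeDiagMatrix q * heckeRep p i
      = S41D_iota N (S41D_u p q N i) * heckeRep p (S41D_pi p q h i) * heckeDiagMatrix q := by
  have hp : p ≠ 0 := (Fact.out : p.Prime).ne_zero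
  induction i using OnePoint.rec with
  | infty => exact S41D_conjδ_inf hp hq
  | coe j => exact S41D_conjδ_fin hp hq j.val _ _ (S41D_u_spec p q j)

theorem S41D_heckeRep_conjD (hq : q ≠ 0) (i : OnePoint (ZMod p)) :
    ∃ (u : Gamma0 N) (i₁ : OnePoint (ZMod p)),
      heckeRep p i * heckeMatrix q 0 = heckeMatrix q 0 * S41D_iota N u * heckeRep p i₁ := by
  have hp : p ≠ 0 := (Fact.out : p.Prime).ne_zero
  induction i using OnePoint.rec with
  | infty => exact ⟨1, OnePoint.infty, S41D_conjD_inf hp hq⟩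
  | coe j =>
    exact ⟨_, (((q : ZMod p) * j : ZMod p) : OnePoint (ZMod p)),
      S41D_conjD_fin hp hq j.val _ _ (S41D_u_spec p q j)⟩

end families

section final

variable (N q : ℕ) [NeZero N] [Fact q.Prime]

omit [NeZero N] [Fact q.Prime] in
theorem S41D_coprime_of_not_dvd {ℓ : ℕ} (hℓp : ℓ.Prime) (hℓ : ¬ ℓ ∣ N * q) :
    IsCoprime (ℓ : ℤ) (q : ℤ) ∧ ((q : ZMod ℓ) ≠ 0) := by
  have h1 : ¬ ℓ ∣ q := fun h => hℓ (Dvd.dvd.mul_left h N)
  refine ⟨Nat.isCoprime_iff_coprime.mpr ((Nat.Prime.coprime_iff_not_dvd hℓp).mpr h1), ?_⟩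
  intro h0
  exact h1 ((ZMod.natCast_eq_zero_iff q ℓ).mp h0)

/-- **`β*` commutes with `T_ℓ`**, `ℓ ∤ N q`. -/
theorem S41D_beta_heckeT (ℓ : Nat.Primes) (hℓ : ¬ (ℓ : ℕ) ∣ N * q) (χ : ↥(parInt N)) :
    GRD_heckeL (N * q) (ModularCurve.heckeGen ℓ) (S41D_beta N q χ)
      = S41D_beta N q (GRD_heckeL N (ModularCurve.heckeGen ℓ) χ) := by
  haveI : Fact (ℓ : ℕ).Prime := ⟨ℓ.2⟩
  have hq : q.Prime := Fact.out
  have hℓN : ¬ (ℓ : ℕ) ∣ N := fun h => hℓ (Dvd.dvd.mul_right h q)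
  obtain ⟨-, hq0⟩ := S41D_coprime_of_not_dvd N q ℓ.2 hℓ
  apply Subtype.ext
  refine AddMonoidHom.ext fun γ => ?_
  obtain ⟨γ, rfl⟩ := Additive.ofMul.surjective γ
  exact S41D_pull_hecke_comm (S41A_deg N q) (heckeDiagMatrix q) (S41D_delta_res hq.ne_zero)
    (heckeRep (ℓ : ℕ)) (fun γ => S16_exists_heckeT_data (N := N * q) hℓ γ)
    (S41D_pi (ℓ : ℕ) q hq0) (S41D_u (ℓ : ℕ) q N) (S41D_heckeRep_conjδ hq.ne_zero hq0)
    (χ : Additive (Gamma0 N) →+ ℤ) _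
    (fun γ σ g' hd => GRD_heckeL_heckeT N ℓ hℓN χ γ σ g' hd) _
    (fun γ σ g' hd => GRD_heckeL_heckeT (N * q) ℓ hℓ (S41D_beta N q χ) γ σ g' hd) γ

/-- **`trA` commutes with `T_ℓ`**, `ℓ ∤ N q`. -/
theorem S41D_trA_heckeT (hqN : ¬ q ∣ N) (ℓ : Nat.Primes) (hℓ : ¬ (ℓ : ℕ) ∣ N * q)
    (χ : ↥(parInt (N * q))) :
    S41D_trA N q (GRD_heckeL (N * q) (ModularCurve.heckeGen ℓ) χ)
      = GRD_heckeL N (ModularCurve.heckeGen ℓ) (S41D_trA N q χ) := by
  haveI : Fact (ℓ : ℕ).Prime := ⟨ℓ.2⟩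
  have hq : q.Prime := Fact.out
  have hℓN : ¬ (ℓ : ℕ) ∣ N := fun h => hℓ (Dvd.dvd.mul_right h q)
  obtain ⟨hcop, hq0⟩ := S41D_coprime_of_not_dvd N q ℓ.2 hℓ
  obtain ⟨a, b, h⟩ := S41D_exists_ab hq hqN
  haveI := S41D_res_finiteIndex N q
  apply Subtype.ext
  refine AddMonoidHom.ext fun γ => ?_
  obtain ⟨γ, rfl⟩ := Additive.ofMul.surjective γ
  rw [S41D_trA_coe]
  exact S41D_tr_hecke_comm (S41A_res N q) (S41D_res_injective N q) 1
    (fun h => by rw [one_mul, mul_one]; rfl) (S41D_sA h) (S41D_sA_bijective h)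
    (heckeRep (ℓ : ℕ)) (fun γ => S16_exists_heckeT_data (N := N) hℓN γ)
    (fun γ => S16_exists_heckeT_data (N := N * q) hℓ γ)
    (fun i i' k hk => S41D_heckeRep_sep ℓ.2 i i' _ hk)
    (fun i i' y k hk => (S41D_mem_range_res (S41D_isCoprime h) y).mpr
      (S41D_heckeRep_lev1 ℓ.2.ne_zero hcop i i' y k hk))
    (fun i => ⟨1, i, by rw [map_one, mul_one, one_mul, one_mul]⟩)
    (χ : Additive (Gamma0 (N * q)) →+ ℤ) _
    (fun γ σ g' hd => GRD_heckeL_heckeT (N * q) ℓ hℓ χ γ σ g' hd) _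
    (fun γ σ g' hd => GRD_heckeL_heckeT N ℓ hℓN (S41D_trA N q χ) γ σ g' hd) γ

/-- **`trB` commutes with `T_ℓ`**, `ℓ ∤ N q`. -/
theorem S41D_trB_heckeT (hqN : ¬ q ∣ N) (ℓ : Nat.Primes) (hℓ : ¬ (ℓ : ℕ) ∣ N * q)
    (χ : ↥(parInt (N * q))) :
    S41D_trB N q (GRD_heckeL (N * q) (ModularCurve.heckeGen ℓ) χ)
      = GRD_heckeL N (ModularCurve.heckeGen ℓ) (S41D_trB N q χ) := by
  haveI : Fact (ℓ : ℕ).Prime := ⟨ℓ.2⟩
  have hq : q.Prime := Fact.out
  have hℓN : ¬ (ℓ : ℕ) ∣ N := fun h => hℓ (Dvd.dvd.mul_right h q)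
  obtain ⟨hcop, hq0⟩ := S41D_coprime_of_not_dvd N q ℓ.2 hℓ
  obtain ⟨a, b, h⟩ := S41D_exists_ab hq hqN
  haveI := S41D_deg_finiteIndex N q
  apply Subtype.ext
  refine AddMonoidHom.ext fun γ => ?_
  obtain ⟨γ, rfl⟩ := Additive.ofMul.surjective γ
  rw [S41D_trB_coe]
  exact S41D_tr_hecke_comm (S41A_deg N q) (S41D_deg_injective N q) (heckeMatrix q 0)
    (S41D_D_deg hq.ne_zero) (S41D_sB h) (S41D_sB_bijective h)
    (heckeRep (ℓ : ℕ)) (fun γ => S16_exists_heckeT_data (N := N) hℓN γ)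
    (fun γ => S16_exists_heckeT_data (N := N * q) hℓ γ)
    (fun i i' k hk => S41D_heckeRep_sep ℓ.2 i i' _ hk)
    (fun i i' y k hk => (S41D_mem_range_deg hq.ne_zero y).mpr
      (S41D_heckeRep_levD ℓ.2.ne_zero hq.ne_zero hcop i i' y k hk))
    (fun i => S41D_heckeRep_conjD hq.ne_zero i)
    (χ : Additive (Gamma0 (N * q)) →+ ℤ) _
    (fun γ σ g' hd => GRD_heckeL_heckeT (N * q) ℓ hℓ χ γ σ g' hd) _
    (fun γ σ g' hd => GRD_heckeL_heckeT N ℓ hℓN (S41D_trB N q χ) γ σ g' hd) γ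

omit [NeZero N] in
theorem S41D_coprime_of_dvd (hqN : ¬ q ∣ N) {r : ℕ} (hrp : r.Prime) (hr : r ∣ N) :
    IsCoprime (r : ℤ) (q : ℤ) ∧ ((q : ZMod r) ≠ 0) := by
  have hq : q.Prime := Fact.out
  have h1 : ¬ r ∣ q := by
    intro h
    rcases (Nat.dvd_prime hq).mp h with h1 | h1
    · exact hrp.one_lt.ne' h1
    · rw [h1] at hr; exact hqN hr
  refine ⟨Nat.isCoprime_iff_coprime.mpr ((Nat.Prime.coprime_iff_not_dvd hrp).mpr h1), ?_⟩
  intro h0
  exact h1 ((ZMod.natCast_eq_zero_iff q r).mp h0)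

/-- **`β*` commutes with `U_r`**, `r ∣ N`. -/
theorem S41D_beta_heckeU (hqN : ¬ q ∣ N) (r : Nat.Primes) (hr : (r : ℕ) ∣ N) (χ : ↥(parInt N)) :
    GRD_heckeL (N * q) (ModularCurve.heckeGen r) (S41D_beta N q χ)
      = S41D_beta N q (GRD_heckeL N (ModularCurve.heckeGen r) χ) := by
  haveI : Fact (r : ℕ).Prime := ⟨r.2⟩
  have hq : q.Prime := Fact.out
  have hrNq : (r : ℕ) ∣ N * q := Dvd.dvd.mul_right hr q
  obtain ⟨-, hq0⟩ := S41D_coprime_of_dvd N q hqN r.2 hr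
  apply Subtype.ext
  refine AddMonoidHom.ext fun γ => ?_
  obtain ⟨γ, rfl⟩ := Additive.ofMul.surjective γ
  exact S41D_pull_hecke_comm (S41A_deg N q) (heckeDiagMatrix q) (S41D_delta_res hq.ne_zero)
    (fun j : ZMod (r : ℕ) => heckeMatrix (r : ℕ) j.val)
    (fun γ => S16_exists_heckeU_data (N := N * q) hrNq γ)
    (Equiv.mulLeft₀ (q : ZMod (r : ℕ)) hq0)
    (fun j => S41D_T N (Classical.choose (S41D_exists_m (r : ℕ) q j)))
    (fun j => S41D_conjδ_fin r.2.ne_zero hq.ne_zero j.val _ _ (S41D_u_spec (r : ℕ) q j))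
    (χ : Additive (Gamma0 N) →+ ℤ) _
    (fun γ σ g' hd => GRD_heckeL_heckeU N r hr χ γ σ g' hd) _
    (fun γ σ g' hd => GRD_heckeL_heckeU (N * q) r hrNq (S41D_beta N q χ) γ σ g' hd) γ

/-- **`trA` commutes with `U_r`**, `r ∣ N`. -/
theorem S41D_trA_heckeU (hqN : ¬ q ∣ N) (r : Nat.Primes) (hr : (r : ℕ) ∣ N)
    (χ : ↥(parInt (N * q))) :
    S41D_trA N q (GRD_heckeL (N * q) (ModularCurve.heckeGen r) χ)
      = GRD_heckeL N (ModularCurve.heckeGen r) (S41D_trA N q χ) := by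
  haveI : Fact (r : ℕ).Prime := ⟨r.2⟩
  have hq : q.Prime := Fact.out
  have hrNq : (r : ℕ) ∣ N * q := Dvd.dvd.mul_right hr q
  obtain ⟨hcop, hq0⟩ := S41D_coprime_of_dvd N q hqN r.2 hr
  obtain ⟨a, b, h⟩ := S41D_exists_ab hq hqN
  haveI := S41D_res_finiteIndex N q
  apply Subtype.ext
  refine AddMonoidHom.ext fun γ => ?_
  obtain ⟨γ, rfl⟩ := Additive.ofMul.surjective γ
  rw [S41D_trA_coe]
  exact S41D_tr_hecke_comm (S41A_res N q) (S41D_res_injective N q) 1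
    (fun h => by rw [one_mul, mul_one]; rfl) (S41D_sA h) (S41D_sA_bijective h)
    (fun j : ZMod (r : ℕ) => heckeMatrix (r : ℕ) j.val)
    (fun γ => S16_exists_heckeU_data (N := N) hr γ)
    (fun γ => S16_exists_heckeU_data (N := N * q) hrNq γ)
    (fun i i' k hk => OnePoint.coe_injective (S41D_heckeRep_sep r.2 i i' _ hk))
    (fun i i' y k hk => (S41D_mem_range_res (S41D_isCoprime h) y).mpr
      (S41D_heckeRep_lev1 r.2.ne_zero hcop i i' y k hk))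
    (fun i => ⟨1, i, by rw [map_one, mul_one, one_mul, one_mul]⟩)
    (χ : Additive (Gamma0 (N * q)) →+ ℤ) _
    (fun γ σ g' hd => GRD_heckeL_heckeU (N * q) r hrNq χ γ σ g' hd) _
    (fun γ σ g' hd => GRD_heckeL_heckeU N r hr (S41D_trA N q χ) γ σ g' hd) γ

/-- **`trB` commutes with `U_r`**, `r ∣ N`. -/
theorem S41D_trB_heckeU (hqN : ¬ q ∣ N) (r : Nat.Primes) (hr : (r : ℕ) ∣ N)
    (χ : ↥(parInt (N * q))) :
    S41D_trB N q (GRD_heckeL (N * q) (ModularCurve.heckeGen r) χ)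
      = GRD_heckeL N (ModularCurve.heckeGen r) (S41D_trB N q χ) := by
  haveI : Fact (r : ℕ).Prime := ⟨r.2⟩
  have hq : q.Prime := Fact.out
  have hrNq : (r : ℕ) ∣ N * q := Dvd.dvd.mul_right hr q
  obtain ⟨hcop, hq0⟩ := S41D_coprime_of_dvd N q hqN r.2 hr
  obtain ⟨a, b, h⟩ := S41D_exists_ab hq hqN
  haveI := S41D_deg_finiteIndex N q
  apply Subtype.ext
  refine AddMonoidHom.ext fun γ => ?_
  obtain ⟨γ, rfl⟩ := Additive.ofMul.surjective γ
  rw [S41D_trB_coe]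
  exact S41D_tr_hecke_comm (S41A_deg N q) (S41D_deg_injective N q) (heckeMatrix q 0)
    (S41D_D_deg hq.ne_zero) (S41D_sB h) (S41D_sB_bijective h)
    (fun j : ZMod (r : ℕ) => heckeMatrix (r : ℕ) j.val)
    (fun γ => S16_exists_heckeU_data (N := N) hr γ)
    (fun γ => S16_exists_heckeU_data (N := N * q) hrNq γ)
    (fun i i' k hk => OnePoint.coe_injective (S41D_heckeRep_sep r.2 i i' _ hk))
    (fun i i' y k hk => (S41D_mem_range_deg hq.ne_zero y).mpr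
      (S41D_heckeRep_levD r.2.ne_zero hq.ne_zero hcop i i' y k hk))
    (fun j => ⟨_, ((q : ZMod (r : ℕ)) * j : ZMod (r : ℕ)),
      S41D_conjD_fin r.2.ne_zero hq.ne_zero j.val _ _ (S41D_u_spec (r : ℕ) q j)⟩)
    (χ : Additive (Gamma0 (N * q)) →+ ℤ) _
    (fun γ σ g' hd => GRD_heckeL_heckeU (N * q) r hrNq χ γ σ g' hd) _
    (fun γ σ g' hd => GRD_heckeL_heckeU N r hr (S41D_trB N q χ) γ σ g' hd) γ

end final

end Fermat.Agent.S41
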