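import Mathlib
import Fermat.Agent.S41.DegHecke

/-!
# S41 / DEGEN — the package for ALG (helper5)

`S41D_R q = ℤ[X_ℓ : ℓ prime, ℓ ≠ q]`, acting on `L = parInt N` and `L' = parInt (N q)` through
`S41D_rho N q`, `S41D_rho' N q` (restrictions of `GRD_heckeL`).  For a prime `q ∤ N`:

* `S41D_hα`, `S41D_hβ`, `S41D_hA`, `S41D_hB` : the four maps are `S41D_R q`-equivariant;
* `S41D_hAα`, `S41D_hBβ`, `S41D_hAβ`, `S41D_hBα` : the four composites, in the shape of `S41G_main`;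
* `S41D_ker_psi_stable` : `ker ψ` is stable under `S41D_rho' N q t`.
-/

set_option autoImplicit false

open Matrix MatrixGroups CongruenceSubgroup Matrix.SpecialLinearGroup
open ModularCurve ModularCurve.Period

namespace Fermat.Agent.S41

open Fermat.Agent.S16 Fermat.Agent.GalRep

/-- the Hecke polynomials away from `q`. -/
abbrev S41D_R (q : ℕ) : Type := MvPolynomial {ℓ : Nat.Primes // (ℓ : ℕ) ≠ q} ℤ

/-- `ℤ[X_ℓ : ℓ ≠ q] → ℤ[X_ℓ]`. -/
noncomputable def S41D_incR (q : ℕ) : S41D_R q →+* ModularCurve.HeckeAlg :=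
  (MvPolynomial.rename (Subtype.val : {ℓ : Nat.Primes // (ℓ : ℕ) ≠ q} → Nat.Primes)).toRingHom

theorem S41D_incR_X (q : ℕ) (ℓ : {ℓ : Nat.Primes // (ℓ : ℕ) ≠ q}) :
    S41D_incR q (MvPolynomial.X ℓ) = ModularCurve.heckeGen ℓ.1 := by
  show MvPolynomial.rename _ (MvPolynomial.X ℓ) = _
  rw [MvPolynomial.rename_X]
  rfl

theorem S41D_incR_C (q : ℕ) (a : ℤ) :
    S41D_incR q (MvPolynomial.C a) = MvPolynomial.C a := by
  show MvPolynomial.rename _ (MvPolynomial.C a) = _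
  rw [MvPolynomial.rename_C]

variable (N q : ℕ) [NeZero N] [Fact q.Prime]

/-- the action of the Hecke polynomials away from `q` on `L = parInt N`. -/
noncomputable def S41D_rho : S41D_R q →+* Module.End ℤ ↥(parInt N) :=
  (GRD_heckeL N).comp (S41D_incR q)

/-- the action of the Hecke polynomials away from `q` on `L' = parInt (N q)`. -/
noncomputable def S41D_rho' : S41D_R q →+* Module.End ℤ ↥(parInt (N * q)) :=
  (GRD_heckeL (N * q)).comp (S41D_incR q)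

omit [Fact q.Prime] in
theorem S41D_rho_X (ℓ : {ℓ : Nat.Primes // (ℓ : ℕ) ≠ q}) :
    S41D_rho N q (MvPolynomial.X ℓ) = GRD_heckeL N (ModularCurve.heckeGen ℓ.1) := by
  show GRD_heckeL N (S41D_incR q (MvPolynomial.X ℓ)) = _
  rw [S41D_incR_X]

theorem S41D_rho'_X (ℓ : {ℓ : Nat.Primes // (ℓ : ℕ) ≠ q}) :
    S41D_rho' N q (MvPolynomial.X ℓ) = GRD_heckeL (N * q) (ModularCurve.heckeGen ℓ.1) := by
  show GRD_heckeL (N * q) (S41D_incR q (MvPolynomial.X ℓ)) = _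
  rw [S41D_incR_X]

omit [Fact q.Prime] in
theorem S41D_rho_C (a : ℤ) : S41D_rho N q (MvPolynomial.C a) = (a : Module.End ℤ ↥(parInt N)) := by
  rw [← MvPolynomial.algebraMap_eq, eq_intCast, map_intCast]

theorem S41D_rho'_C (a : ℤ) :
    S41D_rho' N q (MvPolynomial.C a) = (a : Module.End ℤ ↥(parInt (N * q))) := by
  rw [← MvPolynomial.algebraMap_eq, eq_intCast, map_intCast]

omit [NeZero N] in
/-- a prime `ℓ ≠ q` divides `N` or is prime to `N q`. -/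
theorem S41D_prime_cases (ℓ : {ℓ : Nat.Primes // (ℓ : ℕ) ≠ q}) :
    ((ℓ.1 : ℕ) ∣ N) ∨ ¬ ((ℓ.1 : ℕ) ∣ N * q) := by
  by_cases h : (ℓ.1 : ℕ) ∣ N
  · exact Or.inl h
  · right
    intro hd
    rcases (Nat.Prime.dvd_mul ℓ.1.2).mp hd with h1 | h1
    · exact h h1
    · rcases (Nat.dvd_prime (Fact.out : q.Prime)).mp h1 with h2 | h2
      · exact ℓ.1.2.one_lt.ne' h2
      · exact ℓ.2 h2

omit [Fact q.Prime] in
/-- a criterion for equivariance under `S41D_R q`. -/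
theorem S41D_equivariant_of_gen {V W : Type*} [AddCommGroup V] [AddCommGroup W]
    (σ : S41D_R q →+* Module.End ℤ V) (σ' : S41D_R q →+* Module.End ℤ W) (f : V →ₗ[ℤ] W)
    (h : ∀ ℓ : {ℓ : Nat.Primes // (ℓ : ℕ) ≠ q},
      f ∘ₗ σ (MvPolynomial.X ℓ) = σ' (MvPolynomial.X ℓ) ∘ₗ f)
    (t : S41D_R q) : f ∘ₗ σ t = σ' t ∘ₗ f := by
  induction t using MvPolynomial.induction_on with
  | C a =>
    have h1 : σ (MvPolynomial.C a) = (a : Module.End ℤ V) := by
      rw [← MvPolynomial.algebraMap_eq, eq_intCast, map_intCast]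
    have h2 : σ' (MvPolynomial.C a) = (a : Module.End ℤ W) := by
      rw [← MvPolynomial.algebraMap_eq, eq_intCast, map_intCast]
    rw [h1, h2]
    refine LinearMap.ext fun v => ?_
    simp only [LinearMap.comp_apply, Module.End.intCast_apply, map_zsmul]
  | add s t hs ht =>
    rw [map_add, map_add, LinearMap.comp_add, LinearMap.add_comp, hs, ht]
  | mul_X s ℓ hs =>
    rw [map_mul, map_mul]
    refine LinearMap.ext fun v => ?_
    have e1 := fun w => congrArg (fun g : V →ₗ[ℤ] W => g w) hs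
    have e2 := fun w => congrArg (fun g : V →ₗ[ℤ] W => g w) (h ℓ)
    simp only [LinearMap.comp_apply] at e1 e2
    simp only [LinearMap.comp_apply, Module.End.mul_apply]
    rw [e1, e2]

/-- **(hα)** -/
theorem S41D_hα (t : S41D_R q) :
    S41D_alpha N q ∘ₗ S41D_rho N q t = S41D_rho' N q t ∘ₗ S41D_alpha N q := by
  refine S41D_equivariant_of_gen q _ _ _ (fun ℓ => ?_) t
  rw [S41D_rho_X, S41D_rho'_X]
  refine LinearMap.ext fun χ => ?_
  rcases S41D_prime_cases N q ℓ with h | h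
  · exact (S41D_alpha_heckeU N q ℓ.1 h χ).symm
  · exact (S41D_alpha_heckeT N q ℓ.1 h χ).symm

/-- **(hβ)** -/
theorem S41D_hβ (hqN : ¬ q ∣ N) (t : S41D_R q) :
    S41D_beta N q ∘ₗ S41D_rho N q t = S41D_rho' N q t ∘ₗ S41D_beta N q := by
  refine S41D_equivariant_of_gen q _ _ _ (fun ℓ => ?_) t
  rw [S41D_rho_X, S41D_rho'_X]
  refine LinearMap.ext fun χ => ?_
  rcases S41D_prime_cases N q ℓ with h | h
  · exact (S41D_beta_heckeU N q hqN ℓ.1 h χ).symm
  · exact (S41D_beta_heckeT N q ℓ.1 h χ).symm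

/-- **(hA)** -/
theorem S41D_hA (hqN : ¬ q ∣ N) (t : S41D_R q) :
    S41D_trA N q ∘ₗ S41D_rho' N q t = S41D_rho N q t ∘ₗ S41D_trA N q := by
  refine S41D_equivariant_of_gen q _ _ _ (fun ℓ => ?_) t
  rw [S41D_rho_X, S41D_rho'_X]
  refine LinearMap.ext fun χ => ?_
  rcases S41D_prime_cases N q ℓ with h | h
  · exact S41D_trA_heckeU N q hqN ℓ.1 h χ
  · exact S41D_trA_heckeT N q hqN ℓ.1 h χ

/-- **(hB)** -/
theorem S41D_hB (hqN : ¬ q ∣ N) (t : S41D_R q) :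
    S41D_trB N q ∘ₗ S41D_rho' N q t = S41D_rho N q t ∘ₗ S41D_trB N q := by
  refine S41D_equivariant_of_gen q _ _ _ (fun ℓ => ?_) t
  rw [S41D_rho_X, S41D_rho'_X]
  refine LinearMap.ext fun χ => ?_
  rcases S41D_prime_cases N q ℓ with h | h
  · exact S41D_trB_heckeU N q hqN ℓ.1 h χ
  · exact S41D_trB_heckeT N q hqN ℓ.1 h χ

/-- **(hAα)** -/
theorem S41D_hAα (hqN : ¬ q ∣ N) :
    S41D_trA N q ∘ₗ S41D_alpha N q = ((q : ℤ) + 1) • LinearMap.id :=
  LinearMap.ext fun χ => S41D_trA_alpha N q hqN χ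

/-- **(hBβ)** -/
theorem S41D_hBβ (hqN : ¬ q ∣ N) :
    S41D_trB N q ∘ₗ S41D_beta N q = ((q : ℤ) + 1) • LinearMap.id :=
  LinearMap.ext fun χ => S41D_trB_beta N q hqN χ

/-- **(hAβ)** -/
theorem S41D_hAβ (hqN : ¬ q ∣ N) :
    S41D_trA N q ∘ₗ S41D_beta N q = GRD_heckeL N (ModularCurve.heckeGen ⟨q, Fact.out⟩) :=
  LinearMap.ext fun χ => S41D_trA_beta N q hqN χ

/-- **(hBα)** -/
theorem S41D_hBα (hqN : ¬ q ∣ N) :
    S41D_trB N q ∘ₗ S41D_alpha N q = GRD_heckeL N (ModularCurve.heckeGen ⟨q, Fact.out⟩) :=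
  LinearMap.ext fun χ => S41D_trB_alpha N q hqN χ

/-- `B = ker ψ = ker trA ⊓ ker trB`. -/
noncomputable def S41D_B : Submodule ℤ ↥(parInt (N * q)) := LinearMap.ker (S41D_psi N q)

theorem S41D_mem_B (z : ↥(parInt (N * q))) :
    z ∈ S41D_B N q ↔ S41D_trA N q z = 0 ∧ S41D_trB N q z = 0 := by
  show S41D_psi N q z = 0 ↔ _
  show ((S41D_trA N q z, S41D_trB N q z) : ↥(parInt N) × ↥(parInt N)) = 0 ↔ _
  exact Prod.mk_eq_zero

/-- `ker ψ` is stable under the Hecke polynomials away from `q`. -/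
theorem S41D_ker_psi_stable (hqN : ¬ q ∣ N) (t : S41D_R q) (z : ↥(parInt (N * q)))
    (hz : z ∈ S41D_B N q) : S41D_rho' N q t z ∈ S41D_B N q := by
  rw [S41D_mem_B] at hz ⊢
  have h1 := congrArg (fun g : ↥(parInt (N * q)) →ₗ[ℤ] ↥(parInt N) => g z) (S41D_hA N q hqN t)
  have h2 := congrArg (fun g : ↥(parInt (N * q)) →ₗ[ℤ] ↥(parInt N) => g z) (S41D_hB N q hqN t)
  simp only [LinearMap.comp_apply] at h1 h2
  rw [h1, h2, hz.1, hz.2, map_zero]
  exact ⟨rfl, rfl⟩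

/-- the restricted action on `B = ker ψ`. -/
noncomputable def S41D_rhoB (hqN : ¬ q ∣ N) (t : S41D_R q) : Module.End ℤ ↥(S41D_B N q) :=
  (S41D_rho' N q t).restrict (fun z hz => S41D_ker_psi_stable N q hqN t z hz)

theorem S41D_hρB (hqN : ¬ q ∣ N) (t : S41D_R q) :
    (S41D_B N q).subtype ∘ₗ S41D_rhoB N q hqN t = S41D_rho' N q t ∘ₗ (S41D_B N q).subtype :=
  LinearMap.ext fun _ => rfl

end Fermat.Agent.S41
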