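import Mathlib
import Fermat.Agent.S41.DegDefs

/-!
# S41 / UNEW (helper16), part 1: the Atkin–Lehner automorphism of `Γ₀(N q)`

`q ∤ N`, Bezout data `q a − N b = 1`.  `r = [[a,b],[N,q]]`, `s∞ = [[q a, b],[N,1]] ∈ Γ₀(N)`,
`W = r δ = [[q a, b],[N q, q]]` (`δ = diag(q,1)`), `δ r δ = q s∞`.

* `S41U_cW : Γ₀(N q) →* Γ₀(N q)`, `γ ↦ W γ W⁻¹`, characterised by
  `S41U_res_cW : res (cW γ) = r * deg γ * r⁻¹` and `S41U_deg_cW : deg (cW γ) = s∞ * res γ * s∞⁻¹`;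
* `S41U_cW_cW : cW (cW γ) = R * γ * R⁻¹` with `R = r s∞ ∈ Γ₀(N q)`;
* `S41U_cW_trace`, `S41U_cW_surjective`.
-/

set_option autoImplicit false
set_option maxHeartbeats 1000000

open Matrix MatrixGroups CongruenceSubgroup Matrix.SpecialLinearGroup

namespace Fermat.Agent.S41

variable (N q : ℕ) (a b : ℤ) (hab : (q : ℤ) * a - N * b = 1)

/-- `r = [[a, b],[N, q]] ∈ Γ₀(N)`. -/
def S41U_r : Gamma0 N :=
  ⟨S41A_imk a b N q (by linear_combination hab), by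
    rw [S41A_Gamma0_mem_iff]; exact dvd_refl _⟩

/-- `s∞ = [[q a, b],[N, 1]] ∈ Γ₀(N)`. -/
def S41U_s : Gamma0 N :=
  ⟨S41A_imk (q * a) b N 1 (by linear_combination hab), by
    rw [S41A_Gamma0_mem_iff]; exact dvd_refl _⟩

theorem S41U_r_00 : ((S41U_r N q a b hab : Gamma0 N) : SL(2, ℤ)) 0 0 = a := rfl
theorem S41U_r_01 : ((S41U_r N q a b hab : Gamma0 N) : SL(2, ℤ)) 0 1 = b := rfl
theorem S41U_r_10 : ((S41U_r N q a b hab : Gamma0 N) : SL(2, ℤ)) 1 0 = N := rfl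
theorem S41U_r_11 : ((S41U_r N q a b hab : Gamma0 N) : SL(2, ℤ)) 1 1 = q := rfl

theorem S41U_s_00 : ((S41U_s N q a b hab : Gamma0 N) : SL(2, ℤ)) 0 0 = q * a := rfl
theorem S41U_s_01 : ((S41U_s N q a b hab : Gamma0 N) : SL(2, ℤ)) 0 1 = b := rfl
theorem S41U_s_10 : ((S41U_s N q a b hab : Gamma0 N) : SL(2, ℤ)) 1 0 = N := rfl
theorem S41U_s_11 : ((S41U_s N q a b hab : Gamma0 N) : SL(2, ℤ)) 1 1 = 1 := rfl

/-- entries of a conjugate `g * M * g⁻¹` in `SL(2,ℤ)`. -/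
theorem S41U_conj_00 (g M : SL(2, ℤ)) :
    (g * M * g⁻¹) 0 0 = (g 0 0 * M 0 0 + g 0 1 * M 1 0) * g 1 1
      - (g 0 0 * M 0 1 + g 0 1 * M 1 1) * g 1 0 := by
  rw [S41A_imul_00, S41A_imul_00, S41A_imul_01, S41A_iinv_00, S41A_iinv_10]; ring
theorem S41U_conj_01 (g M : SL(2, ℤ)) :
    (g * M * g⁻¹) 0 1 = -(g 0 0 * M 0 0 + g 0 1 * M 1 0) * g 0 1
      + (g 0 0 * M 0 1 + g 0 1 * M 1 1) * g 0 0 := by
  rw [S41A_imul_01, S41A_imul_00, S41A_imul_01, S41A_iinv_01, S41A_iinv_11]; ring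
theorem S41U_conj_10 (g M : SL(2, ℤ)) :
    (g * M * g⁻¹) 1 0 = (g 1 0 * M 0 0 + g 1 1 * M 1 0) * g 1 1
      - (g 1 0 * M 0 1 + g 1 1 * M 1 1) * g 1 0 := by
  rw [S41A_imul_10, S41A_imul_10, S41A_imul_11, S41A_iinv_00, S41A_iinv_10]; ring
theorem S41U_conj_11 (g M : SL(2, ℤ)) :
    (g * M * g⁻¹) 1 1 = -(g 1 0 * M 0 0 + g 1 1 * M 1 0) * g 0 1
      + (g 1 0 * M 0 1 + g 1 1 * M 1 1) * g 0 0 := by
  rw [S41A_imul_11, S41A_imul_10, S41A_imul_11, S41A_iinv_01, S41A_iinv_11]; ring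

/-- `r * deg γ * r⁻¹ ∈ Γ₀(N q)`. -/
theorem S41U_conj_deg_mem (γ : Gamma0 (N * q)) :
    ((S41U_r N q a b hab * S41A_deg N q γ * (S41U_r N q a b hab)⁻¹ : Gamma0 N) : SL(2, ℤ))
      ∈ Gamma0 (N * q) := by
  rw [S41A_Gamma0_mem_iff]
  show ((N * q : ℕ) : ℤ) ∣ (((S41U_r N q a b hab : Gamma0 N) : SL(2, ℤ))
    * ((S41A_deg N q γ : Gamma0 N) : SL(2, ℤ))
    * ((S41U_r N q a b hab : Gamma0 N) : SL(2, ℤ))⁻¹) 1 0
  rw [S41U_conj_10, S41U_r_10, S41U_r_11, S41A_deg_coe, S41A_degMat_00, S41A_degMat_01,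
    S41A_degMat_10, S41A_degMat_11]
  obtain ⟨m, hm⟩ := S41A_Gamma0_mem_iff.1 (S41A_degMat_mem γ)
  rw [S41A_degMat_10] at hm
  rw [hm]
  refine ⟨(γ : SL(2, ℤ)) 0 0 + q * m - N * (γ : SL(2, ℤ)) 0 1 - (γ : SL(2, ℤ)) 1 1, ?_⟩
  push_cast
  ring

/-- the Atkin–Lehner automorphism `γ ↦ W γ W⁻¹` of `Γ₀(N q)`. -/
def S41U_cW : Gamma0 (N * q) →* Gamma0 (N * q) where
  toFun γ := ⟨((S41U_r N q a b hab * S41A_deg N q γ * (S41U_r N q a b hab)⁻¹ : Gamma0 N) :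
    SL(2, ℤ)), S41U_conj_deg_mem N q a b hab γ⟩
  map_one' := by
    apply Subtype.ext
    show ((S41U_r N q a b hab * S41A_deg N q 1 * (S41U_r N q a b hab)⁻¹ : Gamma0 N) : SL(2, ℤ))
      = 1
    rw [map_one, mul_one, mul_inv_cancel]
    rfl
  map_mul' γ γ' := by
    apply Subtype.ext
    show ((S41U_r N q a b hab * S41A_deg N q (γ * γ') * (S41U_r N q a b hab)⁻¹ : Gamma0 N) :
        SL(2, ℤ))
      = ((S41U_r N q a b hab * S41A_deg N q γ * (S41U_r N q a b hab)⁻¹ : Gamma0 N) : SL(2, ℤ))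
        * ((S41U_r N q a b hab * S41A_deg N q γ' * (S41U_r N q a b hab)⁻¹ : Gamma0 N) :
          SL(2, ℤ))
    rw [← Subgroup.coe_mul, map_mul]
    congr 1
    group

/-- (i) `res (cW γ) = r * deg γ * r⁻¹`. -/
theorem S41U_res_cW (γ : Gamma0 (N * q)) :
    S41A_res N q (S41U_cW N q a b hab γ)
      = S41U_r N q a b hab * S41A_deg N q γ * (S41U_r N q a b hab)⁻¹ :=
  Subtype.ext rfl

theorem S41U_cW_coe (γ : Gamma0 (N * q)) :
    ((S41U_cW N q a b hab γ : Gamma0 (N * q)) : SL(2, ℤ))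
      = ((S41U_r N q a b hab : Gamma0 N) : SL(2, ℤ)) * S41A_degMat γ
        * ((S41U_r N q a b hab : Gamma0 N) : SL(2, ℤ))⁻¹ := rfl

/-- trace of `cW γ`. -/
theorem S41U_cW_trace (γ : Gamma0 (N * q)) :
    ((S41U_cW N q a b hab γ : SL(2, ℤ)) : Matrix (Fin 2) (Fin 2) ℤ).trace
      = ((γ : SL(2, ℤ)) : Matrix (Fin 2) (Fin 2) ℤ).trace := by
  rw [S41U_cW_coe]
  have h := S41D_trace_conj (((S41U_r N q a b hab : Gamma0 N) : SL(2, ℤ))⁻¹) (S41A_degMat γ)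
  rw [inv_inv] at h
  rw [h, ← S41A_deg_coe]
  exact S41D_deg_trace N q γ

/-- (ii) `deg (cW γ) = s∞ * res γ * s∞⁻¹`. -/
theorem S41U_deg_cW [NeZero q] (γ : Gamma0 (N * q)) :
    S41A_deg N q (S41U_cW N q a b hab γ)
      = S41U_s N q a b hab * S41A_res N q γ * (S41U_s N q a b hab)⁻¹ := by
  have hq0 : (q : ℤ) ≠ 0 := by exact_mod_cast NeZero.ne q
  have hz := S41A_q_mul_degMat_10 γ
  apply Subtype.ext
  show S41A_degMat (S41U_cW N q a b hab γ)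
    = ((S41U_s N q a b hab : Gamma0 N) : SL(2, ℤ)) * (γ : SL(2, ℤ))
      * ((S41U_s N q a b hab : Gamma0 N) : SL(2, ℤ))⁻¹
  apply S41A_ext_int
  · rw [S41A_degMat_00, S41U_cW_coe, S41U_conj_00, S41U_conj_00, S41U_r_00, S41U_r_01, S41U_r_10,
      S41U_r_11, S41U_s_00, S41U_s_01, S41U_s_10, S41U_s_11, S41A_degMat_00, S41A_degMat_01,
      S41A_degMat_11, ← hz]
    ring
  · rw [S41A_degMat_01, S41U_cW_coe, S41U_conj_01, S41U_conj_01, S41U_r_00, S41U_r_01,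
      S41U_s_00, S41U_s_01, S41A_degMat_00, S41A_degMat_01,
      S41A_degMat_11, ← hz]
    ring
  · apply mul_left_cancel₀ hq0
    rw [S41A_q_mul_degMat_10, S41U_cW_coe, S41U_conj_10, S41U_conj_10, S41U_r_10,
      S41U_r_11, S41U_s_10, S41U_s_11, S41A_degMat_00, S41A_degMat_01,
      S41A_degMat_11, ← hz]
    ring
  · rw [S41A_degMat_11, S41U_cW_coe, S41U_conj_11, S41U_conj_11, S41U_r_00, S41U_r_01, S41U_r_10,
      S41U_r_11, S41U_s_00, S41U_s_01, S41U_s_10, S41U_s_11, S41A_degMat_00, S41A_degMat_01,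
      S41A_degMat_11, ← hz]
    ring

/-- `R = r s∞ ∈ Γ₀(N q)`. -/
def S41U_R : Gamma0 (N * q) :=
  ⟨((S41U_r N q a b hab * S41U_s N q a b hab : Gamma0 N) : SL(2, ℤ)), by
    rw [S41A_Gamma0_mem_iff]
    show ((N * q : ℕ) : ℤ) ∣ (((S41U_r N q a b hab : Gamma0 N) : SL(2, ℤ))
      * ((S41U_s N q a b hab : Gamma0 N) : SL(2, ℤ))) 1 0
    rw [S41A_imul_10, S41U_r_10, S41U_r_11, S41U_s_00, S41U_s_10]
    exact ⟨a + 1, by push_cast; ring⟩⟩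

theorem S41U_res_R :
    S41A_res N q (S41U_R N q a b hab) = S41U_r N q a b hab * S41U_s N q a b hab :=
  Subtype.ext rfl

/-- `cW ∘ cW` is the inner automorphism of `R = r s∞`. -/
theorem S41U_cW_cW [NeZero q] (γ : Gamma0 (N * q)) :
    S41U_cW N q a b hab (S41U_cW N q a b hab γ)
      = S41U_R N q a b hab * γ * (S41U_R N q a b hab)⁻¹ := by
  apply S41D_res_injective N q
  rw [S41U_res_cW, S41U_deg_cW, map_mul, map_mul, map_inv, S41U_res_R]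
  group

theorem S41U_cW_surjective [NeZero q] : Function.Surjective (S41U_cW N q a b hab) := by
  intro γ
  refine ⟨S41U_cW N q a b hab ((S41U_R N q a b hab)⁻¹ * γ * S41U_R N q a b hab), ?_⟩
  rw [S41U_cW_cW]
  group

theorem S41U_cW_injective [NeZero q] : Function.Injective (S41U_cW N q a b hab) := by
  intro γ γ' h
  have h2 := congrArg (S41U_cW N q a b hab) h
  rw [S41U_cW_cW, S41U_cW_cW] at h2
  exact mul_left_cancel (mul_right_cancel h2)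

/-- `range deg = s∞ (range res) s∞⁻¹`, elementwise. -/
theorem S41U_mem_range_deg_iff [NeZero q] (x : Gamma0 N) :
    x ∈ (S41A_deg N q).range ↔
      (S41U_s N q a b hab)⁻¹ * x * S41U_s N q a b hab ∈ (S41A_res N q).range := by
  constructor
  · rintro ⟨γ, rfl⟩
    obtain ⟨γ', rfl⟩ := S41U_cW_surjective N q a b hab γ
    refine ⟨γ', ?_⟩
    rw [S41U_deg_cW]
    group
  · rintro ⟨γ, hγ⟩
    refine ⟨S41U_cW N q a b hab γ, ?_⟩
    rw [S41U_deg_cW, hγ]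
    group

end Fermat.Agent.S41
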