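import Mathlib

/-!
# S41 (level raising), package DICT (helper14), part 1: linear algebra

For a commuting family `A i` of endomorphisms of a finite-dimensional vector space `V` over any
field and scalars `θ i`:

* `S41F_exists_eigvec_of_coeigvec` : a nonzero functional `μ` with `μ ∘ A i = θ i • μ` for all `i`
  (a "co-eigenvector") forces a nonzero vector `v` with `A i v = θ i • v` for all `i`;
* `S41F_exists_coeigvec_of_eigvec` : the converse.
-/

set_option autoImplicit false

namespace Fermat.Agent.S41

open Module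

section

variable {k : Type*} [Field k] {V : Type*} [AddCommGroup V] [Module k V] [FiniteDimensional k V]
variable {ι : Type*}

/-- Stage 2: commuting operators `N i`, all nilpotent on a nonzero stable subspace `W`, have a
common nonzero kernel vector in `W`. -/
theorem S41F_exists_common_kernel (Nop : ι → Module.End k V)
    (hcomm : ∀ i j, Commute (Nop i) (Nop j)) :
    ∀ (n : ℕ) (W : Submodule k V), finrank k W = n → W ≠ ⊥ →
      (∀ i, ∀ w ∈ W, Nop i w ∈ W) →
      (∀ i, ∀ w ∈ W, ∃ m : ℕ, (Nop i ^ m) w = 0) →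
      ∃ v ∈ W, v ≠ 0 ∧ ∀ i, Nop i v = 0 := by
  intro n
  induction n using Nat.strong_induction_on with
  | _ n ih =>
    intro W hn hW hstab hnil
    by_cases hall : ∀ i, ∀ w ∈ W, Nop i w = 0
    · obtain ⟨v, hvW, hv0⟩ := Submodule.exists_mem_ne_zero_of_ne_bot hW
      exact ⟨v, hvW, hv0, fun i => hall i v hvW⟩
    · push Not at hall
      obtain ⟨i₀, w₀, hw₀W, hw₀⟩ := hall
      set W' : Submodule k V := W ⊓ LinearMap.ker (Nop i₀) with hW'
      have hW'le : W' ≤ W := inf_le_left
      have hW'lt : W' < W := by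
        refine lt_of_le_of_ne hW'le fun h => ?_
        have : w₀ ∈ W' := h ▸ hw₀W
        exact hw₀ (LinearMap.mem_ker.mp this.2)
      have hW'ne : W' ≠ ⊥ := by
        -- the last nonzero iterate of `w₀`
        obtain ⟨m, hm⟩ := hnil i₀ w₀ hw₀W
        classical
        have hex : ∃ m : ℕ, (Nop i₀ ^ m) w₀ = 0 := ⟨m, hm⟩
        set m₀ := Nat.find hex with hm₀
        have hm₀0 : (Nop i₀ ^ m₀) w₀ = 0 := Nat.find_spec hex
        have hm₀pos : m₀ ≠ 0 := by
          intro h0
          rw [h0, pow_zero, Module.End.one_apply] at hm₀0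
          rw [hm₀0, map_zero] at hw₀
          exact hw₀ rfl
        obtain ⟨m₁, hm₁⟩ := Nat.exists_eq_succ_of_ne_zero hm₀pos
        have hm₁ne : (Nop i₀ ^ m₁) w₀ ≠ 0 := Nat.find_min hex (by omega)
        have hpowmem : ∀ j : ℕ, (Nop i₀ ^ j) w₀ ∈ W := by
          intro j
          induction j with
          | zero => simpa using hw₀W
          | succ j ihj =>
            rw [pow_succ', Module.End.mul_apply]
            exact hstab i₀ _ ihj
        intro hbot
        have hmem : (Nop i₀ ^ m₁) w₀ ∈ W' := by
          refine ⟨hpowmem m₁, ?_⟩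
          show (Nop i₀ ^ m₁) w₀ ∈ LinearMap.ker (Nop i₀)
          rw [LinearMap.mem_ker, ← Module.End.mul_apply, ← pow_succ', ← Nat.succ_eq_add_one, ← hm₁]
          exact hm₀0
        rw [hbot, Submodule.mem_bot] at hmem
        exact hm₁ne hmem
      have hstab' : ∀ i, ∀ w ∈ W', Nop i w ∈ W' := by
        intro i w hw
        refine ⟨hstab i w hw.1, ?_⟩
        show Nop i w ∈ LinearMap.ker (Nop i₀)
        rw [LinearMap.mem_ker]
        have hc : Nop i₀ (Nop i w) = Nop i (Nop i₀ w) := by
          have := congrArg (fun f : Module.End k V => f w) (hcomm i₀ i).eq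
          simpa using this
        rw [hc, LinearMap.mem_ker.mp hw.2, map_zero]
      have hfr : finrank k W' < n := hn ▸ Submodule.finrank_lt_finrank_of_lt hW'lt
      obtain ⟨v, hvW', hv0, hv⟩ := ih _ hfr W' rfl hW'ne hstab'
        (fun i w hw => hnil i w (hW'le hw))
      exact ⟨v, hW'le hvW', hv0, hv⟩

/-- a co-eigenvector that does not vanish on a stable subspace `W` forces an eigenvector
in `W`. -/
theorem S41F_exists_eigvec_aux (A : ι → Module.End k V) (θ : ι → k)
    (hcomm : ∀ i j, Commute (A i) (A j)) (μ : Module.Dual k V)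
    (hμe : ∀ i v, μ (A i v) = θ i * μ v) :
    ∀ (n : ℕ) (W : Submodule k V), finrank k W = n → (∃ w ∈ W, μ w ≠ 0) →
      (∀ i, ∀ w ∈ W, A i w ∈ W) →
      ∃ v ∈ W, v ≠ 0 ∧ ∀ i, A i v = θ i • v := by
  set Nop : ι → Module.End k V := fun i => A i - θ i • (1 : Module.End k V) with hNop
  have hNapp : ∀ i v, Nop i v = A i v - θ i • v := fun i v => by
    simp [hNop]
  have hNcomm : ∀ i j, Commute (Nop i) (Nop j) := by
    intro i j
    simp only [hNop]
    have h1 : Commute (A i) (θ j • (1 : Module.End k V)) :=
      (Commute.one_right (A i)).smul_right (θ j)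
    have h2 : Commute (θ i • (1 : Module.End k V)) (A j) :=
      (Commute.one_left (A j)).smul_left (θ i)
    have h3 : Commute (θ i • (1 : Module.End k V)) (θ j • (1 : Module.End k V)) :=
      ((Commute.one_left (1 : Module.End k V)).smul_left (θ i)).smul_right (θ j)
    exact ((hcomm i j).sub_right h1).sub_left (h2.sub_right h3)
  have hμN : ∀ i v, μ (Nop i v) = 0 := by
    intro i v
    rw [hNapp, map_sub, hμe, map_smul, smul_eq_mul, sub_self]
  have hμNpow : ∀ i (m : ℕ) v, m ≠ 0 → μ ((Nop i ^ m) v) = 0 := by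
    intro i m v hm
    obtain ⟨m', rfl⟩ := Nat.exists_eq_succ_of_ne_zero hm
    rw [pow_succ', Module.End.mul_apply]
    exact hμN i _
  intro n
  induction n using Nat.strong_induction_on with
  | _ n ih =>
    intro W hn hW hstab
    have hNstab : ∀ i, ∀ w ∈ W, Nop i w ∈ W := by
      intro i w hw
      rw [hNapp]
      exact W.sub_mem (hstab i w hw) (W.smul_mem _ hw)
    have hNpowstab : ∀ i (m : ℕ), ∀ w ∈ W, (Nop i ^ m) w ∈ W := by
      intro i m
      induction m with
      | zero => intro w hw; simpa using hw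
      | succ m ihm =>
        intro w hw
        rw [pow_succ', Module.End.mul_apply]
        exact hNstab i _ (ihm w hw)
    have hWne : W ≠ ⊥ := by
      obtain ⟨w, hwW, hw⟩ := hW
      intro h
      rw [h, Submodule.mem_bot] at hwW
      rw [hwW, map_zero] at hw
      exact hw rfl
    by_cases hnil : ∀ i, ∀ w ∈ W, ∃ m : ℕ, (Nop i ^ m) w = 0
    · obtain ⟨v, hvW, hv0, hv⟩ := S41F_exists_common_kernel Nop hNcomm n W hn hWne hNstab hnil
      refine ⟨v, hvW, hv0, fun i => ?_⟩
      have := hv i
      rw [hNapp, sub_eq_zero] at this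
      exact this
    · push Not at hnil
      obtain ⟨i₀, w₀, hw₀W, hw₀⟩ := hnil
      -- Fitting decomposition of `W` for `Nop i₀`
      set f : Module.End k W := (Nop i₀).restrict (hNstab i₀) with hf
      have hfpow : ∀ (m : ℕ) (x : W), (((f ^ m) x : W) : V) = (Nop i₀ ^ m) (x : V) := by
        intro m
        induction m with
        | zero => intro x; simp
        | succ m ihm =>
          intro x
          rw [pow_succ', Module.End.mul_apply, pow_succ', Module.End.mul_apply, hf,
            LinearMap.coe_restrict_apply, ← hf, ihm]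
      obtain ⟨m, hm⟩ := Filter.eventually_atTop.mp
        (LinearMap.eventually_codisjoint_ker_pow_range_pow f)
      have hcod := hm (m + 1) (Nat.le_succ m)
      set K : Submodule k V := W ⊓ LinearMap.ker (Nop i₀ ^ (m + 1)) with hK
      have hKle : K ≤ W := inf_le_left
      have hKlt : K < W := by
        refine lt_of_le_of_ne hKle fun h => ?_
        have : w₀ ∈ K := h ▸ hw₀W
        exact hw₀ (m + 1) (LinearMap.mem_ker.mp this.2)
      have hKμ : ∃ w ∈ K, μ w ≠ 0 := by
        obtain ⟨w, hwW, hw⟩ := hW
        have htop : (⟨w, hwW⟩ : W) ∈ LinearMap.ker (f ^ (m + 1)) ⊔ LinearMap.range (f ^ (m + 1)) := by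
          rw [codisjoint_iff.mp hcod]
          exact Submodule.mem_top
        obtain ⟨a, ha, b, hb, hab⟩ := Submodule.mem_sup.mp htop
        obtain ⟨u, rfl⟩ := LinearMap.mem_range.mp hb
        refine ⟨(a : V), ⟨a.2, ?_⟩, ?_⟩
        · show (a : V) ∈ LinearMap.ker (Nop i₀ ^ (m + 1))
          rw [LinearMap.mem_ker, ← hfpow, LinearMap.mem_ker.mp ha]
          rfl
        · have h1 : (a : V) + (((f ^ (m + 1)) u : W) : V) = w := by
            have := congrArg (Subtype.val) hab
            simpa using this
          have h2 : μ (((f ^ (m + 1)) u : W) : V) = 0 := by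
            rw [hfpow]
            exact hμNpow i₀ (m + 1) _ (Nat.succ_ne_zero m)
          rw [← h1, map_add, h2, add_zero] at hw
          exact hw
      have hKstab : ∀ i, ∀ w ∈ K, A i w ∈ K := by
        intro i w hw
        refine ⟨hstab i w hw.1, ?_⟩
        show A i w ∈ LinearMap.ker (Nop i₀ ^ (m + 1))
        rw [LinearMap.mem_ker]
        have hcA : Commute (Nop i₀) (A i) := by
          simp only [hNop]
          exact (hcomm i₀ i).sub_left ((Commute.one_left (A i)).smul_left (θ i₀))
        have hc : (Nop i₀ ^ (m + 1)) (A i w) = A i ((Nop i₀ ^ (m + 1)) w) := by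
          have := congrArg (fun g : Module.End k V => g w) (hcA.pow_left (m + 1)).eq
          simpa using this
        rw [hc, LinearMap.mem_ker.mp hw.2, map_zero]
      have hfr : finrank k K < n := hn ▸ Submodule.finrank_lt_finrank_of_lt hKlt
      obtain ⟨v, hvK, hv0, hv⟩ := ih _ hfr K rfl hKμ hKstab
      exact ⟨v, hKle hvK, hv0, hv⟩

/-- **co-eigenvector ⇒ eigenvector** (any field, finite dimension, commuting family). -/
theorem S41F_exists_eigvec_of_coeigvec (A : ι → Module.End k V) (θ : ι → k)
    (hcomm : ∀ i j, Commute (A i) (A j)) (μ : Module.Dual k V) (hμ : μ ≠ 0)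
    (hμe : ∀ i v, μ (A i v) = θ i * μ v) :
    ∃ v : V, v ≠ 0 ∧ ∀ i, A i v = θ i • v := by
  have hex : ∃ w ∈ (⊤ : Submodule k V), μ w ≠ 0 := by
    by_contra hcon
    push Not at hcon
    exact hμ (LinearMap.ext fun v => hcon v Submodule.mem_top)
  obtain ⟨v, -, hv0, hv⟩ := S41F_exists_eigvec_aux A θ hcomm μ hμe _ ⊤ rfl hex
    (fun _ _ _ => Submodule.mem_top)
  exact ⟨v, hv0, hv⟩

/-- **eigenvector ⇒ co-eigenvector** (any field, finite dimension, commuting family). -/
theorem S41F_exists_coeigvec_of_eigvec (A : ι → Module.End k V) (θ : ι → k)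
    (hcomm : ∀ i j, Commute (A i) (A j)) (v : V) (hv : v ≠ 0)
    (hve : ∀ i, A i v = θ i • v) :
    ∃ μ : Module.Dual k V, μ ≠ 0 ∧ ∀ i w, μ (A i w) = θ i * μ w := by
  -- apply the previous theorem to the dual space with the transposed operators
  set At : ι → Module.End k (Module.Dual k V) := fun i => Module.Dual.transpose (A i) with hAt
  have hAtapp : ∀ i (μ : Module.Dual k V) (w : V), At i μ w = μ (A i w) := fun i μ w => rfl
  have hcommt : ∀ i j, Commute (At i) (At j) := by
    intro i j
    refine LinearMap.ext fun μ => LinearMap.ext fun w => ?_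
    show μ (A j (A i w)) = μ (A i (A j w))
    have := congrArg (fun g : Module.End k V => g w) (hcomm i j).eq
    simp only [Module.End.mul_apply] at this
    rw [this]
  set ev : Module.Dual k (Module.Dual k V) := Module.Dual.eval k V v with hev
  have hev0 : ev ≠ 0 := by
    intro h
    have h1 : ∀ μ : Module.Dual k V, μ v = 0 := fun μ => by
      have := congrArg (fun e : Module.Dual k (Module.Dual k V) => e μ) h
      simpa [hev] using this
    exact hv ((Module.forall_dual_apply_eq_zero_iff k v).mp h1)
  have heve : ∀ i (μ : Module.Dual k V), ev (At i μ) = θ i * ev μ := by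
    intro i μ
    show μ (A i v) = θ i * μ v
    rw [hve, map_smul, smul_eq_mul]
  obtain ⟨μ, hμ0, hμ⟩ := S41F_exists_eigvec_of_coeigvec At θ hcommt ev hev0 heve
  refine ⟨μ, hμ0, fun i w => ?_⟩
  have := congrArg (fun ν : Module.Dual k V => ν w) (hμ i)
  simpa [hAtapp, smul_eq_mul] using this

end

end Fermat.Agent.S41
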