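import Mathlib
import Fermat.Agent.S41.DictLin
import Fermat.Agent.S49.DeligneSerre

/-!
# S41 (level raising), package DICT (helper14), part 2: Hecke modules

`L` is a finite free `ℤ`-module with an action `ρ : H →+* End_ℤ L` of a commutative ring `H`
(e.g. the polynomial Hecke ring), `k` a field of characteristic `p > 0`, `θ : H →+* k`.

* `S41F_exists_coeig`  : if `θ` kills `ker ρ`, there is a nonzero additive `μ : L → k` with
  `μ (ρ P x) = θ P * μ x` (Nakayama);
* `S41F_exists_eigvec` : if `θ` kills `ker ρ`, there is a nonzero `θ`-eigenvector in `k ⊗ L`;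
* `S41F_lift`          : (Deligne–Serre) a `θ`-eigenvector in `k ⊗ L` gives `lam : H →+* ℤ̄` killing
  `ker ρ` and a maximal ideal `𝔪' ∋ p` of `ℤ̄` with `θ P = 0 → lam P ∈ 𝔪'`.
-/

set_option autoImplicit false
set_option linter.style.haveILetI false
set_option linter.unusedSectionVars false
open scoped TensorProduct

namespace Fermat.Agent.S41

open Module

section abstract

variable {T : Type*} [CommRing T] {L : Type*} [AddCommGroup L] [Module.Finite ℤ L]

/-- the kernel of a character with values in a field of positive characteristic of a ring which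
is integral over `ℤ` is a maximal ideal. -/
theorem S41F_ker_isMaximal [Algebra.IsIntegral ℤ T] {k : Type*} [Field k] (p : ℕ) [Fact p.Prime]
    [CharP k p] (θ : T →+* k) : (RingHom.ker θ).IsMaximal := by
  haveI : (RingHom.ker θ).IsPrime := RingHom.ker_isPrime θ
  apply Ideal.isMaximal_of_isIntegral_of_isMaximal_comap (R := ℤ)
  have hprime : ((RingHom.ker θ).comap (algebraMap ℤ T)).IsPrime := Ideal.comap_isPrime _ _
  refine hprime.isMaximal fun hbot => ?_
  have hmem : (p : ℤ) ∈ (RingHom.ker θ).comap (algebraMap ℤ T) := by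
    rw [Ideal.mem_comap, RingHom.mem_ker, eq_intCast, map_intCast]
    simp
  rw [hbot, Ideal.mem_bot] at hmem
  exact (Fact.out : p.Prime).ne_zero (by exact_mod_cast hmem)

/-- **Nakayama**: a character `θ` of `T` (with maximal kernel) which vanishes on the elements
acting as zero on the finitely generated module `L` has a nonzero co-eigenvector. -/
theorem S41F_exists_coeig_abs (σ : T →+* Module.End ℤ L) {k : Type*} [Field k] (θ : T →+* k)
    (hmax : (RingHom.ker θ).IsMaximal) (hθ : ∀ t, σ t = 0 → θ t = 0) :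
    ∃ μ : L →ₗ[ℤ] k, μ ≠ 0 ∧ ∀ t x, μ (σ t x) = θ t * μ x := by
  classical
  letI : Module T L := Module.compHom L σ
  have hsmul : ∀ (t : T) (x : L), t • x = σ t x := fun _ _ => rfl
  haveI : IsScalarTower ℤ T L := ⟨fun z t x => by
    rw [hsmul, hsmul, map_zsmul]
    rfl⟩
  haveI : Module.Finite T L := Module.Finite.of_restrictScalars_finite ℤ T L
  set 𝔫 : Ideal T := RingHom.ker θ with h𝔫
  haveI := hmax
  -- `𝔫 L ≠ L`
  have hne : (𝔫 • (⊤ : Submodule T L)) ≠ ⊤ := by
    intro htop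
    obtain ⟨r, hr1, hr0⟩ := Submodule.exists_sub_one_mem_and_smul_eq_zero_of_fg_of_le_smul 𝔫
      (⊤ : Submodule T L) Module.Finite.fg_top (by rw [htop])
    have hσr : σ r = 0 := LinearMap.ext fun x => by
      rw [← hsmul]
      exact hr0 x Submodule.mem_top
    have h1 : θ r = 0 := hθ r hσr
    rw [h𝔫, RingHom.mem_ker, map_sub, h1, map_one, zero_sub, neg_eq_zero] at hr1
    exact one_ne_zero hr1
  letI : Field (T ⧸ 𝔫) := Ideal.Quotient.field 𝔫
  -- a nonzero element of the quotient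
  obtain ⟨x₀, hx₀⟩ : ∃ x₀ : L, x₀ ∉ 𝔫 • (⊤ : Submodule T L) := by
    by_contra hcon
    push Not at hcon
    exact hne (eq_top_iff.mpr fun x _ => hcon x)
  set q₀ : L ⧸ 𝔫 • (⊤ : Submodule T L) := Submodule.Quotient.mk x₀ with hq₀
  have hq₀ne : q₀ ≠ 0 := by
    rw [hq₀, Ne, Submodule.Quotient.mk_eq_zero]
    exact hx₀
  obtain ⟨φ, hφ⟩ : ∃ φ : Module.Dual (T ⧸ 𝔫) (L ⧸ 𝔫 • (⊤ : Submodule T L)), φ q₀ ≠ 0 := by
    by_contra hcon
    push Not at hcon
    exact hq₀ne ((Module.forall_dual_apply_eq_zero_iff (T ⧸ 𝔫) q₀).mp hcon)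
  set ι : T ⧸ 𝔫 →+* k := RingHom.kerLift θ with hι
  have hιinj : Function.Injective ι := RingHom.kerLift_injective θ
  refine ⟨{ toFun := fun x => ι (φ (Submodule.Quotient.mk x))
            map_add' := fun x y => by
              rw [Submodule.Quotient.mk_add, map_add, map_add]
            map_smul' := fun z x => by
              rw [Submodule.Quotient.mk_smul, map_zsmul, map_zsmul]
              rfl }, ?_, ?_⟩
  · intro h0
    have := congrArg (fun ν : L →ₗ[ℤ] k => ν x₀) h0
    simp only [LinearMap.coe_mk, AddHom.coe_mk, LinearMap.zero_apply] at this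
    rw [← map_zero ι] at this
    exact hφ (hιinj this)
  · intro t x
    show ι (φ (Submodule.Quotient.mk (σ t x))) = θ t * ι (φ (Submodule.Quotient.mk x))
    have h1 : (Submodule.Quotient.mk (σ t x) : L ⧸ 𝔫 • (⊤ : Submodule T L))
        = (Ideal.Quotient.mk 𝔫 t) • (Submodule.Quotient.mk x : L ⧸ 𝔫 • (⊤ : Submodule T L)) := by
      rw [← hsmul]
      rfl
    rw [h1, map_smul, smul_eq_mul, map_mul]
    rfl

end abstract

section hecke

variable {H : Type*} [CommRing H] {L : Type*} [AddCommGroup L] [Module.Free ℤ L]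
  [Module.Finite ℤ L] (ρ : H →+* Module.End ℤ L)

/-- the image of `H` in `End_ℤ L` is a finite `ℤ`-module. -/
theorem S41F_finite_quot : Module.Finite ℤ (H ⧸ RingHom.ker ρ) := by
  have hinj : Function.Injective (RingHom.kerLift ρ).toIntAlgHom.toLinearMap :=
    RingHom.kerLift_injective ρ
  exact Module.Finite.of_injective _ hinj

/-- **co-eigenvector** of a character `θ` of characteristic `p` which kills `ker ρ`. -/
theorem S41F_exists_coeig {k : Type*} [Field k] (p : ℕ) [Fact p.Prime] [CharP k p]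
    (θ : H →+* k) (hθ : ∀ P, ρ P = 0 → θ P = 0) :
    ∃ μ : L →ₗ[ℤ] k, μ ≠ 0 ∧ ∀ P x, μ (ρ P x) = θ P * μ x := by
  haveI := S41F_finite_quot ρ
  haveI : Algebra.IsIntegral ℤ (H ⧸ RingHom.ker ρ) := Algebra.IsIntegral.of_finite ℤ _
  set θ' : H ⧸ RingHom.ker ρ →+* k :=
    Ideal.Quotient.lift (RingHom.ker ρ) θ (fun P hP => hθ P ((RingHom.mem_ker).mp hP)) with hθ'
  have hmax : (RingHom.ker θ').IsMaximal := S41F_ker_isMaximal p θ'
  obtain ⟨μ, hμ0, hμ⟩ := S41F_exists_coeig_abs (RingHom.kerLift ρ) θ' hmax (by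
    intro t ht
    obtain ⟨P, rfl⟩ := Ideal.Quotient.mk_surjective t
    rw [RingHom.kerLift_mk] at ht
    rw [hθ', Ideal.Quotient.lift_mk]
    exact hθ P ht)
  refine ⟨μ, hμ0, fun P x => ?_⟩
  have := hμ (Ideal.Quotient.mk _ P) x
  rwa [RingHom.kerLift_mk, hθ', Ideal.Quotient.lift_mk] at this

/-- the base-changed operators commute. -/
theorem S41F_commute_baseChange (k : Type*) [CommRing k] (P Q : H) :
    Commute ((ρ P).baseChange k) ((ρ Q).baseChange k) := by
  show (ρ P).baseChange k * (ρ Q).baseChange k = (ρ Q).baseChange k * (ρ P).baseChange k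
  rw [← LinearMap.baseChange_mul, ← LinearMap.baseChange_mul, ← map_mul, ← map_mul, mul_comm]

/-- **eigenvector in `k ⊗ L`** of a character `θ` of characteristic `p` which kills `ker ρ`. -/
theorem S41F_exists_eigvec {k : Type*} [Field k] (p : ℕ) [Fact p.Prime] [CharP k p]
    (θ : H →+* k) (hθ : ∀ P, ρ P = 0 → θ P = 0) :
    ∃ x : k ⊗[ℤ] L, x ≠ 0 ∧ ∀ P, (ρ P).baseChange k x = θ P • x := by
  obtain ⟨μ, hμ0, hμ⟩ := S41F_exists_coeig ρ p θ hθ
  set μ' : Module.Dual k (k ⊗[ℤ] L) := μ.liftBaseChange k with hμ'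
  have hμ'0 : μ' ≠ 0 := by
    intro h0
    apply hμ0
    refine LinearMap.ext fun x => ?_
    have := congrArg (fun ν : Module.Dual k (k ⊗[ℤ] L) => ν (1 ⊗ₜ x)) h0
    simpa [hμ'] using this
  have hμ'e : ∀ P (v : k ⊗[ℤ] L), μ' ((ρ P).baseChange k v) = θ P * μ' v := by
    intro P v
    induction v using TensorProduct.induction_on with
    | zero => simp
    | tmul c x =>
      rw [LinearMap.baseChange_tmul, hμ', LinearMap.liftBaseChange_tmul,
        LinearMap.liftBaseChange_tmul, hμ, smul_eq_mul, smul_eq_mul]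
      ring
    | add v w hv hw => rw [map_add, map_add, hv, hw, map_add, mul_add]
  exact S41F_exists_eigvec_of_coeigvec (fun P => (ρ P).baseChange k) (fun P => θ P)
    (fun P Q => S41F_commute_baseChange ρ k P Q) μ' hμ'0 hμ'e

/-- a character with an eigenvector in `k ⊗ L` kills `ker ρ`. -/
theorem S41F_eq_zero_of_eigvec {k : Type*} [Field k] (θ : H →+* k) (y : k ⊗[ℤ] L) (hy : y ≠ 0)
    (hye : ∀ P, (ρ P).baseChange k y = θ P • y) (P : H) (hP : ρ P = 0) : θ P = 0 := by
  have := hye P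
  rw [hP, LinearMap.baseChange_zero, LinearMap.zero_apply] at this
  rcases smul_eq_zero.mp this.symm with h | h
  · exact h
  · exact absurd h hy

/-- the complexified action. -/
noncomputable def S41F_actC : (H ⧸ RingHom.ker ρ) →+* Module.End ℂ (ℂ ⊗[ℤ] L) :=
  (Module.End.baseChangeHom ℤ ℂ L).toRingHom.comp (RingHom.kerLift ρ)

theorem S41F_actC_mk (P : H) :
    S41F_actC ρ (Ideal.Quotient.mk _ P) = (ρ P).baseChange ℂ := by
  show (Module.End.baseChangeHom ℤ ℂ L) (RingHom.kerLift ρ (Ideal.Quotient.mk _ P)) = _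
  rw [RingHom.kerLift_mk]
  rfl

theorem S41F_actC_injective : Function.Injective (S41F_actC ρ) := by
  rw [injective_iff_map_eq_zero]
  intro t ht
  obtain ⟨P, rfl⟩ := Ideal.Quotient.mk_surjective t
  rw [S41F_actC_mk] at ht
  rw [Ideal.Quotient.eq_zero_iff_mem, RingHom.mem_ker]
  refine LinearMap.ext fun x => ?_
  have h1 : (ρ P).baseChange ℂ ((1 : ℂ) ⊗ₜ[ℤ] x) = 0 := by rw [ht]; rfl
  rw [LinearMap.baseChange_tmul] at h1
  have hinj : Function.Injective (fun y : L => (1 : ℂ) ⊗ₜ[ℤ] y) := by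
    have hflat : Module.Flat ℤ L := inferInstance
    have := Module.Flat.rTensor_preserves_injective_linearMap (M := L)
      (Algebra.linearMap ℤ ℂ) (by
        intro a b hab
        exact Int.cast_injective (α := ℂ) hab)
    intro a b hab
    have e : ∀ y : L, (1 : ℂ) ⊗ₜ[ℤ] y
        = (LinearMap.rTensor L (Algebra.linearMap ℤ ℂ)) ((TensorProduct.lid ℤ L).symm y) := by
      intro y
      simp
    simp only [e] at hab
    exact (TensorProduct.lid ℤ L).symm.injective (this hab)
  exact hinj (h1.trans (TensorProduct.tmul_zero L (1 : ℂ)).symm)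

/-- **Deligne–Serre lifting**: a character of characteristic `p` with an eigenvector in `k ⊗ L`
lifts to characteristic zero. -/
theorem S41F_lift {k : Type*} [Field k] (p : ℕ) [Fact p.Prime] [CharP k p]
    (θ : H →+* k) (y : k ⊗[ℤ] L) (hy : y ≠ 0)
    (hye : ∀ P, (ρ P).baseChange k y = θ P • y) :
    ∃ (lam : H →+* integralClosure ℤ ℂ) (𝔪' : Ideal (integralClosure ℤ ℂ)),
      𝔪'.IsMaximal ∧ ((p : ℕ) : integralClosure ℤ ℂ) ∈ 𝔪' ∧
      (∀ P, ρ P = 0 → lam P = 0) ∧ (∀ P, θ P = 0 → lam P ∈ 𝔪') := by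
  haveI := S41F_finite_quot ρ
  haveI : Algebra.IsIntegral ℤ (H ⧸ RingHom.ker ρ) := Algebra.IsIntegral.of_finite ℤ _
  have hθ : ∀ P, ρ P = 0 → θ P = 0 := S41F_eq_zero_of_eigvec ρ θ y hy hye
  set θ' : H ⧸ RingHom.ker ρ →+* k :=
    Ideal.Quotient.lift (RingHom.ker ρ) θ (fun P hP => hθ P ((RingHom.mem_ker).mp hP)) with hθ'
  haveI hmax : (RingHom.ker θ').IsMaximal := S41F_ker_isMaximal p θ'
  haveI : FiniteDimensional ℂ (ℂ ⊗[ℤ] L) := Module.Finite.base_change ℤ ℂ L
  obtain ⟨g, ψ, 𝔪', -, -, h𝔪'max, h𝔪'⟩ :=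
    Fermat.Agent.S49.S49_deligneSerre (S41F_actC ρ) (S41F_actC_injective ρ) (RingHom.ker θ')
  refine ⟨ψ.comp (Ideal.Quotient.mk _), 𝔪', h𝔪'max, ?_, ?_, ?_⟩
  · have hp : ((p : ℕ) : H ⧸ RingHom.ker ρ) ∈ RingHom.ker θ' := by
      rw [RingHom.mem_ker, map_natCast]
      exact CharP.cast_eq_zero k p
    rw [← h𝔪', Ideal.mem_comap, map_natCast] at hp
    exact hp
  · intro P hP
    rw [RingHom.comp_apply, Ideal.Quotient.eq_zero_iff_mem.mpr (RingHom.mem_ker.mpr hP), map_zero]
  · intro P hP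
    have hmem : (Ideal.Quotient.mk (RingHom.ker ρ) P) ∈ RingHom.ker θ' := by
      rw [RingHom.mem_ker, hθ', Ideal.Quotient.lift_mk]
      exact hP
    rw [← h𝔪', Ideal.mem_comap] at hmem
    exact hmem

end hecke

end Fermat.Agent.S41
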