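import Mathlib
import Fermat.Agent.S41.DictAlg
import Fermat.Agent.GalRep.DimCT
import Fermat.Agent.GalRep.DimEC
import Fermat.Agent.GalRep.W1Eigen
import Fermat.Agent.S49.Multiplicative

/-!
# S41 (level raising), package DICT (helper14), part 3: cohomology ↔ eigenforms

`L = parInt N = Hom_par(Γ₀(N), ℤ)` with the action `GRD_heckeL N` of the polynomial Hecke ring
`HeckeAlg = ℤ[X_ℓ : ℓ prime]` (`X_ℓ ↦ T_ℓ` for `ℓ ∤ N`, `U_ℓ` for `ℓ ∣ N`).

* `S41F_char hf : HeckeAlg →+* ℤ̄`, the eigencharacter of a normalised eigenform `f`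
  (`X_ℓ ↦ a_ℓ(f)`), `S41F_char_coe`, `S41F_char_eq_zero` (it kills `ker (GRD_heckeL N)`);
* `S41F_eigvec_of_form` (6a) : for every field `k` of characteristic `p > 0` and `r : ℤ̄ →+* k`
  there is a nonzero `x ∈ k ⊗ parInt N` with `P x = r (θ_f P) • x` for all `P`;
* `S41F_form_of_eigvec` (6b) : a nonzero eigenvector in `k ⊗ B` (`B` a finite free `ℤ`-module with a
  Hecke action factoring through the Hecke algebra of `S₂(Γ₀(M))`) gives a normalised eigenform
  `g` of level `M`, its character `lam` and a maximal ideal `𝔪' ∋ p` of `ℤ̄` with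
  `ρ P = 0 → lam P = 0` and `θ P = 0 → lam P ∈ 𝔪'`.
-/

set_option autoImplicit false
set_option linter.style.haveILetI false
set_option linter.unusedSectionVars false
open scoped TensorProduct
open CuspForm ModularCurve CongruenceSubgroup ModularFormClass ModularCurve.Period

namespace Fermat.Agent.S41

open Fermat.Agent.S16 Fermat.Agent.GalRep Fermat.Agent.S49

variable (N : ℕ) [NeZero N]

/-- a Hecke polynomial which acts as zero on the integral cohomology acts as zero on the complex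
cohomology. -/
theorem S41F_heckeCoh_eq_zero (P : HeckeAlg) (h : GRD_heckeL N P = 0) :
    S16_heckeCohHom N P = 0 := by
  refine LinearMap.ext fun φ => ?_
  obtain ⟨x, rfl⟩ := (GRDC_Psi N).surjective φ
  rw [← GRDC_Psi_hecke, h, LinearMap.baseChange_zero, LinearMap.zero_apply, map_zero,
    LinearMap.zero_apply]

/-- a Hecke polynomial which acts as zero on the integral cohomology acts as zero on the cusp
forms. -/
theorem S41F_actC_eq_zero (P : HeckeAlg) (h : GRD_heckeL N P = 0) (f : CuspForm (Gamma0 N) 2) :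
    GRD_actC N P f = 0 := by
  have h1 := GRD_heckeCoh_esEquiv N P f 0
  rw [S41F_heckeCoh_eq_zero N P h, LinearMap.zero_apply] at h1
  have h2 := (S16_esEquiv N).injective (h1.symm.trans (map_zero (S16_esEquiv N)).symm)
  exact (Prod.mk.inj h2).1

/-- the converse. -/
theorem S41F_heckeL_eq_zero_iff (P : HeckeAlg) :
    GRD_heckeL N P = 0 ↔ heckeEvalForms N 2 P = 0 := by
  constructor
  · intro h
    apply Subtype.ext
    refine LinearMap.ext fun f => ?_
    exact S41F_actC_eq_zero N P h f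
  · exact GRD_heckeL_eq_zero N P

variable {N}

/-- the `U`-relation of a normalised eigenform. -/
theorem S41F_coeff_rel_dvd {g : CuspForm (Gamma0 N) 2} (hg : g.IsNormalizedEigenform) {ℓ : ℕ}
    (hℓ : ℓ.Prime) (hℓN : ℓ ∣ N) (n : ℕ) :
    qCoeff g (n * ℓ) = qCoeff g ℓ * qCoeff g n := by
  rcases Nat.eq_zero_or_pos n with rfl | hn
  · simp [S49_qCoeff_zero]
  obtain ⟨r, m, hm, rfl⟩ := Nat.exists_eq_pow_mul_and_not_dvd hn.ne' ℓ hℓ.ne_one
  have hcop : ∀ j : ℕ, (ℓ ^ j).Coprime m := fun j =>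
    Nat.Coprime.pow_left j ((Nat.Prime.coprime_iff_not_dvd hℓ).2 hm)
  have hpow : ∀ j : ℕ, qCoeff g (ℓ ^ (j + 1)) = qCoeff g ℓ * qCoeff g (ℓ ^ j) := by
    intro j
    cases j with
    | zero => simp [hg.qCoeff_one]
    | succ j => exact hg.qCoeff_prime_pow_of_dvd ℓ j hℓ hℓN
  have h1 : ℓ ^ r * m * ℓ = ℓ ^ (r + 1) * m := by ring
  rw [h1, hg.qCoeff_mul_of_coprime _ _ (hcop (r + 1)), hg.qCoeff_mul_of_coprime _ _ (hcop r),
    hpow r]
  ring

theorem S41F_heckeU_eigen {g : CuspForm (Gamma0 N) 2} (hg : g.IsNormalizedEigenform) {ℓ : ℕ}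
    (hℓ : ℓ.Prime) (hℓN : ℓ ∣ N) :
    CuspForm.heckeULin 2 hℓN g = qCoeff g ℓ • g := by
  have h0 : CuspForm.heckeULin 2 hℓN g + (-(qCoeff g ℓ)) • g = 0 := by
    apply S49_eq_zero_of_qCoeff
    intro n
    rw [S49_qCoeff_add, S49_qCoeff_smul, S49_qCoeff_heckeULin hℓ hℓN, S41F_coeff_rel_dvd hg hℓ hℓN n]
    ring
  rw [neg_smul] at h0
  exact eq_of_sub_eq_zero (by rw [sub_eq_add_neg]; exact h0)

/-- the complex eigencharacter `X_ℓ ↦ a_ℓ(g)`. -/
noncomputable def S41F_charC (g : CuspForm (Gamma0 N) 2) : HeckeAlg →+* ℂ :=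
  (MvPolynomial.aeval (fun ℓ : Nat.Primes => qCoeff g (ℓ : ℕ))).toRingHom

theorem S41F_charC_heckeGen (g : CuspForm (Gamma0 N) 2) (ℓ : Nat.Primes) :
    S41F_charC g (heckeGen ℓ) = qCoeff g (ℓ : ℕ) :=
  MvPolynomial.aeval_X _ ℓ

theorem S41F_mem_eigenForms {g : CuspForm (Gamma0 N) 2} (hg : g.IsNormalizedEigenform) :
    g ∈ GRD_eigenForms N (S41F_charC g) := by
  rw [GRD_mem_eigenForms]
  intro ℓ
  rw [S41F_charC_heckeGen]
  unfold GRD_actC
  by_cases hℓ : (ℓ : ℕ) ∣ N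
  · rw [heckeEvalForms_heckeGen_of_dvd hℓ, heckeAlgebra.coe_U]
    exact S41F_heckeU_eigen hg ℓ.2 hℓ
  · rw [heckeEvalForms_heckeGen_of_not_dvd hℓ, heckeAlgebra.coe_T]
    exact GRW_heckeT_eigen hg ℓ.2 hℓ

theorem S41F_actC_eigen {g : CuspForm (Gamma0 N) 2} (hg : g.IsNormalizedEigenform) (P : HeckeAlg) :
    GRD_actC N P g = S41F_charC g P • g :=
  (GRD_mem_eigenForms_iff N _ g).mp (S41F_mem_eigenForms hg) P

theorem S41F_ne_zero {g : CuspForm (Gamma0 N) 2} (hg : g.IsNormalizedEigenform) : g ≠ 0 := by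
  rintro rfl
  have := hg.qCoeff_one
  rw [S49_qCoeff_zero_form] at this
  exact zero_ne_one this

/-- the eigencharacter factors through the Hecke algebra of the integral cohomology. -/
theorem S41F_charC_eq_zero {g : CuspForm (Gamma0 N) 2} (hg : g.IsNormalizedEigenform)
    (P : HeckeAlg) (h : GRD_heckeL N P = 0) : S41F_charC g P = 0 := by
  have h1 := S41F_actC_eigen hg P
  rw [S41F_actC_eq_zero N P h g] at h1
  rcases smul_eq_zero.mp h1.symm with h2 | h2
  · exact h2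
  · exact absurd h2 (S41F_ne_zero hg)

/-- the values of the eigencharacter are algebraic integers. -/
theorem S41F_charC_integral {g : CuspForm (Gamma0 N) 2} (hg : g.IsNormalizedEigenform)
    (P : HeckeAlg) : IsIntegral ℤ (S41F_charC g P) := by
  haveI := finite_parInt N
  haveI := free_parInt N
  haveI := S41F_finite_quot (GRD_heckeL N)
  set θ' : HeckeAlg ⧸ RingHom.ker (GRD_heckeL N) →+* ℂ :=
    Ideal.Quotient.lift (RingHom.ker (GRD_heckeL N)) (S41F_charC g)
      (fun Q hQ => S41F_charC_eq_zero hg Q ((RingHom.mem_ker).mp hQ)) with hθ'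
  have hint : IsIntegral ℤ (Ideal.Quotient.mk (RingHom.ker (GRD_heckeL N)) P) :=
    Algebra.IsIntegral.isIntegral _
  have := hint.map θ'.toIntAlgHom
  simpa [hθ'] using this

/-- the eigencharacter with values in `ℤ̄`. -/
noncomputable def S41F_char {g : CuspForm (Gamma0 N) 2} (hg : g.IsNormalizedEigenform) :
    HeckeAlg →+* integralClosure ℤ ℂ :=
  ((S41F_charC g).toIntAlgHom.codRestrict (integralClosure ℤ ℂ)
    (fun P => S41F_charC_integral hg P)).toRingHom

theorem S41F_char_coe {g : CuspForm (Gamma0 N) 2} (hg : g.IsNormalizedEigenform) (P : HeckeAlg) :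
    ((S41F_char hg P : integralClosure ℤ ℂ) : ℂ) = S41F_charC g P := rfl

theorem S41F_char_heckeGen {g : CuspForm (Gamma0 N) 2} (hg : g.IsNormalizedEigenform)
    (ℓ : Nat.Primes) :
    ((S41F_char hg (heckeGen ℓ) : integralClosure ℤ ℂ) : ℂ) = qCoeff g (ℓ : ℕ) :=
  S41F_charC_heckeGen g ℓ

theorem S41F_char_eq_zero {g : CuspForm (Gamma0 N) 2} (hg : g.IsNormalizedEigenform)
    (P : HeckeAlg) (h : GRD_heckeL N P = 0) : S41F_char hg P = 0 :=
  Subtype.ext (S41F_charC_eq_zero hg P h)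

/-- **(6a)**: the eigensystem of a normalised eigenform, reduced to a field `k` of characteristic
`p > 0`, has a nonzero eigenvector in `k ⊗ parInt N`. -/
theorem S41F_eigvec_of_form {f : CuspForm (Gamma0 N) 2} (hf : f.IsNormalizedEigenform)
    (p : ℕ) [Fact p.Prime] (k : Type*) [Field k] [CharP k p] (r : integralClosure ℤ ℂ →+* k) :
    ∃ x : k ⊗[ℤ] ↥(parInt N), x ≠ 0 ∧
      ∀ P : HeckeAlg, (GRD_heckeL N P).baseChange k x = r (S41F_char hf P) • x := by
  haveI := finite_parInt N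
  haveI := free_parInt N
  exact S41F_exists_eigvec (GRD_heckeL N) p (r.comp (S41F_char hf))
    (fun P hP => by rw [RingHom.comp_apply, S41F_char_eq_zero hf P hP, map_zero])

/-- an eigenvector of a character of the polynomial Hecke ring with `a₁ = 1` is a normalised
eigenform, with `a_ℓ = lam (X_ℓ)`. -/
theorem S41F_isNormalizedEigenform {g : CuspForm (Gamma0 N) 2} (lam : HeckeAlg →+* ℂ)
    (hg : g ∈ GRD_eigenForms N lam) (h1 : qCoeff g 1 = 1) :
    g.IsNormalizedEigenform ∧ ∀ ℓ : Nat.Primes, qCoeff g (ℓ : ℕ) = lam (heckeGen ℓ) := by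
  classical
  set lamN : ℕ → ℂ := fun ℓ => if h : ℓ.Prime then lam (heckeGen ⟨ℓ, h⟩) else 0 with hlamN
  set e' : ℕ → ℂ := fun ℓ => if ℓ ∣ N then 0 else (ℓ : ℂ) with he'
  have hrel : ∀ ℓ : ℕ, ℓ.Prime → ∀ n : ℕ,
      qCoeff g (n * ℓ) + (if ℓ ∣ n then e' ℓ * qCoeff g (n / ℓ) else 0) = lamN ℓ * qCoeff g n := by
    intro ℓ hℓ n
    have hE := (GRD_mem_eigenForms N lam g).mp hg ⟨ℓ, hℓ⟩
    have h2 := congrArg (fun x : CuspForm (Gamma0 N) 2 => qCoeff x n) hE
    simp only [S49_qCoeff_smul] at h2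
    have hl : lamN ℓ = lam (heckeGen ⟨ℓ, hℓ⟩) := by simp only [hlamN, dif_pos hℓ]
    rw [hl, ← h2]
    by_cases hN : ℓ ∣ N
    · have h3 := GRD_qCoeff_actC_X_of_dvd N (ℓ := ⟨ℓ, hℓ⟩) hN g n
      simp only [he', if_pos hN, zero_mul, ite_self, add_zero]
      exact h3.symm
    · have h3 := GRD_qCoeff_actC_X N (ℓ := ⟨ℓ, hℓ⟩) hN g n
      simp only [he', if_neg hN]
      exact h3.symm
  have hlam' : ∀ ℓ : ℕ, ℓ.Prime → qCoeff g ℓ = lamN ℓ := by
    intro ℓ hℓ
    have := hrel ℓ hℓ 1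
    have hnd : ¬ ℓ ∣ 1 := fun hd => hℓ.one_lt.ne' (Nat.dvd_one.mp hd)
    rw [if_neg hnd, add_zero, one_mul, h1, mul_one] at this
    exact this
  have hrel'' : ∀ ℓ : ℕ, ℓ.Prime → ∀ n : ℕ,
      qCoeff g (n * ℓ) + (if ℓ ∣ n then e' ℓ * qCoeff g (n / ℓ) else 0) =
        qCoeff g ℓ * qCoeff g n := by
    intro ℓ hℓ n
    rw [hlam' ℓ hℓ]
    exact hrel ℓ hℓ n
  have hmult := S49_mul_of_rel e' (fun n => qCoeff g n) h1 hrel''
  have hpow : ∀ p r : ℕ, p.Prime →
      qCoeff g (p ^ (r + 2)) + e' p * qCoeff g (p ^ r) =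
        qCoeff g p * qCoeff g (p ^ (r + 1)) := by
    intro p r hp
    have := hrel'' p hp (p ^ (r + 1))
    have hd : p ∣ p ^ (r + 1) := dvd_pow_self p (Nat.succ_ne_zero r)
    have hq : p ^ (r + 1) / p = p ^ r := by
      rw [pow_succ]; exact Nat.mul_div_cancel _ hp.pos
    rw [if_pos hd, hq, ← pow_succ] at this
    exact this
  refine ⟨{ qCoeff_one := h1
            qCoeff_mul_of_coprime := hmult
            qCoeff_prime_pow_of_not_dvd := fun p r hp hpN => by
              have := hpow p r hp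
              simp only [he', if_neg hpN] at this
              linear_combination this
            qCoeff_prime_pow_of_dvd := fun p r hp hpN => by
              have := hpow p r hp
              simp only [he', if_pos hpN, zero_mul, add_zero] at this
              exact this }, fun ℓ => ?_⟩
  rw [hlam' ℓ ℓ.2]
  simp only [hlamN, dif_pos ℓ.2]
  rfl

/-- **(6b)**: a nonzero eigenvector in `k ⊗ B` (characteristic `p`) of a character `θ` of the
polynomial Hecke ring, `B` a finite free `ℤ`-module whose Hecke action factors through the Hecke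
algebra of `S₂(Γ₀(M))`, comes from a normalised eigenform `g` of level `M`. -/
theorem S41F_form_of_eigvec (M : ℕ) [NeZero M] {B : Type*} [AddCommGroup B] [Module.Free ℤ B]
    [Module.Finite ℤ B] (ρ : HeckeAlg →+* Module.End ℤ B)
    (hρ : ∀ P, heckeEvalForms M 2 P = 0 → ρ P = 0)
    (p : ℕ) [Fact p.Prime] {k : Type*} [Field k] [CharP k p] (θ : HeckeAlg →+* k)
    (y : k ⊗[ℤ] B) (hy : y ≠ 0) (hye : ∀ P, (ρ P).baseChange k y = θ P • y) :
    ∃ (g : CuspForm (Gamma0 M) 2) (𝔪' : Ideal (integralClosure ℤ ℂ))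
      (lam : HeckeAlg →+* integralClosure ℤ ℂ),
      g.IsNormalizedEigenform ∧ 𝔪'.IsMaximal ∧ ((p : ℕ) : integralClosure ℤ ℂ) ∈ 𝔪' ∧
      (∀ ℓ : Nat.Primes, ((lam (heckeGen ℓ) : integralClosure ℤ ℂ) : ℂ) = qCoeff g (ℓ : ℕ)) ∧
      (∀ P, ρ P = 0 → lam P = 0) ∧ (∀ P, θ P = 0 → lam P ∈ 𝔪') := by
  obtain ⟨lam, 𝔪', hmax, hp, hlam0, hlamθ⟩ := S41F_lift ρ p θ y hy hye
  set lamC : HeckeAlg →+* ℂ := (algebraMap (integralClosure ℤ ℂ) ℂ).comp lam with hlamC
  have hker : ∀ P : HeckeAlg, heckeEvalForms M 2 P = 0 → lamC P = 0 := by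
    intro P hP
    rw [hlamC, RingHom.comp_apply, hlam0 P (hρ P hP), map_zero]
  obtain ⟨g, hg, hg1⟩ := GRD_exists_eigenform M lamC hker
  obtain ⟨hnorm, hcoef⟩ := S41F_isNormalizedEigenform lamC hg hg1
  exact ⟨g, 𝔪', lam, hnorm, hmax, hp, fun ℓ => (hcoef ℓ).symm, hlam0, hlamθ⟩

/-- **(6b')**: the same, for a vector which is an eigenvector of the operators `X_ℓ`, `ℓ ≠ q'` only,
when `X_{q'}` acts on `B` as an involution: the eigenform `g` has `a_{q'}(g)² = 1` and
`a_ℓ(g) ≡ c` modulo `𝔪'` whenever `θ (X_ℓ) = c` (`c ∈ ℤ`, `ℓ ≠ q'`). -/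
theorem S41F_form_of_eigvec' (M : ℕ) [NeZero M] {B : Type*} [AddCommGroup B] [Module.Free ℤ B]
    [Module.Finite ℤ B] (ρ : HeckeAlg →+* Module.End ℤ B)
    (hρ : ∀ P, heckeEvalForms M 2 P = 0 → ρ P = 0)
    (q' : Nat.Primes) (hU : ρ (heckeGen q') * ρ (heckeGen q') = 1)
    (p : ℕ) [Fact p.Prime] {k : Type*} [Field k] [CharP k p] (θ : Nat.Primes → k)
    (y : k ⊗[ℤ] B) (hy : y ≠ 0)
    (hye : ∀ ℓ : Nat.Primes, ℓ ≠ q' → (ρ (heckeGen ℓ)).baseChange k y = θ ℓ • y) :
    ∃ (g : CuspForm (Gamma0 M) 2) (𝔪' : Ideal (integralClosure ℤ ℂ)),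
      g.IsNormalizedEigenform ∧ 𝔪'.IsMaximal ∧ ((p : ℕ) : integralClosure ℤ ℂ) ∈ 𝔪' ∧
      (∀ ℓ : Nat.Primes, ℓ ≠ q' → ∀ c : ℤ, θ ℓ = (c : k) →
        ∃ a : integralClosure ℤ ℂ, (a : ℂ) = qCoeff g (ℓ : ℕ) ∧
          a - (c : integralClosure ℤ ℂ) ∈ 𝔪') ∧
      qCoeff g (q' : ℕ) ^ 2 = 1 := by
  classical
  set U : Module.End k (k ⊗[ℤ] B) := (ρ (heckeGen q')).baseChange k with hUdef
  have hUU : ∀ v, U (U v) = v := by
    intro v
    have : U * U = 1 := by
      rw [hUdef, ← LinearMap.baseChange_mul, hU, LinearMap.baseChange_one]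
    have := congrArg (fun f : Module.End k (k ⊗[ℤ] B) => f v) this
    simpa using this
  have hcomm : ∀ (ℓ : Nat.Primes) v, (ρ (heckeGen ℓ)).baseChange k (U v)
      = U ((ρ (heckeGen ℓ)).baseChange k v) := by
    intro ℓ v
    have := congrArg (fun f : Module.End k (k ⊗[ℤ] B) => f v)
      (S41F_commute_baseChange ρ k (heckeGen ℓ) (heckeGen q')).eq
    simpa [hUdef] using this
  -- an eigenvector of `U` among the eigenvectors
  obtain ⟨y', ε, hy', hε, hUy', hye'⟩ : ∃ (y' : k ⊗[ℤ] B) (ε : k), y' ≠ 0 ∧ U y' = ε • y' ∧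
      (∀ ℓ : Nat.Primes, ℓ ≠ q' → (ρ (heckeGen ℓ)).baseChange k y' = θ ℓ • y') ∧ True := by
    by_cases h : U y + y = 0
    · refine ⟨y, -1, hy, ?_, hye, trivial⟩
      rw [neg_one_smul]
      exact eq_neg_of_add_eq_zero_left h
    · refine ⟨U y + y, 1, h, ?_, ?_, trivial⟩
      · rw [map_add, hUU, one_smul, add_comm]
      · intro ℓ hℓ
        rw [map_add, hcomm, hye ℓ hℓ, map_smul, smul_add]
  set θ' : HeckeAlg →+* k :=
    (MvPolynomial.aeval (fun ℓ : Nat.Primes => if ℓ = q' then ε else θ ℓ)).toRingHom with hθ'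
  have hθ'X : ∀ ℓ : Nat.Primes, θ' (heckeGen ℓ) = if ℓ = q' then ε else θ ℓ := fun ℓ =>
    MvPolynomial.aeval_X _ ℓ
  have hgen : ∀ ℓ : Nat.Primes, (ρ (heckeGen ℓ)).baseChange k y' = θ' (heckeGen ℓ) • y' := by
    intro ℓ
    rw [hθ'X]
    by_cases hℓ : ℓ = q'
    · rw [if_pos hℓ, hℓ]
      exact hε
    · rw [if_neg hℓ]
      exact hUy' ℓ hℓ
  have hall : ∀ P : HeckeAlg, (ρ P).baseChange k y' = θ' P • y' := by
    intro P
    induction P using MvPolynomial.induction_on with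
    | C z =>
      rw [show (MvPolynomial.C z : HeckeAlg) = (z : HeckeAlg) from eq_intCast _ z, map_intCast,
        map_intCast]
      have : ((z : Module.End ℤ B)).baseChange k = (z : Module.End k (k ⊗[ℤ] B)) := by
        have := map_intCast (Module.End.baseChangeHom ℤ k B) z
        exact this
      rw [this, Module.End.intCast_apply, Int.cast_smul_eq_zsmul]
    | add P Q hP hQ =>
      rw [map_add, LinearMap.baseChange_add, LinearMap.add_apply, hP, hQ, map_add, add_smul]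
    | mul_X P ℓ hP =>
      rw [map_mul, LinearMap.baseChange_mul, Module.End.mul_apply,
        show (MvPolynomial.X ℓ : HeckeAlg) = heckeGen ℓ from rfl, hgen ℓ, map_smul, hP, map_mul,
        smul_smul, mul_comm]
  obtain ⟨g, 𝔪', lam, hnorm, hmax, hp, hcoef, hlam0, hlamθ⟩ :=
    S41F_form_of_eigvec M ρ hρ p θ' y' hy' hall
  refine ⟨g, 𝔪', hnorm, hmax, hp, fun ℓ hℓ c hc => ⟨lam (heckeGen ℓ), hcoef ℓ, ?_⟩, ?_⟩
  · have h0 : θ' (heckeGen ℓ - (c : HeckeAlg)) = 0 := by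
      rw [map_sub, hθ'X, if_neg hℓ, map_intCast, hc, sub_self]
    have := hlamθ _ h0
    rwa [map_sub, map_intCast] at this
  · have h0 : ρ (heckeGen q' * heckeGen q' - 1) = 0 := by
      rw [map_sub, map_mul, hU, map_one, sub_self]
    have h1 := hlam0 _ h0
    rw [map_sub, map_mul, map_one, sub_eq_zero] at h1
    have h2 := congrArg (fun a : integralClosure ℤ ℂ => (a : ℂ)) h1
    simp only [MulMemClass.coe_mul, OneMemClass.coe_one, hcoef q'] at h2
    rw [pow_two]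
    exact h2

end Fermat.Agent.S41
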