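import Mathlib
import Fermat.Agent.S41.UNewMat
import Fermat.Agent.GalRep.DimHecke
import Fermat.Agent.S41.DegId

/-!
# S41 / UNEW (helper16), part 2: `U_q² = 1` on `ker ψ`

`L' = parInt (N q)`, `q` prime, `q ∤ N`, Bezout data `q a − N b = 1`.

* `S41U_w : L' →ₗ[ℤ] L'`, `χ ↦ χ ∘ cW` (Atkin–Lehner involution), `S41U_w_w : w (w χ) = χ`;
* `S41U_trB_eq_trA_w : trB χ = trA (w χ)`, `S41U_trA_eq_trB_w : trA χ = trB (w χ)`   (SWAP);
* `S41U_alpha_trB : α* (trB χ) = U χ + w χ`   (KEY; needs the explicit transversal of `trB`);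
* `S41U_U_eq_neg_w`, `S41U_U_U`, `S41U_U_mem_ker`, `S41U_w_mem_ker` : on `ker trA ∩ ker trB`
  `U = − w`, `U² = 1`, and the kernel is stable under `U` and `w`.
-/

set_option autoImplicit false
set_option maxHeartbeats 1000000
set_option linter.unusedSectionVars false
set_option linter.style.haveILetI false

open Matrix MatrixGroups CongruenceSubgroup Matrix.SpecialLinearGroup
open ModularCurve ModularCurve.Period
open P2MW.S_ModularForm_heckeT_slash_eq_self_of_mem_Gamma0.ModularForm.HeckeSlashInvariance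
open ModularForm

namespace Fermat.Agent.S41

open Fermat.Agent.S16 Fermat.Agent.GalRep

section w

variable (N q : ℕ) [NeZero N] [NeZero q] (a b : ℤ) (hab : (q : ℤ) * a - N * b = 1)

/-- the Atkin–Lehner involution `w_q` on `parInt (N q)`. -/
noncomputable def S41U_w : ↥(parInt (N * q)) →ₗ[ℤ] ↥(parInt (N * q)) where
  toFun χ := ⟨(χ : Additive (Gamma0 (N * q)) →+ ℤ).comp
      (MonoidHom.toAdditive (S41U_cW N q a b hab)),
    S41D_comp_parabolic _ (S41U_cW_trace N q a b hab) _ χ.2⟩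
  map_add' _ _ := Subtype.ext rfl
  map_smul' _ _ := Subtype.ext rfl

theorem S41U_w_apply (χ : ↥(parInt (N * q))) (γ : Gamma0 (N * q)) :
    ((S41U_w N q a b hab χ : ↥(parInt (N * q))) : Additive (Gamma0 (N * q)) →+ ℤ)
        (Additive.ofMul γ)
      = (χ : Additive (Gamma0 (N * q)) →+ ℤ) (Additive.ofMul (S41U_cW N q a b hab γ)) := rfl

/-- homomorphisms to `ℤ` are conjugation invariant. -/
theorem S41U_conj_inv {Γ : Type*} [Group Γ] (χ : Additive Γ →+ ℤ) (g x : Γ) :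
    χ (Additive.ofMul (g * x * g⁻¹)) = χ (Additive.ofMul x) := by
  rw [ofMul_mul, ofMul_mul, map_add, map_add, ofMul_inv, map_neg]
  abel

/-- `w² = 1`. -/
theorem S41U_w_w (χ : ↥(parInt (N * q))) :
    S41U_w N q a b hab (S41U_w N q a b hab χ) = χ := by
  apply Subtype.ext
  refine AddMonoidHom.ext fun γ => ?_
  obtain ⟨γ, rfl⟩ := Additive.ofMul.surjective γ
  rw [S41U_w_apply, S41U_w_apply, S41U_cW_cW, S41U_conj_inv]

end w

section swap

/-- moving a transversal: if `x ∈ K' ↔ s⁻¹ x s ∈ K` and `t` is a transversal of `K`, then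
`i ↦ t i * s⁻¹` is a transversal of `K'`. -/
theorem S41U_transversal_conj {G : Type*} [Group G] (K K' : Subgroup G) (s : G)
    (hK : ∀ x, x ∈ K' ↔ s⁻¹ * x * s ∈ K) {ι : Type*} (t : ι → G)
    (ht : Function.Bijective (fun i => (t i : G ⧸ K))) :
    Function.Bijective (fun i => ((t i * s⁻¹ : G) : G ⧸ K')) := by
  constructor
  · intro i j hij
    apply ht.1
    have h1 : (t i * s⁻¹)⁻¹ * (t j * s⁻¹) ∈ K' := QuotientGroup.eq.mp hij
    rw [hK] at h1
    apply QuotientGroup.eq.mpr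
    have e : s⁻¹ * ((t i * s⁻¹)⁻¹ * (t j * s⁻¹)) * s = (t i)⁻¹ * t j := by group
    rwa [e] at h1
  · intro x
    obtain ⟨x, rfl⟩ := QuotientGroup.mk_surjective x
    obtain ⟨i, hi⟩ := ht.2 ((x * s : G) : G ⧸ K)
    refine ⟨i, ?_⟩
    have h1 : (t i)⁻¹ * (x * s) ∈ K := QuotientGroup.eq.mp hi
    apply QuotientGroup.eq.mpr
    rw [hK]
    have e : s⁻¹ * ((t i * s⁻¹)⁻¹ * x) * s = (t i)⁻¹ * (x * s) := by group
    rwa [e]

/-- every element has coset data with respect to the canonical transversal. -/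
theorem S41U_exists_datum {G H : Type*} [Group G] [Group H] (j : H →* G) (γ : G) :
    ∃ (σ : G ⧸ j.range → G ⧸ j.range) (h : G ⧸ j.range → H),
      ∀ i : G ⧸ j.range, γ * (Quotient.out (σ i) : G) = (Quotient.out i : G) * j (h i) := by
  have key : ∀ i : G ⧸ j.range, ∃ h : H,
      γ * (Quotient.out (γ⁻¹ • i) : G) = (Quotient.out i : G) * j h := by
    intro i
    have h1 : ((γ * (Quotient.out (γ⁻¹ • i) : G) : G) : G ⧸ j.range) = i := by
      show γ • ((Quotient.out (γ⁻¹ • i) : G) : G ⧸ j.range) = i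
      rw [QuotientGroup.out_eq', smul_inv_smul]
    have h2 : ((Quotient.out i : G) : G ⧸ j.range) = i := QuotientGroup.out_eq' i
    have h3 : (Quotient.out i : G)⁻¹ * (γ * (Quotient.out (γ⁻¹ • i) : G)) ∈ j.range :=
      QuotientGroup.eq.mp (h2.trans h1.symm)
    obtain ⟨h, hh⟩ := h3
    exact ⟨h, by rw [hh, mul_inv_cancel_left]⟩
  choose h hh using key
  exact ⟨fun i => γ⁻¹ • i, h, hh⟩

variable (N q : ℕ) [NeZero N] [NeZero q] (a b : ℤ) (hab : (q : ℤ) * a - N * b = 1)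

/-- **SWAP**: `trB = trA ∘ w`. -/
theorem S41U_trB_eq_trA_w (χ : ↥(parInt (N * q))) :
    S41D_trB N q χ = S41D_trA N q (S41U_w N q a b hab χ) := by
  classical
  haveI := S41D_res_finiteIndex N q
  letI : Fintype (Gamma0 N ⧸ (S41A_res N q).range) :=
    Subgroup.fintypeQuotientOfFiniteIndex
  apply Subtype.ext
  refine AddMonoidHom.ext fun γ => ?_
  obtain ⟨γ, rfl⟩ := Additive.ofMul.surjective γ
  obtain ⟨σ, h, hh⟩ := S41U_exists_datum (S41A_res N q) γ
  have htA : Function.Bijective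
      (fun i : Gamma0 N ⧸ (S41A_res N q).range =>
        ((Quotient.out i : Gamma0 N) : Gamma0 N ⧸ (S41A_res N q).range)) := by
    have : (fun i : Gamma0 N ⧸ (S41A_res N q).range =>
        ((Quotient.out i : Gamma0 N) : Gamma0 N ⧸ (S41A_res N q).range)) = id :=
      funext fun i => QuotientGroup.out_eq' i
    rw [this]
    exact Function.bijective_id
  have htB := S41U_transversal_conj (S41A_res N q).range (S41A_deg N q).range
    (S41U_s N q a b hab) (S41U_mem_range_deg_iff N q a b hab) _ htA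
  rw [S41D_trA_apply N q _ _ htA γ σ h hh,
    S41D_trB_apply N q χ _ htB γ σ (fun i => S41U_cW N q a b hab (h i)) (fun i => by
      rw [S41U_deg_cW, ← mul_assoc, hh i]
      group)]
  rfl

/-- **SWAP**: `trA = trB ∘ w`. -/
theorem S41U_trA_eq_trB_w (χ : ↥(parInt (N * q))) :
    S41D_trA N q χ = S41D_trB N q (S41U_w N q a b hab χ) := by
  rw [S41U_trB_eq_trA_w N q a b hab, S41U_w_w]

end swap

section key

variable (N q : ℕ) [NeZero N] [Fact q.Prime] (a b : ℤ) (hab : (q : ℤ) * a - N * b = 1)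

theorem S41U_s_eq_sInf : S41U_s N q a b hab = S41D_sInf N hab := rfl

theorem S41U_r_eq_r : S41U_r N q a b hab = S41D_r N hab := rfl

/-- the group form of the `U_q` coset relation: from
`heckeMatrix q j · γ = g' · heckeMatrix q j'` we get `T^j · γ = deg(g') · T^{j'}` in `Γ₀(N)`. -/
theorem S41U_U_datum_grp (γ g' : Gamma0 (N * q)) (j j' : ℕ)
    (hmul : heckeMatrix q j * mapGL ℝ ((γ : Gamma0 (N * q)) : SL(2, ℤ))
      = mapGL ℝ ((g' : Gamma0 (N * q)) : SL(2, ℤ)) * heckeMatrix q j') :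
    S41D_T N (j : ℤ) * S41A_res N q γ = S41A_deg N q g' * S41D_T N (j' : ℤ) := by
  have hq : q ≠ 0 := (Fact.out : q.Prime).ne_zero
  apply Subtype.ext
  apply mapGL_injective (S := ℝ)
  apply mul_left_cancel (a := heckeMatrix q 0)
  rw [Subgroup.coe_mul, Subgroup.coe_mul, map_mul, map_mul, ← mul_assoc, ← mul_assoc,
    S41D_D_T hq j, S41D_D_deg hq g', mul_assoc _ (heckeMatrix q 0), S41D_D_T hq j',
    OneMemClass.coe_one, map_one, one_mul, one_mul, S41A_res_coe, S41A_res_coe, hmul]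

/-- **KEY**: `α* ∘ trB = U_q + w_q` on `parInt (N q)`. -/
theorem S41U_alpha_trB (χ : ↥(parInt (N * q))) :
    S41D_alpha N q (S41D_trB N q χ)
      = GRD_heckeL (N * q) (ModularCurve.heckeGen ⟨q, Fact.out⟩) χ + S41U_w N q a b hab χ := by
  classical
  have hq : q.Prime := Fact.out
  haveI : NeZero q := ⟨hq.ne_zero⟩
  haveI : Fact ((⟨q, Fact.out⟩ : Nat.Primes) : ℕ).Prime := ⟨hq⟩
  apply Subtype.ext
  refine AddMonoidHom.ext fun γ => ?_
  obtain ⟨γ, rfl⟩ := Additive.ofMul.surjective γ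
  obtain ⟨σ, g', hmul⟩ := S16_exists_heckeU_data (N := N * q) (Dvd.intro_left N rfl) γ
  rw [S41D_alpha_apply,
    S41D_trB_apply N q χ (fun i => (S41D_sB hab i)⁻¹) (S41D_sB_bijective hab) (S41A_res N q γ)
      (Option.map σ) (fun i => i.elim (S41U_cW N q a b hab γ) g') ?_]
  · refine (Fintype.sum_option _).trans ?_
    show _ = ((GRD_heckeL (N * q) (ModularCurve.heckeGen ⟨q, Fact.out⟩) χ : ↥(parInt (N * q))) :
        Additive (Gamma0 (N * q)) →+ ℤ) (Additive.ofMul γ)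
      + ((S41U_w N q a b hab χ : ↥(parInt (N * q))) : Additive (Gamma0 (N * q)) →+ ℤ)
        (Additive.ofMul γ)
    rw [GRD_heckeL_heckeU (N * q) ⟨q, Fact.out⟩ (Dvd.intro_left N rfl) χ γ σ g' hmul,
      S41U_w_apply, add_comm]
    rfl
  · intro i
    induction i using OnePoint.rec with
    | infty =>
      show S41A_res N q γ * (S41D_sInf N hab)⁻¹
        = (S41D_sInf N hab)⁻¹ * S41A_deg N q (S41U_cW N q a b hab γ)
      rw [S41U_deg_cW, S41U_s_eq_sInf]
      group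
    | coe j =>
      show S41A_res N q γ * (S41D_T N ((σ j).val : ℤ))⁻¹
        = (S41D_T N (j.val : ℤ))⁻¹ * S41A_deg N q (g' j)
      have h1 := S41U_U_datum_grp N q γ (g' j) j.val (σ j).val (hmul j)
      calc S41A_res N q γ * (S41D_T N ((σ j).val : ℤ))⁻¹
          = (S41D_T N (j.val : ℤ))⁻¹ * (S41D_T N (j.val : ℤ) * S41A_res N q γ)
            * (S41D_T N ((σ j).val : ℤ))⁻¹ := by group
        _ = (S41D_T N (j.val : ℤ))⁻¹ * S41A_deg N q (g' j) := by rw [h1]; group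

end key

section main

variable (N q : ℕ) [NeZero N] [Fact q.Prime] (a b : ℤ) (hab : (q : ℤ) * a - N * b = 1)

/-- `w ∘ α* = β*`. -/
theorem S41U_w_alpha (x : ↥(parInt N)) :
    haveI : NeZero q := ⟨(Fact.out : q.Prime).ne_zero⟩
    S41U_w N q a b hab (S41D_alpha N q x) = S41D_beta N q x := by
  haveI : NeZero q := ⟨(Fact.out : q.Prime).ne_zero⟩
  apply Subtype.ext
  refine AddMonoidHom.ext fun γ => ?_
  obtain ⟨γ, rfl⟩ := Additive.ofMul.surjective γ
  rw [S41U_w_apply, S41D_alpha_apply, S41D_beta_apply, S41U_res_cW, S41U_conj_inv]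

/-- `w ∘ β* = α*`. -/
theorem S41U_w_beta (x : ↥(parInt N)) :
    haveI : NeZero q := ⟨(Fact.out : q.Prime).ne_zero⟩
    S41U_w N q a b hab (S41D_beta N q x) = S41D_alpha N q x := by
  haveI : NeZero q := ⟨(Fact.out : q.Prime).ne_zero⟩
  apply Subtype.ext
  refine AddMonoidHom.ext fun γ => ?_
  obtain ⟨γ, rfl⟩ := Additive.ofMul.surjective γ
  rw [S41U_w_apply, S41D_alpha_apply, S41D_beta_apply, S41U_deg_cW, S41U_conj_inv]

/-- `U_q ∘ α* = α* ∘ T_q − β*`. -/
theorem S41U_U_alpha (hqN : ¬ q ∣ N) (x : ↥(parInt N)) :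
    GRD_heckeL (N * q) (ModularCurve.heckeGen ⟨q, Fact.out⟩) (S41D_alpha N q x)
      = S41D_alpha N q (GRD_heckeL N (ModularCurve.heckeGen ⟨q, Fact.out⟩) x)
        - S41D_beta N q x := by
  obtain ⟨a, b, hab⟩ := S41D_exists_ab (Fact.out : q.Prime) hqN
  have h := S41U_alpha_trB N q a b hab (S41D_alpha N q x)
  rw [S41D_trB_alpha N q hqN, S41U_w_alpha] at h
  rw [h, add_sub_cancel_right]

/-- `U_q ∘ β* = q · α*`. -/
theorem S41U_U_beta (hqN : ¬ q ∣ N) (x : ↥(parInt N)) :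
    GRD_heckeL (N * q) (ModularCurve.heckeGen ⟨q, Fact.out⟩) (S41D_beta N q x)
      = (q : ℤ) • S41D_alpha N q x := by
  obtain ⟨a, b, hab⟩ := S41D_exists_ab (Fact.out : q.Prime) hqN
  have h := S41U_alpha_trB N q a b hab (S41D_beta N q x)
  rw [S41D_trB_beta N q hqN, S41U_w_beta, map_smul] at h
  have h2 : GRD_heckeL (N * q) (ModularCurve.heckeGen ⟨q, Fact.out⟩) (S41D_beta N q x)
      = ((q : ℤ) + 1) • S41D_alpha N q x - S41D_alpha N q x := by
    rw [h, add_sub_cancel_right]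
  rw [h2, add_smul, one_smul, add_sub_cancel_right]

/-- on `ker trB`: `U_q = − w_q`. -/
theorem S41U_U_eq_neg_w (χ : ↥(parInt (N * q))) (hB : S41D_trB N q χ = 0) :
    haveI : NeZero q := ⟨(Fact.out : q.Prime).ne_zero⟩
    GRD_heckeL (N * q) (ModularCurve.heckeGen ⟨q, Fact.out⟩) χ = - S41U_w N q a b hab χ := by
  have h := S41U_alpha_trB N q a b hab χ
  rw [hB, map_zero] at h
  exact eq_neg_of_add_eq_zero_left h.symm

/-- `ker ψ` is stable under `w_q`. -/
theorem S41U_w_mem_ker (χ : ↥(parInt (N * q))) (hA : S41D_trA N q χ = 0)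
    (hB : S41D_trB N q χ = 0) :
    haveI : NeZero q := ⟨(Fact.out : q.Prime).ne_zero⟩
    S41D_trA N q (S41U_w N q a b hab χ) = 0 ∧ S41D_trB N q (S41U_w N q a b hab χ) = 0 := by
  haveI : NeZero q := ⟨(Fact.out : q.Prime).ne_zero⟩
  exact ⟨by rw [← S41U_trB_eq_trA_w, hB], by rw [← S41U_trA_eq_trB_w, hA]⟩

/-- `ker ψ` is stable under `U_q`. -/
theorem S41U_U_mem_ker (hqN : ¬ q ∣ N) (χ : ↥(parInt (N * q))) (hA : S41D_trA N q χ = 0)
    (hB : S41D_trB N q χ = 0) :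
    S41D_trA N q (GRD_heckeL (N * q) (ModularCurve.heckeGen ⟨q, Fact.out⟩) χ) = 0
      ∧ S41D_trB N q (GRD_heckeL (N * q) (ModularCurve.heckeGen ⟨q, Fact.out⟩) χ) = 0 := by
  obtain ⟨a, b, hab⟩ := S41D_exists_ab (Fact.out : q.Prime) hqN
  obtain ⟨h1, h2⟩ := S41U_w_mem_ker N q a b hab χ hA hB
  rw [S41U_U_eq_neg_w N q a b hab χ hB, map_neg, map_neg, h1, h2, neg_zero]
  exact ⟨rfl, rfl⟩

/-- **`U_q² = 1` on `ker ψ`.** -/
theorem S41U_U_U (hqN : ¬ q ∣ N) (χ : ↥(parInt (N * q))) (hA : S41D_trA N q χ = 0)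
    (hB : S41D_trB N q χ = 0) :
    GRD_heckeL (N * q) (ModularCurve.heckeGen ⟨q, Fact.out⟩)
      (GRD_heckeL (N * q) (ModularCurve.heckeGen ⟨q, Fact.out⟩) χ) = χ := by
  haveI : NeZero q := ⟨(Fact.out : q.Prime).ne_zero⟩
  obtain ⟨a, b, hab⟩ := S41D_exists_ab (Fact.out : q.Prime) hqN
  obtain ⟨h1, h2⟩ := S41U_w_mem_ker N q a b hab χ hA hB
  rw [S41U_U_eq_neg_w N q a b hab χ hB, map_neg, S41U_U_eq_neg_w N q a b hab _ h2, neg_neg,
    S41U_w_w]

end main

section packaged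

variable (N q : ℕ) [NeZero N] [Fact q.Prime]

/-- **UNEW, packaged** (no Bezout data): for `q ∤ N` prime, `U_q` preserves
`ker ψ = ker trA ∩ ker trB ⊆ parInt (N q)` and squares to `1` on it. -/
theorem S41U_main (hqN : ¬ q ∣ N) (χ : ↥(parInt (N * q))) (hA : S41D_trA N q χ = 0)
    (hB : S41D_trB N q χ = 0) :
    S41D_trA N q (GRD_heckeL (N * q) (ModularCurve.heckeGen ⟨q, Fact.out⟩) χ) = 0
      ∧ S41D_trB N q (GRD_heckeL (N * q) (ModularCurve.heckeGen ⟨q, Fact.out⟩) χ) = 0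
      ∧ GRD_heckeL (N * q) (ModularCurve.heckeGen ⟨q, Fact.out⟩)
          (GRD_heckeL (N * q) (ModularCurve.heckeGen ⟨q, Fact.out⟩) χ) = χ := by
  obtain ⟨h1, h2⟩ := S41U_U_mem_ker N q hqN χ hA hB
  exact ⟨h1, h2, S41U_U_U N q hqN χ hA hB⟩

/-- `U_q ∘ α* = α* ∘ T_q − β*`, `U_q ∘ β* = q · α*` (no Bezout data). -/
theorem S41U_U_old (hqN : ¬ q ∣ N) (x : ↥(parInt N)) :
    GRD_heckeL (N * q) (ModularCurve.heckeGen ⟨q, Fact.out⟩) (S41D_alpha N q x)
        = S41D_alpha N q (GRD_heckeL N (ModularCurve.heckeGen ⟨q, Fact.out⟩) x)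
          - S41D_beta N q x
      ∧ GRD_heckeL (N * q) (ModularCurve.heckeGen ⟨q, Fact.out⟩) (S41D_beta N q x)
        = (q : ℤ) • S41D_alpha N q x := by
  exact ⟨S41U_U_alpha N q hqN x, S41U_U_beta N q hqN x⟩

end packaged

end Fermat.Agent.S41
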