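import Mathlib
import Fermat.Agent.S41.UNew
import Fermat.Agent.S41.DegPoly

/-!
# S41 / UNEW (helper16), part 3: the full Hecke action on `B = ker ψ`

`q` prime, `q ∤ N`, `B = S41D_B N q = ker trA ⊓ ker trB ⊆ parInt (N q)`.

* `S41U_B_stable` : `B` is stable under `GRD_heckeL (N q) P` for EVERY `P : HeckeAlg`
  (`T_ℓ`, `U_r` by DEGEN, `U_q` by UNEW);
* `S41U_rhoFull N q hqN : HeckeAlg →+* Module.End ℤ B`, `S41U_rhoFull_subtype`, `S41U_rhoFull_apply`;
* `S41U_rhoFull_eq_zero` : it factors through the Hecke algebra of `S₂(Γ₀(N q))`;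
* `S41U_rhoFull_U` : `ρ (X_q) * ρ (X_q) = 1`;
* `S41U_rhoFull_incR` : `ρ ∘ incR = S41D_rhoB` (the action used by ALG);
* `S41U_B_free`, `S41U_B_finite`, `S41U_B_saturated`.

These are exactly the hypotheses of `S41F_form_of_eigvec'` (DICT (6b')) for `M = N q`.
-/

set_option autoImplicit false
set_option linter.unusedSectionVars false
set_option linter.style.haveILetI false

open Matrix MatrixGroups CongruenceSubgroup Matrix.SpecialLinearGroup
open ModularCurve ModularCurve.Period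

namespace Fermat.Agent.S41

open Fermat.Agent.S16 Fermat.Agent.GalRep

section full

variable (N q : ℕ) [NeZero N] [Fact q.Prime]

/-- `B = ker ψ` is stable under every Hecke generator of level `N q`. -/
theorem S41U_B_stable_gen (hqN : ¬ q ∣ N) (ℓ : Nat.Primes) (z : ↥(parInt (N * q)))
    (hz : z ∈ S41D_B N q) :
    GRD_heckeL (N * q) (ModularCurve.heckeGen ℓ) z ∈ S41D_B N q := by
  by_cases h : (ℓ : ℕ) = q
  · have hℓ : ℓ = ⟨q, Fact.out⟩ := Subtype.ext h
    rw [hℓ]
    rw [S41D_mem_B] at hz ⊢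
    exact S41U_U_mem_ker N q hqN z hz.1 hz.2
  · have := S41D_ker_psi_stable N q hqN (MvPolynomial.X ⟨ℓ, h⟩) z hz
    rwa [S41D_rho'_X] at this

/-- `B = ker ψ` is stable under the whole polynomial Hecke ring. -/
theorem S41U_B_stable (hqN : ¬ q ∣ N) (P : ModularCurve.HeckeAlg) (z : ↥(parInt (N * q)))
    (hz : z ∈ S41D_B N q) :
    GRD_heckeL (N * q) P z ∈ S41D_B N q := by
  induction P using MvPolynomial.induction_on generalizing z with
  | C c =>
    rw [show (MvPolynomial.C c : ModularCurve.HeckeAlg) = (c : ModularCurve.HeckeAlg) from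
      eq_intCast _ c, map_intCast, Module.End.intCast_apply]
    exact Submodule.smul_mem _ _ hz
  | add P Q hP hQ =>
    rw [map_add, LinearMap.add_apply]
    exact Submodule.add_mem _ (hP z hz) (hQ z hz)
  | mul_X P ℓ hP =>
    rw [map_mul, Module.End.mul_apply]
    exact hP _ (S41U_B_stable_gen N q hqN ℓ z hz)

/-- **the full Hecke action on `B = ker ψ`.** -/
noncomputable def S41U_rhoFull (hqN : ¬ q ∣ N) :
    ModularCurve.HeckeAlg →+* Module.End ℤ ↥(S41D_B N q) where
  toFun P := (GRD_heckeL (N * q) P).restrict (fun z hz => S41U_B_stable N q hqN P z hz)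
  map_one' := by
    refine LinearMap.ext fun z => Subtype.ext ?_
    show GRD_heckeL (N * q) 1 (z : ↥(parInt (N * q))) = z
    rw [map_one]; rfl
  map_mul' P Q := by
    refine LinearMap.ext fun z => Subtype.ext ?_
    show GRD_heckeL (N * q) (P * Q) (z : ↥(parInt (N * q)))
      = GRD_heckeL (N * q) P (GRD_heckeL (N * q) Q (z : ↥(parInt (N * q))))
    rw [map_mul]; rfl
  map_zero' := by
    refine LinearMap.ext fun z => Subtype.ext ?_
    show GRD_heckeL (N * q) 0 (z : ↥(parInt (N * q))) = 0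
    rw [map_zero]; rfl
  map_add' P Q := by
    refine LinearMap.ext fun z => Subtype.ext ?_
    show GRD_heckeL (N * q) (P + Q) (z : ↥(parInt (N * q)))
      = GRD_heckeL (N * q) P (z : ↥(parInt (N * q))) + GRD_heckeL (N * q) Q (z : ↥(parInt (N * q)))
    rw [map_add]; rfl

theorem S41U_rhoFull_apply (hqN : ¬ q ∣ N) (P : ModularCurve.HeckeAlg) (z : ↥(S41D_B N q)) :
    ((S41U_rhoFull N q hqN P z : ↥(S41D_B N q)) : ↥(parInt (N * q)))
      = GRD_heckeL (N * q) P (z : ↥(parInt (N * q))) := rfl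

theorem S41U_rhoFull_subtype (hqN : ¬ q ∣ N) (P : ModularCurve.HeckeAlg) :
    (S41D_B N q).subtype ∘ₗ S41U_rhoFull N q hqN P
      = GRD_heckeL (N * q) P ∘ₗ (S41D_B N q).subtype :=
  LinearMap.ext fun _ => rfl

/-- the action on `B` factors through the Hecke algebra of `S₂(Γ₀(N q))`. -/
theorem S41U_rhoFull_eq_zero (hqN : ¬ q ∣ N) (P : ModularCurve.HeckeAlg)
    (h : CuspForm.heckeEvalForms (N * q) 2 P = 0) : S41U_rhoFull N q hqN P = 0 := by
  refine LinearMap.ext fun z => Subtype.ext ?_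
  rw [S41U_rhoFull_apply, GRD_heckeL_eq_zero (N * q) P h]
  rfl

/-- **`U_q² = 1` on `B`.** -/
theorem S41U_rhoFull_U (hqN : ¬ q ∣ N) :
    S41U_rhoFull N q hqN (ModularCurve.heckeGen ⟨q, Fact.out⟩)
      * S41U_rhoFull N q hqN (ModularCurve.heckeGen ⟨q, Fact.out⟩) = 1 := by
  refine LinearMap.ext fun z => Subtype.ext ?_
  have hz := (S41D_mem_B N q z.1).1 z.2
  rw [Module.End.mul_apply, S41U_rhoFull_apply, S41U_rhoFull_apply]
  exact S41U_U_U N q hqN z.1 hz.1 hz.2

/-- the full action restricts to DEGEN's action of the Hecke polynomials away from `q`. -/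
theorem S41U_rhoFull_incR (hqN : ¬ q ∣ N) (t : S41D_R q) :
    S41U_rhoFull N q hqN (S41D_incR q t) = S41D_rhoB N q hqN t :=
  LinearMap.ext fun _ => Subtype.ext rfl

theorem S41U_rhoFull_X (hqN : ¬ q ∣ N) (ℓ : {ℓ : Nat.Primes // (ℓ : ℕ) ≠ q}) :
    S41U_rhoFull N q hqN (ModularCurve.heckeGen ℓ.1) = S41D_rhoB N q hqN (MvPolynomial.X ℓ) := by
  rw [← S41U_rhoFull_incR, S41D_incR_X]

/-- `B` is finitely generated. -/
theorem S41U_B_finite : Module.Finite ℤ ↥(S41D_B N q) := by
  haveI : NeZero q := ⟨(Fact.out : q.Prime).ne_zero⟩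
  haveI := finite_parInt (N * q)
  infer_instance

/-- `B` is free. -/
theorem S41U_B_free : Module.Free ℤ ↥(S41D_B N q) := by
  haveI : NeZero q := ⟨(Fact.out : q.Prime).ne_zero⟩
  haveI := finite_parInt (N * q)
  haveI := free_parInt (N * q)
  infer_instance

/-- `B` is saturated in `parInt (N q)`. -/
theorem S41U_B_saturated (n : ℤ) (hn : n ≠ 0) (z : ↥(parInt (N * q)))
    (hz : n • z ∈ S41D_B N q) : z ∈ S41D_B N q := by
  haveI : NeZero q := ⟨(Fact.out : q.Prime).ne_zero⟩
  haveI := isAddTorsionFree_parInt N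
  rw [S41D_mem_B] at hz ⊢
  rw [map_zsmul, map_zsmul] at hz
  exact ⟨(smul_eq_zero.1 hz.1).resolve_left hn, (smul_eq_zero.1 hz.2).resolve_left hn⟩

end full

end Fermat.Agent.S41
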