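import Mathlib
import Fermat.Prelude.Def_FLTPrelim_Modularity
import Fermat.Prelude.Def_EllipticCurve_FrobeniusTrace
import Fermat.Agent.Lib.FrobTrace.Final
import Fermat.Agent.Lib.FrobTrace.Red
import Fermat.Agent.S05.KernelGen
import Fermat.Agent.S18.ResField
import Fermat.Agent.GalRep.DS

/-!
# S41, package NE (helper28), piece P2: reduction of `W(ℚ̄)` and the Eichler–Shimura relation

`W : WeierstrassCurve ℤ`, `A` a valuation ring of `ℚ̄` over a prime `ℓ ∤ Δ_W`.
* `S41NE_red` : a homomorphism `red : W(ℚ̄) → W̄(k_A)` (`W̄ = (W.reductionMod ℓ).baseChange k_A`)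
  with `red P = 0 → P` in the kernel of reduction (`S05_InE1`), and `red (σ • P) = Frob (red P)`
  for every Frobenius element `σ` at `A`.
* `S41NE_es` : `σ² − a_ℓ σ + ℓ = 0` on `W[p](ℚ̄)`, `p ≠ ℓ` prime.
* `S41NE_gsmul_*` : the Galois action on `W(ℚ̄)` is additive.
-/

set_option autoImplicit false
set_option linter.unusedSectionVars false
set_option linter.unusedVariables false
set_option linter.style.haveILetI false

open scoped Pointwise

namespace Fermat.Agent.S41

open WeierstrassCurve Fermat.Agent.Lib Fermat.Agent.S05 Fermat.Agent.S51 Fermat.Agent.S18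
  Fermat.Agent.GalRep

local notation "ℚbar" => AlgebraicClosure ℚ

section congr

variable {F : Type*} [Field F] [DecidableEq F]

/-- transport of points along an equality of curves. -/
noncomputable def S41NE_ptCongr {W₁ W₂ : WeierstrassCurve F} (h : W₁ = W₂) :
    W₁.toAffine.Point ≃+ W₂.toAffine.Point := by
  subst h
  exact AddEquiv.refl _

lemma S41NE_ptCongr_zero {W₁ W₂ : WeierstrassCurve F} (h : W₁ = W₂) :
    S41NE_ptCongr h 0 = 0 := map_zero _

lemma S41NE_ptCongr_some {W₁ W₂ : WeierstrassCurve F} (h : W₁ = W₂) {x y : F}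
    (hxy : W₁.toAffine.Nonsingular x y) :
    S41NE_ptCongr h (.some x y hxy) = .some x y (h ▸ hxy) := by
  subst h
  rfl

omit [DecidableEq F] in
lemma S41NE_some_eq' {W' : WeierstrassCurve.Affine F} {x y x' y' : F} (h : W'.Nonsingular x y)
    (h' : W'.Nonsingular x' y') (hx : x = x') (hy : y = y') :
    (Affine.Point.some x y h : W'.Point) = Affine.Point.some x' y' h' := by
  subst hx hy
  rfl

end congr

section aux

variable {K L : Type*} [Field K] [Field L] [Algebra K L]

/-- Elements of the decomposition group stabilise the valuation subring. -/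
theorem S41NE_mem_of_mem_decomposition (A : ValuationSubring L) (σ : L ≃ₐ[K] L)
    (hσ : σ ∈ A.decompositionSubgroup K) {x : L} (hx : x ∈ A) : σ x ∈ A := by
  have h : σ • A = A := hσ
  rw [← h]
  exact ⟨x, hx, rfl⟩

/-- Elements of the decomposition group stabilise the valuation subring (iff version). -/
theorem S41NE_mem_iff_of_mem_decomposition (A : ValuationSubring L) (σ : L ≃ₐ[K] L)
    (hσ : σ ∈ A.decompositionSubgroup K) (x : L) : σ x ∈ A ↔ x ∈ A := by
  constructor
  · intro hx
    have h' : σ⁻¹ ∈ A.decompositionSubgroup K := inv_mem hσ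
    have := S41NE_mem_of_mem_decomposition A σ⁻¹ h' hx
    simpa using this
  · exact S41NE_mem_of_mem_decomposition A σ hσ

/-- an integer in the maximal ideal of a valuation ring over `q` is divisible by `q`. -/
theorem S41NE_dvd_of_intCast_mem_nonunits (A : ValuationSubring L) {q : ℕ} (hq : q.Prime)
    (hA : (q : L) ∈ A.nonunits) (n : ℤ) (hn : (n : L) ∈ A.nonunits) : (q : ℤ) ∣ n := by
  by_contra hdvd
  have hcop : IsCoprime n (q : ℤ) :=
    (((Int.prime_iff_natAbs_prime.mpr (by simpa using hq)).coprime_iff_not_dvd).mpr hdvd).symm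
  obtain ⟨u, v, huv⟩ := hcop
  have h1 : ((u * n + v * q : ℤ) : L) = 1 := by rw [huv]; simp
  have hu : A.valuation (u : L) ≤ 1 := (A.valuation_le_one_iff _).2 (intCast_mem A u)
  have hv : A.valuation (v : L) ≤ 1 := (A.valuation_le_one_iff _).2 (intCast_mem A v)
  have h2 : A.valuation ((u * n + v * q : ℤ) : L) < 1 := by
    push_cast
    refine lt_of_le_of_lt (Valuation.map_add _ _ _) (max_lt ?_ ?_)
    · rw [map_mul]
      calc A.valuation (u : L) * A.valuation (n : L) ≤ 1 * A.valuation (n : L) :=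
            mul_le_mul_left hu _
        _ = A.valuation (n : L) := one_mul _
        _ < 1 := A.mem_nonunits_iff.mp hn
    · rw [map_mul]
      calc A.valuation (v : L) * A.valuation (q : L) ≤ 1 * A.valuation (q : L) :=
            mul_le_mul_left hv _
        _ = A.valuation (q : L) := one_mul _
        _ < 1 := A.mem_nonunits_iff.mp hA
  rw [h1, map_one] at h2
  exact lt_irrefl _ h2

end aux

section red

variable (W : WeierstrassCurve ℤ) {ℓ : ℕ} [Fact ℓ.Prime] (A : ValuationSubring ℚbar)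
  [Algebra (ZMod ℓ) (IsLocalRing.ResidueField A)]

lemma S41NE_int_mem (r : ℤ) : algebraMap ℤ ℚbar r ∈ A := by
  rw [eq_intCast]
  exact intCast_mem A r

/-- the reduced curve is the base change of the reduction mod `ℓ`. -/
lemma S41NE_curve_eq :
    W.map (ft_resHom A (S41NE_int_mem A)) =
      (W.reductionMod ℓ).baseChange (IsLocalRing.ResidueField A) := by
  rw [WeierstrassCurve.baseChange, WeierstrassCurve.reductionMod, WeierstrassCurve.map_map]
  congr 1
  exact RingHom.ext_int _ _

variable [DecidableEq (IsLocalRing.ResidueField A)]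

/-- **reduction** of `W(ℚ̄)` modulo a valuation ring over a good prime `ℓ`:
a homomorphism to `W̄(k_A)` whose kernel is the kernel of reduction and which intertwines
Frobenius elements with the Frobenius endomorphism. -/
theorem S41NE_red (hA : A.LiesOverPrime ℓ) (hgood : ¬ (ℓ : ℤ) ∣ W.Δ) :
    ∃ red : (W.baseChange ℚbar).toAffine.Point →+
        ((W.reductionMod ℓ).baseChange (IsLocalRing.ResidueField A)).toAffine.Point,
      (∀ P, red P = 0 → S05_InE1 A P) ∧
      (∀ σ : GQ, A.IsFrobeniusAt σ ℓ → ∀ P : (W.baseChange ℚbar).toAffine.Point,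
        red (σ • P) = Affine.Point.map (W' := (W.reductionMod ℓ).toAffine)
          (FiniteField.frobeniusAlgHom (ZMod ℓ) (IsLocalRing.ResidueField A)) (red P)) := by
  have hℓ : ℓ.Prime := Fact.out
  have hΔ : ft_resHom A (S41NE_int_mem A) W.Δ ≠ 0 := by
    intro h0
    apply hgood
    apply S41NE_dvd_of_intCast_mem_nonunits A hℓ hA
    have h1 : IsLocalRing.residue A ⟨algebraMap ℤ ℚbar W.Δ, S41NE_int_mem A _⟩ = 0 := h0
    rw [IsLocalRing.residue_eq_zero_iff] at h1
    have h2 : algebraMap ℤ ℚbar W.Δ ∈ A.nonunits :=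
      (ValuationSubring.coe_mem_nonunits_iff (A := A)).mpr h1
    rwa [eq_intCast] at h2
  obtain ⟨red₀, h1, h2, h3, h4⟩ := ft_red_exists' W A (S41NE_int_mem A) hΔ
  have hcurve := S41NE_curve_eq (ℓ := ℓ) W A
  refine ⟨(S41NE_ptCongr hcurve).toAddMonoidHom.comp red₀, ?_, ?_⟩
  · intro P hP
    have hP' : red₀ P = 0 := by
      have : S41NE_ptCongr hcurve (red₀ P) = 0 := hP
      exact (S41NE_ptCongr hcurve).map_eq_zero_iff.1 this
    rcases P with _ | ⟨x, y, h⟩
    · exact Or.inl rfl
    · exact Or.inr ⟨x, ⟨y, h, rfl⟩, (h4 x y h).1 hP'⟩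
  · intro σ hσ P
    have hdec := hσ.mem_decompositionSubgroup
    show S41NE_ptCongr hcurve (red₀ (σ • P)) =
      Affine.Point.map _ (S41NE_ptCongr hcurve (red₀ P))
    rcases P with _ | ⟨x, y, h⟩
    · have e1 : (σ • (Affine.Point.zero : (W.baseChange ℚbar).toAffine.Point)) =
          Affine.Point.zero := rfl
      have e2 : red₀ (Affine.Point.zero) = 0 := map_zero red₀
      rw [e1]
      erw [e2]
      rw [map_zero, map_zero]
    · have hns : (W.baseChange ℚbar).toAffine.Nonsingular (σ x) (σ y) :=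
        (WeierstrassCurve.Affine.baseChange_nonsingular (W := W.toAffine)
          (f := σ.toAlgHom) σ.injective x y).mpr h
      have hσP : (σ • (Affine.Point.some x y h : (W.baseChange ℚbar).toAffine.Point)) =
          Affine.Point.some (σ x) (σ y) hns := rfl
      rw [hσP]
      by_cases hx : x ∈ A
      · have hy : y ∈ A := h3 x y h hx
        have hσx : σ x ∈ A := S41NE_mem_of_mem_decomposition A σ hdec hx
        have hσy : σ y ∈ A := S41NE_mem_of_mem_decomposition A σ hdec hy
        obtain ⟨h', e'⟩ := h1 x y h hx hy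
        obtain ⟨h'', e''⟩ := h1 (σ x) (σ y) hns hσx hσy
        erw [e', e'']
        rw [S41NE_ptCongr_some, S41NE_ptCongr_some, Affine.Point.map_some]
        have key : ∀ (z : ℚbar) (hz : z ∈ A) (hσz : σ z ∈ A),
            IsLocalRing.residue A ⟨σ z, hσz⟩ =
              FiniteField.frobeniusAlgHom (ZMod ℓ) (IsLocalRing.ResidueField A)
                (IsLocalRing.residue A ⟨z, hz⟩) := by
          intro z hz hσz
          rw [FiniteField.coe_frobeniusAlgHom, ZMod.card]
          show _ = (IsLocalRing.residue A ⟨z, hz⟩) ^ ℓ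
          rw [← map_pow, ← sub_eq_zero, ← map_sub, IsLocalRing.residue_eq_zero_iff]
          have := GR_frob_congr hσ z hz
          exact (ValuationSubring.coe_mem_nonunits_iff (A := A)).mp this
        exact S41NE_some_eq' _ _ (key x hx hσx) (key y hy hσy)
      · have hσx : σ x ∉ A := fun h' => hx ((S41NE_mem_iff_of_mem_decomposition A σ hdec x).1 h')
        erw [h2 x y h hx, h2 (σ x) (σ y) hns hσx]
        rw [map_zero, map_zero]

end red

section es

variable (W : WeierstrassCurve ℤ) {ℓ : ℕ} (A : ValuationSubring ℚbar)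

lemma S41NE_integral : S05_Integral (W.baseChange ℚbar).toAffine A where
  a₁ := S41NE_int_mem A _
  a₂ := S41NE_int_mem A _
  a₃ := S41NE_int_mem A _
  a₄ := S41NE_int_mem A _
  a₆ := S41NE_int_mem A _

lemma S41NE_valuation_prime (hℓ : ℓ.Prime) (hA : A.LiesOverPrime ℓ) {p : ℕ} (hp : p.Prime)
    (hℓp : ℓ ≠ p) : A.valuation (p : ℚbar) = 1 := by
  refine le_antisymm ((A.valuation_le_one_iff _).2 (natCast_mem A p)) ?_
  by_contra hlt
  rw [not_le] at hlt
  have h1 : ((p : ℤ) : ℚbar) ∈ A.nonunits := by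
    rw [A.mem_nonunits_iff]
    exact_mod_cast hlt
  have h2 := S41NE_dvd_of_intCast_mem_nonunits A hℓ hA _ h1
  rw [Int.natCast_dvd_natCast] at h2
  exact hℓp ((Nat.prime_dvd_prime_iff_eq hℓ hp).1 h2)

lemma S41NE_reductionMod_Δ_ne_zero (hℓ : ℓ.Prime) (hgood : ¬ (ℓ : ℤ) ∣ W.Δ) :
    (W.reductionMod ℓ).Δ ≠ 0 := by
  rw [WeierstrassCurve.reductionMod, WeierstrassCurve.map_Δ]
  intro h0
  apply hgood
  exact (ZMod.intCast_zmod_eq_zero_iff_dvd _ _).1 h0

/-- the Galois action commutes with integer multiples. -/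
lemma S41NE_smul_zsmul (σ : GQ) (n : ℤ) (P : (W.baseChange ℚbar).toAffine.Point) :
    σ • (n • P) = n • (σ • P) :=
  WeierstrassCurve.Affine.Point.algEquiv_smul_zsmul σ n P

lemma S41NE_gsmul_zero (σ : GQ) : σ • (0 : (W.baseChange ℚbar).toAffine.Point) = 0 := rfl

lemma S41NE_gsmul_add (σ : GQ) (P Q : (W.baseChange ℚbar).toAffine.Point) :
    σ • (P + Q) = σ • P + σ • Q :=
  (WeierstrassCurve.Affine.Point.map (W' := W.toAffine) σ.toAlgHom).map_add P Q

lemma S41NE_gsmul_neg (σ : GQ) (P : (W.baseChange ℚbar).toAffine.Point) :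
    σ • (-P) = -(σ • P) :=
  (WeierstrassCurve.Affine.Point.map (W' := W.toAffine) σ.toAlgHom).map_neg P

lemma S41NE_gsmul_sub (σ : GQ) (P Q : (W.baseChange ℚbar).toAffine.Point) :
    σ • (P - Q) = σ • P - σ • Q :=
  (WeierstrassCurve.Affine.Point.map (W' := W.toAffine) σ.toAlgHom).map_sub P Q

lemma S41NE_gsmul_nsmul (σ : GQ) (n : ℕ) (P : (W.baseChange ℚbar).toAffine.Point) :
    σ • (n • P) = n • (σ • P) :=
  map_nsmul (WeierstrassCurve.Affine.Point.map (W' := W.toAffine) σ.toAlgHom) n P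

lemma S41NE_gsmul_mul (σ τ : GQ) (P : (W.baseChange ℚbar).toAffine.Point) :
    (σ * τ) • P = σ • τ • P := by
  cases P <;> rfl

lemma S41NE_gsmul_one (P : (W.baseChange ℚbar).toAffine.Point) : (1 : GQ) • P = P := by
  cases P <;> rfl

/-- **Eichler–Shimura relation for `W`**: a Frobenius element `σ` at a good prime `ℓ ≠ p`
satisfies `σ² − a_ℓ σ + ℓ = 0` on `W[p](ℚ̄)`. -/
theorem S41NE_es (hℓ : ℓ.Prime) (hA : A.LiesOverPrime ℓ) (hgood : ¬ (ℓ : ℤ) ∣ W.Δ) {p : ℕ}
    (hp : p.Prime) (hℓp : ℓ ≠ p) (σ : GQ) (hσ : A.IsFrobeniusAt σ ℓ)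
    (P : (W.baseChange ℚbar).toAffine.Point) (hP : p • P = 0) :
    σ • σ • P - W.apOfModel ℓ • σ • P + (ℓ : ℤ) • P = 0 := by
  classical
  haveI : Fact ℓ.Prime := ⟨hℓ⟩
  haveI : CharP (IsLocalRing.ResidueField A) ℓ := S18_residue_charP A ℓ hℓ hA
  letI : Algebra (ZMod ℓ) (IsLocalRing.ResidueField A) := ZMod.algebra _ ℓ
  haveI : IsAlgClosed (IsLocalRing.ResidueField A) := S18_residue_isAlgClosed A
  obtain ⟨red, hker, hfrob⟩ := S41NE_red W A hA hgood
  set Q : (W.baseChange ℚbar).toAffine.Point :=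
    σ • σ • P - W.apOfModel ℓ • σ • P + (ℓ : ℤ) • P with hQ
  have hpQ : p • Q = 0 := by
    have h1 : p • (σ • P) = 0 := by
      rw [← S41NE_gsmul_nsmul, hP, S41NE_gsmul_zero]
    have h2 : p • (σ • σ • P) = 0 := by
      rw [← S41NE_gsmul_nsmul, h1, S41NE_gsmul_zero]
    have h1' : (p : ℤ) • (σ • P) = 0 := by rw [natCast_zsmul, h1]
    have h2' : (p : ℤ) • (σ • σ • P) = 0 := by rw [natCast_zsmul, h2]
    have hP' : (p : ℤ) • P = 0 := by rw [natCast_zsmul, hP]
    rw [← natCast_zsmul, hQ, zsmul_add, zsmul_sub, h2', smul_comm (p : ℤ) (W.apOfModel ℓ), h1',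
      zsmul_zero, sub_zero, zero_add, smul_comm (p : ℤ) (ℓ : ℤ), hP', zsmul_zero]
  have hredQ : red Q = 0 := by
    rw [hQ, map_add, map_sub, map_zsmul, map_zsmul, hfrob σ hσ, hfrob σ hσ]
    exact ft_TR ℓ (W.reductionMod ℓ) (S41NE_reductionMod_Δ_ne_zero W hℓ hgood) _ (red P)
  exact S05_eq_zero_of_inE1_gen A (S41NE_integral W A) (hker Q hredQ)
    (S41NE_valuation_prime A hℓ hA hp hℓp) hpQ

end es

end Fermat.Agent.S41
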