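import Mathlib
import Fermat.Agent.Lib.DivPolyCount
import Fermat.Agent.Lib.FrobTrace.KD

/-!
# S41, package NE, piece P3: `#E[p] = p²`

For an elliptic curve `W` over an algebraically closed field `F` and an odd prime `p` with
`(p : F) ≠ 0`, the group of points killed by `p` has exactly `p²` elements
(`S41NC_card_torsion`).  Multiplication by `p` is onto (`S41NC_nsmul_surjective`).

Proof: the kernel–degree link `ft_kd` applied to `[p]`, whose `X`-coordinate is `Φ_p / ΨSq_p`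
(`dp_isX_zsmul`), of degrees `p²`, `p² - 1`; coprimality of `Φ_p`, `ΨSq_p` follows from
`ψ_n(P) = 0 ↔ n P = 0` (`dp_zsmul_eq_zero_iff`).
-/

set_option autoImplicit false
set_option linter.unusedSectionVars false
set_option linter.unusedVariables false

namespace Fermat.Agent.S41

open WeierstrassCurve Polynomial Fermat.Agent.Lib Fermat.Agent.S51

section torsion

variable {F : Type*} [Field F] [DecidableEq F] (W : WeierstrassCurve F)

/-- on the curve, `Φ_n(x) = x ψ_n² - ψ_{n+1} ψ_{n-1}`. -/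
theorem S41NC_eval_Φ {x y : F} (h : W.toAffine.Equation x y) (n : ℤ) :
    (W.Φ n).eval x = x * dpW W.toAffine x y n ^ 2 -
      dpW W.toAffine x y (n + 1) * dpW W.toAffine x y (n - 1) := by
  rw [dpW_sq W.toAffine h, dps_dpW_eq_preΨ_mul W.toAffine h (n + 1),
    dps_dpW_eq_preΨ_mul W.toAffine h (n - 1), WeierstrassCurve.Φ]
  simp only [eval_sub, eval_mul, eval_X]
  have h2 := dpW_two_sq W.toAffine h
  by_cases hn : Even n
  · have h1 : ¬ Even (n + 1) := by
      rw [Int.not_even_iff_odd]; exact hn.add_one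
    have h3 : ¬ Even (n - 1) := by
      rw [Int.not_even_iff_odd]; exact hn.sub_odd odd_one
    rw [if_pos hn, if_neg h1, if_neg h3]
    simp
  · have hn' : Odd n := Int.not_even_iff_odd.1 hn
    have h1 : Even (n + 1) := hn'.add_one
    have h3 : Even (n - 1) := hn'.sub_odd odd_one
    rw [if_neg hn, if_pos h1, if_pos h3, ← h2]
    ring

/-- `Φ_p` and `ΨSq_p` have no common root. -/
theorem S41NC_no_common_root (hΔ : W.Δ ≠ 0) [IsAlgClosed F] (n : ℤ) (x : F)
    (h1 : (W.ΨSq n).eval x = 0) (h2 : (W.Φ n).eval x = 0) : False := by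
  obtain ⟨y, h⟩ := ft_kd_exists_pt W hΔ x
  have e1 : dpW W.toAffine x y n = 0 := by
    have := dpW_sq W.toAffine h.1 n
    rw [h1] at this
    exact pow_eq_zero_iff (two_ne_zero) |>.1 this
  have e2 := S41NC_eval_Φ W h.1 n
  rw [h2, e1] at e2
  have e3 : dpW W.toAffine x y (n + 1) * dpW W.toAffine x y (n - 1) = 0 := by
    linear_combination e2
  have hn : n • (Affine.Point.some x y h : W.toAffine.Point) = 0 :=
    (dp_zsmul_eq_zero_iff W.toAffine h n).2 e1
  have hP : (Affine.Point.some x y h : W.toAffine.Point) ≠ 0 := Affine.Point.some_ne_zero h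
  rcases mul_eq_zero.1 e3 with e | e
  · have := (dp_zsmul_eq_zero_iff W.toAffine h (n + 1)).2 e
    rw [add_zsmul, hn, zero_add, one_zsmul] at this
    exact hP this
  · have := (dp_zsmul_eq_zero_iff W.toAffine h (n - 1)).2 e
    rw [sub_zsmul, hn, one_zsmul, zero_add, neg_eq_zero] at this
    exact hP this

theorem S41NC_isCoprime (hΔ : W.Δ ≠ 0) [IsAlgClosed F] (n : ℤ) :
    IsCoprime (W.Φ n) (W.ΨSq n) := by
  rw [Polynomial.isCoprime_iff_aeval_ne_zero_of_isAlgClosed (k := F) F]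
  intro a
  by_contra hcon
  push Not at hcon
  simp only [Polynomial.coe_aeval_eq_eval] at hcon
  exact S41NC_no_common_root W hΔ n a hcon.2 hcon.1

/-- **KD for `[n]`**: multiplication by `n` is onto with kernel of order `n²`, if `(n : F) ≠ 0`. -/
theorem S41NC_zsmul_kd (hΔ : W.Δ ≠ 0) [IsAlgClosed F] (n : ℤ) (hn : (n : F) ≠ 0) :
    Nat.card (zsmulAddGroupHom n : W.toAffine.Point →+ W.toAffine.Point).ker = n.natAbs ^ 2 ∧
      Function.Surjective (zsmulAddGroupHom n : W.toAffine.Point →+ W.toAffine.Point) := by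
  have hdΦ : (W.Φ n).natDegree = n.natAbs ^ 2 := W.natDegree_Φ n
  have hdΨ : (W.ΨSq n).natDegree = n.natAbs ^ 2 - 1 := W.natDegree_ΨSq hn
  have hn0 : n ≠ 0 := by
    rintro rfl
    exact hn (by simp)
  have hpos : 1 ≤ n.natAbs ^ 2 := Nat.one_le_pow _ _ (Int.natAbs_pos.2 hn0)
  have hdeg : (W.Φ n).natDegree = (W.ΨSq n).natDegree + 1 := by
    rw [hdΦ, hdΨ]; omega
  have key := ft_kd W hΔ (zsmulAddGroupHom n) (W.Φ n) (W.ΨSq n) (S41NC_isCoprime W hΔ n) hdeg
    ?_ ?_
  · rw [key.1, hdΦ]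
    exact ⟨rfl, key.2⟩
  · intro x y h hv
    show n • (Affine.Point.some x y h : W.toAffine.Point) = 0
    rw [dp_zsmul_eq_zero_iff W.toAffine h n]
    have := dpW_sq W.toAffine h.1 n
    rw [hv] at this
    exact pow_eq_zero_iff (two_ne_zero) |>.1 this
  · intro x y h hv
    have hne : n • (Affine.Point.some x y h : W.toAffine.Point) ≠ 0 := by
      rw [Ne, dp_zsmul_eq_zero_iff W.toAffine h n]
      intro e
      apply hv
      rw [← dpW_sq W.toAffine h.1 n, e]
      simp
    obtain ⟨x', y', h', e'⟩ := S51_c_exists_isX_of_ne_zero hne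
    have hx' := dp_isX_zsmul W.toAffine h n (x' := x') ⟨y', h', e'⟩
    rw [← S41NC_eval_Φ W h.1 n, dpW_sq W.toAffine h.1 n] at hx'
    have hx'' : x' = (W.Φ n).eval x / (W.ΨSq n).eval x := by
      rw [eq_div_iff hv]; exact hx'
    subst hx''
    exact ⟨y', h', e'⟩

/-- **P3**: `#E[p] = p²`. -/
theorem S41NC_card_torsion [IsAlgClosed F] (hΔ : W.Δ ≠ 0) {p : ℕ} (hp : p.Prime) (hp2 : p ≠ 2)
    (hpF : (p : F) ≠ 0) : Nat.card {Q : W.toAffine.Point // p • Q = 0} = p ^ 2 := by
  have h := (S41NC_zsmul_kd W hΔ (p : ℤ) (by exact_mod_cast hpF)).1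
  rw [Int.natAbs_natCast] at h
  rw [← h]
  refine Nat.card_congr (Equiv.subtypeEquivRight fun Q => ?_)
  rw [AddMonoidHom.mem_ker]
  show p • Q = 0 ↔ (p : ℤ) • Q = 0
  rw [natCast_zsmul]

/-- multiplication by `p` is onto. -/
theorem S41NC_nsmul_surjective [IsAlgClosed F] (hΔ : W.Δ ≠ 0) {p : ℕ} (hpF : (p : F) ≠ 0)
    (Q : W.toAffine.Point) : ∃ P : W.toAffine.Point, p • P = Q := by
  obtain ⟨P, hP⟩ := (S41NC_zsmul_kd W hΔ (p : ℤ) (by exact_mod_cast hpF)).2 Q
  refine ⟨P, ?_⟩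
  rw [← natCast_zsmul]
  exact hP

end torsion

end Fermat.Agent.S41
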