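import Mathlib
import Fermat.Agent.S41.NERed
import Fermat.Agent.S41.NECount

/-!
# S41, package NE (helper28), piece P6a: the action of `G_ℚ` on `W[p](ℚ̄)` as a finite set

* `S41NE_X W p` : the `p`-torsion points of `W(ℚ̄)` (a type), with `MulAction GQ`;
* `S41NE_rho W p : GQ →* Equiv.Perm (S41NE_X W p)`;
* `S41NE_card_X` : `#X = p²` (`p` odd, `Δ ≠ 0`);
* `S41NE_field W p ζ` : a finite extension `L / ℚ` containing `ζ` such that automorphisms agreeing
  on `L` act in the same way on `X` (`S41NE_rho_eq_of_agree`).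
-/

set_option autoImplicit false
set_option linter.unusedSectionVars false
set_option linter.unusedVariables false
set_option linter.style.haveILetI false

namespace Fermat.Agent.S41

open WeierstrassCurve Fermat.Agent.Lib Fermat.Agent.GalRep

local notation "ℚbar" => AlgebraicClosure ℚ

variable (W : WeierstrassCurve ℤ) (p : ℕ)

/-- the `p`-torsion of `W(ℚ̄)`. -/
def S41NE_X : Type := {P : (W.baseChange ℚbar).toAffine.Point // p • P = 0}

/-- the underlying point. -/
def S41NE_X.pt {W : WeierstrassCurve ℤ} {p : ℕ} (P : S41NE_X W p) :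
    (W.baseChange ℚbar).toAffine.Point := Subtype.val P

lemma S41NE_X.pt_spec {W : WeierstrassCurve ℤ} {p : ℕ} (P : S41NE_X W p) : p • P.pt = 0 :=
  Subtype.property P

/-- constructor. -/
def S41NE_X.mk' {W : WeierstrassCurve ℤ} {p : ℕ} (P : (W.baseChange ℚbar).toAffine.Point)
    (h : p • P = 0) : S41NE_X W p := ⟨P, h⟩

@[simp] lemma S41NE_X.pt_mk' {W : WeierstrassCurve ℤ} {p : ℕ}
    (P : (W.baseChange ℚbar).toAffine.Point) (h : p • P = 0) : (S41NE_X.mk' P h).pt = P := rfl

lemma S41NE_X.ext {W : WeierstrassCurve ℤ} {p : ℕ} {P Q : S41NE_X W p} (h : P.pt = Q.pt) :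
    P = Q := Subtype.ext h

noncomputable instance S41NE_instMulActionX : MulAction GQ (S41NE_X W p) where
  smul σ P := S41NE_X.mk' (σ • P.pt) (by rw [← S41NE_gsmul_nsmul, P.pt_spec, S41NE_gsmul_zero])
  one_smul P := S41NE_X.ext (S41NE_gsmul_one W P.pt)
  mul_smul σ τ P := S41NE_X.ext (S41NE_gsmul_mul W σ τ P.pt)

lemma S41NE_X_smul_pt (σ : GQ) (P : S41NE_X W p) : (σ • P).pt = σ • P.pt := rfl

/-- the permutation representation on `X`. -/
noncomputable def S41NE_rho : GQ →* Equiv.Perm (S41NE_X W p) := MulAction.toPermHom GQ _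

lemma S41NE_rho_apply (σ : GQ) (P : S41NE_X W p) : S41NE_rho W p σ P = σ • P := rfl

lemma S41NE_rho_apply_pt (σ : GQ) (P : S41NE_X W p) : (S41NE_rho W p σ P).pt = σ • P.pt := rfl

lemma S41NE_baseChange_Δ_ne_zero (hΔ : W.Δ ≠ 0) : (W.baseChange ℚbar).Δ ≠ 0 := by
  rw [WeierstrassCurve.baseChange, WeierstrassCurve.map_Δ]
  simpa using hΔ

/-- `#X = p²`. -/
theorem S41NE_card_X (hΔ : W.Δ ≠ 0) {p : ℕ} (hp : p.Prime) (hp2 : p ≠ 2) :
    Nat.card (S41NE_X W p) = p ^ 2 :=
  S41NC_card_torsion (W.baseChange ℚbar) (S41NE_baseChange_Δ_ne_zero W hΔ) hp hp2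
    (Nat.cast_ne_zero.2 hp.ne_zero)

theorem S41NE_finite_X (hΔ : W.Δ ≠ 0) {p : ℕ} (hp : p.Prime) (hp2 : p ≠ 2) :
    Finite (S41NE_X W p) :=
  Nat.finite_of_card_ne_zero (by rw [S41NE_card_X W hΔ hp hp2]; exact pow_ne_zero 2 hp.ne_zero)

/-- the coordinates of a point. -/
def S41NE_coords : (W.baseChange ℚbar).toAffine.Point → Set ℚbar
  | .zero => ∅
  | .some x y _ => {x, y}

lemma S41NE_coords_finite (P : (W.baseChange ℚbar).toAffine.Point) :
    (S41NE_coords W P).Finite := by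
  rcases P with _ | ⟨x, y, h⟩
  · exact Set.finite_empty
  · exact Set.toFinite {x, y}

/-- the generators of the field of definition of `X` and `ζ`. -/
def S41NE_gens (ζ : ℚbar) : Set ℚbar := (⋃ P : S41NE_X W p, S41NE_coords W P.pt) ∪ {ζ}

/-- the field generated by the coordinates of the points of `X` and by `ζ`. -/
noncomputable def S41NE_field (ζ : ℚbar) : IntermediateField ℚ ℚbar :=
  IntermediateField.adjoin ℚ (S41NE_gens W p ζ)

lemma S41NE_zeta_mem_field (ζ : ℚbar) : ζ ∈ S41NE_field W p ζ :=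
  IntermediateField.subset_adjoin ℚ _ (Or.inr rfl)

lemma S41NE_coords_mem_field (ζ : ℚbar) (P : S41NE_X W p) {z : ℚbar}
    (hz : z ∈ S41NE_coords W P.pt) : z ∈ S41NE_field W p ζ :=
  IntermediateField.subset_adjoin ℚ _ (Or.inl (Set.mem_iUnion.2 ⟨P, hz⟩))

theorem S41NE_field_finiteDimensional (hΔ : W.Δ ≠ 0) {p : ℕ} (hp : p.Prime) (hp2 : p ≠ 2)
    (ζ : ℚbar) : FiniteDimensional ℚ (S41NE_field W p ζ) := by
  haveI := S41NE_finite_X W hΔ hp hp2
  have hfin : (S41NE_gens W p ζ).Finite :=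
    (Set.finite_iUnion fun P => S41NE_coords_finite W _).union (Set.finite_singleton ζ)
  haveI : Finite (S41NE_gens W p ζ) := hfin.to_subtype
  exact IntermediateField.finiteDimensional_adjoin
    (fun x _ => (AlgebraicClosure.isAlgebraic ℚ).isIntegral.isIntegral x)

/-- automorphisms which agree on the field act in the same way on `X`. -/
theorem S41NE_rho_eq_of_agree (ζ : ℚbar) (g g' : GQ)
    (h : ∀ x ∈ S41NE_field W p ζ, g x = g' x) : S41NE_rho W p g = S41NE_rho W p g' := by
  ext P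
  apply S41NE_X.ext
  rw [S41NE_rho_apply_pt, S41NE_rho_apply_pt]
  have hc := fun z (hz : z ∈ S41NE_coords W P.pt) => h z (S41NE_coords_mem_field W p ζ P hz)
  generalize P.pt = Q at hc
  rcases Q with _ | ⟨x, y, hxy⟩
  · rfl
  · have hx : g x = g' x := hc x (Or.inl rfl)
    have hy : g y = g' y := hc y (Or.inr rfl)
    show Affine.Point.map (W' := W.toAffine) g.toAlgHom (Affine.Point.some x y hxy) =
      Affine.Point.map (W' := W.toAffine) g'.toAlgHom (Affine.Point.some x y hxy)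
    rw [Affine.Point.map_some, Affine.Point.map_some]
    exact S41NE_some_eq' _ _ hx hy

end Fermat.Agent.S41
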