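import Mathlib
import Fermat.Agent.S31.FrobElt

/-!
# S41, package NE (helper28), piece P1: the elementwise Frobenius density statement with
subgroup control

`S41NE_fde` : for `g ∈ G_ℚ`, a finite extension `L / ℚ` inside `ℚ̄` and a finite set `T` of primes
there are a prime `ℓ ∉ T`, a Frobenius element `σ` at `ℓ` and `m m' : ℕ` such that
`g = σ ^ m` on `L` **and** `σ = g ^ m'` on `L`.
(This is `FDE_exists` of `S31/FrobElt.lean` with the second output added.)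
-/

set_option autoImplicit false
set_option linter.unusedSectionVars false
set_option linter.unusedVariables false
set_option linter.style.haveILetI false

open scoped Pointwise NumberField
open IntermediateField

namespace Fermat.Agent.S41

open ValuationSubring Fermat.Agent.Lib Fermat.Agent.GalRep Fermat.Agent.S31

local notation "ℚbar" => AlgebraicClosure ℚ

/-- **(FDE)** elementwise Frobenius density in `G_ℚ`, with subgroup control. -/
theorem S41NE_fde (g : GQ) (L : IntermediateField ℚ ℚbar) [FiniteDimensional ℚ L]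
    (T : Finset ℕ) :
    ∃ (ℓ : ℕ) (σ : GQ) (m m' : ℕ), ℓ.Prime ∧ ℓ ∉ T ∧ GR_IsFrob ℓ σ ∧
      (∀ x ∈ L, g x = (σ ^ m) x) ∧ (∀ x ∈ L, σ x = (g ^ m') x) := by
  haveI hnormal : Normal ℚ ℚbar := (frobExists_isGalois).to_normal
  set F : IntermediateField ℚ ℚbar := IntermediateField.normalClosure ℚ L ℚbar with hF
  haveI : Normal ℚ F := normalClosure.normal ℚ L ℚbar
  haveI : FiniteDimensional ℚ F := normalClosure.is_finiteDimensional ℚ L ℚbar
  have hLF : L ≤ F := IntermediateField.le_normalClosure L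
  haveI : NumberField F := ⟨⟩
  haveI : IsGalois ℚ F := ⟨⟩
  obtain ⟨ℓ, 𝔏, h, hℓ, hℓT, h𝔏, hℓ𝔏, hin, hfrob, hz⟩ :=
    FDN_frobenius F (AlgEquiv.restrictNormalHom F g) T
  obtain ⟨A, σ, hA, hσ⟩ := exists_isFrobeniusAt ℓ hℓ
  obtain ⟨τ, hτ⟩ := GR_nf_conj hℓ 𝔏 (GR_primeBelow F A) h𝔏 (GR_primeBelow_isPrime F A) hℓ𝔏
    (GR_natCast_mem_primeBelow F A hA) hin h (AlgEquiv.restrictNormalHom F σ) hfrob
    (GR_res_frob F A hσ)
  obtain ⟨τ', rfl⟩ := AlgEquiv.restrictNormalHom_surjective ℚbar τ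
  have h5 : AlgEquiv.restrictNormalHom F (τ'⁻¹ * σ * τ'⁻¹⁻¹) = h := by
    rw [inv_inv, map_mul, map_mul, map_inv, hτ]
    group
  have h6 : AlgEquiv.restrictNormalHom F g ∈ Subgroup.zpowers h := by
    rw [hz]
    exact Subgroup.mem_zpowers _
  have h6' : h ∈ Subgroup.zpowers (AlgEquiv.restrictNormalHom F g) := by
    rw [← hz]
    exact Subgroup.mem_zpowers _
  have hfin : IsOfFinOrder h := isOfFinOrder_of_finite h
  have hfin' : IsOfFinOrder (AlgEquiv.restrictNormalHom F g) := isOfFinOrder_of_finite _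
  rw [← hfin.mem_powers_iff_mem_zpowers] at h6
  rw [← hfin'.mem_powers_iff_mem_zpowers] at h6'
  obtain ⟨m, hm⟩ := (Submonoid.mem_powers_iff _ _).mp h6
  obtain ⟨m', hm'⟩ := (Submonoid.mem_powers_iff _ _).mp h6'
  refine ⟨ℓ, τ'⁻¹ * σ * τ'⁻¹⁻¹, m, m', hℓ, hℓT, FDE_isFrob_conj hℓ ⟨A, hA, hσ⟩ τ'⁻¹, ?_, ?_⟩
  · intro x hx
    have hxF : x ∈ F := hLF hx
    have h7 : AlgEquiv.restrictNormalHom F ((τ'⁻¹ * σ * τ'⁻¹⁻¹) ^ m) =
        AlgEquiv.restrictNormalHom F g := by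
      rw [map_pow, h5, hm]
    have h8 := AlgEquiv.restrictNormal_commutes ((τ'⁻¹ * σ * τ'⁻¹⁻¹) ^ m) F ⟨x, hxF⟩
    have h9 := AlgEquiv.restrictNormal_commutes g F ⟨x, hxF⟩
    have h10 : ((AlgEquiv.restrictNormalHom F ((τ'⁻¹ * σ * τ'⁻¹⁻¹) ^ m) (⟨x, hxF⟩ : F) : F) : ℚbar)
        = ((AlgEquiv.restrictNormalHom F g (⟨x, hxF⟩ : F) : F) : ℚbar) := by rw [h7]
    exact (h9.symm.trans (h10.symm.trans h8))
  · intro x hx
    have hxF : x ∈ F := hLF hx
    have h7 : AlgEquiv.restrictNormalHom F (τ'⁻¹ * σ * τ'⁻¹⁻¹) =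
        AlgEquiv.restrictNormalHom F (g ^ m') := by
      rw [map_pow, h5, hm']
    have h8 := AlgEquiv.restrictNormal_commutes (τ'⁻¹ * σ * τ'⁻¹⁻¹) F ⟨x, hxF⟩
    have h9 := AlgEquiv.restrictNormal_commutes (g ^ m') F ⟨x, hxF⟩
    have h10 : ((AlgEquiv.restrictNormalHom F (τ'⁻¹ * σ * τ'⁻¹⁻¹) (⟨x, hxF⟩ : F) : F) : ℚbar)
        = ((AlgEquiv.restrictNormalHom F (g ^ m') (⟨x, hxF⟩ : F) : F) : ℚbar) := by rw [h7]
    exact (h8.symm.trans (h10.trans h9))

end Fermat.Agent.S41
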