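import Mathlib
import Fermat.Agent.GalRep.Cyc
import Fermat.Agent.GalRep.DS
import Fermat.Agent.Lib.FrobExists

/-!
# S41, package NE (helper28), piece P5: roots of unity

`ζ ∈ ℚ̄` a primitive `n`-th root of unity.
* `S41NE_zeta_pow` : every `τ ∈ G_ℚ` maps `ζ` to a power of `ζ`;
* `S41NE_zeta_frob` : a Frobenius element at `ℓ ∤ n` maps `ζ` to `ζ ^ ℓ`;
* `S41NE_exists_inv` : some `c ∈ G_ℚ` maps `ζ` to `ζ⁻¹`;
* `S41NE_stab_conj`, `S41NE_stab_comm` : the stabiliser of `ζ` is normal with abelian quotient.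
-/

set_option autoImplicit false
set_option linter.unusedSectionVars false
set_option linter.unusedVariables false
set_option linter.style.haveILetI false

namespace Fermat.Agent.S41

open Fermat.Agent.GalRep Fermat.Agent.Lib

local notation "ℚbar" => AlgebraicClosure ℚ

variable {n : ℕ} {ζ : ℚbar}

/-- every automorphism maps `ζ` to a power of `ζ`. -/
theorem S41NE_zeta_pow (hζ : IsPrimitiveRoot ζ n) (hn : 0 < n) (τ : GQ) :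
    ∃ j : ℕ, τ ζ = ζ ^ j := by
  have h1 : (τ ζ) ^ n = 1 := by rw [← map_pow, hζ.pow_eq_one, map_one]
  haveI : NeZero n := ⟨hn.ne'⟩
  obtain ⟨j, -, hj⟩ := hζ.eq_pow_of_pow_eq_one h1
  exact ⟨j, hj.symm⟩

/-- a Frobenius element at `ℓ ∤ n` acts on `ζ` as the `ℓ`-th power. -/
theorem S41NE_zeta_frob (hζ : IsPrimitiveRoot ζ n) (hn : 0 < n) {ℓ : ℕ} (hℓ : ℓ.Prime)
    (hℓn : ¬ ℓ ∣ n) (A : ValuationSubring ℚbar) (hA : A.LiesOverPrime ℓ) (σ : GQ)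
    (hσ : A.IsFrobeniusAt σ ℓ) : σ ζ = ζ ^ ℓ := by
  obtain ⟨j, hj⟩ := S41NE_zeta_pow hζ hn σ
  have hζA : ζ ∈ A := GR_cyc_mem_of_pow_eq_one A hn.ne' hζ.pow_eq_one
  have h1 := GR_frob_congr hσ ζ hζA
  rw [hj] at h1 ⊢
  have hcop : Nat.Coprime n ℓ := (Nat.Coprime.symm ((Nat.Prime.coprime_iff_not_dvd hℓ).2 hℓn))
  exact GR_cyc_pow_eq_of_sub_mem A hn.ne' hζ.pow_eq_one (GR_cyc_coprime_not_mem A hA hcop) h1

/-- some automorphism inverts `ζ`. -/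
theorem S41NE_exists_inv (hζ : IsPrimitiveRoot ζ n) (hn : 0 < n) : ∃ c : GQ, c ζ = ζ⁻¹ := by
  have h1 : IsPrimitiveRoot ζ⁻¹ n := hζ.inv
  have h2 : IsConjRoot ℚ ζ⁻¹ ζ := by
    rw [IsConjRoot, ← Polynomial.cyclotomic_eq_minpoly_rat hζ hn,
      ← Polynomial.cyclotomic_eq_minpoly_rat h1 hn]
  haveI : Normal ℚ ℚbar := (frobExists_isGalois).to_normal
  exact h2.exists_algEquiv

/-- conjugates of elements fixing `ζ` fix `ζ`. -/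
theorem S41NE_stab_conj (hζ : IsPrimitiveRoot ζ n) (hn : 0 < n) (τ g : GQ) (hg : g ζ = ζ) :
    (τ⁻¹ * g * τ) ζ = ζ := by
  obtain ⟨j, hj⟩ := S41NE_zeta_pow hζ hn τ
  show (τ⁻¹ : GQ) (g (τ ζ)) = ζ
  rw [hj, map_pow, hg, ← hj]
  show (τ⁻¹ * τ) ζ = ζ
  rw [inv_mul_cancel]
  rfl

/-- commutators fix `ζ`. -/
theorem S41NE_stab_comm (hζ : IsPrimitiveRoot ζ n) (hn : 0 < n) (g₁ g₂ : GQ) :
    ((g₂ * g₁)⁻¹ * (g₁ * g₂)) ζ = ζ := by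
  obtain ⟨j₁, hj₁⟩ := S41NE_zeta_pow hζ hn g₁
  obtain ⟨j₂, hj₂⟩ := S41NE_zeta_pow hζ hn g₂
  have h1 : (g₁ * g₂) ζ = (g₂ * g₁) ζ := by
    show g₁ (g₂ ζ) = g₂ (g₁ ζ)
    rw [hj₁, hj₂, map_pow, map_pow, hj₁, hj₂, ← pow_mul, ← pow_mul, mul_comm]
  show ((g₂ * g₁)⁻¹ : GQ) ((g₁ * g₂) ζ) = ζ
  rw [h1]
  show ((g₂ * g₁)⁻¹ * (g₂ * g₁)) ζ = ζ
  rw [inv_mul_cancel]
  rfl

end Fermat.Agent.S41
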