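import Mathlib

/-!
# S41, package NE (helper28), piece P7a: the map on points induced by a variable change

For a field `F`, a Weierstrass curve `W` over `F` with `Δ ≠ 0` and `C : VariableChange F`:
`S41NE_vcPt W C hΔ : (C • W)(F) →+ W(F)`, `(X, Y) ↦ (u² X + r, u³ Y + u² s X + t)`,
is an additive bijection (`S41NE_vcPt_injective`, `S41NE_vcPt_surjective`).
-/

set_option autoImplicit false
set_option linter.unusedSectionVars false

namespace Fermat.Agent.S41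

open WeierstrassCurve

section VC

variable {F : Type*} [Field F] (W : WeierstrassCurve F) (C : WeierstrassCurve.VariableChange F)

/-- the `X`-coordinate under the variable change. -/
def S41NE_vcX (X : F) : F := (C.u : F) ^ 2 * X + C.r

/-- the `Y`-coordinate under the variable change. -/
def S41NE_vcY (X Y : F) : F := (C.u : F) ^ 3 * Y + (C.u : F) ^ 2 * C.s * X + C.t

lemma S41NE_u_ne_zero : (C.u : F) ≠ 0 := C.u.ne_zero

lemma S41NE_vc_key (X Y : F) :
    (S41NE_vcY C X Y) ^ 2 + W.a₁ * (S41NE_vcX C X) * (S41NE_vcY C X Y) + W.a₃ * (S41NE_vcY C X Y)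
      - ((S41NE_vcX C X) ^ 3 + W.a₂ * (S41NE_vcX C X) ^ 2 + W.a₄ * (S41NE_vcX C X) + W.a₆) =
    (C.u : F) ^ 6 * (Y ^ 2 + (C • W).a₁ * X * Y + (C • W).a₃ * Y
      - (X ^ 3 + (C • W).a₂ * X ^ 2 + (C • W).a₄ * X + (C • W).a₆)) := by
  have hu := S41NE_u_ne_zero C
  simp only [variableChange_a₁, variableChange_a₂, variableChange_a₃, variableChange_a₄,
    variableChange_a₆, S41NE_vcX, S41NE_vcY, Units.val_inv_eq_inv_val]
  field_simp
  ring

lemma S41NE_vc_equation (X Y : F) :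
    W.toAffine.Equation (S41NE_vcX C X) (S41NE_vcY C X Y) ↔ (C • W).toAffine.Equation X Y := by
  have hu := S41NE_u_ne_zero C
  rw [Affine.equation_iff, Affine.equation_iff, ← sub_eq_zero, S41NE_vc_key, mul_eq_zero,
    or_iff_right (pow_ne_zero 6 hu), sub_eq_zero]

lemma S41NE_vc_negY (X Y : F) :
    W.toAffine.negY (S41NE_vcX C X) (S41NE_vcY C X Y) =
      S41NE_vcY C X ((C • W).toAffine.negY X Y) := by
  have hu := S41NE_u_ne_zero C
  simp only [Affine.negY, variableChange_a₁, variableChange_a₃, S41NE_vcX, S41NE_vcY,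
    Units.val_inv_eq_inv_val]
  field_simp
  ring

lemma S41NE_vcX_injective : Function.Injective (S41NE_vcX C) := by
  intro a b h
  have hu := S41NE_u_ne_zero C
  simp only [S41NE_vcX] at h
  have := mul_left_cancel₀ (pow_ne_zero 2 hu) (add_right_cancel h)
  exact this

lemma S41NE_vcY_injective (X : F) : Function.Injective (S41NE_vcY C X) := by
  intro a b h
  have hu := S41NE_u_ne_zero C
  simp only [S41NE_vcY] at h
  exact mul_left_cancel₀ (pow_ne_zero 3 hu) (add_right_cancel (add_right_cancel h))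

lemma S41NE_vc_addX (X₁ X₂ L : F) :
    W.toAffine.addX (S41NE_vcX C X₁) (S41NE_vcX C X₂) ((C.u : F) * L + C.s) =
      S41NE_vcX C ((C • W).toAffine.addX X₁ X₂ L) := by
  have hu := S41NE_u_ne_zero C
  simp only [Affine.addX, variableChange_a₁, variableChange_a₂, S41NE_vcX,
    Units.val_inv_eq_inv_val]
  field_simp
  ring

lemma S41NE_vc_negAddY (X₁ X₂ Y₁ L : F) :
    W.toAffine.negAddY (S41NE_vcX C X₁) (S41NE_vcX C X₂) (S41NE_vcY C X₁ Y₁) ((C.u : F) * L + C.s) =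
      S41NE_vcY C ((C • W).toAffine.addX X₁ X₂ L) ((C • W).toAffine.negAddY X₁ X₂ Y₁ L) := by
  have hu := S41NE_u_ne_zero C
  simp only [Affine.negAddY, Affine.addX, variableChange_a₁, variableChange_a₂, S41NE_vcX,
    S41NE_vcY, Units.val_inv_eq_inv_val]
  field_simp
  ring

lemma S41NE_vc_addY (X₁ X₂ Y₁ L : F) :
    W.toAffine.addY (S41NE_vcX C X₁) (S41NE_vcX C X₂) (S41NE_vcY C X₁ Y₁) ((C.u : F) * L + C.s) =
      S41NE_vcY C ((C • W).toAffine.addX X₁ X₂ L) ((C • W).toAffine.addY X₁ X₂ Y₁ L) := by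
  rw [Affine.addY, Affine.addY, S41NE_vc_negAddY, S41NE_vc_addX, S41NE_vc_negY]

variable [DecidableEq F]

lemma S41NE_vc_slope {X₁ X₂ Y₁ Y₂ : F} (h₁ : (C • W).toAffine.Equation X₁ Y₁)
    (h₂ : (C • W).toAffine.Equation X₂ Y₂)
    (hxy : ¬(X₁ = X₂ ∧ Y₁ = (C • W).toAffine.negY X₂ Y₂)) :
    W.toAffine.slope (S41NE_vcX C X₁) (S41NE_vcX C X₂) (S41NE_vcY C X₁ Y₁) (S41NE_vcY C X₂ Y₂) =
      (C.u : F) * (C • W).toAffine.slope X₁ X₂ Y₁ Y₂ + C.s := by
  have hu := S41NE_u_ne_zero C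
  by_cases hx : X₁ = X₂
  · subst hx
    have hy : Y₁ ≠ (C • W).toAffine.negY X₁ Y₂ := fun h => hxy ⟨rfl, h⟩
    have hy' : S41NE_vcY C X₁ Y₁ ≠ W.toAffine.negY (S41NE_vcX C X₁) (S41NE_vcY C X₁ Y₂) := by
      rw [S41NE_vc_negY]
      exact fun h => hy (S41NE_vcY_injective C X₁ h)
    rw [Affine.slope_of_Y_ne rfl hy', Affine.slope_of_Y_ne rfl hy]
    have hYY : Y₁ = Y₂ := (Affine.Y_eq_of_X_eq h₁ h₂ rfl).resolve_right hy
    subst hYY
    have hd : Y₁ - (C • W).toAffine.negY X₁ Y₁ ≠ 0 := sub_ne_zero.2 hy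
    have hd' : S41NE_vcY C X₁ Y₁ - W.toAffine.negY (S41NE_vcX C X₁) (S41NE_vcY C X₁ Y₁) ≠ 0 :=
      sub_ne_zero.2 hy'
    have e2 : S41NE_vcY C X₁ Y₁ - W.toAffine.negY (S41NE_vcX C X₁) (S41NE_vcY C X₁ Y₁) =
        (C.u : F) ^ 3 * (Y₁ - (C • W).toAffine.negY X₁ Y₁) := by
      rw [S41NE_vc_negY]
      simp only [S41NE_vcY]
      ring
    rw [div_eq_iff hd', e2]
    have e3 : ((C.u : F) * ((3 * X₁ ^ 2 + 2 * (C • W).a₂ * X₁ + (C • W).a₄ - (C • W).a₁ * Y₁) /
        (Y₁ - (C • W).toAffine.negY X₁ Y₁)) + C.s) * ((C.u : F) ^ 3 *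
        (Y₁ - (C • W).toAffine.negY X₁ Y₁)) =
        (C.u : F) ^ 4 * (3 * X₁ ^ 2 + 2 * (C • W).a₂ * X₁ + (C • W).a₄ - (C • W).a₁ * Y₁) +
          C.s * (C.u : F) ^ 3 * (Y₁ - (C • W).toAffine.negY X₁ Y₁) := by
      field_simp
    rw [e3]
    simp only [Affine.negY, variableChange_a₁, variableChange_a₂, variableChange_a₃,
      variableChange_a₄, S41NE_vcX, S41NE_vcY, Units.val_inv_eq_inv_val]
    field_simp
    ring
  · have hx' : S41NE_vcX C X₁ ≠ S41NE_vcX C X₂ := fun h => hx (S41NE_vcX_injective C h)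
    rw [Affine.slope_of_X_ne hx', Affine.slope_of_X_ne hx]
    have hd : X₁ - X₂ ≠ 0 := sub_ne_zero.2 hx
    have e1 : S41NE_vcY C X₁ Y₁ - S41NE_vcY C X₂ Y₂ =
        (C.u : F) ^ 3 * (Y₁ - Y₂) + (C.u : F) ^ 2 * C.s * (X₁ - X₂) := by
      simp only [S41NE_vcY]; ring
    have e2 : S41NE_vcX C X₁ - S41NE_vcX C X₂ = (C.u : F) ^ 2 * (X₁ - X₂) := by
      simp only [S41NE_vcX]; ring
    rw [e1, e2]
    field_simp

lemma S41NE_vc_nonsingular (hΔ : W.Δ ≠ 0) {X Y : F} (h : (C • W).toAffine.Nonsingular X Y) :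
    W.toAffine.Nonsingular (S41NE_vcX C X) (S41NE_vcY C X Y) :=
  (W.toAffine.equation_iff_nonsingular_of_Δ_ne_zero hΔ).1 ((S41NE_vc_equation W C X Y).2 h.1)

omit [DecidableEq F] in
lemma S41NE_some_eq {W' : WeierstrassCurve.Affine F} {x y x' y' : F} (h : W'.Nonsingular x y)
    (h' : W'.Nonsingular x' y') (hx : x = x') (hy : y = y') :
    (Affine.Point.some x y h : W'.Point) = Affine.Point.some x' y' h' := by
  subst hx hy
  rfl

/-- the map on points induced by a variable change: `(C • W)(F) → W(F)`,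
`(X, Y) ↦ (u² X + r, u³ Y + u² s X + t)`. -/
noncomputable def S41NE_vcPt (hΔ : W.Δ ≠ 0) : (C • W).toAffine.Point →+ W.toAffine.Point where
  toFun P := match P with
    | .zero => 0
    | .some _ _ h => .some _ _ (S41NE_vc_nonsingular W C hΔ h)
  map_zero' := rfl
  map_add' := by
    rintro (_ | ⟨x₁, y₁, h₁⟩) (_ | ⟨x₂, y₂, h₂⟩)
    any_goals rfl
    by_cases hxy : x₁ = x₂ ∧ y₁ = (C • W).toAffine.negY x₂ y₂
    · rw [Affine.Point.add_of_Y_eq hxy.1 hxy.2]
      have h2 : S41NE_vcY C x₁ y₁ = W.toAffine.negY (S41NE_vcX C x₂) (S41NE_vcY C x₂ y₂) := by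
        rw [S41NE_vc_negY, hxy.2, hxy.1]
      exact (Affine.Point.add_of_Y_eq (congrArg _ hxy.1) h2).symm
    · have hxy' : ¬(S41NE_vcX C x₁ = S41NE_vcX C x₂ ∧
          S41NE_vcY C x₁ y₁ = W.toAffine.negY (S41NE_vcX C x₂) (S41NE_vcY C x₂ y₂)) := by
        rintro ⟨e1, e2⟩
        have e1' := S41NE_vcX_injective C e1
        subst e1'
        rw [S41NE_vc_negY] at e2
        exact hxy ⟨rfl, S41NE_vcY_injective C _ e2⟩
      rw [Affine.Point.add_some hxy]
      refine (Affine.Point.add_some hxy').trans ?_ |>.symm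
      apply S41NE_some_eq
      · rw [S41NE_vc_slope W C h₁.1 h₂.1 hxy, S41NE_vc_addX]
      · rw [S41NE_vc_slope W C h₁.1 h₂.1 hxy, S41NE_vc_addY]

lemma S41NE_vcPt_zero (hΔ : W.Δ ≠ 0) : S41NE_vcPt W C hΔ 0 = 0 := rfl

lemma S41NE_vcPt_some (hΔ : W.Δ ≠ 0) {X Y : F} (h : (C • W).toAffine.Nonsingular X Y) :
    S41NE_vcPt W C hΔ (.some X Y h) = .some _ _ (S41NE_vc_nonsingular W C hΔ h) := rfl

lemma S41NE_vcPt_injective (hΔ : W.Δ ≠ 0) : Function.Injective (S41NE_vcPt W C hΔ) := by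
  rintro (_ | ⟨x₁, y₁, h₁⟩) (_ | ⟨x₂, y₂, h₂⟩) h
  · rfl
  · exact absurd h (by rw [S41NE_vcPt_some]; exact (Affine.Point.some_ne_zero _).symm)
  · exact absurd h (by rw [S41NE_vcPt_some]; exact Affine.Point.some_ne_zero _)
  · rw [S41NE_vcPt_some, S41NE_vcPt_some, Affine.Point.some.injEq] at h
    have e1 := S41NE_vcX_injective C h.1
    subst e1
    have e2 := S41NE_vcY_injective C _ h.2
    subst e2
    rfl

lemma S41NE_vcPt_surjective (hΔ : W.Δ ≠ 0) : Function.Surjective (S41NE_vcPt W C hΔ) := by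
  have hu := S41NE_u_ne_zero C
  rintro (_ | ⟨x, y, h⟩)
  · exact ⟨0, rfl⟩
  · set X : F := (x - C.r) / (C.u : F) ^ 2 with hX
    set Y : F := (y - C.t - (C.u : F) ^ 2 * C.s * X) / (C.u : F) ^ 3 with hY
    have e1 : S41NE_vcX C X = x := by
      simp only [S41NE_vcX, hX]; field_simp; ring
    have e2 : S41NE_vcY C X Y = y := by
      simp only [S41NE_vcY, hY]; field_simp; ring
    have hΔ' : (C • W).Δ ≠ 0 := by
      rw [variableChange_Δ]
      exact mul_ne_zero (pow_ne_zero _ (Units.ne_zero _)) hΔ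
    have heq : (C • W).toAffine.Equation X Y := by
      rw [← S41NE_vc_equation, e1, e2]
      exact h.1
    have hns : (C • W).toAffine.Nonsingular X Y :=
      ((C • W).toAffine.equation_iff_nonsingular_of_Δ_ne_zero hΔ').1 heq
    refine ⟨.some X Y hns, ?_⟩
    rw [S41NE_vcPt_some]
    exact S41NE_some_eq _ _ e1 e2

end VC

end Fermat.Agent.S41
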