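import Mathlib
import Fermat.Prelude.Def_FLTPrelim_GaloisRep
import Fermat.Prelude.Def_FLTPrelim_Modularity
import Fermat.Agent.S41.NERed
import Fermat.Agent.S41.NEVarChange

/-!
# S41, package NE, piece P7b: transfer of irreducibility from `E` to an integral model `W`

`S41NT_irr`: if `W` is an integral model of `E` and the mod-`p` representation of `E` is
irreducible (Prelude sense), then `W.Δ ≠ 0` and every Galois-stable subgroup of `W[p](ℚ̄)` is
`⊥` or everything.
-/

set_option autoImplicit false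
set_option linter.unusedSectionVars false
set_option linter.unusedVariables false
set_option linter.style.haveILetI false

namespace Fermat.Agent.S41

open WeierstrassCurve WeierstrassCurve.Affine.Point Fermat.Agent.GalRep

local notation "ℚbar" => AlgebraicClosure ℚ

section transfer

variable (E : WeierstrassCurve ℚ) (W : WeierstrassCurve ℤ) (C : WeierstrassCurve.VariableChange ℚ)

/-- the base-changed curves are related by the base-changed variable change. -/
lemma S41NT_curve_eq (hC : C • E = W.map (Int.castRingHom ℚ)) :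
    W.baseChange ℚbar = (C.map (algebraMap ℚ ℚbar)) • (E.baseChange ℚbar) := by
  show W.map (algebraMap ℤ ℚbar) = (C.map (algebraMap ℚ ℚbar)) • (E.map (algebraMap ℚ ℚbar))
  rw [WeierstrassCurve.map_variableChange, hC, WeierstrassCurve.map_map]
  rfl

lemma S41NT_Δ_ne_zero [E.IsElliptic] (hC : C • E = W.map (Int.castRingHom ℚ)) : W.Δ ≠ 0 := by
  intro h0
  have h1 : (C • E).Δ = 0 := by
    rw [hC, WeierstrassCurve.map_Δ, h0]
    simp
  rw [WeierstrassCurve.variableChange_Δ] at h1
  rcases mul_eq_zero.1 h1 with h | h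
  · exact absurd h (pow_ne_zero _ (Units.ne_zero _))
  · exact E.isUnit_Δ.ne_zero h

lemma S41NT_Δb_ne_zero [E.IsElliptic] : (E.baseChange ℚbar).Δ ≠ 0 := by
  show (E.map (algebraMap ℚ ℚbar)).Δ ≠ 0
  rw [WeierstrassCurve.map_Δ]
  intro h
  exact E.isUnit_Δ.ne_zero ((map_eq_zero (algebraMap ℚ ℚbar)).1 h)

/-- the transfer map `W(ℚ̄) → E(ℚ̄)`. -/
noncomputable def S41NT_theta [E.IsElliptic] (hC : C • E = W.map (Int.castRingHom ℚ)) :
    (W.baseChange ℚbar).toAffine.Point →+ (E.baseChange ℚbar).toAffine.Point :=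
  (S41NE_vcPt (E.baseChange ℚbar) (C.map (algebraMap ℚ ℚbar)) (S41NT_Δb_ne_zero E)).comp
    (S41NE_ptCongr (S41NT_curve_eq E W C hC)).toAddMonoidHom

lemma S41NT_theta_apply [E.IsElliptic] (hC : C • E = W.map (Int.castRingHom ℚ))
    (P : (W.baseChange ℚbar).toAffine.Point) :
    S41NT_theta E W C hC P =
      S41NE_vcPt (E.baseChange ℚbar) (C.map (algebraMap ℚ ℚbar)) (S41NT_Δb_ne_zero E)
        (S41NE_ptCongr (S41NT_curve_eq E W C hC) P) := rfl

lemma S41NT_theta_injective [E.IsElliptic] (hC : C • E = W.map (Int.castRingHom ℚ)) :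
    Function.Injective (S41NT_theta E W C hC) := by
  intro P Q h
  have := S41NE_vcPt_injective (E.baseChange ℚbar) (C.map (algebraMap ℚ ℚbar))
    (S41NT_Δb_ne_zero E) h
  exact (S41NE_ptCongr (S41NT_curve_eq E W C hC)).injective this

lemma S41NT_theta_surjective [E.IsElliptic] (hC : C • E = W.map (Int.castRingHom ℚ)) :
    Function.Surjective (S41NT_theta E W C hC) := by
  intro Q
  obtain ⟨P', hP'⟩ := S41NE_vcPt_surjective (E.baseChange ℚbar) (C.map (algebraMap ℚ ℚbar))
    (S41NT_Δb_ne_zero E) Q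
  obtain ⟨P, hP⟩ := (S41NE_ptCongr (S41NT_curve_eq E W C hC)).surjective P'
  exact ⟨P, by rw [S41NT_theta_apply, hP, hP']⟩

lemma S41NT_theta_some [E.IsElliptic] (hC : C • E = W.map (Int.castRingHom ℚ)) {x y : ℚbar}
    (h : (W.baseChange ℚbar).toAffine.Nonsingular x y) :
    ∃ h' : (E.baseChange ℚbar).toAffine.Nonsingular
        (S41NE_vcX (C.map (algebraMap ℚ ℚbar)) x) (S41NE_vcY (C.map (algebraMap ℚ ℚbar)) x y),
      S41NT_theta E W C hC (.some x y h) = .some _ _ h' := by
  have hh : ((C.map (algebraMap ℚ ℚbar)) • (E.baseChange ℚbar)).toAffine.Nonsingular x y :=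
    (S41NT_curve_eq E W C hC) ▸ h
  refine ⟨S41NE_vc_nonsingular _ _ (S41NT_Δb_ne_zero E) hh, ?_⟩
  rw [S41NT_theta_apply, S41NE_ptCongr_some, S41NE_vcPt_some]

/-- the transfer map is Galois equivariant. -/
lemma S41NT_theta_smul [E.IsElliptic] (hC : C • E = W.map (Int.castRingHom ℚ)) (σ : GQ)
    (P : (W.baseChange ℚbar).toAffine.Point) :
    S41NT_theta E W C hC (σ • P) = σ • S41NT_theta E W C hC P := by
  rcases P with _ | ⟨x, y, h⟩
  · have e0 : (σ • (Affine.Point.zero : (W.baseChange ℚbar).toAffine.Point)) = 0 := rfl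
    have e0' : (Affine.Point.zero : (W.baseChange ℚbar).toAffine.Point) = 0 := rfl
    rw [e0, e0', _root_.map_zero]
    rfl
  · have hσ : (W.baseChange ℚbar).toAffine.Nonsingular (σ.toAlgHom x) (σ.toAlgHom y) :=
      (W.toAffine.baseChange_nonsingular σ.toAlgHom.injective ..).mpr h
    have e1 : (σ • (Affine.Point.some x y h : (W.baseChange ℚbar).toAffine.Point)) =
        Affine.Point.some (σ.toAlgHom x) (σ.toAlgHom y) hσ := rfl
    obtain ⟨h', e'⟩ := S41NT_theta_some E W C hC h
    obtain ⟨h'', e''⟩ := S41NT_theta_some E W C hC hσ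
    rw [e1, e'', e']
    have hσ' : (E.baseChange ℚbar).toAffine.Nonsingular
        (σ.toAlgHom (S41NE_vcX (C.map (algebraMap ℚ ℚbar)) x))
        (σ.toAlgHom (S41NE_vcY (C.map (algebraMap ℚ ℚbar)) x y)) :=
      (E.toAffine.baseChange_nonsingular σ.toAlgHom.injective ..).mpr h'
    have e2 : (σ • (Affine.Point.some _ _ h' : (E.baseChange ℚbar).toAffine.Point)) =
        Affine.Point.some _ _ hσ' := rfl
    rw [e2]
    apply S41NE_some_eq'
    · simp only [S41NE_vcX, WeierstrassCurve.VariableChange.map_u, Units.coe_map,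
        MonoidHom.coe_coe, WeierstrassCurve.VariableChange.map_r, map_add, map_mul, map_pow,
        AlgHom.commutes]
    · simp only [S41NE_vcY, WeierstrassCurve.VariableChange.map_u, Units.coe_map,
        MonoidHom.coe_coe,
        WeierstrassCurve.VariableChange.map_s, WeierstrassCurve.VariableChange.map_t,
        map_add, map_mul, map_pow, AlgHom.commutes]

end transfer

/-- **P7b**: transfer of irreducibility from `E` to an integral model `W`. -/
theorem S41NT_irr (E : WeierstrassCurve ℚ) [E.IsElliptic] {W : WeierstrassCurve ℤ}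
    (hW : W.IsIntegralModelOf E) {p : ℕ} (hp : p.Prime)
    (hirr : GaloisRepIsIrreducible (K := AlgebraicClosure ℚ) ℚ E p) :
    W.Δ ≠ 0 ∧
    ∀ N : AddSubgroup (W.baseChange (AlgebraicClosure ℚ)).toAffine.Point,
      (∀ P ∈ N, p • P = 0) → (∀ σ : GQ, ∀ P ∈ N, σ • P ∈ N) →
      N = ⊥ ∨ ∀ P : (W.baseChange (AlgebraicClosure ℚ)).toAffine.Point, p • P = 0 → P ∈ N := by
  obtain ⟨C, hC⟩ := hW
  refine ⟨S41NT_Δ_ne_zero E W C hC, ?_⟩
  intro N hNp hNσ
  haveI : Fact p.Prime := ⟨hp⟩
  set Θ := S41NT_theta E W C hC with hΘ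
  -- the image submodule
  let N' : Submodule (ZMod p) (Submodule.torsionBy ℤ (WeierstrassCurve.Affine.baseChange E ℚbar).Point p) :=
    { carrier := {x | ∃ P ∈ N, Θ P = x.1}
      add_mem' := by
        rintro x y ⟨P, hP, eP⟩ ⟨Q, hQ, eQ⟩
        exact ⟨P + Q, N.add_mem hP hQ, by rw [_root_.map_add, eP, eQ]; rfl⟩
      zero_mem' := ⟨0, N.zero_mem, by rw [_root_.map_zero]; rfl⟩
      smul_mem' := by
        rintro c x ⟨P, hP, eP⟩
        refine ⟨c.val • P, N.nsmul_mem hP _, ?_⟩
        rw [_root_.map_nsmul, eP]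
        have : c • x = c.val • x := by
          conv_lhs => rw [← ZMod.natCast_zmod_val c]
          rw [Nat.cast_smul_eq_nsmul]
        rw [this]
        rfl }
  have hstable : IsGaloisStable ℚ N' := by
    rintro σ x ⟨P, hP, eP⟩
    refine ⟨σ • P, hNσ σ P hP, ?_⟩
    rw [S41NT_theta_smul, eP]
    rfl
  rcases hirr.2 N' hstable with h | h
  · left
    rw [eq_bot_iff]
    intro P hP
    have hmem : Θ P ∈ Submodule.torsionBy ℤ (WeierstrassCurve.Affine.baseChange E ℚbar).Point p := by
      rw [Submodule.mem_torsionBy_iff]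
      have := hNp P hP
      rw [Nat.cast_smul_eq_nsmul, ← _root_.map_nsmul, this, _root_.map_zero]
    have h1 : (⟨Θ P, hmem⟩ : Submodule.torsionBy ℤ (WeierstrassCurve.Affine.baseChange E ℚbar).Point p) ∈ N' := ⟨P, hP, rfl⟩
    rw [h, Submodule.mem_bot] at h1
    have h2 : Θ P = 0 := congrArg Subtype.val h1
    have h3 : P = 0 := S41NT_theta_injective E W C hC (by rw [h2, _root_.map_zero])
    rw [h3]
    exact AddSubgroup.mem_bot.2 rfl
  · right
    intro Q hQ
    have hmem : Θ Q ∈ Submodule.torsionBy ℤ (WeierstrassCurve.Affine.baseChange E ℚbar).Point p := by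
      rw [Submodule.mem_torsionBy_iff, Nat.cast_smul_eq_nsmul, ← _root_.map_nsmul, hQ, _root_.map_zero]
    have h1 : (⟨Θ Q, hmem⟩ : Submodule.torsionBy ℤ (WeierstrassCurve.Affine.baseChange E ℚbar).Point p) ∈ N' := by
      rw [h]; exact Submodule.mem_top
    obtain ⟨P, hP, eP⟩ := h1
    have : P = Q := S41NT_theta_injective E W C hC eP
    rw [← this]
    exact hP

end Fermat.Agent.S41
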