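import Mathlib
import Fermat.Agent.Lib.FrobTrace.Final

/-!
# S41, package NE, piece P4: the number of fixed and anti-fixed points of Frobenius

For an elliptic curve `W` over `𝔽_ℓ` and an algebraically closed field `k ⊇ 𝔽_ℓ`, with Frobenius
`φ` on `W(k)` and `a = ℓ + 1 - #W(𝔽_ℓ)`:

* `S41NC_card_fixed`     : `#{P | φ P = P}  = ℓ + 1 - a`;
* `S41NC_card_antifixed` : `#{P | φ P = -P} = ℓ + 1 + a`.

(The second one is the parallelogram law for the degree form of block TR:
`deg(φ + 1) + deg(φ - 1) = 2 deg φ + 2`.)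
-/

set_option autoImplicit false
set_option linter.unusedSectionVars false
set_option linter.unusedVariables false

namespace Fermat.Agent.S41

open WeierstrassCurve Polynomial Fermat.Agent.Lib

noncomputable section

variable {ℓ : ℕ} [Fact ℓ.Prime] (W : WeierstrassCurve (ZMod ℓ)) (k : Type*) [Field k]
  [Algebra (ZMod ℓ) k] [DecidableEq k]

/-- `#{P | φ P = P} = ℓ + 1 - a`. -/
theorem S41NC_card_fixed :
    (Nat.card {P : (W.baseChange k).toAffine.Point // ft_frob W k P = P} : ℤ) =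
      (ℓ : ℤ) + 1 - W.traceOfFrobenius := by
  rw [ft_card_fixed W k, WeierstrassCurve.traceOfFrobenius, Nat.card_zmod]
  ring

variable [IsAlgClosed k]

/-- `#{P | φ P = -P} = ℓ + 1 + a`. -/
theorem S41NC_card_antifixed (hΔ : W.Δ ≠ 0) :
    (Nat.card {P : (W.baseChange k).toAffine.Point // ft_frob W k P = -P} : ℤ) =
      (ℓ : ℤ) + 1 + W.traceOfFrobenius := by
  have hsub : ft_oS W k hΔ (-1) 1 0 =
      ft_oFrob W k (ft_oP0 W k hΔ) - ft_oP0 W k hΔ := by
    rw [ft_oS_eq]; simp [sub_eq_add_neg]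
  have hadd : ft_oS W k hΔ 1 1 0 =
      ft_oFrob W k (ft_oP0 W k hΔ) + ft_oP0 W k hΔ := by
    rw [ft_oS_eq]; simp
  have hN := (ft_ker_sub W k hΔ).1
  have hA := (ft_ker_add W k hΔ).1
  rw [hsub] at hN
  rw [hadd] at hA
  have hpar := ft_d_par W k hΔ (ft_oFrob W k (ft_oP0 W k hΔ)) (ft_oP0 W k hΔ)
  rw [ft_d_frob, ft_d_P0, ← hN, ← hA, ft_card_ker_eq_fixed, ft_card_fixed] at hpar
  have hcard : Nat.card {P : (W.baseChange k).toAffine.Point // ft_frob W k P = -P} =
      Nat.card (ft_psi W k 1 1 0).ker := by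
    refine Nat.card_congr (Equiv.subtypeEquivRight (fun P => ?_))
    rw [AddMonoidHom.mem_ker, ft_psi_apply, zero_smul, zero_add, one_smul, one_smul,
      add_eq_zero_iff_eq_neg]
  rw [hcard, WeierstrassCurve.traceOfFrobenius, Nat.card_zmod]
  linarith

end

end Fermat.Agent.S41
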