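import Mathlib
import Fermat.Agent.S41.NERed
import Fermat.Agent.S41.NECount
import Fermat.Agent.S41.NECountFrob

/-!
# S41, package NE (helper28), piece EIG: fixed and anti-fixed points of Frobenius elements

* `S41NE_exists_fixed`, `S41NE_exists_antifixed` : over an algebraically closed `k ⊇ 𝔽_ℓ`,
  if `p ∣ ℓ + 1 ∓ a` then Frobenius has a fixed (anti-fixed) point of order `p`;
* `S41NE_eig`, `S41NE_eig_neg` : for a Frobenius element `σ ∈ G_ℚ` at a good prime `ℓ ≠ p`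
  (`p` odd): if `p ∣ ℓ + 1 ∓ a_ℓ` then there is `P ≠ 0` in `W[p](ℚ̄)` with `σ P = ± P`.
-/

set_option autoImplicit false
set_option linter.unusedSectionVars false
set_option linter.unusedVariables false
set_option linter.style.haveILetI false

open scoped Pointwise

namespace Fermat.Agent.S41

open WeierstrassCurve Polynomial Fermat.Agent.Lib Fermat.Agent.S05 Fermat.Agent.S51
  Fermat.Agent.S18 Fermat.Agent.GalRep

local notation "ℚbar" => AlgebraicClosure ℚ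

section finchar

variable {ℓ : ℕ} [Fact ℓ.Prime] (W : WeierstrassCurve (ZMod ℓ)) (k : Type*) [Field k]
  [Algebra (ZMod ℓ) k] [DecidableEq k] [IsAlgClosed k]

/-- the kernel of `φ + 1` is finite and nonempty. -/
lemma S41NE_card_ker_add_pos (hΔ : W.Δ ≠ 0) : 0 < Nat.card (ft_psi W k 1 1 0).ker := by
  obtain ⟨p₃, q₃, h₃⟩ := ft_odd_exists_ratio W k hΔ (ft_S_mem_odd W k hΔ 1 1 0)
  obtain ⟨p₄, q₄, h₄⟩ := ft_odd_exists_ratio W k hΔ (ft_S_mem_odd W k hΔ (-1) 1 0)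
  have h₃' := h₃
  have h₄' := h₄
  rw [ft_S_add] at h₃'
  rw [ft_S_sub] at h₄'
  obtain ⟨e3, -⟩ := ft_e1' W k hΔ _ _ ℓ (Fact.out : ℓ.Prime).two_le p₃ q₃ p₄ q₄
    (ft_ratio_frobP0 W k hΔ) (ft_ratio_P0 W k hΔ) h₃' h₄'
  obtain ⟨h1, -⟩ := ft_kd (W.baseChange k) (ft_Δ_ne_zero W hΔ k) (ft_psi W k 1 1 0) p₃ q₃
    h₃.1 e3
    (fun x y h => (ft_spec W k hΔ 1 1 0 p₃ q₃ h₃ x y h).1)
    (fun x y h => (ft_spec W k hΔ 1 1 0 p₃ q₃ h₃ x y h).2)
  rw [h1, e3]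
  omega

/-- the kernel of `φ - 1` is finite and nonempty. -/
lemma S41NE_card_ker_sub_pos : 0 < Nat.card (ft_psi W k (-1) 1 0).ker := by
  rw [ft_card_ker_eq_fixed, ft_card_fixed]
  exact Nat.card_pos

/-- an element of order `p` in the kernel of an endomorphism with kernel of order divisible
by `p`. -/
lemma S41NE_cauchy {G : Type*} [AddCommGroup G] (f : G →+ G) (hpos : 0 < Nat.card f.ker)
    {p : ℕ} (hp : p.Prime) (hdiv : p ∣ Nat.card f.ker) : ∃ Q : G, Q ≠ 0 ∧ p • Q = 0 ∧ f Q = 0 := by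
  haveI : Fact p.Prime := ⟨hp⟩
  haveI : Finite f.ker := Nat.finite_of_card_ne_zero hpos.ne'
  obtain ⟨x, hx⟩ := exists_prime_addOrderOf_dvd_card' p hdiv
  refine ⟨x.1, ?_, ?_, x.2⟩
  · intro h0
    have : x = 0 := Subtype.ext h0
    rw [this, addOrderOf_zero] at hx
    exact hp.one_lt.ne hx
  · have h1 : p • x = 0 := by rw [← hx]; exact addOrderOf_nsmul_eq_zero x
    have h2 := congrArg Subtype.val h1
    simpa using h2

/-- if `p ∣ ℓ + 1 - a` then Frobenius fixes a point of order `p`. -/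
theorem S41NE_exists_fixed {p : ℕ} (hp : p.Prime)
    (hdiv : (p : ℤ) ∣ (ℓ : ℤ) + 1 - W.traceOfFrobenius) :
    ∃ Q : (W.baseChange k).toAffine.Point, Q ≠ 0 ∧ p • Q = 0 ∧ ft_frob W k Q = Q := by
  have hcard : (Nat.card (ft_psi W k (-1) 1 0).ker : ℤ) = (ℓ : ℤ) + 1 - W.traceOfFrobenius := by
    rw [ft_card_ker_eq_fixed]
    exact S41NC_card_fixed W k
  have hdiv' : p ∣ Nat.card (ft_psi W k (-1) 1 0).ker := by
    rw [← hcard] at hdiv
    exact_mod_cast hdiv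
  obtain ⟨Q, hQ0, hpQ, hQ⟩ := S41NE_cauchy _ (S41NE_card_ker_sub_pos W k) hp hdiv'
  refine ⟨Q, hQ0, hpQ, ?_⟩
  rw [ft_psi_apply, zero_smul, zero_add, one_smul, neg_smul, one_smul, ← sub_eq_add_neg,
    sub_eq_zero] at hQ
  exact hQ

/-- if `p ∣ ℓ + 1 + a` then Frobenius anti-fixes a point of order `p`. -/
theorem S41NE_exists_antifixed (hΔ : W.Δ ≠ 0) {p : ℕ} (hp : p.Prime)
    (hdiv : (p : ℤ) ∣ (ℓ : ℤ) + 1 + W.traceOfFrobenius) :
    ∃ Q : (W.baseChange k).toAffine.Point, Q ≠ 0 ∧ p • Q = 0 ∧ ft_frob W k Q = -Q := by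
  have hiff : ∀ P : (W.baseChange k).toAffine.Point,
      P ∈ (ft_psi W k 1 1 0).ker ↔ ft_frob W k P = -P := by
    intro P
    rw [AddMonoidHom.mem_ker, ft_psi_apply, zero_smul, zero_add, one_smul, one_smul,
      add_eq_zero_iff_eq_neg]
  have hcard : (Nat.card (ft_psi W k 1 1 0).ker : ℤ) = (ℓ : ℤ) + 1 + W.traceOfFrobenius := by
    rw [← S41NC_card_antifixed W k hΔ]
    congr 1
    exact Nat.card_congr (Equiv.subtypeEquivRight hiff)
  have hdiv' : p ∣ Nat.card (ft_psi W k 1 1 0).ker := by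
    rw [← hcard] at hdiv
    exact_mod_cast hdiv
  obtain ⟨Q, hQ0, hpQ, hQ⟩ := S41NE_cauchy _ (S41NE_card_ker_add_pos W k hΔ) hp hdiv'
  exact ⟨Q, hQ0, hpQ, (hiff Q).1 hQ⟩

end finchar

section eig

variable (W : WeierstrassCurve ℤ) {ℓ : ℕ} (A : ValuationSubring ℚbar)

/-- **fixed vectors**: for a Frobenius element `σ` at a good prime `ℓ ≠ p` and a sign `ε`,
if `p ∣ ℓ + 1 - ε a_ℓ` then `σ P = ε P` for some `P ≠ 0` in `W[p](ℚ̄)`. -/
theorem S41NE_eig_aux (hℓ : ℓ.Prime) (hA : A.LiesOverPrime ℓ) (hgood : ¬ (ℓ : ℤ) ∣ W.Δ) {p : ℕ}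
    (hp : p.Prime) (hp2 : p ≠ 2) (hℓp : ℓ ≠ p) (σ : GQ) (hσ : A.IsFrobeniusAt σ ℓ)
    (ε : ℤ) (hε : ε = 1 ∨ ε = -1) (hdiv : (p : ℤ) ∣ (ℓ : ℤ) + 1 - ε * W.apOfModel ℓ) :
    ∃ P : (W.baseChange ℚbar).toAffine.Point, P ≠ 0 ∧ p • P = 0 ∧ σ • P = ε • P := by
  classical
  haveI : Fact ℓ.Prime := ⟨hℓ⟩
  haveI : CharP (IsLocalRing.ResidueField A) ℓ := S18_residue_charP A ℓ hℓ hA
  letI : Algebra (ZMod ℓ) (IsLocalRing.ResidueField A) := ZMod.algebra _ ℓ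
  haveI : IsAlgClosed (IsLocalRing.ResidueField A) := S18_residue_isAlgClosed A
  obtain ⟨red, hker, hfrob⟩ := S41NE_red W A hA hgood
  have hΔk : (W.reductionMod ℓ).Δ ≠ 0 := S41NE_reductionMod_Δ_ne_zero W hℓ hgood
  have hΔ0 : W.Δ ≠ 0 := by
    rintro h0
    exact hgood (h0 ▸ dvd_zero _)
  have hΔK : (W.baseChange ℚbar).Δ ≠ 0 := by
    rw [WeierstrassCurve.baseChange, WeierstrassCurve.map_Δ]
    simpa using hΔ0
  have hΔkk : ((W.reductionMod ℓ).baseChange (IsLocalRing.ResidueField A)).Δ ≠ 0 :=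
    ft_Δ_ne_zero _ hΔk _
  have hpK : (p : ℚbar) ≠ 0 := Nat.cast_ne_zero.2 hp.ne_zero
  have hpk : (p : IsLocalRing.ResidueField A) ≠ 0 :=
    S18_residue_natCast_ne_zero A ℓ hℓ hA p
      (fun h => hℓp ((Nat.prime_dvd_prime_iff_eq hℓ hp).1 h))
  -- injectivity of `red` on `p`-torsion
  have hinj : ∀ P : (W.baseChange ℚbar).toAffine.Point, p • P = 0 → red P = 0 → P = 0 :=
    fun P hP h0 => S05_eq_zero_of_inE1_gen A (S41NE_integral W A) (hker P h0)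
      (S41NE_valuation_prime A hℓ hA hp hℓp) hP
  -- the point downstairs
  obtain ⟨Q, hQ0, hpQ, hQ⟩ : ∃ Q : ((W.reductionMod ℓ).baseChange
      (IsLocalRing.ResidueField A)).toAffine.Point, Q ≠ 0 ∧ p • Q = 0 ∧
      ft_frob (W.reductionMod ℓ) (IsLocalRing.ResidueField A) Q = ε • Q := by
    rcases hε with rfl | rfl
    · obtain ⟨Q, h1, h2, h3⟩ := S41NE_exists_fixed (W.reductionMod ℓ)
        (IsLocalRing.ResidueField A) hp (by simpa [WeierstrassCurve.apOfModel] using hdiv)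
      exact ⟨Q, h1, h2, by rw [h3, one_smul]⟩
    · obtain ⟨Q, h1, h2, h3⟩ := S41NE_exists_antifixed (W.reductionMod ℓ)
        (IsLocalRing.ResidueField A) hΔk hp
        (by simpa [WeierstrassCurve.apOfModel, sub_eq_add_neg] using hdiv)
      exact ⟨Q, h1, h2, by rw [h3, neg_smul, one_smul]⟩
  -- surjectivity of `red` on `p`-torsion
  have hcK := S41NC_card_torsion (W.baseChange ℚbar) hΔK hp hp2 hpK
  have hck := S41NC_card_torsion ((W.reductionMod ℓ).baseChange (IsLocalRing.ResidueField A))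
    hΔkk hp hp2 hpk
  let f : {P : (W.baseChange ℚbar).toAffine.Point // p • P = 0} →
      {Q : ((W.reductionMod ℓ).baseChange (IsLocalRing.ResidueField A)).toAffine.Point //
        p • Q = 0} :=
    fun P => ⟨red P.1, by rw [← map_nsmul, P.2, map_zero]⟩
  have hf : Function.Injective f := by
    intro P P' h
    have h1 : red P.1 = red P'.1 := congrArg Subtype.val h
    have h2 : red (P.1 - P'.1) = 0 := by rw [map_sub, h1, sub_self]
    have h3 : p • (P.1 - P'.1) = 0 := by rw [nsmul_sub, P.2, P'.2, sub_zero]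
    exact Subtype.ext (sub_eq_zero.1 (hinj _ h3 h2))
  haveI : Finite {Q : ((W.reductionMod ℓ).baseChange
      (IsLocalRing.ResidueField A)).toAffine.Point // p • Q = 0} :=
    Nat.finite_of_card_ne_zero (by rw [hck]; exact pow_ne_zero 2 hp.ne_zero)
  have hbij : Function.Bijective f :=
    hf.bijective_of_nat_card_le (by rw [hcK, hck])
  obtain ⟨P, hP⟩ := hbij.2 ⟨Q, hpQ⟩
  have hredP : red P.1 = Q := congrArg Subtype.val hP
  refine ⟨P.1, ?_, P.2, ?_⟩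
  · intro h0
    apply hQ0
    rw [← hredP, h0, map_zero]
  · rw [← sub_eq_zero]
    apply hinj
    · have h1 : p • (σ • P.1) = 0 := by rw [← S41NE_gsmul_nsmul, P.2, S41NE_gsmul_zero]
      have h2 : p • (ε • P.1) = 0 := by
        rw [← natCast_zsmul, smul_comm, natCast_zsmul, P.2, zsmul_zero]
      rw [nsmul_sub, h1, h2, sub_zero]
    · rw [map_sub, map_zsmul, hfrob σ hσ, hredP]
      rw [sub_eq_zero]
      exact hQ

/-- `p ∣ ℓ + 1 - a_ℓ` ⇒ `σ` fixes a point of order `p`. -/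
theorem S41NE_eig (hℓ : ℓ.Prime) (hA : A.LiesOverPrime ℓ) (hgood : ¬ (ℓ : ℤ) ∣ W.Δ) {p : ℕ}
    (hp : p.Prime) (hp2 : p ≠ 2) (hℓp : ℓ ≠ p) (σ : GQ) (hσ : A.IsFrobeniusAt σ ℓ)
    (hdiv : (p : ℤ) ∣ (ℓ : ℤ) + 1 - W.apOfModel ℓ) :
    ∃ P : (W.baseChange ℚbar).toAffine.Point, P ≠ 0 ∧ p • P = 0 ∧ σ • P = P := by
  obtain ⟨P, h1, h2, h3⟩ := S41NE_eig_aux W A hℓ hA hgood hp hp2 hℓp σ hσ 1 (Or.inl rfl)
    (by simpa using hdiv)
  exact ⟨P, h1, h2, by rw [h3, one_smul]⟩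

/-- `p ∣ ℓ + 1 + a_ℓ` ⇒ `σ` anti-fixes a point of order `p`. -/
theorem S41NE_eig_neg (hℓ : ℓ.Prime) (hA : A.LiesOverPrime ℓ) (hgood : ¬ (ℓ : ℤ) ∣ W.Δ) {p : ℕ}
    (hp : p.Prime) (hp2 : p ≠ 2) (hℓp : ℓ ≠ p) (σ : GQ) (hσ : A.IsFrobeniusAt σ ℓ)
    (hdiv : (p : ℤ) ∣ (ℓ : ℤ) + 1 + W.apOfModel ℓ) :
    ∃ P : (W.baseChange ℚbar).toAffine.Point, P ≠ 0 ∧ p • P = 0 ∧ σ • P = -P := by
  obtain ⟨P, h1, h2, h3⟩ := S41NE_eig_aux W A hℓ hA hgood hp hp2 hℓp σ hσ (-1) (Or.inr rfl)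
    (by simpa [sub_eq_add_neg] using hdiv)
  exact ⟨P, h1, h2, by rw [h3, neg_smul, one_smul]⟩

end eig

end Fermat.Agent.S41
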