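import Mathlib
import Fermat.Agent.S41.NEAct
import Fermat.Agent.S41.NEFde
import Fermat.Agent.S41.NERoots

/-!
# S41, package NE (helper28), piece P6b: the stabiliser of `ζ` acts unipotently

Assume `a_ℓ ≡ ℓ + 1 mod p` for all good primes `ℓ ≡ 1 mod M`, `ℓ ∉ T`.  Let `ζ` be a primitive
`n`-th root of unity with `M ∣ n`, `p ∣ n`.  Then every `g ∈ G_ℚ` fixing `ζ` satisfies
`ρ(g) ^ p = 1` on `X = W[p](ℚ̄)` (`S41NE_unip`).
-/

set_option autoImplicit false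
set_option linter.unusedSectionVars false
set_option linter.unusedVariables false
set_option linter.style.haveILetI false

namespace Fermat.Agent.S41

open WeierstrassCurve Fermat.Agent.Lib Fermat.Agent.GalRep

local notation "ℚbar" => AlgebraicClosure ℚ

variable (W : WeierstrassCurve ℤ) (p : ℕ)

/-- integers congruent mod `p` act in the same way on `p`-torsion. -/
lemma S41NE_zsmul_congr {G : Type*} [AddCommGroup G] {a b : ℤ} (h : (p : ℤ) ∣ a - b) {Q : G}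
    (hQ : p • Q = 0) : a • Q = b • Q := by
  obtain ⟨c, hc⟩ := h
  have : a = b + c * p := by linarith
  rw [this, add_smul, mul_smul, natCast_zsmul, hQ, smul_zero, add_zero]

/-- if `g` fixes `ζ` then so do its powers. -/
lemma S41NE_pow_fix {ζ : ℚbar} (g : GQ) (hg : g ζ = ζ) (k : ℕ) : (g ^ k) ζ = ζ := by
  induction k with
  | zero => rfl
  | succ k ih =>
    rw [pow_succ]
    show (g ^ k) (g ζ) = ζ
    rw [hg, ih]

/-- if `g ζ = ζ ^ j` then `(g ^ k) ζ = ζ ^ (j ^ k)`. -/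
lemma S41NE_pow_apply_zeta {ζ : ℚbar} (g : GQ) {j : ℕ} (hg : g ζ = ζ ^ j) (k : ℕ) :
    (g ^ k) ζ = ζ ^ (j ^ k) := by
  induction k with
  | zero => simp
  | succ k ih =>
    rw [pow_succ]
    show (g ^ k) (g ζ) = _
    rw [hg, map_pow, ih, ← pow_mul, ← pow_succ]

/-- the `p`-torsion is stable. -/
lemma S41NE_torsion_smul (σ : GQ) {P : (W.baseChange ℚbar).toAffine.Point} (hP : p • P = 0) :
    p • (σ • P) = 0 := by
  rw [← S41NE_gsmul_nsmul, hP, S41NE_gsmul_zero]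

/-- **unipotent elements**: if `(σ - 1)² = 0` on the `p`-torsion then
`σ ^ k = 1 + k (σ - 1)` there. -/
lemma S41NE_pow_formula (σ : GQ)
    (hσ : ∀ P : (W.baseChange ℚbar).toAffine.Point, p • P = 0 → σ • σ • P = 2 • σ • P - P)
    (k : ℕ) (P : (W.baseChange ℚbar).toAffine.Point) (hP : p • P = 0) :
    (σ ^ k) • P = P + k • (σ • P - P) := by
  induction k with
  | zero => rw [pow_zero, S41NE_gsmul_one, zero_nsmul, add_zero]
  | succ k ih =>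
    rw [pow_succ', S41NE_gsmul_mul, ih, S41NE_gsmul_add, S41NE_gsmul_nsmul, S41NE_gsmul_sub,
      hσ P hP]
    have e : 2 • σ • P - P - σ • P = σ • P - P := by
      rw [two_nsmul]; abel
    rw [e, succ_nsmul]
    abel

/-- unipotent elements have order dividing `p` on the `p`-torsion. -/
lemma S41NE_rho_pow_eq_one (σ : GQ)
    (hσ : ∀ P : (W.baseChange ℚbar).toAffine.Point, p • P = 0 → σ • σ • P = 2 • σ • P - P) :
    (S41NE_rho W p σ) ^ p = 1 := by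
  rw [← map_pow]
  ext P
  apply S41NE_X.ext
  rw [S41NE_rho_apply_pt, S41NE_pow_formula W p σ hσ p P.pt P.pt_spec, nsmul_sub,
    S41NE_torsion_smul W p σ P.pt_spec, P.pt_spec, sub_zero, add_zero]
  rfl

/-- **the stabiliser of `ζ` acts through a group of exponent `p`.** -/
theorem S41NE_unip (hΔ : W.Δ ≠ 0) {p : ℕ} (hp : p.Prime) (hp2 : p ≠ 2) {M n : ℕ}
    (hMn : M ∣ n) (hpn : p ∣ n) (hn : 0 < n) {ζ : ℚbar} (hζ : IsPrimitiveRoot ζ n)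
    (T : Finset ℕ)
    (hyp : ∀ ℓ : ℕ, ℓ.Prime → ℓ ∉ T → ℓ ≡ 1 [MOD M] → ¬ (ℓ : ℤ) ∣ W.Δ → ℓ ≠ p →
      (p : ℤ) ∣ W.apOfModel ℓ - (ℓ + 1))
    (T' : Finset ℕ)
    (hT' : ∀ ℓ : ℕ, ℓ.Prime → ℓ ∉ T' → ℓ ∉ T ∧ ¬ ℓ ∣ n ∧ ¬ (ℓ : ℤ) ∣ W.Δ ∧ ℓ ≠ p)
    (g : GQ) (hg : g ζ = ζ) : (S41NE_rho W p g) ^ p = 1 := by
  haveI := S41NE_field_finiteDimensional W hΔ hp hp2 ζ
  obtain ⟨ℓ, σ, m, m', hℓ, hℓT', ⟨A, hA, hσA⟩, hgσ, hσg⟩ :=
    S41NE_fde g (S41NE_field W p ζ) T'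
  obtain ⟨hℓT, hℓn, hgood, hℓp⟩ := hT' ℓ hℓ hℓT'
  -- `ℓ ≡ 1 mod n`
  have h1 : σ ζ = ζ := by
    rw [hσg ζ (S41NE_zeta_mem_field W p ζ)]
    exact S41NE_pow_fix g hg m'
  have h2 : ζ ^ ℓ = ζ := by rw [← S41NE_zeta_frob hζ hn hℓ hℓn A hA σ hσA, h1]
  have hζ0 : ζ ≠ 0 := hζ.ne_zero hn.ne'
  have h3 : n ∣ ℓ - 1 := by
    rw [← hζ.pow_eq_one_iff_dvd]
    have h4 : ζ ^ (ℓ - 1) * ζ = 1 * ζ := by
      rw [← pow_succ, Nat.sub_add_cancel hℓ.one_le, h2, one_mul]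
    exact mul_right_cancel₀ hζ0 h4
  have h5 : ℓ ≡ 1 [MOD n] := ((Nat.modEq_iff_dvd' hℓ.one_le).2 h3).symm
  have h6 : ℓ ≡ 1 [MOD M] := h5.of_dvd hMn
  have h7 : ℓ ≡ 1 [MOD p] := h5.of_dvd hpn
  have h8 : (p : ℤ) ∣ W.apOfModel ℓ - (ℓ + 1) := hyp ℓ hℓ hℓT h6 hgood hℓp
  have h9 : (p : ℤ) ∣ (ℓ : ℤ) - 1 := by
    have := (Nat.modEq_iff_dvd' hℓ.one_le).1 h7.symm
    have h' : ((ℓ - 1 : ℕ) : ℤ) = (ℓ : ℤ) - 1 := by
      rw [Nat.cast_sub hℓ.one_le]; simp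
    rw [← h']
    exact_mod_cast this
  have h10 : (p : ℤ) ∣ W.apOfModel ℓ - 2 := by
    have : W.apOfModel ℓ - 2 = (W.apOfModel ℓ - (ℓ + 1)) + ((ℓ : ℤ) - 1) := by ring
    rw [this]
    exact dvd_add h8 h9
  -- `σ` is unipotent on the `p`-torsion
  have hσ : ∀ P : (W.baseChange ℚbar).toAffine.Point, p • P = 0 →
      σ • σ • P = 2 • σ • P - P := by
    intro P hP
    have hes := S41NE_es W A hℓ hA hgood hp hℓp σ hσA P hP
    have e1 : W.apOfModel ℓ • σ • P = (2 : ℤ) • σ • P :=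
      S41NE_zsmul_congr p h10 (S41NE_torsion_smul W p σ hP)
    have e2 : (ℓ : ℤ) • P = (1 : ℤ) • P := S41NE_zsmul_congr p h9 hP
    rw [e1, e2, one_smul] at hes
    have e3 : (2 : ℤ) • σ • P = 2 • σ • P := by
      rw [← natCast_zsmul]; rfl
    rw [e3] at hes
    rw [← sub_eq_zero, ← hes]
    abel
  have hρσ := S41NE_rho_pow_eq_one W p σ hσ
  have hρg : S41NE_rho W p g = (S41NE_rho W p σ) ^ m := by
    rw [← map_pow]
    exact S41NE_rho_eq_of_agree W p ζ g (σ ^ m) hgσ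
  rw [hρg, ← pow_mul, mul_comm, pow_mul, hρσ, one_pow]

end Fermat.Agent.S41
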