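import Mathlib
import Fermat.Agent.S41.NEUnip
import Fermat.Agent.S41.NEEig

/-!
# S41, package NE (helper28), piece P6c: the core

`S41NE_core` : if `a_ℓ ≡ ℓ + 1 mod p` for all good primes `ℓ ≡ 1 mod M`, `ℓ ∉ T`, then `W[p](ℚ̄)`
has a `G_ℚ`-stable subgroup which is neither `0` nor everything.
-/

set_option autoImplicit false
set_option linter.unusedSectionVars false
set_option linter.unusedVariables false
set_option linter.style.haveILetI false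

namespace Fermat.Agent.S41

open WeierstrassCurve Fermat.Agent.Lib Fermat.Agent.GalRep

local notation "ℚbar" => AlgebraicClosure ℚ

variable (W : WeierstrassCurve ℤ) (p : ℕ)

/-- the zero point of `X`. -/
noncomputable def S41NE_X.zero : S41NE_X W p := S41NE_X.mk' 0 (nsmul_zero p)

lemma S41NE_X.eq_zero_of_pt {P : S41NE_X W p} (h : P.pt = 0) : P = S41NE_X.zero W p := by
  apply S41NE_X.ext
  exact h

/-- the stabiliser of `ζ` in `G_ℚ`. -/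
def S41NE_stab (ζ : ℚbar) : Subgroup GQ where
  carrier := {g | g ζ = ζ}
  mul_mem' := by
    intro a b ha hb
    have ha' : a ζ = ζ := ha
    have hb' : b ζ = ζ := hb
    show a (b ζ) = ζ
    rw [hb', ha']
  one_mem' := rfl
  inv_mem' := by
    intro a ha
    have ha' : a ζ = ζ := ha
    have h1 : (a⁻¹ : GQ) (a ζ) = ζ := a.symm_apply_apply ζ
    rw [ha'] at h1
    exact h1

lemma S41NE_mem_stab {ζ : ℚbar} {g : GQ} : g ∈ S41NE_stab ζ ↔ g ζ = ζ := Iff.rfl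

/-- **fixed points of `p`-groups**: a subgroup of `G_ℚ` acting on `X` through a group of exponent
`p` has a nonzero fixed point. -/
theorem S41NE_exists_fixed_pt (hΔ : W.Δ ≠ 0) {p : ℕ} (hp : p.Prime) (hp2 : p ≠ 2)
    (Hs : Subgroup GQ) (hH : ∀ g ∈ Hs, (S41NE_rho W p g) ^ p = 1) :
    ∃ P : (W.baseChange ℚbar).toAffine.Point, P ≠ 0 ∧ p • P = 0 ∧ ∀ g ∈ Hs, g • P = P := by
  haveI : Fact p.Prime := ⟨hp⟩
  haveI := S41NE_finite_X W hΔ hp hp2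
  set H : Subgroup (Equiv.Perm (S41NE_X W p)) := Hs.map (S41NE_rho W p) with hHdef
  have hPG : IsPGroup p H := by
    rintro ⟨h, hh⟩
    obtain ⟨g, hg, rfl⟩ := hh
    refine ⟨1, Subtype.ext ?_⟩
    simpa using hH g hg
  have hcard := hPG.card_modEq_card_fixedPoints (S41NE_X W p)
  rw [S41NE_card_X W hΔ hp hp2] at hcard
  have hdvd : p ∣ Nat.card (MulAction.fixedPoints H (S41NE_X W p)) := by
    have h1 : p ^ 2 ≡ 0 [MOD p] := (Nat.modEq_zero_iff_dvd).2 (dvd_pow_self p two_ne_zero)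
    exact (Nat.modEq_zero_iff_dvd).1 (hcard.symm.trans h1)
  have hO : S41NE_X.zero W p ∈ MulAction.fixedPoints H (S41NE_X W p) := by
    rintro ⟨h, hh⟩
    obtain ⟨g, hg, rfl⟩ := hh
    apply S41NE_X.ext
    exact S41NE_gsmul_zero W g
  haveI : Nonempty (MulAction.fixedPoints H (S41NE_X W p)) := ⟨⟨_, hO⟩⟩
  have hpos : 0 < Nat.card (MulAction.fixedPoints H (S41NE_X W p)) := Nat.card_pos
  have h2 : 1 < Nat.card (MulAction.fixedPoints H (S41NE_X W p)) :=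
    lt_of_lt_of_le hp.one_lt (Nat.le_of_dvd hpos hdvd)
  haveI : Nontrivial (MulAction.fixedPoints H (S41NE_X W p)) :=
    Finite.one_lt_card_iff_nontrivial.1 h2
  obtain ⟨⟨Q, hQ⟩, hne⟩ := exists_ne (⟨_, hO⟩ : MulAction.fixedPoints H (S41NE_X W p))
  refine ⟨Q.pt, ?_, Q.pt_spec, ?_⟩
  · intro h0
    apply hne
    exact Subtype.ext (S41NE_X.eq_zero_of_pt W p h0)
  · intro g hg
    have := hQ ⟨S41NE_rho W p g, Subgroup.mem_map_of_mem _ hg⟩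
    exact congrArg S41NE_X.pt this

/-- powers of an element inverting `ζ`. -/
lemma S41NE_inv_pow_apply {ζ : ℚbar} (c : GQ) (hc : c ζ = ζ⁻¹) (k : ℕ) :
    (c ^ (2 * k)) ζ = ζ ∧ (c ^ (2 * k + 1)) ζ = ζ⁻¹ := by
  have h2 : (c ^ 2) ζ = ζ := by
    rw [pow_two]
    show c (c ζ) = ζ
    rw [hc, map_inv₀, hc, inv_inv]
  have h3 : (c ^ (2 * k)) ζ = ζ := by
    rw [pow_mul]
    exact S41NE_pow_fix (c ^ 2) h2 k
  refine ⟨h3, ?_⟩
  rw [pow_succ]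
  show (c ^ (2 * k)) (c ζ) = ζ⁻¹
  rw [hc, map_inv₀, h3]

/-- the subgroup of `p`-torsion points fixed by a set of automorphisms. -/
noncomputable def S41NE_fixedSub (S : Set GQ) : AddSubgroup (W.baseChange ℚbar).toAffine.Point where
  carrier := {P | p • P = 0 ∧ ∀ g ∈ S, g • P = P}
  add_mem' := by
    rintro P P' ⟨h1, h2⟩ ⟨h1', h2'⟩
    refine ⟨by rw [nsmul_add, h1, h1', add_zero], fun g hg => ?_⟩
    rw [S41NE_gsmul_add, h2 g hg, h2' g hg]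
  zero_mem' := ⟨nsmul_zero p, fun g _ => S41NE_gsmul_zero W g⟩
  neg_mem' := by
    rintro P ⟨h1, h2⟩
    refine ⟨by rw [neg_nsmul, h1, neg_zero], fun g hg => ?_⟩
    rw [S41NE_gsmul_neg, h2 g hg]

lemma S41NE_mem_fixedSub {S : Set GQ} {P : (W.baseChange ℚbar).toAffine.Point} :
    P ∈ S41NE_fixedSub W p S ↔ p • P = 0 ∧ ∀ g ∈ S, g • P = P := Iff.rfl

/-- a nonzero point killed by `2` and by an odd number does not exist. -/
lemma S41NE_eq_zero_of_two {G : Type*} [AddCommGroup G] {p : ℕ} (hp : p.Prime) (hp2 : p ≠ 2)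
    {P : G} (h1 : p • P = 0) (h2 : P = -P) : P = 0 := by
  have h3 : 2 • P = 0 := by
    rw [two_nsmul]
    nth_rewrite 1 [h2]
    exact neg_add_cancel P
  obtain ⟨k, hk⟩ := hp.odd_of_ne_two hp2
  rw [hk, add_nsmul, mul_nsmul, h3, nsmul_zero, zero_add, one_nsmul] at h1
  exact h1

/-- a point killed by `p` and by an integer prime to `p` is zero. -/
lemma S41NE_bezout_zero {G : Type*} [AddCommGroup G] {p : ℕ} (hp : p.Prime) {a : ℤ}
    (hnd : ¬ (p : ℤ) ∣ a) {R : G} (h1 : p • R = 0) (h2 : a • R = 0) : R = 0 := by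
  have hpZ : Prime (p : ℤ) := Nat.prime_iff_prime_int.1 hp
  have hcop : IsCoprime (p : ℤ) a := (Irreducible.coprime_iff_not_dvd hpZ.irreducible).2 hnd
  obtain ⟨u, v, huv⟩ := hcop
  have e : R = (u * (p : ℤ) + v * a) • R := by rw [huv, one_smul]
  rw [e, add_smul, mul_smul, mul_smul, h2, smul_zero, natCast_zsmul, h1, smul_zero, add_zero]

/-- **the core**: under the Eisenstein hypothesis, `W[p](ℚ̄)` is reducible. -/
theorem S41NE_core (hΔ : W.Δ ≠ 0) {p : ℕ} (hp : p.Prime) (hp2 : p ≠ 2) {M : ℕ} (hM : 0 < M)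
    (T : Finset ℕ)
    (hyp : ∀ ℓ : ℕ, ℓ.Prime → ℓ ∉ T → ℓ ≡ 1 [MOD M] → ¬ (ℓ : ℤ) ∣ W.Δ → ℓ ≠ p →
      (p : ℤ) ∣ W.apOfModel ℓ - (ℓ + 1)) :
    ∃ N : AddSubgroup (W.baseChange ℚbar).toAffine.Point,
      (∀ P ∈ N, p • P = 0) ∧ (∀ σ : GQ, ∀ P ∈ N, σ • P ∈ N) ∧ N ≠ ⊥ ∧
      ∃ P : (W.baseChange ℚbar).toAffine.Point, p • P = 0 ∧ P ∉ N := by
  classical
  set n : ℕ := M * p with hn_def
  have hn : 0 < n := Nat.mul_pos hM hp.pos
  have hp3 : 3 ≤ p := by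
    have := hp.two_le
    omega
  have hn3 : 3 ≤ n := le_trans hp3 (Nat.le_mul_of_pos_left p hM)
  haveI : NeZero ((n : ℕ) : ℚ) := ⟨Nat.cast_ne_zero.2 hn.ne'⟩
  obtain ⟨ζ, hζ⟩ := HasEnoughRootsOfUnity.exists_primitiveRoot ℚbar n
  have hζ0 : ζ ≠ 0 := hζ.ne_zero hn.ne'
  set T' : Finset ℕ := T ∪ (n * W.Δ.natAbs).primeFactors ∪ {p} with hT'_def
  have hT' : ∀ ℓ : ℕ, ℓ.Prime → ℓ ∉ T' → ℓ ∉ T ∧ ¬ ℓ ∣ n ∧ ¬ (ℓ : ℤ) ∣ W.Δ ∧ ℓ ≠ p := by
    intro ℓ hℓ hℓT'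
    simp only [hT'_def, Finset.mem_union, Finset.mem_singleton, not_or] at hℓT'
    obtain ⟨⟨h1, h2⟩, h3⟩ := hℓT'
    have h4 : n * W.Δ.natAbs ≠ 0 := Nat.mul_ne_zero hn.ne' (Int.natAbs_ne_zero.2 hΔ)
    have h5 : ¬ ℓ ∣ n * W.Δ.natAbs := fun h => h2 (Nat.mem_primeFactors.2 ⟨hℓ, h, h4⟩)
    refine ⟨h1, fun h => h5 (dvd_mul_of_dvd_left h _), fun h => h5 ?_, h3⟩
    exact dvd_mul_of_dvd_right (Int.natCast_dvd.1 h) _
  -- Step 1: the stabiliser of `ζ` acts through a group of exponent `p`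
  have hunip : ∀ g : GQ, g ζ = ζ → (S41NE_rho W p g) ^ p = 1 := fun g hg =>
    S41NE_unip W hΔ hp hp2 (dvd_mul_right M p) (dvd_mul_left p M) hn hζ T hyp T' hT' g hg
  -- Step 2: a nonzero fixed point
  obtain ⟨Q, hQ0, hpQ, hQfix⟩ :=
    S41NE_exists_fixed_pt W hΔ hp hp2 (S41NE_stab ζ) (fun g hg => hunip g hg)
  -- Step 3: the subgroup of points fixed by the stabiliser
  by_cases hB : ∀ P : (W.baseChange ℚbar).toAffine.Point, p • P = 0 →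
      P ∈ S41NE_fixedSub W p {g | g ζ = ζ}
  swap
  · push Not at hB
    obtain ⟨P, hP, hPN⟩ := hB
    refine ⟨S41NE_fixedSub W p {g | g ζ = ζ}, fun P hP => hP.1, ?_, ?_, ⟨P, hP, hPN⟩⟩
    · rintro τ P ⟨hP1, hP2⟩
      refine ⟨S41NE_torsion_smul W p τ hP1, fun g hg => ?_⟩
      have h1 : (τ⁻¹ * g * τ) ζ = ζ := S41NE_stab_conj hζ hn τ g hg
      have h2 := hP2 _ h1
      have h3 : g * τ = τ * (τ⁻¹ * g * τ) := by group
      rw [← S41NE_gsmul_mul, h3, S41NE_gsmul_mul, h2]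
    · intro hbot
      have hQN : Q ∈ S41NE_fixedSub W p {g | g ζ = ζ} := ⟨hpQ, fun g hg => hQfix g hg⟩
      rw [hbot] at hQN
      exact hQ0 (AddSubgroup.mem_bot.1 hQN)
  -- Case B: the stabiliser of `ζ` acts trivially
  have hB' : ∀ g : GQ, g ζ = ζ → ∀ P : (W.baseChange ℚbar).toAffine.Point, p • P = 0 →
      g • P = P := fun g hg P hP => (hB P hP).2 g hg
  obtain ⟨c, hc⟩ := S41NE_exists_inv hζ hn
  haveI := S41NE_field_finiteDimensional W hΔ hp hp2 ζ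
  obtain ⟨ℓ, σ, m, m', hℓ, hℓT', ⟨A, hA, hσA⟩, hcσ, hσc⟩ :=
    S41NE_fde c (S41NE_field W p ζ) T'
  obtain ⟨hℓT, hℓn, hgood, hℓp⟩ := hT' ℓ hℓ hℓT'
  have hσζ : σ ζ = ζ⁻¹ := by
    rcases Nat.even_or_odd' m' with ⟨k, hk | hk⟩
    · exfalso
      have h1 : σ ζ = ζ := by
        rw [hσc ζ (S41NE_zeta_mem_field W p ζ), hk]
        exact (S41NE_inv_pow_apply c hc k).1
      have h2 : c ζ = ζ := by
        rw [hcσ ζ (S41NE_zeta_mem_field W p ζ)]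
        exact S41NE_pow_fix σ h1 m
      have h3 : ζ ^ 2 = 1 := by
        have h4 : ζ⁻¹ = ζ := hc.symm.trans h2
        rw [pow_two]
        nth_rewrite 1 [← h4]
        exact inv_mul_cancel₀ hζ0
      have h4 : n ∣ 2 := (hζ.pow_eq_one_iff_dvd 2).1 h3
      have := Nat.le_of_dvd (by norm_num) h4
      omega
    · rw [hσc ζ (S41NE_zeta_mem_field W p ζ), hk]
      exact (S41NE_inv_pow_apply c hc k).2
  have hζℓ : ζ ^ ℓ = ζ⁻¹ := by rw [← S41NE_zeta_frob hζ hn hℓ hℓn A hA σ hσA, hσζ]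
  have hζℓ1 : ζ ^ (ℓ + 1) = 1 := by rw [pow_succ, hζℓ, inv_mul_cancel₀ hζ0]
  have hnℓ : n ∣ ℓ + 1 := (hζ.pow_eq_one_iff_dvd _).1 hζℓ1
  have hpℓ : (p : ℤ) ∣ (ℓ : ℤ) + 1 := by
    have : p ∣ ℓ + 1 := dvd_trans (dvd_mul_left p M) hnℓ
    exact_mod_cast this
  have hσσζ : (σ * σ) ζ = ζ := by
    show σ (σ ζ) = ζ
    rw [hσζ, map_inv₀, hσζ, inv_inv]
  have hσσ : ∀ P : (W.baseChange ℚbar).toAffine.Point, p • P = 0 → σ • σ • P = P := by
    intro P hP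
    rw [← S41NE_gsmul_mul]
    exact hB' (σ * σ) hσσζ P hP
  -- Eichler–Shimura: `a_ℓ σ = 0` on the `p`-torsion
  have haσ : ∀ P : (W.baseChange ℚbar).toAffine.Point, p • P = 0 →
      W.apOfModel ℓ • σ • P = 0 := by
    intro P hP
    have hes := S41NE_es W A hℓ hA hgood hp hℓp σ hσA P hP
    have e2 : (ℓ : ℤ) • P = (-1 : ℤ) • P :=
      S41NE_zsmul_congr p (by simpa using hpℓ) hP
    rw [hσσ P hP, e2, neg_smul, one_smul] at hes
    have e3 : W.apOfModel ℓ • σ • P = -(P - W.apOfModel ℓ • σ • P + -P) := by abel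
    rw [e3, hes, neg_zero]
  have hpa : (p : ℤ) ∣ W.apOfModel ℓ := by
    by_contra hnd
    have hσQ : p • (σ • Q) = 0 := S41NE_torsion_smul W p σ hpQ
    have h1 : σ • Q = 0 := S41NE_bezout_zero hp hnd hσQ (haσ Q hpQ)
    have h2 : Q = 0 := by
      have e : σ⁻¹ • σ • Q = Q := by
        rw [← S41NE_gsmul_mul, inv_mul_cancel, S41NE_gsmul_one]
      rw [← e, h1, S41NE_gsmul_zero]
    exact hQ0 h2
  have hd1 : (p : ℤ) ∣ (ℓ : ℤ) + 1 - W.apOfModel ℓ := dvd_sub hpℓ hpa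
  have hd2 : (p : ℤ) ∣ (ℓ : ℤ) + 1 + W.apOfModel ℓ := dvd_add hpℓ hpa
  obtain ⟨P₁, hP₁0, hpP₁, hσP₁⟩ := S41NE_eig W A hℓ hA hgood hp hp2 hℓp σ hσA hd1
  obtain ⟨P₂, hP₂0, hpP₂, hσP₂⟩ := S41NE_eig_neg W A hℓ hA hgood hp hp2 hℓp σ hσA hd2
  refine ⟨S41NE_fixedSub W p {σ}, fun P hP => hP.1, ?_, ?_, ⟨P₂, hpP₂, ?_⟩⟩
  · rintro τ P ⟨hP1, hP2⟩
    refine ⟨S41NE_torsion_smul W p τ hP1, fun g hg => ?_⟩
    have hg' : g = σ := hg
    subst hg'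
    have hcomm : ((τ * g)⁻¹ * (g * τ)) ζ = ζ := S41NE_stab_comm hζ hn g τ
    have h1 := hB' _ hcomm P hP1
    have h2 : g * τ = (τ * g) * ((τ * g)⁻¹ * (g * τ)) := by group
    rw [← S41NE_gsmul_mul, h2, S41NE_gsmul_mul, h1, S41NE_gsmul_mul, hP2 g rfl]
  · intro hbot
    have hPN : P₁ ∈ S41NE_fixedSub W p {σ} := ⟨hpP₁, fun g hg => by
      have hg' : g = σ := hg
      rw [hg', hσP₁]⟩
    rw [hbot] at hPN
    exact hP₁0 (AddSubgroup.mem_bot.1 hPN)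
  · rintro ⟨-, h⟩
    have h1 : σ • P₂ = P₂ := h σ rfl
    rw [hσP₂] at h1
    exact hP₂0 (S41NE_eq_zero_of_two hp hp2 hpP₂ h1.symm)

end Fermat.Agent.S41
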