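import Mathlib
import Fermat.Prelude.Def_FLTPrelim_ModularRep
import Fermat.Agent.S41.NECore
import Fermat.Agent.S41.NETransfer

/-!
# S41, package NE (helper28 + helper12): non-Eisenstein from irreducibility

`S41NE_main` : if the mod-`p` representation of `E` is irreducible (`p` odd) and `W` is an integral
model of `E`, then for every modulus `M > 0` and every finite set `T` of primes there is a good
prime `ℓ ∉ T`, `ℓ ≡ 1 mod M`, `ℓ ≠ p`, with `a_ℓ(W) ≢ ℓ + 1 mod p`.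

`S41NE_main_form` : the same for an eigenform congruent to `W` modulo a maximal ideal over `p`:
`a_ℓ(f) − (ℓ + 1) ∉ 𝔪`.
-/

set_option autoImplicit false
set_option linter.unusedSectionVars false
set_option linter.unusedVariables false
set_option linter.style.haveILetI false

namespace Fermat.Agent.S41

open WeierstrassCurve WeierstrassCurve.Affine WeierstrassCurve.Affine.Point Fermat.Agent.Lib
  Fermat.Agent.GalRep

/-- **NE, strong form.** -/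
theorem S41NE_main (E : WeierstrassCurve ℚ) [E.IsElliptic] {W : WeierstrassCurve ℤ}
    (hW : W.IsIntegralModelOf E) {p : ℕ} (hp : p.Prime) (hp2 : p ≠ 2)
    (hirr : GaloisRepIsIrreducible (K := AlgebraicClosure ℚ) ℚ E p)
    (M : ℕ) (hM : 0 < M) (T : Finset ℕ) :
    ∃ ℓ : ℕ, ℓ.Prime ∧ ℓ ∉ T ∧ ℓ ≡ 1 [MOD M] ∧ W.IsGoodPrimeFor ℓ ∧ ℓ ≠ p ∧
      ¬ (p : ℤ) ∣ W.apOfModel ℓ - (ℓ + 1) := by
  by_contra hcon
  push Not at hcon
  obtain ⟨hΔ, hN⟩ := S41NT_irr E hW hp hirr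
  obtain ⟨N, h1, h2, h3, P, hP, hPN⟩ := S41NE_core W hΔ hp hp2 hM T
    (fun ℓ hℓ hT h1 hg hℓp => hcon ℓ hℓ hT h1 hg hℓp)
  rcases hN N h1 h2 with h | h
  · exact h3 h
  · exact hPN (h P hP)

/-- integers in a maximal ideal over `p` are divisible by `p`. -/
lemma S41NE_dvd_of_mem {R : Type*} [CommRing R] {𝔪 : Ideal R} (hmax : 𝔪.IsMaximal) {p : ℕ}
    (hp : p.Prime) (hpm : (p : R) ∈ 𝔪) {a : ℤ} (ha : (a : R) ∈ 𝔪) : (p : ℤ) ∣ a := by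
  by_contra hnd
  have hpZ : Prime (p : ℤ) := Nat.prime_iff_prime_int.1 hp
  have hcop : IsCoprime (p : ℤ) a := (Irreducible.coprime_iff_not_dvd hpZ.irreducible).2 hnd
  obtain ⟨u, v, huv⟩ := hcop
  have h1 : ((u * (p : ℤ) + v * a : ℤ) : R) ∈ 𝔪 := by
    push_cast
    exact 𝔪.add_mem (𝔪.mul_mem_left _ hpm) (𝔪.mul_mem_left _ ha)
  rw [huv, Int.cast_one] at h1
  exact hmax.ne_top ((Ideal.eq_top_iff_one 𝔪).2 h1)

/-- **NE for an eigenform congruent to `W`.** -/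
theorem S41NE_main_form (E : WeierstrassCurve ℚ) [E.IsElliptic] {W : WeierstrassCurve ℤ}
    (hW : W.IsIntegralModelOf E) {p N : ℕ} (hp : p.Prime) (hp2 : p ≠ 2) (hN : 0 < N)
    (hirr : GaloisRepIsIrreducible (K := AlgebraicClosure ℚ) ℚ E p)
    (f : CuspForm (CongruenceSubgroup.Gamma0 N) 2) (𝔪 : Ideal (integralClosure ℤ ℂ))
    (hmax : 𝔪.IsMaximal) (hpm : (p : integralClosure ℤ ℂ) ∈ 𝔪)
    (hcong : ∀ ℓ : ℕ, ℓ.Prime → W.IsGoodPrimeFor ℓ → ¬ ℓ ∣ N → ℓ ≠ p →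
      ∃ a : integralClosure ℤ ℂ, (a : ℂ) = ModularFormClass.qCoeff f ℓ ∧
        a - ((W.apOfModel ℓ : ℤ) : integralClosure ℤ ℂ) ∈ 𝔪)
    (M : ℕ) (hM : 0 < M) (T : Finset ℕ) :
    ∃ ℓ : ℕ, ℓ.Prime ∧ ℓ ∉ T ∧ ℓ ≡ 1 [MOD M] ∧ W.IsGoodPrimeFor ℓ ∧ ¬ ℓ ∣ N ∧ ℓ ≠ p ∧
      ∀ a : integralClosure ℤ ℂ, (a : ℂ) = ModularFormClass.qCoeff f ℓ →
        a - ((ℓ : integralClosure ℤ ℂ) + 1) ∉ 𝔪 := by
  obtain ⟨ℓ, hℓ, hℓT, hℓM, hgood, hℓp, hnd⟩ :=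
    S41NE_main E hW hp hp2 hirr M hM (T ∪ N.primeFactors)
  rw [Finset.mem_union, not_or] at hℓT
  have hℓN : ¬ ℓ ∣ N := fun h => hℓT.2 (Nat.mem_primeFactors.2 ⟨hℓ, h, hN.ne'⟩)
  refine ⟨ℓ, hℓ, hℓT.1, hℓM, hgood, hℓN, hℓp, ?_⟩
  intro a ha hmem
  obtain ⟨a₀, ha₀, hmem₀⟩ := hcong ℓ hℓ hgood hℓN hℓp
  have haa : a = a₀ := Subtype.ext (ha.trans ha₀.symm)
  subst haa
  apply hnd
  apply S41NE_dvd_of_mem hmax hp hpm
  have h1 : (((W.apOfModel ℓ - (ℓ + 1) : ℤ)) : integralClosure ℤ ℂ) =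
      (a - ((ℓ : integralClosure ℤ ℂ) + 1)) - (a - ((W.apOfModel ℓ : ℤ) : integralClosure ℤ ℂ)) := by
    push_cast
    ring
  rw [h1]
  exact 𝔪.sub_mem hmem hmem₀

end Fermat.Agent.S41
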