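import Fermat.Agent.S41.AlgKey

/-!
# S41 (level raising), package ALG (step (D) of NOTES/items/39_design.md)

Abstract algebra, annihilator form.  `R` is a commutative ring (Hecke polynomials away from `q'`)
acting on the finite free `ℤ`-modules `L` (level `N`) and `L'` (level `N q'`) through
`ρ`, `ρ'`; `α, β : L → L'` are the two degeneracy maps, `trA, trB : L' → L` the transfers, with
`trA ∘ α = c = trB ∘ β`, `trA ∘ β = T`, `trB ∘ α = T'`.  `θ : R → k`, `char k = p`.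

* (A) (Ihara) some `r` with `θ r ≠ 0` kills the kernel of `α + β` modulo `p`;
* (B) (dual Ihara) some `r'` with `θ r' ≠ 0` kills the cokernel of `(trA, trB)` modulo `p`;
* (X) `x ≠ 0` in `k ⊗ L` is a `θ`-eigenvector with `T x = a x`, `T' x = a' x`, `a a' = c²`.

Conclusion `S41G_main`: a nonzero `θ`-eigenvector of `k ⊗ L'` lying in the image of
`k ⊗ ker (trA, trB)`; `S41G_main'`: the same as an element of `k ⊗ B` for any submodule
`B = ker trA ⊓ ker trB` with its restricted action.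
-/

open TensorProduct

set_option linter.style.longLine false
set_option linter.unusedSectionVars false
set_option linter.unusedVariables false

/-- in characteristic `p`, `(p • E).baseChange k = 0`. -/
theorem S41G_baseChange_p_smul {k : Type*} [Field k] (p : ℕ) [CharP k p]
    {V W : Type*} [AddCommGroup V] [AddCommGroup W] (E : V →ₗ[ℤ] W) (u : k ⊗[ℤ] V) :
    (((p : ℤ) • E).baseChange k) u = 0 := by
  rw [LinearMap.baseChange_smul, LinearMap.smul_apply, ← Int.cast_smul_eq_zsmul k]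
  have : (((p : ℤ) : k)) = 0 := by
    rw [Int.cast_natCast]; exact CharP.cast_eq_zero k p
  rw [this, zero_smul]

/-- `(c • id).baseChange k u = (c : k) • u`. -/
theorem S41G_baseChange_int_smul_id {k : Type*} [Field k]
    {V : Type*} [AddCommGroup V] (c : ℤ) (u : k ⊗[ℤ] V) :
    ((c • (LinearMap.id : V →ₗ[ℤ] V)).baseChange k) u = (c : k) • u := by
  rw [LinearMap.baseChange_smul, LinearMap.smul_apply, LinearMap.baseChange_id,
    LinearMap.id_apply, Int.cast_smul_eq_zsmul]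

theorem S41G_bc_comp {k : Type*} [Field k] {V₁ V₂ V₃ : Type*} [AddCommGroup V₁]
    [AddCommGroup V₂] [AddCommGroup V₃]
    (g : V₂ →ₗ[ℤ] V₃) (f : V₁ →ₗ[ℤ] V₂) (z : k ⊗[ℤ] V₁) :
    g.baseChange k (f.baseChange k z) = (g ∘ₗ f).baseChange k z := by
  rw [LinearMap.baseChange_comp, LinearMap.comp_apply]

/-- a nonzero vector in the kernel of a singular `2 × 2` matrix `[[c, a], [a', c]]`. -/
theorem S41G_kernel_vector {k : Type*} [Field k] (c a a' : k) (h : a * a' = c ^ 2) :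
    ∃ s₁ s₂ : k, (s₁ ≠ 0 ∨ s₂ ≠ 0) ∧ c * s₁ + a * s₂ = 0 ∧ a' * s₁ + c * s₂ = 0 := by
  by_cases hc : c = 0
  · subst hc
    by_cases ha' : a' = 0
    · subst ha'
      exact ⟨1, 0, Or.inl one_ne_zero, by simp, by simp⟩
    · have ha : a = 0 := by
        have : a * a' = 0 := by rw [h]; simp
        rcases mul_eq_zero.mp this with h1 | h1
        · exact h1
        · exact absurd h1 ha'
      subst ha
      exact ⟨0, 1, Or.inr one_ne_zero, by simp, by simp⟩
  · refine ⟨c, -a', Or.inl hc, ?_, ?_⟩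
    · have : c * c + a * -a' = c ^ 2 - a * a' := by ring
      rw [this, h, sub_self]
    · ring

theorem S41G_main {R : Type*} [CommRing R]
    {L L' : Type*} [AddCommGroup L] [AddCommGroup L'] [Module.Free ℤ L] [Module.Finite ℤ L]
    [Module.Free ℤ L']
    (ρ : R →+* Module.End ℤ L) (ρ' : R →+* Module.End ℤ L')
    (α β : L →ₗ[ℤ] L') (trA trB : L' →ₗ[ℤ] L) (T T' : Module.End ℤ L) (c : ℤ)
    (hα : ∀ t, α ∘ₗ ρ t = ρ' t ∘ₗ α) (hβ : ∀ t, β ∘ₗ ρ t = ρ' t ∘ₗ β)
    (hA : ∀ t, trA ∘ₗ ρ' t = ρ t ∘ₗ trA) (hB : ∀ t, trB ∘ₗ ρ' t = ρ t ∘ₗ trB)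
    (hAα : trA ∘ₗ α = c • LinearMap.id) (hBβ : trB ∘ₗ β = c • LinearMap.id)
    (hAβ : trA ∘ₗ β = T) (hBα : trB ∘ₗ α = T')
    {k : Type*} [Field k] (p : ℕ) [Fact p.Prime] [CharP k p] (θ : R →+* k)
    (hIh : ∃ r : R, θ r ≠ 0 ∧ ∀ v₁ v₂ : L, (∃ w, α v₁ + β v₂ = (p : ℤ) • w) →
        (∃ w₁, ρ r v₁ = (p : ℤ) • w₁) ∧ (∃ w₂, ρ r v₂ = (p : ℤ) • w₂))
    (hDual : ∃ r' : R, θ r' ≠ 0 ∧ ∀ w₁ w₂ : L, ∃ (y : L') (z₁ z₂ : L),
        ρ r' w₁ - trA y = (p : ℤ) • z₁ ∧ ρ r' w₂ - trB y = (p : ℤ) • z₂)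
    (x : k ⊗[ℤ] L) (hx : x ≠ 0) (hxθ : ∀ t, (ρ t).baseChange k x = θ t • x)
    (a a' : k) (hT : T.baseChange k x = a • x) (hT' : T'.baseChange k x = a' • x)
    (haa : a * a' = (c : k) ^ 2) :
    ∃ u : k ⊗[ℤ] L', u ≠ 0 ∧ (∀ t, (ρ' t).baseChange k u = θ t • u) ∧
      u ∈ LinearMap.range ((LinearMap.ker (trA.prod trB)).subtype.baseChange k) := by
  classical
  obtain ⟨s₁, s₂, hs, hs1, hs2⟩ := S41G_kernel_vector (c : k) a a' haa
  set u : k ⊗[ℤ] L' := s₁ • α.baseChange k x + s₂ • β.baseChange k x with hu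
  -- transfers kill u
  have hAu : trA.baseChange k u = 0 := by
    rw [hu, map_add, map_smul, map_smul, S41G_bc_comp, S41G_bc_comp, hAα, hAβ, S41G_baseChange_int_smul_id, hT,
      smul_smul, smul_smul, ← add_smul]
    have : s₁ * (c : k) + s₂ * a = 0 := by rw [← hs1]; ring
    rw [this, zero_smul]
  have hBu : trB.baseChange k u = 0 := by
    rw [hu, map_add, map_smul, map_smul, S41G_bc_comp, S41G_bc_comp, hBα, hBβ, S41G_baseChange_int_smul_id, hT',
      smul_smul, smul_smul, ← add_smul]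
    have : s₁ * a' + s₂ * (c : k) = 0 := by rw [← hs2]; ring
    rw [this, zero_smul]
  -- u is an eigenvector
  have hθu : ∀ t, (ρ' t).baseChange k u = θ t • u := by
    intro t
    rw [hu, map_add, map_smul, map_smul, S41G_bc_comp, S41G_bc_comp, ← hα, ← hβ, ← S41G_bc_comp, ← S41G_bc_comp, hxθ, map_smul,
      map_smul, smul_add, smul_comm (θ t) s₁, smul_comm (θ t) s₂]
  -- u ≠ 0 by (A)
  have hune : u ≠ 0 := by
    obtain ⟨r, hr, hrk⟩ := hIh
    intro hu0
    -- first coordinate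
    obtain ⟨G₁, E₁, hG₁⟩ := S41G_factor_ker p (α.coprod β) (ρ r ∘ₗ LinearMap.fst ℤ L L)
      (fun v ⟨w, hw⟩ => (hrk v.1 v.2 ⟨w, by simpa using hw⟩).1)
    obtain ⟨G₂, E₂, hG₂⟩ := S41G_factor_ker p (α.coprod β) (ρ r ∘ₗ LinearMap.snd ℤ L L)
      (fun v ⟨w, hw⟩ => (hrk v.1 v.2 ⟨w, by simpa using hw⟩).2)
    have h1a : G₁ ∘ₗ α = ρ r - (p : ℤ) • (E₁ ∘ₗ LinearMap.inl ℤ L L) := by
      ext v
      have := LinearMap.congr_fun hG₁ (v, 0)
      simp only [LinearMap.comp_apply, LinearMap.fst_apply, LinearMap.add_apply,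
        LinearMap.coprod_apply, map_zero, add_zero, LinearMap.smul_apply] at this
      simp only [LinearMap.comp_apply, LinearMap.sub_apply, LinearMap.smul_apply,
        LinearMap.inl_apply]
      rw [this]; abel
    have h1b : G₁ ∘ₗ β = - ((p : ℤ) • (E₁ ∘ₗ LinearMap.inr ℤ L L)) := by
      ext v
      have := LinearMap.congr_fun hG₁ (0, v)
      simp only [LinearMap.comp_apply, LinearMap.fst_apply, LinearMap.add_apply,
        LinearMap.coprod_apply, map_zero, zero_add, LinearMap.smul_apply] at this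
      simp only [LinearMap.comp_apply, LinearMap.neg_apply, LinearMap.smul_apply,
        LinearMap.inr_apply]
      rw [eq_neg_iff_add_eq_zero, ← this]
    have h2a : G₂ ∘ₗ α = - ((p : ℤ) • (E₂ ∘ₗ LinearMap.inl ℤ L L)) := by
      ext v
      have := LinearMap.congr_fun hG₂ (v, 0)
      simp only [LinearMap.comp_apply, LinearMap.snd_apply, LinearMap.add_apply,
        LinearMap.coprod_apply, map_zero, add_zero, LinearMap.smul_apply] at this
      simp only [LinearMap.comp_apply, LinearMap.neg_apply, LinearMap.smul_apply,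
        LinearMap.inl_apply]
      rw [eq_neg_iff_add_eq_zero, ← this]
    have h2b : G₂ ∘ₗ β = ρ r - (p : ℤ) • (E₂ ∘ₗ LinearMap.inr ℤ L L) := by
      ext v
      have := LinearMap.congr_fun hG₂ (0, v)
      simp only [LinearMap.comp_apply, LinearMap.snd_apply, LinearMap.add_apply,
        LinearMap.coprod_apply, map_zero, zero_add, LinearMap.smul_apply] at this
      simp only [LinearMap.comp_apply, LinearMap.sub_apply, LinearMap.smul_apply,
        LinearMap.inr_apply]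
      rw [this]; abel
    have e1 : G₁.baseChange k u = (s₁ * θ r) • x := by
      rw [hu, map_add, map_smul, map_smul, S41G_bc_comp, S41G_bc_comp, h1a, h1b, LinearMap.baseChange_sub,
        LinearMap.baseChange_neg, LinearMap.sub_apply, LinearMap.neg_apply,
        S41G_baseChange_p_smul, S41G_baseChange_p_smul, hxθ]
      simp [smul_smul]
    have e2 : G₂.baseChange k u = (s₂ * θ r) • x := by
      rw [hu, map_add, map_smul, map_smul, S41G_bc_comp, S41G_bc_comp, h2a, h2b, LinearMap.baseChange_sub,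
        LinearMap.baseChange_neg, LinearMap.sub_apply, LinearMap.neg_apply,
        S41G_baseChange_p_smul, S41G_baseChange_p_smul, hxθ]
      simp [smul_smul]
    rw [hu0, map_zero] at e1 e2
    have z1 : s₁ = 0 := by
      rcases smul_eq_zero.mp e1.symm with h | h
      · rcases mul_eq_zero.mp h with h | h
        · exact h
        · exact absurd h hr
      · exact absurd h hx
    have z2 : s₂ = 0 := by
      rcases smul_eq_zero.mp e2.symm with h | h
      · rcases mul_eq_zero.mp h with h | h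
        · exact h
        · exact absurd h hr
      · exact absurd h hx
    rcases hs with h | h
    · exact h z1
    · exact h z2
  refine ⟨u, hune, hθu, ?_⟩
  -- (B): move u into k ⊗ ker Ψ
  obtain ⟨r', hr', hrk'⟩ := hDual
  set Ψ : L' →ₗ[ℤ] L × L := trA.prod trB with hΨ
  set e : Module.End ℤ (L × L) := (ρ r').prodMap (ρ r') with he
  have hcomm : Ψ ∘ₗ ρ' r' = e ∘ₗ Ψ := by
    ext z
    · have := LinearMap.congr_fun (hA r') z
      simpa [hΨ, he] using this
    · have := LinearMap.congr_fun (hB r') z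
      simpa [hΨ, he] using this
  obtain ⟨G, E, hGE⟩ := S41G_factor_coker (p : ℤ) Ψ e (by
    intro w
    obtain ⟨y, z₁, z₂, h1, h2⟩ := hrk' w.1 w.2
    refine ⟨y, (z₁, z₂), ?_⟩
    ext
    · simpa [hΨ, he] using h1
    · simpa [hΨ, he] using h2)
  obtain ⟨m, P₀, H, E'', hsplit⟩ := S41G_split p Ψ (ρ' r') e hcomm G E hGE
  have hHΨ : H ∘ₗ Ψ = (H ∘ₗ LinearMap.inl ℤ L L) ∘ₗ trA + (H ∘ₗ LinearMap.inr ℤ L L) ∘ₗ trB := by
    ext z
    simp only [LinearMap.comp_apply, LinearMap.add_apply, hΨ, LinearMap.prod_apply, Function.prod,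
      LinearMap.inl_apply, LinearMap.inr_apply]
    rw [← map_add]
    simp
  have hpow : ((ρ' r') ^ m).baseChange k u = (θ r') ^ m • u := by
    rw [← map_pow, hθu, map_pow]
  have hkey : ((ρ' r') ^ m).baseChange k u =
      (LinearMap.ker Ψ).subtype.baseChange k (P₀.baseChange k u) := by
    have t1 : ((LinearMap.ker Ψ).subtype ∘ₗ P₀).baseChange k u =
        (LinearMap.ker Ψ).subtype.baseChange k (P₀.baseChange k u) := (S41G_bc_comp _ _ _).symm
    have t2 : ((H ∘ₗ LinearMap.inl ℤ L L) ∘ₗ trA).baseChange k u = 0 := by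
      rw [← S41G_bc_comp, hAu, map_zero]
    have t3 : ((H ∘ₗ LinearMap.inr ℤ L L) ∘ₗ trB).baseChange k u = 0 := by
      rw [← S41G_bc_comp, hBu, map_zero]
    rw [hsplit, add_assoc, hHΨ, LinearMap.baseChange_add, LinearMap.baseChange_add,
      LinearMap.baseChange_add, LinearMap.add_apply, LinearMap.add_apply, LinearMap.add_apply,
      S41G_baseChange_p_smul, t1, t2, t3]
    simp
  rw [hpow] at hkey
  refine ⟨((θ r') ^ m)⁻¹ • P₀.baseChange k u, ?_⟩
  rw [map_smul, ← hkey, smul_smul, inv_mul_cancel₀ (pow_ne_zero m hr'), one_smul]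

/-- the kernel of a linear map between finite free `ℤ`-modules is a direct summand, so its
inclusion stays injective after base change. -/
theorem S41G_ker_subtype_baseChange_injective {k : Type*} [Field k]
    {L' W : Type*} [AddCommGroup L'] [AddCommGroup W] [Module.Free ℤ W] [Module.Finite ℤ W]
    (Ψ : L' →ₗ[ℤ] W) :
    Function.Injective ((LinearMap.ker Ψ).subtype.baseChange k) := by
  classical
  have : Module.Free ℤ ↥(LinearMap.range Ψ) := inferInstance
  obtain ⟨s, hs⟩ := Module.projective_lifting_property Ψ.rangeRestrict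
    (LinearMap.id : ↥(LinearMap.range Ψ) →ₗ[ℤ] ↥(LinearMap.range Ψ))
    (LinearMap.surjective_rangeRestrict Ψ)
  have hmem : ∀ z : L', ((LinearMap.id : L' →ₗ[ℤ] L') - s ∘ₗ Ψ.rangeRestrict) z ∈
      LinearMap.ker Ψ := by
    intro z
    rw [LinearMap.mem_ker, LinearMap.sub_apply, LinearMap.id_apply, map_sub, LinearMap.comp_apply]
    have h1 : Ψ.rangeRestrict (s (Ψ.rangeRestrict z)) = Ψ.rangeRestrict z :=
      LinearMap.congr_fun hs (Ψ.rangeRestrict z)
    have h2 : Ψ (s (Ψ.rangeRestrict z)) = Ψ z := congrArg Subtype.val h1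
    rw [h2, sub_self]
  set π : L' →ₗ[ℤ] ↥(LinearMap.ker Ψ) := LinearMap.codRestrict (LinearMap.ker Ψ) _ hmem with hπ
  have hπι : π ∘ₗ (LinearMap.ker Ψ).subtype = LinearMap.id := by
    ext z
    simp only [LinearMap.comp_apply, Submodule.subtype_apply, hπ, LinearMap.codRestrict_apply,
      LinearMap.sub_apply, LinearMap.id_apply]
    have hz : Ψ.rangeRestrict (z : L') = 0 := by
      apply Subtype.ext
      exact z.2
    rw [hz, map_zero, sub_zero]
  apply Function.LeftInverse.injective (g := π.baseChange k)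
  intro y
  rw [S41G_bc_comp, hπι, LinearMap.baseChange_id, LinearMap.id_apply]

/-- **ALG, final form**: the eigenvector as an element of `k ⊗ B`, `B = ker trA ⊓ ker trB`,
with the restricted Hecke action `ρB`. -/
theorem S41G_main' {R : Type*} [CommRing R]
    {L L' : Type*} [AddCommGroup L] [AddCommGroup L'] [Module.Free ℤ L] [Module.Finite ℤ L]
    [Module.Free ℤ L']
    (ρ : R →+* Module.End ℤ L) (ρ' : R →+* Module.End ℤ L')
    (α β : L →ₗ[ℤ] L') (trA trB : L' →ₗ[ℤ] L) (T T' : Module.End ℤ L) (c : ℤ)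
    (hα : ∀ t, α ∘ₗ ρ t = ρ' t ∘ₗ α) (hβ : ∀ t, β ∘ₗ ρ t = ρ' t ∘ₗ β)
    (hA : ∀ t, trA ∘ₗ ρ' t = ρ t ∘ₗ trA) (hB : ∀ t, trB ∘ₗ ρ' t = ρ t ∘ₗ trB)
    (hAα : trA ∘ₗ α = c • LinearMap.id) (hBβ : trB ∘ₗ β = c • LinearMap.id)
    (hAβ : trA ∘ₗ β = T) (hBα : trB ∘ₗ α = T')
    {k : Type*} [Field k] (p : ℕ) [Fact p.Prime] [CharP k p] (θ : R →+* k)
    (hIh : ∃ r : R, θ r ≠ 0 ∧ ∀ v₁ v₂ : L, (∃ w, α v₁ + β v₂ = (p : ℤ) • w) →
        (∃ w₁, ρ r v₁ = (p : ℤ) • w₁) ∧ (∃ w₂, ρ r v₂ = (p : ℤ) • w₂))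
    (hDual : ∃ r' : R, θ r' ≠ 0 ∧ ∀ w₁ w₂ : L, ∃ (y : L') (z₁ z₂ : L),
        ρ r' w₁ - trA y = (p : ℤ) • z₁ ∧ ρ r' w₂ - trB y = (p : ℤ) • z₂)
    (x : k ⊗[ℤ] L) (hx : x ≠ 0) (hxθ : ∀ t, (ρ t).baseChange k x = θ t • x)
    (a a' : k) (hT : T.baseChange k x = a • x) (hT' : T'.baseChange k x = a' • x)
    (haa : a * a' = (c : k) ^ 2)
    (B : Submodule ℤ L') (hBdef : ∀ z, z ∈ B ↔ trA z = 0 ∧ trB z = 0)
    (ρB : R → Module.End ℤ ↥B) (hρB : ∀ t, B.subtype ∘ₗ ρB t = ρ' t ∘ₗ B.subtype) :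
    ∃ y : k ⊗[ℤ] ↥B, y ≠ 0 ∧ ∀ t, (ρB t).baseChange k y = θ t • y := by
  classical
  have hBker : B = LinearMap.ker (trA.prod trB) := by
    ext z
    rw [hBdef, LinearMap.mem_ker, LinearMap.prod_apply, Function.prod, Prod.mk_eq_zero]
  subst hBker
  obtain ⟨u, hu, hθu, y, hy⟩ := S41G_main ρ ρ' α β trA trB T T' c hα hβ hA hB hAα hBβ hAβ hBα p θ
    hIh hDual x hx hxθ a a' hT hT' haa
  have hinj := S41G_ker_subtype_baseChange_injective (k := k) (trA.prod trB)
  refine ⟨y, ?_, fun t => ?_⟩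
  · rintro rfl
    rw [map_zero] at hy
    exact hu hy.symm
  · apply hinj
    rw [S41G_bc_comp, hρB, ← S41G_bc_comp, hy, hθu, map_smul, hy]
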