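import Mathlib
import Fermat.Agent.S41.UNewFull
import Fermat.Agent.S41.Dict
import Fermat.Agent.S41.Alg
import Fermat.Prelude.Def_FLTPrelim_ModularRep
import Fermat.Prelude.Def_FreyPackage_LevelRaising

/-!
# S41 / ASM tail (helper16): level raising from Ihara + dual Ihara

* `S41T_form_of_eigvec` : DICT (6b') instantiated at `B = ker ψ ⊆ parInt (N q)` with the full Hecke
  action of `UNewFull`: a nonzero `θ`-eigenvector in `k ⊗ B` for the Hecke polynomials away from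
  `q` gives a normalised eigenform `g` of level `N q` with `a_q(g)² = 1` and `a_ℓ(g) ≡ θ(X_ℓ)`.
* `S41T_theta hf 𝔪 q : S41D_R q →+* ℤ̄ ⧸ 𝔪`, the eigensystem of `f` modulo `𝔪` away from `q`.
* `S41T_tail` : the conclusion of S41 from the two inputs `hIh` (Ihara) and `hDual` (dual Ihara),
  stated in the annihilator form of `S41G_main'` for `θ = S41T_theta hf 𝔪 q`.
-/

set_option autoImplicit false
set_option linter.unusedSectionVars false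
set_option linter.style.haveILetI false
set_option maxHeartbeats 1000000

open scoped TensorProduct
open CuspForm ModularCurve CongruenceSubgroup ModularFormClass ModularCurve.Period

namespace Fermat.Agent.S41

open Fermat.Agent.S16 Fermat.Agent.GalRep

section dict

variable (N q : ℕ) [NeZero N] [Fact q.Prime]

/-- **DICT (6b') at `B = ker ψ`.** -/
theorem S41T_form_of_eigvec (hqN : ¬ q ∣ N) (p : ℕ) [Fact p.Prime] {k : Type*} [Field k]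
    [CharP k p] (θ : S41D_R q →+* k) (y : k ⊗[ℤ] ↥(S41D_B N q)) (hy : y ≠ 0)
    (hye : ∀ t : S41D_R q, (S41D_rhoB N q hqN t).baseChange k y = θ t • y) :
    ∃ (g : CuspForm (Gamma0 (N * q)) 2) (𝔪' : Ideal (integralClosure ℤ ℂ)),
      g.IsNormalizedEigenform ∧ 𝔪'.IsMaximal ∧ ((p : ℕ) : integralClosure ℤ ℂ) ∈ 𝔪' ∧
      (∀ ℓ : {ℓ : Nat.Primes // (ℓ : ℕ) ≠ q}, ∀ c : ℤ, θ (MvPolynomial.X ℓ) = (c : k) →
        ∃ a : integralClosure ℤ ℂ, (a : ℂ) = qCoeff g ((ℓ : Nat.Primes) : ℕ) ∧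
          a - (c : integralClosure ℤ ℂ) ∈ 𝔪') ∧
      qCoeff g q ^ 2 = 1 := by
  classical
  haveI : NeZero q := ⟨(Fact.out : q.Prime).ne_zero⟩
  haveI := S41U_B_finite N q
  haveI := S41U_B_free N q
  set q' : Nat.Primes := ⟨q, Fact.out⟩ with hq'
  set θ' : Nat.Primes → k := fun ℓ =>
    if h : (ℓ : ℕ) ≠ q then θ (MvPolynomial.X ⟨ℓ, h⟩) else 0 with hθ'
  have hne : ∀ ℓ : Nat.Primes, ℓ ≠ q' → (ℓ : ℕ) ≠ q := fun ℓ hℓ h => hℓ (Subtype.ext h)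
  obtain ⟨g, 𝔪', hnorm, hmax, hp, hcoef, hnew⟩ :=
    S41F_form_of_eigvec' (N * q) (S41U_rhoFull N q hqN) (S41U_rhoFull_eq_zero N q hqN) q'
      (S41U_rhoFull_U N q hqN) p θ' y hy (fun ℓ hℓ => by
        have h := hne ℓ hℓ
        have e := S41U_rhoFull_X N q hqN ⟨ℓ, h⟩
        simp only at e
        rw [e, hye]
        simp only [hθ', dif_pos h])
  refine ⟨g, 𝔪', hnorm, hmax, hp, fun ℓ c hc => ?_, hnew⟩
  have hℓ : ℓ.1 ≠ q' := fun h => ℓ.2 (by rw [h])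
  refine hcoef ℓ.1 hℓ c ?_
  simp only [hθ', dif_pos ℓ.2]
  exact hc

end dict

section tail

/-- characteristic `p` of a quotient field in which `p = 0`. -/
theorem S41T_charP {R : Type*} [CommRing R] (𝔪 : Ideal R) [h𝔪 : 𝔪.IsMaximal] {p : ℕ}
    (hp : p.Prime) (hp𝔪 : (p : R) ∈ 𝔪) : CharP (R ⧸ 𝔪) p := by
  have hp0 : ((p : ℕ) : R ⧸ 𝔪) = 0 := by
    have h : Ideal.Quotient.mk 𝔪 (p : R) = 0 := Ideal.Quotient.eq_zero_iff_mem.mpr hp𝔪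
    simpa using h
  haveI : Nontrivial (R ⧸ 𝔪) := Ideal.Quotient.nontrivial_iff.mpr h𝔪.ne_top
  have hdvd : ringChar (R ⧸ 𝔪) ∣ p := (ringChar.spec (R ⧸ 𝔪) p).mp hp0
  rcases (Nat.dvd_prime hp).mp hdvd with h1 | h1
  · exact absurd h1 (CharP.ringChar_ne_one)
  · rw [← h1]
    exact ringChar.charP (R ⧸ 𝔪)

variable (N q : ℕ) [NeZero N] [Fact q.Prime]

/-- the eigensystem of `f` modulo `𝔪`, on the Hecke polynomials away from `q`. -/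
noncomputable def S41T_theta {f : CuspForm (Gamma0 N) 2} (hf : f.IsNormalizedEigenform)
    (𝔪 : Ideal (integralClosure ℤ ℂ)) : S41D_R q →+* (integralClosure ℤ ℂ ⧸ 𝔪) :=
  (Ideal.Quotient.mk 𝔪).comp ((S41F_char hf).comp (S41D_incR q))

theorem S41T_theta_apply {f : CuspForm (Gamma0 N) 2} (hf : f.IsNormalizedEigenform)
    (𝔪 : Ideal (integralClosure ℤ ℂ)) (t : S41D_R q) :
    S41T_theta N q hf 𝔪 t = Ideal.Quotient.mk 𝔪 (S41F_char hf (S41D_incR q t)) := rfl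

theorem S41T_theta_X {f : CuspForm (Gamma0 N) 2} (hf : f.IsNormalizedEigenform)
    (𝔪 : Ideal (integralClosure ℤ ℂ)) (ℓ : {ℓ : Nat.Primes // (ℓ : ℕ) ≠ q}) :
    S41T_theta N q hf 𝔪 (MvPolynomial.X ℓ)
      = Ideal.Quotient.mk 𝔪 (S41F_char hf (heckeGen ℓ.1)) := by
  rw [S41T_theta_apply, S41D_incR_X]

/-- `θ (X_r − (r+1)) ≠ 0` iff `a_r(f) − (r+1) ∉ 𝔪`. -/
theorem S41T_theta_eis {f : CuspForm (Gamma0 N) 2} (hf : f.IsNormalizedEigenform)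
    (𝔪 : Ideal (integralClosure ℤ ℂ)) (ℓ : {ℓ : Nat.Primes // (ℓ : ℕ) ≠ q}) (c : ℤ) :
    S41T_theta N q hf 𝔪 (MvPolynomial.X ℓ - MvPolynomial.C c) ≠ 0
      ↔ S41F_char hf (heckeGen ℓ.1) - (c : integralClosure ℤ ℂ) ∉ 𝔪 := by
  rw [map_sub, S41T_theta_X, show (MvPolynomial.C c : S41D_R q) = (c : S41D_R q) from
    eq_intCast _ c, map_intCast, ← map_intCast (Ideal.Quotient.mk 𝔪), ← map_sub, Ne,
    Ideal.Quotient.eq_zero_iff_mem]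

/-- **ASM tail**: level raising from Ihara's lemma `hIh` and its dual `hDual`, both in the
annihilator form of `S41G_main'`, for the eigensystem `θ = S41T_theta hf 𝔪` of `f` mod `𝔪`. -/
theorem S41T_tail (p : ℕ) [Fact p.Prime] (hqN : ¬ q ∣ N) (W : WeierstrassCurve ℤ)
    (f : CuspForm (Gamma0 N) 2) (𝔪 : Ideal (integralClosure ℤ ℂ))
    (hf : f.IsNormalizedEigenform) (hmax : 𝔪.IsMaximal) (hpm : (p : integralClosure ℤ ℂ) ∈ 𝔪)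
    (hcong : ∀ ℓ : ℕ, ℓ.Prime → W.IsGoodPrimeFor ℓ → ¬ ℓ ∣ N → ℓ ≠ p →
      ∃ a : integralClosure ℤ ℂ, (a : ℂ) = qCoeff f ℓ ∧
        a - ((W.apOfModel ℓ : ℤ) : integralClosure ℤ ℂ) ∈ 𝔪)
    (hLR : ∃ a : integralClosure ℤ ℂ, (a : ℂ) = qCoeff f q ∧
      a ^ 2 - ((q : integralClosure ℤ ℂ) + 1) ^ 2 ∈ 𝔪)
    (hIh : ∃ r : S41D_R q, S41T_theta N q hf 𝔪 r ≠ 0 ∧ ∀ v₁ v₂ : ↥(parInt N),
        (∃ w, S41D_alpha N q v₁ + S41D_beta N q v₂ = (p : ℤ) • w) →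
        (∃ w₁, S41D_rho N q r v₁ = (p : ℤ) • w₁) ∧ (∃ w₂, S41D_rho N q r v₂ = (p : ℤ) • w₂))
    (hDual : ∃ r' : S41D_R q, S41T_theta N q hf 𝔪 r' ≠ 0 ∧ ∀ w₁ w₂ : ↥(parInt N),
        ∃ (y : ↥(parInt (N * q))) (z₁ z₂ : ↥(parInt N)),
          S41D_rho N q r' w₁ - S41D_trA N q y = (p : ℤ) • z₁ ∧
          S41D_rho N q r' w₂ - S41D_trB N q y = (p : ℤ) • z₂) :
    ∃ (g : CuspForm (Gamma0 (N * q)) 2) (𝔪' : Ideal (integralClosure ℤ ℂ)),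
      g.IsNormalizedEigenform ∧ 𝔪'.IsMaximal ∧ (p : integralClosure ℤ ℂ) ∈ 𝔪' ∧
      (∀ ℓ : ℕ, ℓ.Prime → W.IsGoodPrimeFor ℓ → ¬ ℓ ∣ N * q → ℓ ≠ p →
        ∃ a : integralClosure ℤ ℂ, (a : ℂ) = qCoeff g ℓ ∧
          a - ((W.apOfModel ℓ : ℤ) : integralClosure ℤ ℂ) ∈ 𝔪') ∧
      g.IsNewAt q := by
  classical
  have hq : q.Prime := Fact.out
  have hp : p.Prime := Fact.out
  haveI : NeZero q := ⟨hq.ne_zero⟩
  haveI := finite_parInt N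
  haveI := free_parInt N
  haveI := free_parInt (N * q)
  letI : Field (integralClosure ℤ ℂ ⧸ 𝔪) := Ideal.Quotient.field 𝔪
  haveI : CharP (integralClosure ℤ ℂ ⧸ 𝔪) p := S41T_charP 𝔪 hp hpm
  -- (6a): the eigenvector at level `N`
  obtain ⟨x, hx, hxe⟩ := S41F_eigvec_of_form hf p (integralClosure ℤ ℂ ⧸ 𝔪)
    (Ideal.Quotient.mk 𝔪)
  -- the eigenvalue of `T_q`
  set aq : integralClosure ℤ ℂ ⧸ 𝔪 :=
    Ideal.Quotient.mk 𝔪 (S41F_char hf (heckeGen ⟨q, Fact.out⟩)) with haq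
  have haa : aq * aq = (((q : ℤ) + 1 : ℤ) : integralClosure ℤ ℂ ⧸ 𝔪) ^ 2 := by
    obtain ⟨a₀, ha₀, hmem⟩ := hLR
    have e : a₀ = S41F_char hf (heckeGen ⟨q, Fact.out⟩) :=
      Subtype.ext (ha₀.trans (S41F_char_heckeGen hf ⟨q, Fact.out⟩).symm)
    rw [e] at hmem
    have h0 := Ideal.Quotient.eq_zero_iff_mem.mpr hmem
    rw [map_sub, sub_eq_zero, map_pow, map_pow, map_add, map_one, map_natCast] at h0
    rw [haq, ← pow_two, h0]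
    push_cast
    rfl
  -- ALG
  obtain ⟨y, hy, hye⟩ := S41G_main' (S41D_rho N q) (S41D_rho' N q) (S41D_alpha N q)
    (S41D_beta N q) (S41D_trA N q) (S41D_trB N q)
    (GRD_heckeL N (heckeGen ⟨q, Fact.out⟩)) (GRD_heckeL N (heckeGen ⟨q, Fact.out⟩))
    ((q : ℤ) + 1) (S41D_hα N q) (S41D_hβ N q hqN) (S41D_hA N q hqN) (S41D_hB N q hqN)
    (S41D_hAα N q hqN) (S41D_hBβ N q hqN) (S41D_hAβ N q hqN) (S41D_hBα N q hqN)
    p (S41T_theta N q hf 𝔪) hIh hDual x hx (fun t => hxe (S41D_incR q t)) aq aq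
    (hxe (heckeGen ⟨q, Fact.out⟩)) (hxe (heckeGen ⟨q, Fact.out⟩)) haa
    (S41D_B N q) (S41D_mem_B N q) (S41D_rhoB N q hqN) (S41D_hρB N q hqN)
  -- DICT (6b')
  obtain ⟨g, 𝔪', hnorm, hmax', hp', hcoef, hnew⟩ :=
    S41T_form_of_eigvec N q hqN p (S41T_theta N q hf 𝔪) y hy hye
  refine ⟨g, 𝔪', hnorm, hmax', hp', fun ℓ hℓ hgood hℓNq hℓp => ?_, hnew⟩
  have hℓq : ℓ ≠ q := fun h => hℓNq (h ▸ Dvd.intro_left N rfl)
  have hℓN : ¬ ℓ ∣ N := fun h => hℓNq (Dvd.dvd.mul_right h q)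
  obtain ⟨a₀, ha₀, hmem⟩ := hcong ℓ hℓ hgood hℓN hℓp
  refine hcoef ⟨⟨ℓ, hℓ⟩, hℓq⟩ (W.apOfModel ℓ) ?_
  rw [S41T_theta_X]
  have e : a₀ = S41F_char hf (heckeGen ⟨ℓ, hℓ⟩) :=
    Subtype.ext (ha₀.trans (S41F_char_heckeGen hf ⟨ℓ, hℓ⟩).symm)
  rw [← e, ← map_intCast (Ideal.Quotient.mk 𝔪), ← sub_eq_zero, ← map_sub]
  exact Ideal.Quotient.eq_zero_iff_mem.mpr hmem

end tail

section frozen

/-- **S41 from Ihara + dual Ihara**, with the binders of the frozen statement.  `Fermat/Agent/S41.lean`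
is `S41T_S41_of … hIh hDual`. -/
theorem S41T_S41_of
    {W : WeierstrassCurve ℤ}
    {p N q' : ℕ} (hp : p.Prime) (hN : 0 < N) (hq' : q'.Prime) (hq'N : ¬ q' ∣ N)
    (f : CuspForm (CongruenceSubgroup.Gamma0 N) 2) (𝔪 : Ideal (integralClosure ℤ ℂ))
    (hf : f.IsNormalizedEigenform) (hmax : 𝔪.IsMaximal) (hpm : (p : integralClosure ℤ ℂ) ∈ 𝔪)
    (hcong : ∀ ℓ : ℕ, ℓ.Prime → W.IsGoodPrimeFor ℓ → ¬ ℓ ∣ N → ℓ ≠ p →
      ∃ a : integralClosure ℤ ℂ, (a : ℂ) = ModularFormClass.qCoeff f ℓ ∧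
        a - ((W.apOfModel ℓ : ℤ) : integralClosure ℤ ℂ) ∈ 𝔪)
    (hLR : ∃ a : integralClosure ℤ ℂ, (a : ℂ) = ModularFormClass.qCoeff f q' ∧
      a ^ 2 - ((q' : integralClosure ℤ ℂ) + 1) ^ 2 ∈ 𝔪)
    (hIh : haveI : NeZero N := ⟨hN.ne'⟩; haveI : Fact q'.Prime := ⟨hq'⟩
      ∃ r : S41D_R q', S41T_theta N q' hf 𝔪 r ≠ 0 ∧ ∀ v₁ v₂ : ↥(parInt N),
        (∃ w, S41D_alpha N q' v₁ + S41D_beta N q' v₂ = (p : ℤ) • w) →
        (∃ w₁, S41D_rho N q' r v₁ = (p : ℤ) • w₁) ∧ (∃ w₂, S41D_rho N q' r v₂ = (p : ℤ) • w₂))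
    (hDual : haveI : NeZero N := ⟨hN.ne'⟩; haveI : Fact q'.Prime := ⟨hq'⟩
      ∃ r' : S41D_R q', S41T_theta N q' hf 𝔪 r' ≠ 0 ∧ ∀ w₁ w₂ : ↥(parInt N),
        ∃ (y : ↥(parInt (N * q'))) (z₁ z₂ : ↥(parInt N)),
          S41D_rho N q' r' w₁ - S41D_trA N q' y = (p : ℤ) • z₁ ∧
          S41D_rho N q' r' w₂ - S41D_trB N q' y = (p : ℤ) • z₂) :
    ∃ (g : CuspForm (CongruenceSubgroup.Gamma0 (N * q')) 2) (𝔪' : Ideal (integralClosure ℤ ℂ)),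
      g.IsNormalizedEigenform ∧ 𝔪'.IsMaximal ∧ (p : integralClosure ℤ ℂ) ∈ 𝔪' ∧
      (∀ ℓ : ℕ, ℓ.Prime → W.IsGoodPrimeFor ℓ → ¬ ℓ ∣ N * q' → ℓ ≠ p →
        ∃ a : integralClosure ℤ ℂ, (a : ℂ) = ModularFormClass.qCoeff g ℓ ∧
          a - ((W.apOfModel ℓ : ℤ) : integralClosure ℤ ℂ) ∈ 𝔪') ∧
      g.IsNewAt q' := by
  haveI : NeZero N := ⟨hN.ne'⟩
  haveI : Fact q'.Prime := ⟨hq'⟩
  haveI : Fact p.Prime := ⟨hp⟩
  exact S41T_tail N q' p hq'N W f 𝔪 hf hmax hpm hcong hLR hIh hDual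

end frozen

end Fermat.Agent.S41
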