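import Fermat.Agent.S41.AmalgamDefs

/-!
# S41 / AMALG — the amalgam `Γ₀(N) *_{Γ₀(Nq)} δ⁻¹Γ₀(N)δ ≅ Γ₀(N)[1/q]` (helper6)

`q`-adic ping-pong on `ℙ¹(ℚ)`.
-/

set_option autoImplicit false

open Matrix CongruenceSubgroup
open scoped MatrixGroups

noncomputable section

/-! ### `q`-adic norm lemmas -/

section norm

variable (q : ℕ) [hq : Fact q.Prime]

theorem S41A_n_add_le (x y : ℚ) : padicNorm q (x + y) ≤ max (padicNorm q x) (padicNorm q y) :=
  padicNorm.nonarchimedean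

theorem S41A_n_add_eq_left {x y : ℚ} (h : padicNorm q y < padicNorm q x) :
    padicNorm q (x + y) = padicNorm q x := by
  rw [padicNorm.add_eq_max_of_ne (ne_of_gt h), max_eq_left h.le]

theorem S41A_n_add_eq_right {x y : ℚ} (h : padicNorm q x < padicNorm q y) :
    padicNorm q (x + y) = padicNorm q y := by
  rw [add_comm]; exact S41A_n_add_eq_left q h

theorem S41A_n_mul_le_of_le_one {a x : ℚ} (ha : padicNorm q a ≤ 1) :
    padicNorm q (a * x) ≤ padicNorm q x := by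
  rw [padicNorm.mul]
  exact mul_le_of_le_one_left (padicNorm.nonneg x) ha

theorem S41A_n_mul_eq_of_eq_one {a x : ℚ} (ha : padicNorm q a = 1) :
    padicNorm q (a * x) = padicNorm q x := by
  rw [padicNorm.mul, ha, one_mul]

theorem S41A_n_pos_of_ne {x : ℚ} (hx : x ≠ 0) : 0 < padicNorm q x :=
  lt_of_le_of_ne (padicNorm.nonneg x) (Ne.symm (padicNorm.nonzero hx))

theorem S41A_ne_of_n_pos {x : ℚ} (hx : 0 < padicNorm q x) : x ≠ 0 := by
  rintro rfl
  rw [padicNorm.zero] at hx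
  exact lt_irrefl _ hx

theorem S41A_n_q : padicNorm q (q : ℚ) = (q : ℚ)⁻¹ := padicNorm.padicNorm_p_of_prime

theorem S41A_n_q_lt_one : padicNorm q (q : ℚ) < 1 := padicNorm.padicNorm_p_lt_one_of_prime

theorem S41A_n_q_pos : 0 < padicNorm q (q : ℚ) :=
  S41A_n_pos_of_ne q (by exact_mod_cast hq.out.ne_zero)

/-- `Γ ∖ Γ₀` maps `Minus` into `Plus`. -/
theorem S41A_pp_false {a b c d x y : ℚ} (ha : padicNorm q a ≤ 1) (hb : padicNorm q b ≤ 1)
    (hc : padicNorm q c = 1) (hd : padicNorm q d ≤ 1) (h : padicNorm q y < padicNorm q x) :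
    padicNorm q (a * x + b * y) ≤ padicNorm q (c * x + d * y) ∧ c * x + d * y ≠ 0 := by
  have h1 : padicNorm q (c * x) = padicNorm q x := S41A_n_mul_eq_of_eq_one q hc
  have h2 : padicNorm q (d * y) < padicNorm q (c * x) := by
    rw [h1]; exact lt_of_le_of_lt (S41A_n_mul_le_of_le_one q hd) h
  have h3 : padicNorm q (c * x + d * y) = padicNorm q x := by
    rw [S41A_n_add_eq_left q h2, h1]
  constructor
  · rw [h3]
    refine le_trans (S41A_n_add_le q _ _) (max_le (S41A_n_mul_le_of_le_one q ha) ?_)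
    exact le_trans (S41A_n_mul_le_of_le_one q hb) h.le
  · apply S41A_ne_of_n_pos q
    rw [h3]
    exact lt_of_le_of_lt (padicNorm.nonneg y) h

/-- `Γ' ∖ Γ₀` maps `Plus` into `Minus`. -/
theorem S41A_pp_true {a b c d x y : ℚ} (ha : padicNorm q a ≤ 1) (hb : padicNorm q b = 1)
    (hc : padicNorm q c ≤ 1) (hd : padicNorm q d ≤ 1) (h : padicNorm q x ≤ padicNorm q y)
    (hy : y ≠ 0) :
    padicNorm q ((q : ℚ) * c * x + d * y) < padicNorm q (a * x + b / (q : ℚ) * y) := by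
  have hq0 : (q : ℚ) ≠ 0 := by exact_mod_cast hq.out.ne_zero
  have hypos : 0 < padicNorm q y := S41A_n_pos_of_ne q hy
  have hnq : padicNorm q (q : ℚ) < 1 := S41A_n_q_lt_one q
  have hnq0 : 0 < padicNorm q (q : ℚ) := S41A_n_q_pos q
  have h1 : padicNorm q (b / (q : ℚ) * y) = padicNorm q y / padicNorm q (q : ℚ) := by
    rw [padicNorm.mul, padicNorm.div, hb]; ring
  have h1' : padicNorm q y < padicNorm q (b / (q : ℚ) * y) := by
    rw [h1, lt_div_iff₀ hnq0]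
    calc padicNorm q y * padicNorm q (q : ℚ) < padicNorm q y * 1 :=
          mul_lt_mul_of_pos_left hnq hypos
      _ = padicNorm q y := mul_one _
  have h2 : padicNorm q (a * x) < padicNorm q (b / (q : ℚ) * y) :=
    lt_of_le_of_lt (le_trans (S41A_n_mul_le_of_le_one q ha) h) h1'
  rw [S41A_n_add_eq_right q h2]
  refine lt_of_le_of_lt (le_trans (S41A_n_add_le q _ _) (max_le ?_ ?_)) h1'
  · rw [mul_assoc]
    refine le_trans (S41A_n_mul_le_of_le_one q hnq.le) ?_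
    exact le_trans (S41A_n_mul_le_of_le_one q hc) h
  · exact S41A_n_mul_le_of_le_one q hd

/-- `Γ₀` preserves `Minus`. -/
theorem S41A_pp_base_minus {a b c d x y : ℚ} (ha : padicNorm q a = 1) (hb : padicNorm q b ≤ 1)
    (hc : padicNorm q c < 1) (hd : padicNorm q d ≤ 1) (h : padicNorm q y < padicNorm q x) :
    padicNorm q (c * x + d * y) < padicNorm q (a * x + b * y) := by
  have hxpos : 0 < padicNorm q x := lt_of_le_of_lt (padicNorm.nonneg y) h
  have h1 : padicNorm q (a * x) = padicNorm q x := S41A_n_mul_eq_of_eq_one q ha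
  have h2 : padicNorm q (b * y) < padicNorm q (a * x) := by
    rw [h1]; exact lt_of_le_of_lt (S41A_n_mul_le_of_le_one q hb) h
  rw [S41A_n_add_eq_left q h2, h1]
  refine lt_of_le_of_lt (S41A_n_add_le q _ _) (max_lt ?_ ?_)
  · rw [padicNorm.mul]
    calc padicNorm q c * padicNorm q x < 1 * padicNorm q x := mul_lt_mul_of_pos_right hc hxpos
      _ = padicNorm q x := one_mul _
  · exact lt_of_le_of_lt (S41A_n_mul_le_of_le_one q hd) h

/-- `Γ₀` preserves `Plus`. -/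
theorem S41A_pp_base_plus {a b c d x y : ℚ} (ha : padicNorm q a ≤ 1) (hb : padicNorm q b ≤ 1)
    (hc : padicNorm q c < 1) (hd : padicNorm q d = 1) (h : padicNorm q x ≤ padicNorm q y)
    (hy : y ≠ 0) :
    padicNorm q (a * x + b * y) ≤ padicNorm q (c * x + d * y) ∧ c * x + d * y ≠ 0 := by
  have hypos : 0 < padicNorm q y := S41A_n_pos_of_ne q hy
  have h1 : padicNorm q (d * y) = padicNorm q y := S41A_n_mul_eq_of_eq_one q hd
  have h2 : padicNorm q (c * x) < padicNorm q (d * y) := by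
    rw [h1, padicNorm.mul]
    calc padicNorm q c * padicNorm q x ≤ padicNorm q c * padicNorm q y :=
          mul_le_mul_of_nonneg_left h (padicNorm.nonneg c)
      _ < 1 * padicNorm q y := mul_lt_mul_of_pos_right hc hypos
      _ = padicNorm q y := one_mul _
  have h3 : padicNorm q (c * x + d * y) = padicNorm q y := by
    rw [S41A_n_add_eq_right q h2, h1]
  constructor
  · rw [h3]
    refine le_trans (S41A_n_add_le q _ _) (max_le ?_ ?_)
    · exact le_trans (S41A_n_mul_le_of_le_one q ha) h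
    · exact S41A_n_mul_le_of_le_one q hb
  · apply S41A_ne_of_n_pos q
    rw [h3]; exact hypos


/-- a special point for `Γ ∖ Γ₀`: some point of `Plus` is mapped into `Plus`. -/
theorem S41A_sp_false {a b c d : ℚ} (ha : padicNorm q a ≤ 1) (hb : padicNorm q b ≤ 1)
    (hc : padicNorm q c = 1) (hd : padicNorm q d ≤ 1) :
    ∃ x y : ℚ, (padicNorm q x ≤ padicNorm q y ∧ y ≠ 0) ∧
      (padicNorm q (a * x + b * y) ≤ padicNorm q (c * x + d * y) ∧ c * x + d * y ≠ 0) := by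
  by_cases hd1 : padicNorm q d = 1
  · refine ⟨0, 1, ⟨?_, one_ne_zero⟩, ?_, ?_⟩
    · rw [padicNorm.zero, padicNorm.one]; exact zero_le_one
    · rw [mul_zero, zero_add, mul_one, mul_zero, zero_add, mul_one, hd1]; exact hb
    · rw [mul_zero, zero_add, mul_one]
      apply S41A_ne_of_n_pos q
      rw [hd1]; exact zero_lt_one
  · have hd2 : padicNorm q d < padicNorm q c := by
      rw [hc]; exact lt_of_le_of_ne hd hd1
    have h3 : padicNorm q (c + d) = 1 := by rw [S41A_n_add_eq_left q hd2, hc]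
    refine ⟨1, 1, ⟨le_refl _, one_ne_zero⟩, ?_, ?_⟩
    · rw [mul_one, mul_one, mul_one, mul_one, h3]
      exact le_trans (S41A_n_add_le q _ _) (max_le ha hb)
    · rw [mul_one, mul_one]
      apply S41A_ne_of_n_pos q
      rw [h3]; exact zero_lt_one

/-- a special point for `Γ' ∖ Γ₀`: some point of `Minus` is mapped into `Minus`. -/
theorem S41A_sp_true {a b c d : ℚ} (ha : padicNorm q a ≤ 1) (hb : padicNorm q b = 1)
    (hc : padicNorm q c ≤ 1) (hd : padicNorm q d ≤ 1) :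
    ∃ x y : ℚ, padicNorm q y < padicNorm q x ∧
      padicNorm q ((q : ℚ) * c * x + d * y) < padicNorm q (a * x + b / (q : ℚ) * y) := by
  have hq0 : (q : ℚ) ≠ 0 := by exact_mod_cast hq.out.ne_zero
  have hnq : padicNorm q (q : ℚ) < 1 := S41A_n_q_lt_one q
  by_cases ha1 : padicNorm q a = 1
  · refine ⟨1, 0, ?_, ?_⟩
    · rw [padicNorm.zero, padicNorm.one]; exact zero_lt_one
    · rw [mul_one, mul_zero, add_zero, mul_one, mul_zero, add_zero, ha1]
      exact lt_of_le_of_lt (le_trans (by rw [mul_comm]; exact S41A_n_mul_le_of_le_one q hc)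
        (le_refl _)) hnq
  · have ha2 : padicNorm q a < padicNorm q b := by
      rw [hb]; exact lt_of_le_of_ne ha ha1
    refine ⟨1, q, ?_, ?_⟩
    · rw [padicNorm.one]; exact hnq
    · have e1 : a * 1 + b / (q : ℚ) * q = a + b := by field_simp
      have e2 : (q : ℚ) * c * 1 + d * q = (c + d) * q := by ring
      rw [e1, e2, S41A_n_add_eq_right q ha2, hb]
      refine lt_of_le_of_lt (S41A_n_mul_le_of_le_one q ?_) hnq
      exact le_trans (S41A_n_add_le q _ _) (max_le hc hd)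

theorem S41A_n_int_le (m : ℤ) : padicNorm q (m : ℚ) ≤ 1 := padicNorm.of_int m

theorem S41A_n_int_eq_one {m : ℤ} (h : ¬ (q : ℤ) ∣ m) : padicNorm q (m : ℚ) = 1 :=
  (padicNorm.int_eq_one_iff m).2 h

theorem S41A_n_int_lt_one {m : ℤ} (h : (q : ℤ) ∣ m) : padicNorm q (m : ℚ) < 1 :=
  (padicNorm.int_lt_one_iff m).2 h

end norm

/-! ### the action on `ℚ × ℚ` and the ping-pong sets -/

section pingpong

/-- the linear action of `SL(2,ℚ)` on `ℚ × ℚ` (column vectors). -/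
def S41A_act (M : SL(2, ℚ)) (v : ℚ × ℚ) : ℚ × ℚ :=
  (M 0 0 * v.1 + M 0 1 * v.2, M 1 0 * v.1 + M 1 1 * v.2)

theorem S41A_act_one (v : ℚ × ℚ) : S41A_act 1 v = v := by
  unfold S41A_act
  rw [S41A_one_00, S41A_one_01, S41A_one_10, S41A_one_11]
  ext <;> simp

theorem S41A_act_mul (M M' : SL(2, ℚ)) (v : ℚ × ℚ) :
    S41A_act (M * M') v = S41A_act M (S41A_act M' v) := by
  unfold S41A_act
  rw [S41A_mul_00, S41A_mul_01, S41A_mul_10, S41A_mul_11]
  ext <;> simp only <;> ring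

variable (q : ℕ)

/-- the ping-pong sets: `T false = Plus = {|z| ≤ 1}`, `T true = Minus = {|z| > 1} ∪ {∞}`. -/
def S41A_T (i : Bool) (v : ℚ × ℚ) : Prop :=
  match i with
  | false => padicNorm q v.1 ≤ padicNorm q v.2 ∧ v.2 ≠ 0
  | true => padicNorm q v.2 < padicNorm q v.1

theorem S41A_T_disjoint {v : ℚ × ℚ} (h0 : S41A_T q false v) (h1 : S41A_T q true v) : False :=
  absurd h0.1 (not_le.2 h1)

theorem S41A_T_disjoint' {i : Bool} {v : ℚ × ℚ} (h0 : S41A_T q i v) (h1 : S41A_T q (!i) v) :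
    False := by
  cases i
  · exact S41A_T_disjoint q h0 h1
  · exact S41A_T_disjoint q h1 h0

theorem S41A_T_nonempty (i : Bool) : ∃ v, S41A_T q i v := by
  cases i
  · exact ⟨(0, 1), by simp [S41A_T]⟩
  · exact ⟨(1, 0), by simp [S41A_T]⟩

variable (N : ℕ)

/-- the two embeddings `Γ₀(N) → SL(2,ℚ)`: `γ ↦ γ` and `γ ↦ δ⁻¹γδ`. -/
def S41A_fQ (i : Bool) (γ : Gamma0 N) : SL(2, ℚ) :=
  match i with
  | false => S41A_inc (γ : SL(2, ℤ))
  | true => S41A_conj q (S41A_inc (γ : SL(2, ℤ)))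

/-- "the letter is not in the base group". -/
def S41A_nb (i : Bool) (γ : Gamma0 N) : Prop :=
  match i with
  | false => ¬ (q : ℤ) ∣ (γ : SL(2, ℤ)) 1 0
  | true => ¬ (q : ℤ) ∣ (γ : SL(2, ℤ)) 0 1

variable [hq : Fact q.Prime]

theorem S41A_letter (i : Bool) (γ : Gamma0 N) (h : S41A_nb q N i γ) (v : ℚ × ℚ)
    (hv : S41A_T q (!i) v) : S41A_T q i (S41A_act (S41A_fQ q N i γ) v) := by
  have hq0 : q ≠ 0 := hq.out.ne_zero
  cases i
  · -- Γ ∖ Γ₀ : Minus → Plus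
    have hv' : padicNorm q v.2 < padicNorm q v.1 := hv
    exact S41A_pp_false q (S41A_n_int_le q _) (S41A_n_int_le q _) (S41A_n_int_eq_one q h)
      (S41A_n_int_le q _) hv'
  · -- Γ' ∖ Γ₀ : Plus → Minus
    have hv' : padicNorm q v.1 ≤ padicNorm q v.2 ∧ v.2 ≠ 0 := hv
    show padicNorm q (S41A_conj q (S41A_inc (γ : SL(2, ℤ))) 1 0 * v.1 +
      S41A_conj q (S41A_inc (γ : SL(2, ℤ))) 1 1 * v.2) <
      padicNorm q (S41A_conj q (S41A_inc (γ : SL(2, ℤ))) 0 0 * v.1 +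
      S41A_conj q (S41A_inc (γ : SL(2, ℤ))) 0 1 * v.2)
    rw [S41A_conj_00, S41A_conj_01 hq0, S41A_conj_10 hq0, S41A_conj_11]
    exact S41A_pp_true q (S41A_n_int_le q _) (S41A_n_int_eq_one q h) (S41A_n_int_le q _)
      (S41A_n_int_le q _) hv'.1 hv'.2

theorem S41A_special (i : Bool) (γ : Gamma0 N) (h : S41A_nb q N i γ) :
    ∃ v, S41A_T q i v ∧ S41A_T q i (S41A_act (S41A_fQ q N i γ) v) := by
  have hq0 : q ≠ 0 := hq.out.ne_zero
  cases i
  · obtain ⟨x, y, h1, h2⟩ := S41A_sp_false q (S41A_n_int_le q ((γ : SL(2, ℤ)) 0 0))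
      (S41A_n_int_le q ((γ : SL(2, ℤ)) 0 1)) (S41A_n_int_eq_one q h)
      (S41A_n_int_le q ((γ : SL(2, ℤ)) 1 1))
    exact ⟨(x, y), h1, h2⟩
  · obtain ⟨x, y, h1, h2⟩ := S41A_sp_true q (S41A_n_int_le q ((γ : SL(2, ℤ)) 0 0))
      (S41A_n_int_eq_one q h) (S41A_n_int_le q ((γ : SL(2, ℤ)) 1 0))
      (S41A_n_int_le q ((γ : SL(2, ℤ)) 1 1))
    refine ⟨(x, y), h1, ?_⟩
    show padicNorm q (S41A_conj q (S41A_inc (γ : SL(2, ℤ))) 1 0 * x +
      S41A_conj q (S41A_inc (γ : SL(2, ℤ))) 1 1 * y) <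
      padicNorm q (S41A_conj q (S41A_inc (γ : SL(2, ℤ))) 0 0 * x +
      S41A_conj q (S41A_inc (γ : SL(2, ℤ))) 0 1 * y)
    rw [S41A_conj_00, S41A_conj_01 hq0, S41A_conj_10 hq0, S41A_conj_11]
    exact h2

/-- `Γ₀(Nq)` (indeed every integral matrix with `q ∣ c`) preserves both ping-pong sets. -/
theorem S41A_base (γ : SL(2, ℤ)) (h : (q : ℤ) ∣ γ 1 0) (j : Bool) (v : ℚ × ℚ)
    (hv : S41A_T q j v) : S41A_T q j (S41A_act (S41A_inc γ) v) := by
  have hdet := S41A_det_eq_int γ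
  have ha : ¬ (q : ℤ) ∣ γ 0 0 := by
    intro hdvd
    have : (q : ℤ) ∣ γ 0 0 * γ 1 1 - γ 0 1 * γ 1 0 :=
      dvd_sub (Dvd.dvd.mul_right hdvd _) (Dvd.dvd.mul_left h _)
    rw [hdet] at this
    exact hq.out.not_dvd_one (by exact_mod_cast Int.natCast_dvd_natCast.1 (by simpa using this))
  have hd : ¬ (q : ℤ) ∣ γ 1 1 := by
    intro hdvd
    have : (q : ℤ) ∣ γ 0 0 * γ 1 1 - γ 0 1 * γ 1 0 :=
      dvd_sub (Dvd.dvd.mul_left hdvd _) (Dvd.dvd.mul_left h _)
    rw [hdet] at this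
    exact hq.out.not_dvd_one (by exact_mod_cast Int.natCast_dvd_natCast.1 (by simpa using this))
  cases j
  · have hv' : padicNorm q v.1 ≤ padicNorm q v.2 ∧ v.2 ≠ 0 := hv
    exact S41A_pp_base_plus q (S41A_n_int_le q _) (S41A_n_int_le q _) (S41A_n_int_lt_one q h)
      (S41A_n_int_eq_one q hd) hv'.1 hv'.2
  · have hv' : padicNorm q v.2 < padicNorm q v.1 := hv
    exact S41A_pp_base_minus q (S41A_n_int_eq_one q ha) (S41A_n_int_le q _)
      (S41A_n_int_lt_one q h) (S41A_n_int_le q _) hv'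

end pingpong


/-! ### reduced words -/

section word

variable (q N : ℕ)

/-- the product of the images of the letters in `SL(2,ℚ)`. -/
def S41A_P (l : List (Σ _ : Bool, Gamma0 N)) : SL(2, ℚ) :=
  (l.map (fun x => S41A_fQ q N x.1 x.2)).prod

theorem S41A_P_nil : S41A_P q N [] = 1 := rfl

theorem S41A_P_cons (a : Σ _ : Bool, Gamma0 N) (l : List (Σ _ : Bool, Gamma0 N)) :
    S41A_P q N (a :: l) = S41A_fQ q N a.1 a.2 * S41A_P q N l := by
  simp [S41A_P]

/-- index of the last letter of `a :: l`. -/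
def S41A_last {N : ℕ} (a : Σ _ : Bool, Gamma0 N) : List (Σ _ : Bool, Gamma0 N) → Bool
  | [] => a.1
  | b :: l => S41A_last b l

variable [hq : Fact q.Prime]

theorem S41A_word (l : List (Σ _ : Bool, Gamma0 N)) :
    ∀ (a : Σ _ : Bool, Gamma0 N),
      (a :: l).IsChain (fun x y => x.1 ≠ y.1) →
      (∀ x ∈ a :: l, S41A_nb q N x.1 x.2) →
      ∀ v : ℚ × ℚ, S41A_T q (!(S41A_last a l)) v →
        S41A_T q a.1 (S41A_act (S41A_P q N (a :: l)) v) := by
  induction l with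
  | nil =>
    intro a _ hred v hv
    rw [S41A_P_cons, S41A_P_nil, mul_one]
    exact S41A_letter q N a.1 a.2 (hred a List.mem_cons_self) v hv
  | cons b l ih =>
    intro a hchain hred v hv
    rw [List.isChain_cons_cons] at hchain
    have h1 := ih b hchain.2 (fun x hx => hred x (List.mem_cons_of_mem _ hx)) v hv
    rw [S41A_P_cons, S41A_act_mul]
    apply S41A_letter q N a.1 a.2 (hred a List.mem_cons_self)
    have hab : b.1 = !a.1 := by
      have := hchain.1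
      revert this
      cases a.1 <;> cases b.1 <;> simp
    rw [← hab]
    exact h1

/-- **Ping-pong**: a nonempty reduced alternating word times an element of the base group is
never `1`. -/
theorem S41A_pingpong (a : Σ _ : Bool, Gamma0 N) (l : List (Σ _ : Bool, Gamma0 N))
    (hchain : (a :: l).IsChain (fun x y => x.1 ≠ y.1))
    (hred : ∀ x ∈ a :: l, S41A_nb q N x.1 x.2)
    (h : SL(2, ℤ)) (hh : (q : ℤ) ∣ h 1 0) :
    S41A_inc h * S41A_P q N (a :: l) ≠ 1 := by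
  intro h1
  by_cases hl : S41A_last a l = a.1
  · -- first and last letter in the same factor
    obtain ⟨v, hv⟩ := S41A_T_nonempty q (!a.1)
    have hw := S41A_word q N l a hchain hred v (by rw [hl]; exact hv)
    have hb := S41A_base q h hh a.1 _ hw
    rw [← S41A_act_mul, h1, S41A_act_one] at hb
    exact S41A_T_disjoint' q hb hv
  · -- first and last letter in different factors
    cases l with
    | nil => exact hl rfl
    | cons b l =>
      rw [List.isChain_cons_cons] at hchain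
      have hab : b.1 = !a.1 := by
        have := hchain.1
        revert this
        cases a.1 <;> cases b.1 <;> simp
      have hlast : S41A_last b l = !a.1 := by
        have : S41A_last a (b :: l) = S41A_last b l := rfl
        rw [this] at hl
        revert hl
        cases a.1 <;> cases S41A_last b l <;> simp
      obtain ⟨v₀, hv₀, hw₀⟩ := S41A_special q N a.1 a.2 (hred a List.mem_cons_self)
      have hv := S41A_base q h hh a.1 _ hw₀
      have hw := S41A_word q N l b hchain.2 (fun x hx => hred x (List.mem_cons_of_mem _ hx))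
        (S41A_act (S41A_inc h) (S41A_act (S41A_fQ q N a.1 a.2) v₀))
        (by rw [hlast, Bool.not_not]; exact hv)
      rw [← S41A_act_mul, ← S41A_act_mul] at hw
      have h2 : S41A_P q N (b :: l) * (S41A_inc h * S41A_fQ q N a.1 a.2) = 1 := by
        rw [S41A_P_cons q N a, ← mul_assoc] at h1
        exact mul_eq_one_comm.1 h1
      rw [mul_assoc, h2, S41A_act_one, hab] at hw
      exact S41A_T_disjoint' q hv₀ hw

end word


/-! ### the pushout -/

section pushout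

variable (N q : ℕ)

/-- the diagram `Γ₀(N) ← Γ₀(Nq) → Γ₀(N)`. -/
def S41A_phi : (i : Bool) → Gamma0 (N * q) →* Gamma0 N
  | false => S41A_res N q
  | true => S41A_deg N q

/-- the two maps `Γ₀(N) → G`. -/
def S41A_f : (i : Bool) → Gamma0 N →* S41A_G N q
  | false => S41A_i1 N q
  | true => S41A_i2 N q

/-- the map `Γ₀(Nq) → G`. -/
def S41A_k : Gamma0 (N * q) →* S41A_G N q := (S41A_i1 N q).comp (S41A_res N q)

variable {N q}

theorem S41A_f_comp_phi (hq : q ≠ 0) (i : Bool) :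
    (S41A_f N q i).comp (S41A_phi N q i) = S41A_k N q := by
  cases i
  · rfl
  · apply MonoidHom.ext
    intro γ
    exact (S41A_i1_res_eq_i2_deg hq γ).symm

theorem S41A_f_coe (hq : q ≠ 0) (i : Bool) (γ : Gamma0 N) :
    ((S41A_f N q i γ : S41A_G N q) : SL(2, ℚ)) = S41A_fQ q N i γ := by
  cases i
  · rfl
  · exact S41A_i2_coe hq γ

theorem S41A_phi_injective (hq : q ≠ 0) (i : Bool) : Function.Injective (S41A_phi N q i) := by
  cases i
  · exact Subgroup.inclusion_injective (S41A_Gamma0_le N q)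
  · intro γ γ' h
    have h1 := S41A_conj_inc_deg hq γ
    have h2 := S41A_conj_inc_deg hq γ'
    have h' : S41A_deg N q γ = S41A_deg N q γ' := h
    rw [h', h2] at h1
    exact Subtype.ext (S41A_inc_injective h1.symm)

theorem S41A_nb_of_not_mem_range (hq : q.Prime) (hqN : ¬ q ∣ N) (i : Bool) (g : Gamma0 N)
    (h : g ∉ (S41A_phi N q i).range) : S41A_nb q N i g := by
  have hq0 : (q : ℤ) ≠ 0 := by exact_mod_cast hq.ne_zero
  cases i
  · intro hdvd
    apply h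
    have hN : (N : ℤ) ∣ (g : SL(2, ℤ)) 1 0 := S41A_Gamma0_mem_iff.1 g.2
    have hcop : IsCoprime (N : ℤ) (q : ℤ) :=
      Nat.isCoprime_iff_coprime.2 ((Nat.Prime.coprime_iff_not_dvd hq).2 hqN).symm
    have hmem : (g : SL(2, ℤ)) ∈ Gamma0 (N * q) := by
      rw [S41A_Gamma0_mem_iff]
      push_cast
      exact hcop.mul_dvd hN hdvd
    exact ⟨⟨g, hmem⟩, Subtype.ext rfl⟩
  · intro hdvd
    apply h
    have hb : (q : ℤ) * ((g : SL(2, ℤ)) 0 1 / q) = (g : SL(2, ℤ)) 0 1 :=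
      Int.mul_ediv_cancel' hdvd
    have hdet := S41A_det_eq_int (g : SL(2, ℤ))
    let γ₀ : SL(2, ℤ) := S41A_imk ((g : SL(2, ℤ)) 0 0) ((g : SL(2, ℤ)) 0 1 / q)
      (q * (g : SL(2, ℤ)) 1 0) ((g : SL(2, ℤ)) 1 1) (by
        calc (g : SL(2, ℤ)) 0 0 * (g : SL(2, ℤ)) 1 1
              - (g : SL(2, ℤ)) 0 1 / q * (q * (g : SL(2, ℤ)) 1 0)
            = (g : SL(2, ℤ)) 0 0 * (g : SL(2, ℤ)) 1 1
              - ((q : ℤ) * ((g : SL(2, ℤ)) 0 1 / q)) * (g : SL(2, ℤ)) 1 0 := by ring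
          _ = 1 := by rw [hb]; exact hdet)
    have hmem : γ₀ ∈ Gamma0 (N * q) := by
      rw [S41A_Gamma0_mem_iff]
      obtain ⟨m, hm⟩ := S41A_Gamma0_mem_iff.1 g.2
      refine ⟨m, ?_⟩
      show (q : ℤ) * (g : SL(2, ℤ)) 1 0 = _
      rw [hm]; push_cast; ring
    refine ⟨⟨γ₀, hmem⟩, Subtype.ext ?_⟩
    show S41A_degMat ⟨γ₀, hmem⟩ = (g : SL(2, ℤ))
    apply S41A_ext_int
    · rw [S41A_degMat_00]; rfl
    · rw [S41A_degMat_01]; exact hb
    · rw [S41A_degMat_10]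
      show (q : ℤ) * (g : SL(2, ℤ)) 1 0 / q = _
      exact Int.mul_ediv_cancel_left _ hq0
    · rw [S41A_degMat_11]; rfl

/-- the canonical map from the pushout to `G`. -/
def S41A_lift (hq : q ≠ 0) :
    Monoid.PushoutI (ι := Bool) (G := fun _ => Gamma0 N) (S41A_phi N q) →* S41A_G N q :=
  Monoid.PushoutI.lift (S41A_f N q) (S41A_k N q) (S41A_f_comp_phi hq)

theorem S41A_lift_list (hq : q ≠ 0) (l : List (Σ _ : Bool, Gamma0 N)) :
    ((S41A_lift (N := N) hq (Monoid.PushoutI.ofCoprodI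
      (l.map (fun x => (Monoid.CoprodI.of (M := fun _ : Bool => Gamma0 N) (i := x.1) x.2 :
        Monoid.CoprodI (fun _ : Bool => Gamma0 N)))).prod) : S41A_G N q) : SL(2, ℚ))
      = S41A_P q N l := by
  induction l with
  | nil =>
    rw [List.map_nil, List.prod_nil, map_one, map_one, S41A_P_nil]
    rfl
  | cons a l ih =>
    rw [List.map_cons, List.prod_cons, map_mul, map_mul, Subgroup.coe_mul, ih, S41A_P_cons,
      Monoid.PushoutI.ofCoprodI_of, S41A_lift, Monoid.PushoutI.lift_of, S41A_f_coe hq]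

theorem S41A_lift_word (hq : q ≠ 0)
    (w : Monoid.CoprodI.Word (fun _ : Bool => Gamma0 N)) :
    ((S41A_lift (N := N) hq (Monoid.PushoutI.ofCoprodI w.prod) : S41A_G N q) : SL(2, ℚ))
      = S41A_P q N w.toList :=
  S41A_lift_list hq w.toList

theorem S41A_lift_injective (hq : q.Prime) (hqN : ¬ q ∣ N) :
    Function.Injective (S41A_lift (N := N) hq.ne_zero) := by
  classical
  have : Fact q.Prime := ⟨hq⟩
  have hq0 : q ≠ 0 := hq.ne_zero
  have hφ : ∀ i, Function.Injective (S41A_phi N q i) := S41A_phi_injective hq0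
  obtain ⟨d⟩ := Monoid.PushoutI.NormalWord.transversal_nonempty (S41A_phi N q) hφ
  rw [injective_iff_map_eq_one]
  intro x hx
  obtain ⟨w, rfl⟩ : ∃ w : Monoid.PushoutI.NormalWord d, w.prod = x :=
    ⟨Monoid.PushoutI.NormalWord.equiv x, Monoid.PushoutI.NormalWord.equiv.symm_apply_apply x⟩
  have hx' : ((S41A_lift (N := N) hq0 w.prod : S41A_G N q) : SL(2, ℚ)) = 1 := by
    rw [hx]; rfl
  unfold Monoid.PushoutI.NormalWord.prod at hx' ⊢
  rw [map_mul, Subgroup.coe_mul, S41A_lift_word hq0] at hx'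
  have hbase : ((S41A_lift (N := N) hq0 (Monoid.PushoutI.base (S41A_phi N q) w.head) :
      S41A_G N q) : SL(2, ℚ)) = S41A_inc ((w.head : Gamma0 (N * q)) : SL(2, ℤ)) := by
    rw [S41A_lift, Monoid.PushoutI.lift_base]
    rfl
  rw [hbase] at hx'
  have hred : ∀ x ∈ w.toList, S41A_nb q N x.1 x.2 := by
    intro x hxmem
    apply S41A_nb_of_not_mem_range hq hqN
    intro hrange
    have hset : x.2 ∈ d.set x.1 := w.normalized x.1 x.2 hxmem
    have hne : x.2 ≠ 1 := w.ne_one x hxmem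
    apply hne
    have hcompl := d.compl x.1
    have hinj := hcompl.1
    have := @hinj (⟨x.2, hrange⟩, ⟨1, d.one_mem x.1⟩) (⟨1, one_mem _⟩, ⟨x.2, hset⟩)
      (by simp)
    have h3 := congrArg (fun z => (z.1 : Gamma0 N)) this
    exact h3
  cases hlist : w.toList with
  | nil =>
    rw [hlist, S41A_P_nil, mul_one] at hx'
    have h1 : ((w.head : Gamma0 (N * q)) : SL(2, ℤ)) = 1 := by
      apply S41A_inc_injective
      rw [hx', map_one]
    have h2 : w.head = 1 := Subtype.ext h1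
    have h3 : w.toWord.prod = 1 := by
      unfold Monoid.CoprodI.Word.prod
      rw [hlist]; rfl
    rw [h2, h3, map_one, map_one, mul_one]
  | cons a l =>
    exfalso
    rw [hlist] at hx'
    refine S41A_pingpong q N a l ?_ ?_ _ (S41A_q_dvd w.head) hx'
    · rw [← hlist]; exact w.chain_ne
    · rw [← hlist]; exact hred

end pushout


/-! ### generation: `G = ⟨Γ₀(N), δ⁻¹Γ₀(N)δ⟩` -/

section generation

/-- `diag(t, t⁻¹)`. -/
def S41A_diag (t : ℚˣ) : SL(2, ℚ) :=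
  S41A_mk (t : ℚ) 0 0 ((t : ℚ)⁻¹) (by
    have : (t : ℚ) ≠ 0 := t.ne_zero
    field_simp; ring)

/-- `[[1, x],[0, 1]]`. -/
def S41A_up (x : ℚ) : SL(2, ℚ) := S41A_mk 1 x 0 1 (by ring)

theorem S41A_diag_mul (s t : ℚˣ) : S41A_diag (s * t) = S41A_diag s * S41A_diag t := by
  have hs : (s : ℚ) ≠ 0 := s.ne_zero
  have ht : (t : ℚ) ≠ 0 := t.ne_zero
  apply S41A_ext
  · rw [S41A_mul_00]; simp [S41A_diag]
  · rw [S41A_mul_01]; simp [S41A_diag]
  · rw [S41A_mul_10]; simp [S41A_diag]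
  · rw [S41A_mul_11]; simp [S41A_diag, mul_comm]

theorem S41A_diag_one : S41A_diag 1 = 1 := by
  apply S41A_ext
  · rw [S41A_one_00]; simp [S41A_diag]
  · rw [S41A_one_01]; simp [S41A_diag]
  · rw [S41A_one_10]; simp [S41A_diag]
  · rw [S41A_one_11]; simp [S41A_diag]

/-- `t ↦ diag(t, t⁻¹)` as a homomorphism. -/
def S41A_diagHom : ℚˣ →* SL(2, ℚ) where
  toFun := S41A_diag
  map_one' := S41A_diag_one
  map_mul' := S41A_diag_mul

theorem S41A_diag_zpow (t : ℚˣ) (e : ℤ) : S41A_diag (t ^ e) = S41A_diag t ^ e :=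
  map_zpow S41A_diagHom t e

/-- `diag(t,t⁻¹)⁻¹ u(y) diag(t,t⁻¹) = u(y / t²)`. -/
theorem S41A_diag_conj_up (t : ℚˣ) (y : ℚ) :
    (S41A_diag t)⁻¹ * S41A_up y * S41A_diag t = S41A_up (y / (t : ℚ) ^ 2) := by
  have ht : (t : ℚ) ≠ 0 := t.ne_zero
  apply S41A_ext
  · rw [S41A_mul_00, S41A_mul_00, S41A_mul_01, S41A_inv_00, S41A_inv_01]
    simp [S41A_diag, S41A_up, ht]
  · rw [S41A_mul_01, S41A_mul_00, S41A_mul_01, S41A_inv_00, S41A_inv_01]
    simp [S41A_diag, S41A_up]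
    field_simp
  · rw [S41A_mul_10, S41A_mul_10, S41A_mul_11, S41A_inv_10, S41A_inv_11]
    simp [S41A_diag, S41A_up]
  · rw [S41A_mul_11, S41A_mul_10, S41A_mul_11, S41A_inv_10, S41A_inv_11]
    simp [S41A_diag, S41A_up, ht]

variable (N q : ℕ)

/-- the subgroup of `SL(2,ℚ)` generated by `Γ₀(N)` and `δ⁻¹Γ₀(N)δ`. -/
def S41A_S : Subgroup SL(2, ℚ) :=
  (S41A_inc.comp (Gamma0 N).subtype).range ⊔
    ((S41A_conj q).comp (S41A_inc.comp (Gamma0 N).subtype)).range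

variable {N q}

theorem S41A_inc_mem_S {γ : SL(2, ℤ)} (hγ : γ ∈ Gamma0 N) : S41A_inc γ ∈ S41A_S N q :=
  Subgroup.mem_sup_left ⟨⟨γ, hγ⟩, rfl⟩

theorem S41A_conj_inc_mem_S {γ : SL(2, ℤ)} (hγ : γ ∈ Gamma0 N) :
    S41A_conj q (S41A_inc γ) ∈ S41A_S N q :=
  Subgroup.mem_sup_right ⟨⟨γ, hγ⟩, rfl⟩

theorem S41A_S_le_G (hq : q ≠ 0) : S41A_S N q ≤ S41A_G N q := by
  apply sup_le
  · rintro _ ⟨γ, rfl⟩
    exact S41A_inc_mem_G q γ.2
  · rintro _ ⟨γ, rfl⟩
    exact S41A_conj_inc_mem_G hq γ.2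

/-- `h = diag(q, 1/q) ∈ ⟨Γ₀(N), δ⁻¹Γ₀(N)δ⟩`. -/
theorem S41A_h_mem_S (hq : q.Prime) (hqN : ¬ q ∣ N) :
    S41A_diag (S41A_u q) ∈ S41A_S N q := by
  have hq0 : q ≠ 0 := hq.ne_zero
  have hqQ : (q : ℚ) ≠ 0 := by exact_mod_cast hq0
  have hcop : IsCoprime (q : ℤ) (N : ℤ) :=
    Nat.isCoprime_iff_coprime.2 ((Nat.Prime.coprime_iff_not_dvd hq).2 hqN)
  obtain ⟨d, t, hdt⟩ := hcop
  -- d * q + t * N = 1
  let γ₁ : SL(2, ℤ) := S41A_imk q 1 (-(N : ℤ) * t) d (by linarith)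
  let γ₂ : SL(2, ℤ) := S41A_imk 1 1 (-(N : ℤ) * t) (q * d) (by linarith)
  have h1 : γ₁ ∈ Gamma0 N := by
    rw [S41A_Gamma0_mem_iff]; exact ⟨-t, by show -(N : ℤ) * t = _; ring⟩
  have h2 : γ₂ ∈ Gamma0 N := by
    rw [S41A_Gamma0_mem_iff]; exact ⟨-t, by show -(N : ℤ) * t = _; ring⟩
  have key : S41A_diag (S41A_u q) = S41A_inc γ₁ * (S41A_conj q (S41A_inc γ₂))⁻¹ := by
    rw [eq_mul_inv_iff_mul_eq]
    apply S41A_ext
    · rw [S41A_mul_00, S41A_conj_00, S41A_conj_10 hq0]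
      simp [S41A_diag, S41A_u_val hq0, S41A_inc_apply, γ₁, γ₂]
    · rw [S41A_mul_01, S41A_conj_01 hq0, S41A_conj_11]
      simp [S41A_diag, S41A_u_val hq0, S41A_inc_apply, γ₁, γ₂, hqQ]
    · rw [S41A_mul_10, S41A_conj_00, S41A_conj_10 hq0]
      simp [S41A_diag, S41A_u_val hq0, S41A_inc_apply, γ₁, γ₂, hqQ]
    · rw [S41A_mul_11, S41A_conj_01 hq0, S41A_conj_11]
      simp [S41A_diag, S41A_u_val hq0, S41A_inc_apply, γ₁, γ₂, hqQ]
  rw [key]
  exact mul_mem (S41A_inc_mem_S h1) (inv_mem (S41A_conj_inc_mem_S h2))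

theorem S41A_up_int_mem_S (m : ℤ) : S41A_up (m : ℚ) ∈ S41A_S N q := by
  let γ : SL(2, ℤ) := S41A_imk 1 m 0 1 (by ring)
  have h1 : γ ∈ Gamma0 N := by
    rw [S41A_Gamma0_mem_iff]; exact ⟨0, by show (0 : ℤ) = _; ring⟩
  have : S41A_up (m : ℚ) = S41A_inc γ := by
    apply S41A_ext <;> simp [S41A_up, S41A_inc_apply, γ]
  rw [this]
  exact S41A_inc_mem_S h1

theorem S41A_up_mem_S (hq : q.Prime) (hqN : ¬ q ∣ N) {x : ℚ} (hx : x ∈ S41A_R q) :
    S41A_up x ∈ S41A_S N q := by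
  have hq0 : q ≠ 0 := hq.ne_zero
  have hqQ : (q : ℚ) ≠ 0 := by exact_mod_cast hq0
  obtain ⟨m, k, rfl⟩ := (S41A_mem_R_iff hq0 x).1 hx
  have h := S41A_diag_conj_up (S41A_u q ^ k) ((m * (q : ℤ) ^ k : ℤ) : ℚ)
  have e : (((m * (q : ℤ) ^ k : ℤ) : ℚ)) / ((S41A_u q ^ k : ℚˣ) : ℚ) ^ 2 = (m : ℚ) / (q : ℚ) ^ k := by
    rw [Units.val_pow_eq_pow_val, S41A_u_val hq0]
    push_cast
    field_simp
  rw [e] at h
  rw [← h]
  have hh : S41A_diag (S41A_u q ^ k) ∈ S41A_S N q := by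
    have := S41A_diag_zpow (S41A_u q) (k : ℤ)
    rw [zpow_natCast, zpow_natCast] at this
    rw [this]
    exact pow_mem (S41A_h_mem_S hq hqN) k
  exact mul_mem (mul_mem (inv_mem hh) (S41A_up_int_mem_S _)) hh


theorem S41A_zpow_mem_R {q : ℕ} (e : ℤ) : ((q : ℚ)) ^ e ∈ S41A_R q := by
  rcases Int.le_total 0 e with h | h
  · obtain ⟨n, rfl⟩ := Int.eq_ofNat_of_zero_le h
    rw [zpow_natCast]
    exact pow_mem (S41A_nat_mem_R q q) n
  · obtain ⟨n, hn⟩ := Int.eq_ofNat_of_zero_le (neg_nonneg.2 h)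
    have : e = -(n : ℤ) := by omega
    rw [this, _root_.zpow_neg, zpow_natCast, ← inv_pow]
    exact pow_mem (S41A_inv_mem_R q) n

/-- upper triangular elements of `G` with diagonal `(q^e, q^{-e})` lie in `S`. -/
theorem S41A_triang_mem_S (hq : q.Prime) (hqN : ¬ q ∣ N) {M : SL(2, ℚ)} (e : ℤ)
    (h00 : M 0 0 = (q : ℚ) ^ e) (h10 : M 1 0 = 0) (h01 : M 0 1 ∈ S41A_R q) :
    M ∈ S41A_S N q := by
  have hq0 : q ≠ 0 := hq.ne_zero
  have hqQ : (q : ℚ) ≠ 0 := by exact_mod_cast hq0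
  have hqe : (q : ℚ) ^ e ≠ 0 := zpow_ne_zero e hqQ
  have hdet := S41A_det_eq M
  rw [h00, h10, mul_zero, sub_zero] at hdet
  have h11 : M 1 1 = ((q : ℚ) ^ e)⁻¹ := eq_inv_of_mul_eq_one_right hdet
  have hz : M 0 1 * ((q : ℚ) ^ e)⁻¹ ∈ S41A_R q := by
    rw [← _root_.zpow_neg]
    exact mul_mem h01 (S41A_zpow_mem_R _)
  have hval : ((S41A_u q ^ e : ℚˣ) : ℚ) = (q : ℚ) ^ e := by
    rw [Units.val_zpow_eq_zpow_val, S41A_u_val hq0]
  have key : M = S41A_diag (S41A_u q ^ e) * S41A_up (M 0 1 * ((q : ℚ) ^ e)⁻¹) := by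
    apply S41A_ext
    · rw [S41A_mul_00]; simp [S41A_diag, S41A_up, hval, h00]
    · rw [S41A_mul_01]; simp [S41A_diag, S41A_up, hval]
      field_simp
    · rw [S41A_mul_10]; simp [S41A_diag, S41A_up, h10]
    · rw [S41A_mul_11]; simp [S41A_diag, S41A_up, hval, h11]
  rw [key, S41A_diag_zpow]
  exact mul_mem (zpow_mem (S41A_h_mem_S hq hqN) e) (S41A_up_mem_S hq hqN hz)

/-- the first column of an element of `G` is `q^e` times a primitive integral column `(a₁, c₁)`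
with `N ∣ c₁`. -/
theorem S41A_exists_col (hq : q.Prime) (hqN : ¬ q ∣ N) {M : SL(2, ℚ)} (hM : M ∈ S41A_G N q) :
    ∃ (e : ℤ) (a₁ c₁ : ℤ), IsCoprime a₁ c₁ ∧ (N : ℤ) ∣ c₁ ∧
      M 0 0 = (q : ℚ) ^ e * a₁ ∧ M 1 0 = (q : ℚ) ^ e * c₁ := by
  have hq0 : q ≠ 0 := hq.ne_zero
  have hqQ : (q : ℚ) ≠ 0 := by exact_mod_cast hq0
  have hqZ : (q : ℤ) ≠ 0 := by exact_mod_cast hq0
  obtain ⟨⟨ha, hb, hd⟩, r, hr, hc⟩ := hM
  obtain ⟨ma, ka, hma⟩ := (S41A_mem_R_iff hq0 _).1 ha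
  obtain ⟨mb, kb, hmb⟩ := (S41A_mem_R_iff hq0 _).1 hb
  obtain ⟨md, kd, hmd⟩ := (S41A_mem_R_iff hq0 _).1 hd
  obtain ⟨mr, kr, hmr⟩ := (S41A_mem_R_iff hq0 _).1 hr
  have hdet := S41A_det_eq M
  -- integral numerators with common denominators
  set A : ℤ := ma * (q : ℤ) ^ kr with hA
  set C : ℤ := mr * (q : ℤ) ^ ka with hC
  set B : ℤ := mb * (q : ℤ) ^ kd with hB
  set D : ℤ := md * (q : ℤ) ^ kb with hD
  have hM00 : M 0 0 = (A : ℚ) / (q : ℚ) ^ (ka + kr) := by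
    rw [hma, hA]; push_cast; field_simp; ring
  have hM10 : M 1 0 = ((N * C : ℤ) : ℚ) / (q : ℚ) ^ (ka + kr) := by
    rw [hc, hmr, hC]; push_cast; field_simp; ring
  have hM01 : M 0 1 = (B : ℚ) / (q : ℚ) ^ (kb + kd) := by
    rw [hmb, hB]; push_cast; field_simp; ring
  have hM11 : M 1 1 = (D : ℚ) / (q : ℚ) ^ (kb + kd) := by
    rw [hmd, hD]; push_cast; field_simp; ring
  have hdetZ : A * D - B * (N * C) = (q : ℤ) ^ (ka + kr + (kb + kd)) := by
    have : ((A * D - B * (N * C) : ℤ) : ℚ) = (((q : ℤ) ^ (ka + kr + (kb + kd)) : ℤ) : ℚ) := by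
      rw [hM00, hM10, hM01, hM11] at hdet
      push_cast
      push_cast at hdet
      field_simp at hdet
      rw [pow_add]
      linarith
    exact_mod_cast this
  -- the gcd is a power of q
  have hgdvd : ((Int.gcd A (N * C) : ℕ) : ℤ) ∣ (q : ℤ) ^ (ka + kr + (kb + kd)) := by
    rw [← hdetZ]
    exact dvd_sub (Dvd.dvd.mul_right (Int.gcd_dvd_left _ _) _)
      (Dvd.dvd.mul_left (Int.gcd_dvd_right _ _) _)
  have hgdvd' : Int.gcd A (N * C) ∣ q ^ (ka + kr + (kb + kd)) := by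
    have : ((Int.gcd A (N * C) : ℕ) : ℤ) ∣ ((q ^ (ka + kr + (kb + kd)) : ℕ) : ℤ) := by
      push_cast; exact hgdvd
    exact Int.natCast_dvd_natCast.1 this
  obtain ⟨j, -, hj⟩ := (Nat.dvd_prime_pow hq).1 hgdvd'
  have hgpos : 0 < Int.gcd A (N * C) := by
    rw [hj]; exact pow_pos hq.pos j
  obtain ⟨a₁, ha₁⟩ := Int.gcd_dvd_left A (N * C)
  obtain ⟨c₁, hc₁⟩ := Int.gcd_dvd_right A (N * C)
  have hcop : IsCoprime a₁ c₁ := by
    rw [Int.isCoprime_iff_gcd_eq_one]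
    have h1 := Int.gcd_div_gcd_div_gcd hgpos
    have hgZ : ((Int.gcd A (N * C) : ℕ) : ℤ) ≠ 0 := by exact_mod_cast hgpos.ne'
    have e1 : A / ((Int.gcd A (N * C) : ℕ) : ℤ) = a₁ := Int.ediv_eq_of_eq_mul_right hgZ ha₁
    have e2 : (N * C) / ((Int.gcd A (N * C) : ℕ) : ℤ) = c₁ :=
      Int.ediv_eq_of_eq_mul_right hgZ hc₁
    rw [e1, e2] at h1
    exact h1
  have hgq : ((Int.gcd A (N * C) : ℕ) : ℤ) = (q : ℤ) ^ j := by
    rw [hj]; push_cast; rfl
  rw [hgq] at ha₁ hc₁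
  have hNc₁ : (N : ℤ) ∣ c₁ := by
    have hcopN : IsCoprime (N : ℤ) ((q : ℤ) ^ j) :=
      IsCoprime.pow_right
        (Nat.isCoprime_iff_coprime.2 ((Nat.Prime.coprime_iff_not_dvd hq).2 hqN).symm)
    have : (N : ℤ) ∣ c₁ * (q : ℤ) ^ j := by
      rw [mul_comm, ← hc₁]; exact dvd_mul_right _ _
    exact hcopN.dvd_of_dvd_mul_right this
  refine ⟨(j : ℤ) - ((ka + kr : ℕ) : ℤ), a₁, c₁, hcop, hNc₁, ?_, ?_⟩
  · rw [hM00, ha₁, zpow_sub₀ hqQ, zpow_natCast, zpow_natCast]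
    push_cast
    field_simp
  · rw [hM10, hc₁, zpow_sub₀ hqQ, zpow_natCast, zpow_natCast]
    push_cast
    field_simp

/-- **Generation**: `G = ⟨Γ₀(N), δ⁻¹Γ₀(N)δ⟩`. -/
theorem S41A_G_le_S (hq : q.Prime) (hqN : ¬ q ∣ N) : S41A_G N q ≤ S41A_S N q := by
  intro M hM
  have hq0 : q ≠ 0 := hq.ne_zero
  have hqQ : (q : ℚ) ≠ 0 := by exact_mod_cast hq0
  obtain ⟨e, a₁, c₁, ⟨u, v, huv⟩, hNc₁, h00, h10⟩ := S41A_exists_col hq hqN hM
  let γ : SL(2, ℤ) := S41A_imk a₁ (-v) c₁ u (by linarith)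
  have hγ : γ ∈ Gamma0 N := by rw [S41A_Gamma0_mem_iff]; exact hNc₁
  have hγG : S41A_inc γ ∈ S41A_G N q := S41A_inc_mem_G q hγ
  have hM' : (S41A_inc γ)⁻¹ * M ∈ S41A_G N q := mul_mem (inv_mem hγG) hM
  have huvQ : (u : ℚ) * a₁ + v * c₁ = 1 := by exact_mod_cast huv
  have hS : (S41A_inc γ)⁻¹ * M ∈ S41A_S N q := by
    apply S41A_triang_mem_S hq hqN e
    · rw [S41A_mul_00, S41A_inv_00, S41A_inv_01, h00, h10]
      simp only [S41A_inc_apply, γ, S41A_imk_11, S41A_imk_01]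
      push_cast
      linear_combination (q : ℚ) ^ e * huvQ
    · rw [S41A_mul_10, S41A_inv_10, S41A_inv_11, h00, h10]
      simp only [S41A_inc_apply, γ, S41A_imk_10, S41A_imk_00]
      ring
    · exact hM'.1.2.1
  have : M = S41A_inc γ * ((S41A_inc γ)⁻¹ * M) := by group
  rw [this]
  exact mul_mem (S41A_inc_mem_S hγ) hS

theorem S41A_G_eq_S (hq : q.Prime) (hqN : ¬ q ∣ N) : S41A_G N q = S41A_S N q :=
  le_antisymm (S41A_G_le_S hq hqN) (S41A_S_le_G hq.ne_zero)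

end generation


/-! ### the amalgam theorem and the gluing of homomorphisms -/

section glue

variable {N q : ℕ}

/-- `G` is generated by the images of `i1` and `i2`. -/
theorem S41A_range_sup (hq : q.Prime) (hqN : ¬ q ∣ N) :
    (S41A_i1 N q).range ⊔ (S41A_i2 N q).range = ⊤ := by
  have hq0 : q ≠ 0 := hq.ne_zero
  rw [eq_top_iff]
  intro M _
  have hM : (M : SL(2, ℚ)) ∈ S41A_S N q := S41A_G_le_S hq hqN M.2
  have hmap : ((S41A_i1 N q).range ⊔ (S41A_i2 N q).range).map (S41A_G N q).subtype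
      = S41A_S N q := by
    rw [Subgroup.map_sup, MonoidHom.map_range, MonoidHom.map_range]
    have e1 : (S41A_G N q).subtype.comp (S41A_i1 N q) = S41A_inc.comp (Gamma0 N).subtype := rfl
    have e2 : (S41A_G N q).subtype.comp (S41A_i2 N q)
        = (S41A_conj q).comp (S41A_inc.comp (Gamma0 N).subtype) := by
      apply MonoidHom.ext
      intro γ
      exact S41A_i2_coe hq0 γ
    rw [e1, e2]
    rfl
  rw [← hmap] at hM
  obtain ⟨M', hM', hMM'⟩ := hM
  have : M' = M := Subtype.ext hMM'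
  rw [← this]
  exact hM'

theorem S41A_lift_surjective (hq : q.Prime) (hqN : ¬ q ∣ N) :
    Function.Surjective (S41A_lift (N := N) hq.ne_zero) := by
  rw [← MonoidHom.range_eq_top, eq_top_iff, ← S41A_range_sup hq hqN]
  apply sup_le
  · rintro _ ⟨γ, rfl⟩
    refine ⟨Monoid.PushoutI.of (φ := S41A_phi N q) false γ, ?_⟩
    rw [S41A_lift, Monoid.PushoutI.lift_of]
    rfl
  · rintro _ ⟨γ, rfl⟩
    refine ⟨Monoid.PushoutI.of (φ := S41A_phi N q) true γ, ?_⟩
    rw [S41A_lift, Monoid.PushoutI.lift_of]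
    rfl

theorem S41A_lift_bijective (hq : q.Prime) (hqN : ¬ q ∣ N) :
    Function.Bijective (S41A_lift (N := N) hq.ne_zero) :=
  ⟨S41A_lift_injective hq hqN, S41A_lift_surjective hq hqN⟩

/-- **Amalgam theorem** (Ihara/Serre): `Γ₀(N) *_{Γ₀(Nq)} Γ₀(N) ≃* Γ₀(N)[1/q]`. -/
def S41A_pushoutEquiv (hq : q.Prime) (hqN : ¬ q ∣ N) :
    Monoid.PushoutI (ι := Bool) (G := fun _ => Gamma0 N) (S41A_phi N q) ≃* S41A_G N q :=
  MulEquiv.ofBijective (S41A_lift (N := N) hq.ne_zero) (S41A_lift_bijective hq hqN)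

theorem S41A_pushoutEquiv_of (hq : q.Prime) (hqN : ¬ q ∣ N) (i : Bool) (γ : Gamma0 N) :
    S41A_pushoutEquiv hq hqN (Monoid.PushoutI.of (φ := S41A_phi N q) i γ) = S41A_f N q i γ := by
  unfold S41A_pushoutEquiv
  rw [MulEquiv.ofBijective_apply, S41A_lift, Monoid.PushoutI.lift_of]

/-- a pair of homomorphisms as a family indexed by `Bool`. -/
def S41A_cfam {V : Type*} [Group V] (c₁ c₂ : Gamma0 N →* V) : (i : Bool) → Gamma0 N →* V
  | false => c₁
  | true => c₂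

/-- **Gluing**: homomorphisms `c₁` on `Γ₀(N)` and `c₂` on `δ⁻¹Γ₀(N)δ` (written as a homomorphism
on `Γ₀(N)` via `γ ↦ δ⁻¹γδ`) which agree on `Γ₀(Nq)` glue to ONE homomorphism on
`G = Γ₀(N)[1/q]`. -/
theorem S41A_glue (hq : q.Prime) (hqN : ¬ q ∣ N) {V : Type*} [Group V]
    (c₁ c₂ : Gamma0 N →* V)
    (h : ∀ γ : Gamma0 (N * q), c₁ (S41A_res N q γ) = c₂ (S41A_deg N q γ)) :
    ∃ F : S41A_G N q →* V, (∀ γ : Gamma0 N, F (S41A_i1 N q γ) = c₁ γ) ∧
      (∀ γ : Gamma0 N, F (S41A_i2 N q γ) = c₂ γ) := by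
  have hcomp : ∀ i, (S41A_cfam c₁ c₂ i).comp (S41A_phi N q i) = c₁.comp (S41A_res N q) := by
    intro i
    cases i
    · rfl
    · apply MonoidHom.ext
      intro γ
      exact (h γ).symm
  let L : Monoid.PushoutI (ι := Bool) (G := fun _ => Gamma0 N) (S41A_phi N q) →* V :=
    Monoid.PushoutI.lift (S41A_cfam c₁ c₂) (c₁.comp (S41A_res N q)) hcomp
  refine ⟨L.comp (S41A_pushoutEquiv hq hqN).symm.toMonoidHom, ?_, ?_⟩
  · intro γ
    have e : (S41A_pushoutEquiv hq hqN).symm (S41A_i1 N q γ)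
        = Monoid.PushoutI.of (φ := S41A_phi N q) false γ := by
      rw [MulEquiv.symm_apply_eq, S41A_pushoutEquiv_of]
      rfl
    show L ((S41A_pushoutEquiv hq hqN).symm (S41A_i1 N q γ)) = c₁ γ
    rw [e]
    exact Monoid.PushoutI.lift_of _ _ hcomp γ
  · intro γ
    have e : (S41A_pushoutEquiv hq hqN).symm (S41A_i2 N q γ)
        = Monoid.PushoutI.of (φ := S41A_phi N q) true γ := by
      rw [MulEquiv.symm_apply_eq, S41A_pushoutEquiv_of]
      rfl
    show L ((S41A_pushoutEquiv hq hqN).symm (S41A_i2 N q γ)) = c₂ γ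
    rw [e]
    exact Monoid.PushoutI.lift_of _ _ hcomp γ

/-- uniqueness of the glued homomorphism. -/
theorem S41A_glue_unique (hq : q.Prime) (hqN : ¬ q ∣ N) {V : Type*} [Group V]
    (F F' : S41A_G N q →* V) (h1 : ∀ γ : Gamma0 N, F (S41A_i1 N q γ) = F' (S41A_i1 N q γ))
    (h2 : ∀ γ : Gamma0 N, F (S41A_i2 N q γ) = F' (S41A_i2 N q γ)) : F = F' := by
  have hle : (⊤ : Subgroup (S41A_G N q)) ≤ F.eqLocus F' := by
    rw [← S41A_range_sup hq hqN]
    apply sup_le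
    · rintro _ ⟨γ, rfl⟩; exact h1 γ
    · rintro _ ⟨γ, rfl⟩; exact h2 γ
  apply MonoidHom.ext
  intro x
  exact hle (Subgroup.mem_top x)

/-- **Gluing, additive form** (the form used for `parabolicHoms`): additive characters
`c₁, c₂ : Additive Γ₀(N) →+ A` with `c₁ γ = c₂ (δγδ⁻¹)` on `Γ₀(Nq)` glue to an additive
character of `G`. -/
theorem S41A_glue_add (hq : q.Prime) (hqN : ¬ q ∣ N) {A : Type*} [AddCommGroup A]
    (c₁ c₂ : Additive (Gamma0 N) →+ A)
    (h : ∀ γ : Gamma0 (N * q), c₁ (Additive.ofMul (S41A_res N q γ))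
      = c₂ (Additive.ofMul (S41A_deg N q γ))) :
    ∃ F : Additive (S41A_G N q) →+ A,
      (∀ γ : Gamma0 N, F (Additive.ofMul (S41A_i1 N q γ)) = c₁ (Additive.ofMul γ)) ∧
      (∀ γ : Gamma0 N, F (Additive.ofMul (S41A_i2 N q γ)) = c₂ (Additive.ofMul γ)) := by
  obtain ⟨F, hF1, hF2⟩ := S41A_glue hq hqN (V := Multiplicative A)
    (AddMonoidHom.toMultiplicativeRight c₁) (AddMonoidHom.toMultiplicativeRight c₂)
    (fun γ => congrArg Multiplicative.ofAdd (h γ))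
  refine ⟨AddMonoidHom.toMultiplicativeRight.symm F, ?_, ?_⟩
  · intro γ
    exact congrArg Multiplicative.toAdd (hF1 γ)
  · intro γ
    exact congrArg Multiplicative.toAdd (hF2 γ)

end glue

end
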