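import Mathlib
import Fermat.Agent.S41.DegPoly
import Fermat.Agent.S41.Amalgam

/-!
# S41, package IHARA-ASM-B (helper8): Ihara's lemma in the annihilator form `hIh`

Input (as hypotheses, supplied by helper6's `S41K_pair` and helper27's `S41I_main`):
* `hPair`: a pair `(v₁, v₂)` in the kernel of `α + β` mod `p` gives two characters `χ, χ'` of
  `G = Γ₀(N)[1/q]` restricting to `v₁, v₂` mod `p` on `Γ₀(N)`;
* `hMain`: if `v mod p` extends to `G`, then `(T_r − (r+1)) v (γ) ≡ 0 mod p` for every prime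
  `r ∤ N`, `r ≠ q`, `r ≠ p`, `r ≡ 1 mod d(γ)`, at every `γ` with `d(γ) ≠ 0`, `q ∤ c(γ)`;
* `hNE`: non-Eisenstein primes `ℓ ≡ 1 mod M` exist for every `M`.

Output: `S41J_hIh'` (explicit `r = X_ℓ − C(ℓ+1)`) and `S41J_hIh` (the shape of `S41G_main'`).
-/

set_option autoImplicit false

open Matrix MatrixGroups CongruenceSubgroup Matrix.SpecialLinearGroup
open ModularCurve ModularCurve.Period

namespace Fermat.Agent.S41

open Fermat.Agent.S16 Fermat.Agent.GalRep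

section goodrep

variable (N : ℕ)

theorem S41J_det_up (x : ℤ) : (1 : ℤ) * 1 - x * 0 = 1 := by ring

theorem S41J_det_lo (y : ℤ) : (1 : ℤ) * 1 - 0 * ((N : ℤ) * y) = 1 := by ring

/-- the upper unipotent `(1 x; 0 1)` as an element of `Γ₀(N)`. -/
def S41J_up (x : ℤ) : Gamma0 N :=
  ⟨S41A_imk 1 x 0 1 (S41J_det_up x), by
    rw [S41A_Gamma0_mem_iff, S41A_imk_10]; exact dvd_zero _⟩

/-- the lower unipotent `(1 0; N y 1)` as an element of `Γ₀(N)`. -/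
def S41J_lo (y : ℤ) : Gamma0 N :=
  ⟨S41A_imk 1 0 ((N : ℤ) * y) 1 (S41J_det_lo N y), by
    rw [S41A_Gamma0_mem_iff, S41A_imk_10]; exact Dvd.intro _ rfl⟩

theorem S41J_trace_imk (a b c d : ℤ) (h : a * d - b * c = 1) :
    ((S41A_imk a b c d h : SL(2, ℤ)) : Matrix (Fin 2) (Fin 2) ℤ).trace = a + d := by
  rw [Matrix.trace_fin_two]
  rfl

variable {N}

theorem S41J_par_up (v : ↥(parInt N)) (x : ℤ) :
    (v : Additive (Gamma0 N) →+ ℤ) (Additive.ofMul (S41J_up N x)) = 0 := by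
  apply v.2
  show ((S41A_imk 1 x 0 1 (S41J_det_up x) : SL(2, ℤ)) : Matrix (Fin 2) (Fin 2) ℤ).trace ^ 2 = 4
  rw [S41J_trace_imk]; norm_num

theorem S41J_par_lo (v : ↥(parInt N)) (y : ℤ) :
    (v : Additive (Gamma0 N) →+ ℤ) (Additive.ofMul (S41J_lo N y)) = 0 := by
  apply v.2
  show ((S41A_imk 1 0 ((N : ℤ) * y) 1 (S41J_det_lo N y) : SL(2, ℤ)) :
    Matrix (Fin 2) (Fin 2) ℤ).trace ^ 2 = 4
  rw [S41J_trace_imk]; norm_num

/-- the modified element `γ · u_x · l_{Ny}`. -/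
def S41J_mod (γ : Gamma0 N) (x y : ℤ) : Gamma0 N := γ * S41J_up N x * S41J_lo N y

theorem S41J_mod_val (v : ↥(parInt N)) (γ : Gamma0 N) (x y : ℤ) :
    (v : Additive (Gamma0 N) →+ ℤ) (Additive.ofMul (S41J_mod γ x y))
      = (v : Additive (Gamma0 N) →+ ℤ) (Additive.ofMul γ) := by
  unfold S41J_mod
  rw [ofMul_mul, ofMul_mul, map_add, map_add, S41J_par_up, S41J_par_lo, add_zero, add_zero]

theorem S41J_mod_11 (γ : Gamma0 N) (x y : ℤ) :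
    ((S41J_mod γ x y : Gamma0 N) : SL(2, ℤ)) 1 1
      = (γ : SL(2, ℤ)) 1 0 * x + (γ : SL(2, ℤ)) 1 1 := by
  show (((γ : SL(2, ℤ)) * S41A_imk 1 x 0 1 (S41J_det_up x))
    * S41A_imk 1 0 ((N : ℤ) * y) 1 (S41J_det_lo N y)) 1 1 = _
  rw [S41A_imul_11, S41A_imul_10, S41A_imul_11, S41A_imk_01, S41A_imk_11, S41A_imk_00,
    S41A_imk_10, S41A_imk_01, S41A_imk_11]
  ring

theorem S41J_mod_10 (γ : Gamma0 N) (x y : ℤ) :
    ((S41J_mod γ x y : Gamma0 N) : SL(2, ℤ)) 1 0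
      = (γ : SL(2, ℤ)) 1 0 + ((γ : SL(2, ℤ)) 1 0 * x + (γ : SL(2, ℤ)) 1 1) * ((N : ℤ) * y) := by
  show (((γ : SL(2, ℤ)) * S41A_imk 1 x 0 1 (S41J_det_up x))
    * S41A_imk 1 0 ((N : ℤ) * y) 1 (S41J_det_lo N y)) 1 0 = _
  rw [S41A_imul_10, S41A_imul_10, S41A_imul_11, S41A_imk_00, S41A_imk_10, S41A_imk_00,
    S41A_imk_10, S41A_imk_01, S41A_imk_11]
  ring

/-- **good representatives**: every `γ ∈ Γ₀(N)` can be modified by parabolic elements so that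
`d ≠ 0` and `q ∤ c` (in particular `c ≠ 0`), without changing the value of any parabolic
homomorphism. -/
theorem S41J_exists_good {q : ℕ} (hq : q.Prime) (hqN : ¬ q ∣ N) (γ : Gamma0 N) :
    ∃ γ' : Gamma0 N, (γ' : SL(2, ℤ)) 1 1 ≠ 0 ∧ ¬ (q : ℤ) ∣ (γ' : SL(2, ℤ)) 1 0 ∧
      ∀ v : ↥(parInt N), (v : Additive (Gamma0 N) →+ ℤ) (Additive.ofMul γ')
        = (v : Additive (Gamma0 N) →+ ℤ) (Additive.ofMul γ) := by
  have hdet := S41A_det_eq_int (γ : SL(2, ℤ))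
  set a := (γ : SL(2, ℤ)) 0 0
  set b := (γ : SL(2, ℤ)) 0 1
  set c := (γ : SL(2, ℤ)) 1 0
  set d := (γ : SL(2, ℤ)) 1 1
  have hqp : Prime (q : ℤ) := Nat.prime_iff_prime_int.mp hq
  have hqN' : ¬ (q : ℤ) ∣ (N : ℤ) := fun h => hqN (Int.natCast_dvd_natCast.mp h)
  -- first step: `x` with `d' := c x + d ≠ 0`
  obtain ⟨x, hx⟩ : ∃ x : ℤ, c * x + d ≠ 0 := by
    by_cases hd : d = 0
    · refine ⟨1, ?_⟩
      intro h
      have hc : c = 0 := by rw [hd] at h; linarith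
      rw [hd, hc] at hdet
      simp at hdet
    · exact ⟨0, by simpa using hd⟩
  -- the new row `(c, d')` is still primitive: `a' d' − b' c = 1`
  have hcop : ¬ ((q : ℤ) ∣ c ∧ (q : ℤ) ∣ c * x + d) := by
    rintro ⟨h1, h2⟩
    have h3 : (q : ℤ) ∣ d := by
      have := dvd_sub h2 (Dvd.dvd.mul_right h1 x)
      simpa using this
    have h4 : (q : ℤ) ∣ a * d - b * c := dvd_sub (Dvd.dvd.mul_left h3 a) (Dvd.dvd.mul_left h1 b)
    rw [hdet] at h4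
    exact hqp.not_dvd_one h4
  -- second step: `y` with `q ∤ c + d' N y`
  obtain ⟨y, hy⟩ : ∃ y : ℤ, ¬ (q : ℤ) ∣ c + (c * x + d) * ((N : ℤ) * y) := by
    by_cases hc : (q : ℤ) ∣ c
    · refine ⟨1, ?_⟩
      intro h
      have h5 : (q : ℤ) ∣ (c * x + d) * ((N : ℤ) * 1) := by
        have := dvd_sub h hc
        simpa using this
      rw [mul_one] at h5
      rcases hqp.dvd_or_dvd h5 with h6 | h6
      · exact hcop ⟨hc, h6⟩
      · exact hqN' h6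
    · exact ⟨0, by simpa using hc⟩
  refine ⟨S41J_mod γ x y, ?_, ?_, fun v => S41J_mod_val v γ x y⟩
  · rw [S41J_mod_11]; exact hx
  · rw [S41J_mod_10]; exact hy

end goodrep

section main

variable (N q : ℕ) [NeZero N] [Fact q.Prime]

/-- the statement of the pairing step (helper6's `S41K_pair`). -/
def S41J_PairStmt (p : ℕ) : Prop :=
  ∀ (v₁ v₂ : ↥(parInt N)) (w : ↥(parInt (N * q))),
    S41D_alpha N q v₁ + S41D_beta N q v₂ = (p : ℤ) • w →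
    ∃ χ χ' : Additive (S41A_G N q) →+ ZMod p,
      (∀ γ : Gamma0 N, χ (Additive.ofMul (S41A_i1 N q γ))
        = (((v₁ : Additive (Gamma0 N) →+ ℤ) (Additive.ofMul γ) : ℤ) : ZMod p)) ∧
      (∀ γ : Gamma0 N, χ' (Additive.ofMul (S41A_i1 N q γ))
        = (((v₂ : Additive (Gamma0 N) →+ ℤ) (Additive.ofMul γ) : ℤ) : ZMod p))

/-- the statement of the pointwise Ihara step (helper27's `S41I_main`), required only at
"good" `γ` (`d ≠ 0`, `q ∤ c`) and at primes `r ∉ {q, p}`, `r ∤ N`, `r ≡ 1 mod d(γ)`. -/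
def S41J_MainStmt (p : ℕ) : Prop :=
  ∀ (v : ↥(parInt N)) (χ : Additive (S41A_G N q) →+ ZMod p),
    (∀ γ : Gamma0 N, χ (Additive.ofMul (S41A_i1 N q γ))
        = (((v : Additive (Gamma0 N) →+ ℤ) (Additive.ofMul γ) : ℤ) : ZMod p)) →
    ∀ (r : Nat.Primes), ¬ (r : ℕ) ∣ N → (r : ℕ) ≠ q → (r : ℕ) ≠ p →
    ∀ γ : Gamma0 N, (γ : SL(2, ℤ)) 1 1 ≠ 0 → ¬ (q : ℤ) ∣ (γ : SL(2, ℤ)) 1 0 →
      (γ : SL(2, ℤ)) 1 1 ∣ ((r : ℕ) : ℤ) - 1 →
      (p : ℤ) ∣ ((GRD_heckeL N (ModularCurve.heckeGen r) v : ↥(parInt N)) :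
          Additive (Gamma0 N) →+ ℤ) (Additive.ofMul γ)
        - (((r : ℕ) : ℤ) + 1) * (v : Additive (Gamma0 N) →+ ℤ) (Additive.ofMul γ)

/-- the element `X_ℓ − (ℓ+1)` of the Hecke polynomial ring. -/
noncomputable def S41J_r (ℓ : {ℓ : Nat.Primes // (ℓ : ℕ) ≠ q}) : S41D_R q :=
  MvPolynomial.X ℓ - MvPolynomial.C ((((ℓ.1 : Nat.Primes) : ℕ) : ℤ) + 1)

omit [Fact q.Prime] in
theorem S41J_rho_r (ℓ : {ℓ : Nat.Primes // (ℓ : ℕ) ≠ q}) (v : ↥(parInt N)) (γ : Gamma0 N) :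
    ((S41D_rho N q (S41J_r q ℓ) v : ↥(parInt N)) : Additive (Gamma0 N) →+ ℤ) (Additive.ofMul γ)
      = ((GRD_heckeL N (ModularCurve.heckeGen ℓ.1) v : ↥(parInt N)) :
          Additive (Gamma0 N) →+ ℤ) (Additive.ofMul γ)
        - ((((ℓ.1 : Nat.Primes) : ℕ) : ℤ) + 1) *
            (v : Additive (Gamma0 N) →+ ℤ) (Additive.ofMul γ) := by
  unfold S41J_r
  rw [map_sub, S41D_rho_X, S41D_rho_C, LinearMap.sub_apply]
  rfl

/-- a finite family of generators of `Γ₀(N)` which are all good, in the sense that the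
values of parabolic homs on them control everything. -/
theorem S41J_exists_modulus (hqN : ¬ q ∣ N) :
    ∃ M : ℕ, 0 < M ∧ ∀ (p : ℕ) (f : ↥(parInt N)),
      (∀ γ : Gamma0 N, (γ : SL(2, ℤ)) 1 1 ≠ 0 → ¬ (q : ℤ) ∣ (γ : SL(2, ℤ)) 1 0 →
        (γ : SL(2, ℤ)) 1 1 ∣ (M : ℤ) →
        (p : ℤ) ∣ (f : Additive (Gamma0 N) →+ ℤ) (Additive.ofMul γ)) →
      ∀ γ : Gamma0 N, (p : ℤ) ∣ (f : Additive (Gamma0 N) →+ ℤ) (Additive.ofMul γ) := by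
  classical
  have hq : q.Prime := Fact.out
  obtain ⟨Y, hY, hfin⟩ := Group.fg_iff.mp (Fermat.Agent.S22.gamma0_fg N)
  choose g hg1 hg2 hg3 using fun γ : Gamma0 N => S41J_exists_good (N := N) hq hqN γ
  set S : Finset (Gamma0 N) := hfin.toFinset with hS
  refine ⟨∏ y ∈ S, ((g y : SL(2, ℤ)) 1 1).natAbs, ?_, ?_⟩
  · apply Finset.prod_pos
    intro y _
    exact Int.natAbs_pos.mpr (hg1 y)
  · intro p f hf
    have key : ∀ y ∈ Y, (p : ℤ) ∣ (f : Additive (Gamma0 N) →+ ℤ) (Additive.ofMul y) := by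
      intro y hy
      rw [← hg3 y f]
      refine hf (g y) (hg1 y) (hg2 y) ?_
      have hyS : y ∈ S := by rw [hS, Set.Finite.mem_toFinset]; exact hy
      have h1 : ((g y : SL(2, ℤ)) 1 1).natAbs ∣ ∏ y ∈ S, ((g y : SL(2, ℤ)) 1 1).natAbs :=
        Finset.dvd_prod_of_mem _ hyS
      have h2 : (((g y : SL(2, ℤ)) 1 1).natAbs : ℤ)
          ∣ ((∏ y ∈ S, ((g y : SL(2, ℤ)) 1 1).natAbs : ℕ) : ℤ) := Int.natCast_dvd_natCast.mpr h1
      exact (Int.natAbs_dvd).mp h2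
    have hzero : redMod p (Gamma0 N) (f : Additive (Gamma0 N) →+ ℤ) = 0 := by
      apply addHom_eq_zero_of_closure hY
      intro y hy
      rw [redMod_apply]
      exact (ZMod.intCast_zmod_eq_zero_iff_dvd _ _).mpr (key y hy)
    intro γ
    have := congrArg (fun F : Additive (Gamma0 N) →+ ZMod p => F (Additive.ofMul γ)) hzero
    simp only [redMod_apply, AddMonoidHom.zero_apply] at this
    exact (ZMod.intCast_zmod_eq_zero_iff_dvd _ _).mp this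

omit [NeZero N] [Fact q.Prime] in
/-- a parabolic hom all of whose values are divisible by `p` is `p` times a parabolic hom. -/
theorem S41J_saturated {p : ℕ} (hp : p ≠ 0) (f : ↥(parInt N))
    (h : ∀ γ : Gamma0 N, (p : ℤ) ∣ (f : Additive (Gamma0 N) →+ ℤ) (Additive.ofMul γ)) :
    ∃ w : ↥(parInt N), f = (p : ℤ) • w := by
  have hzero : redMod p (Gamma0 N) (f : Additive (Gamma0 N) →+ ℤ) = 0 := by
    refine AddMonoidHom.ext fun γ => ?_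
    rw [redMod_apply, AddMonoidHom.zero_apply]
    exact (ZMod.intCast_zmod_eq_zero_iff_dvd _ _).mpr (h (Additive.toMul γ))
  obtain ⟨χ', hχ', hf⟩ := exists_div_of_redMod_eq_zero hp f.2 hzero
  refine ⟨⟨χ', hχ'⟩, Subtype.ext ?_⟩
  rw [hf]
  show p • χ' = (p : ℤ) • χ'
  rw [natCast_zsmul]

/-- **IHARA-ASM-B, explicit form**: there is a prime `ℓ ∤ N`, `ℓ ≠ q, p` with
`θ(X_ℓ − (ℓ+1)) ≠ 0` such that `X_ℓ − (ℓ+1)` maps both components of every element of the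
kernel of `α + β` mod `p` into `p·L`. -/
theorem S41J_hIh' (hqN : ¬ q ∣ N) (p : ℕ) [Fact p.Prime]
    (hPair : S41J_PairStmt N q p) (hMain : S41J_MainStmt N q p)
    {k : Type*} [Field k] (θ : S41D_R q →+* k)
    (hNE : ∀ M : ℕ, 0 < M → ∃ ℓ : {ℓ : Nat.Primes // (ℓ : ℕ) ≠ q},
      ((ℓ.1 : Nat.Primes) : ℕ) ≡ 1 [MOD M] ∧ ¬ ((ℓ.1 : Nat.Primes) : ℕ) ∣ N ∧
      ((ℓ.1 : Nat.Primes) : ℕ) ≠ p ∧ θ (S41J_r q ℓ) ≠ 0) :
    ∃ ℓ : {ℓ : Nat.Primes // (ℓ : ℕ) ≠ q}, ¬ ((ℓ.1 : Nat.Primes) : ℕ) ∣ N ∧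
      ((ℓ.1 : Nat.Primes) : ℕ) ≠ p ∧ θ (S41J_r q ℓ) ≠ 0 ∧
      ∀ v₁ v₂ : ↥(parInt N),
        (∃ w, S41D_alpha N q v₁ + S41D_beta N q v₂ = (p : ℤ) • w) →
        (∃ w₁, S41D_rho N q (S41J_r q ℓ) v₁ = (p : ℤ) • w₁) ∧
        (∃ w₂, S41D_rho N q (S41J_r q ℓ) v₂ = (p : ℤ) • w₂) := by
  have hp : p.Prime := Fact.out
  obtain ⟨M, hM, hgen⟩ := S41J_exists_modulus N q hqN
  obtain ⟨ℓ, hℓM, hℓN, hℓp, hθ⟩ := hNE M hM
  refine ⟨ℓ, hℓN, hℓp, hθ, ?_⟩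
  rintro v₁ v₂ ⟨w, hw⟩
  obtain ⟨χ, χ', hχ, hχ'⟩ := hPair v₁ v₂ w hw
  have hdvd : (M : ℤ) ∣ (((ℓ.1 : Nat.Primes) : ℕ) : ℤ) - 1 := by
    have := (Nat.modEq_iff_dvd.mp hℓM.symm)
    simpa using this
  have main : ∀ (v : ↥(parInt N)) (ψ : Additive (S41A_G N q) →+ ZMod p),
      (∀ γ : Gamma0 N, ψ (Additive.ofMul (S41A_i1 N q γ))
        = (((v : Additive (Gamma0 N) →+ ℤ) (Additive.ofMul γ) : ℤ) : ZMod p)) →
      ∃ w₁, S41D_rho N q (S41J_r q ℓ) v = (p : ℤ) • w₁ := by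
    intro v ψ hψ
    apply S41J_saturated N hp.ne_zero
    apply hgen p
    intro γ hd hc hdM
    rw [S41J_rho_r]
    exact hMain v ψ hψ ℓ.1 hℓN ℓ.2 hℓp γ hd hc (dvd_trans hdM hdvd)
  exact ⟨main v₁ χ hχ, main v₂ χ' hχ'⟩

/-- **IHARA-ASM-B**: the hypothesis `hIh` of `S41G_main'`. -/
theorem S41J_hIh (hqN : ¬ q ∣ N) (p : ℕ) [Fact p.Prime]
    (hPair : S41J_PairStmt N q p) (hMain : S41J_MainStmt N q p)
    {k : Type*} [Field k] (θ : S41D_R q →+* k)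
    (hNE : ∀ M : ℕ, 0 < M → ∃ ℓ : {ℓ : Nat.Primes // (ℓ : ℕ) ≠ q},
      ((ℓ.1 : Nat.Primes) : ℕ) ≡ 1 [MOD M] ∧ ¬ ((ℓ.1 : Nat.Primes) : ℕ) ∣ N ∧
      ((ℓ.1 : Nat.Primes) : ℕ) ≠ p ∧ θ (S41J_r q ℓ) ≠ 0) :
    ∃ r : S41D_R q, θ r ≠ 0 ∧ ∀ v₁ v₂ : ↥(parInt N),
      (∃ w, S41D_alpha N q v₁ + S41D_beta N q v₂ = (p : ℤ) • w) →
      (∃ w₁, S41D_rho N q r v₁ = (p : ℤ) • w₁) ∧ (∃ w₂, S41D_rho N q r v₂ = (p : ℤ) • w₂) := by
  obtain ⟨ℓ, -, -, hθ, h⟩ := S41J_hIh' N q hqN p hPair hMain θ hNE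
  exact ⟨S41J_r q ℓ, hθ, h⟩

end main

end Fermat.Agent.S41
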