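import Mathlib
import Fermat.Agent.S16.LB.PermLinAlgF

/-!
# S41, package PD (Poincaré duality), part NONDEG-1: linear algebra on `X → F`

`X` is a finite set with an action of a group `G`; `U ∈ G` acts with order dividing `3`, `V ∈ G`
acts as an involution.  On the space `triZeroF F U` (functions with vanishing sums over the
`U`-orbits, vanishing at the `U`-fixed points) there is a canonical alternating form `ω`, given by
`ω(b, b') = ∑_{U-orbits} (b(x) b'(U x) − b(U x) b'(x))`.  We realise the sum over the orbits by a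
"partition of unity" `e` (a function with `e(x) + e(U x) + e(U² x) = 1` on the free orbits and
`e(x) = 1` at the fixed points).

Main results (in any characteristic `≠ 2`, including characteristic `3`):
* `PD_omegaE_J` : `ω(b, J n) = ⟨b, n⟩` for `b ∈ triZeroF`, where `(J n)(x) = n(U² x) − n(U x)`;
* `PD_cob_mem` : the "normalised coboundaries" `m ∘ U − m` (`m` invariant under `T = U V`) are
  anti-invariant under `V` and lie in `triZeroF`;
* `PD_omegaE_cob` : they are orthogonal for `ω` to all of `Z = antiInvF V ⊓ triZeroF U`;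
* `PD_radical` : conversely an element of `Z` which is `ω`-orthogonal to `Z` is a normalised
  coboundary.
-/

set_option autoImplicit false

namespace Fermat.Agent.S41

open Fermat.Agent.S16 Module

section PDLinAlg

variable {F : Type*} [Field F] {G X : Type*} [Group G] [MulAction G X] [Fintype X]

/-- The standard symmetric bilinear form on `X → F`. -/
def PD_ip (m n : X → F) : F := ∑ x, m x * n x

lemma PD_ip_comm (m n : X → F) : PD_ip m n = PD_ip n m :=
  Finset.sum_congr rfl fun _ _ => mul_comm _ _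

lemma PD_ip_add_left (m m' n : X → F) : PD_ip (m + m') n = PD_ip m n + PD_ip m' n := by
  unfold PD_ip
  rw [← Finset.sum_add_distrib]
  exact Finset.sum_congr rfl fun x _ => by simp only [Pi.add_apply]; ring

lemma PD_ip_add_right (m n n' : X → F) : PD_ip m (n + n') = PD_ip m n + PD_ip m n' := by
  unfold PD_ip
  rw [← Finset.sum_add_distrib]
  exact Finset.sum_congr rfl fun x _ => by simp only [Pi.add_apply]; ring

lemma PD_ip_sub_right (m n n' : X → F) : PD_ip m (n - n') = PD_ip m n - PD_ip m n' := by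
  unfold PD_ip
  rw [← Finset.sum_sub_distrib]
  exact Finset.sum_congr rfl fun x _ => by simp only [Pi.sub_apply]; ring

lemma PD_ip_neg_right (m n : X → F) : PD_ip m (-n) = - PD_ip m n := by
  unfold PD_ip
  rw [← Finset.sum_neg_distrib]
  exact Finset.sum_congr rfl fun x _ => by simp only [Pi.neg_apply]; ring

/-- The form is invariant under the action of `G`. -/
lemma PD_ip_smul (g : G) (m n : X → F) :
    PD_ip (fun x => m (g • x)) (fun x => n (g • x)) = PD_ip m n :=
  Equiv.sum_comp (MulAction.toPerm g) (fun x => m x * n x)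

lemma PD_ip_eq_zero_left {m : X → F} (h : ∀ n, PD_ip m n = 0) : m = 0 := by
  classical
  funext x
  have := h (Pi.single x 1)
  unfold PD_ip at this
  rw [Finset.sum_eq_single x] at this
  · simpa using this
  · intro y _ hy
    simp [hy]
  · intro hx
    exact absurd (Finset.mem_univ x) hx

/-- Every linear functional on `X → F` is `⟨·, n⟩`. -/
lemma PD_exists_ip (μ : (X → F) →ₗ[F] F) : ∃ n : X → F, ∀ m, μ m = PD_ip m n := by
  classical
  refine ⟨fun x => μ (fun j => if x = j then 1 else 0), fun m => ?_⟩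
  rw [LinearMap.pi_apply_eq_sum_univ μ m]
  exact Finset.sum_congr rfl fun x _ => by rw [smul_eq_mul]

/-- The symmetrisation `symF3` is self-adjoint. -/
lemma PD_ip_symF3 {U : G} (hU3 : ∀ x : X, U • U • U • x = x) (m n : X → F) :
    PD_ip (symF3 F U m) n = PD_ip m (symF3 F U n) := by
  classical
  set χ : X → F := fun x => if U • x = x then 0 else 1 with hχ
  have hχU : ∀ x, χ (U • x) = χ x := by
    intro x
    simp only [hχ]
    by_cases h : U • x = x
    · rw [if_pos h, if_pos ((smul_fixed_iff_three hU3 x).mpr h)]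
    · rw [if_neg h, if_neg (fun h' => h ((smul_fixed_iff_three hU3 x).mp h'))]
  have hsym : ∀ (a : X → F) (x : X),
      symF3 F U a x = a x + χ x * (a (U • x) + a (U • U • x)) := by
    intro a x
    rw [symF3_apply]
    simp only [hχ]
    by_cases h : U • x = x
    · rw [if_pos h, if_pos h]; ring
    · rw [if_neg h, if_neg h]; ring
  have e1 : ∑ x, χ x * m (U • x) * n x = ∑ x, χ x * m x * n (U • U • x) := by
    rw [← Equiv.sum_comp (MulAction.toPerm (U * U)) (fun x => χ x * m (U • x) * n x)]
    refine Finset.sum_congr rfl fun x _ => ?_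
    simp only [MulAction.toPerm_apply, mul_smul, hU3, hχU]
  have e2 : ∑ x, χ x * m (U • U • x) * n x = ∑ x, χ x * m x * n (U • x) := by
    rw [← Equiv.sum_comp (MulAction.toPerm U) (fun x => χ x * m (U • U • x) * n x)]
    refine Finset.sum_congr rfl fun x _ => ?_
    simp only [MulAction.toPerm_apply, hU3, hχU]
  have l : PD_ip (symF3 F U m) n
      = ∑ x, m x * n x + (∑ x, χ x * m (U • x) * n x + ∑ x, χ x * m (U • U • x) * n x) := by
    unfold PD_ip
    rw [← Finset.sum_add_distrib, ← Finset.sum_add_distrib]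
    refine Finset.sum_congr rfl fun x _ => ?_
    rw [hsym]; ring
  have r : PD_ip m (symF3 F U n)
      = ∑ x, m x * n x + (∑ x, χ x * m x * n (U • U • x) + ∑ x, χ x * m x * n (U • x)) := by
    unfold PD_ip
    rw [← Finset.sum_add_distrib, ← Finset.sum_add_distrib]
    refine Finset.sum_congr rfl fun x _ => ?_
    rw [hsym]; ring
  rw [l, r, e1, e2]

/-- `e` is a partition of unity for the `U`-orbits. -/
def PD_IsUnity (U : G) (e : X → F) : Prop := symF3 F U e = fun _ => 1

omit [Fintype X] in
lemma PD_exists_unity {U : G} (hU3 : ∀ x : X, U • U • U • x = x) :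
    ∃ e : X → F, PD_IsUnity U e := by
  have h : (fun _ => (1 : F)) ∈ invF F (X := X) U := by
    rw [mem_invF]; intro x; rfl
  rw [← range_symF3 hU3] at h
  exact h

/-- Sums over `X` are sums over the orbits. -/
lemma PD_sum_eq {U : G} (hU3 : ∀ x : X, U • U • U • x = x) {e : X → F} (he : PD_IsUnity U e)
    (f : X → F) : ∑ x, f x = ∑ x, e x * symF3 F U f x := by
  have h1 : ∑ x, f x = PD_ip (symF3 F U e) f := by
    unfold PD_ip
    refine Finset.sum_congr rfl fun x _ => ?_
    rw [he, one_mul]
  rw [h1, PD_ip_symF3 hU3]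
  rfl

/-- The alternating form `ω` (with respect to the partition of unity `e`). -/
def PD_omegaE (U : G) (e b b' : X → F) : F :=
  ∑ x, e x * (b x * b' (U • x) - b (U • x) * b' x)

lemma PD_omegaE_swap (U : G) (e b b' : X → F) :
    PD_omegaE U e b b' = - PD_omegaE U e b' b := by
  unfold PD_omegaE
  rw [← Finset.sum_neg_distrib]
  exact Finset.sum_congr rfl fun x _ => by ring

lemma PD_omegaE_add_left (U : G) (e b₁ b₂ b' : X → F) :
    PD_omegaE U e (b₁ + b₂) b' = PD_omegaE U e b₁ b' + PD_omegaE U e b₂ b' := by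
  unfold PD_omegaE
  rw [← Finset.sum_add_distrib]
  exact Finset.sum_congr rfl fun x _ => by simp only [Pi.add_apply]; ring

lemma PD_omegaE_smul_left (U : G) (e : X → F) (c : F) (b b' : X → F) :
    PD_omegaE U e (c • b) b' = c * PD_omegaE U e b b' := by
  unfold PD_omegaE
  rw [Finset.mul_sum]
  exact Finset.sum_congr rfl fun x _ => by simp only [Pi.smul_apply, smul_eq_mul]; ring

lemma PD_omegaE_add_right (U : G) (e b b₁ b₂ : X → F) :
    PD_omegaE U e b (b₁ + b₂) = PD_omegaE U e b b₁ + PD_omegaE U e b b₂ := by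
  rw [PD_omegaE_swap, PD_omegaE_add_left, PD_omegaE_swap U e b b₁, PD_omegaE_swap U e b b₂]
  ring

lemma PD_omegaE_smul_right (U : G) (e : X → F) (c : F) (b b' : X → F) :
    PD_omegaE U e b (c • b') = c * PD_omegaE U e b b' := by
  rw [PD_omegaE_swap, PD_omegaE_smul_left, PD_omegaE_swap U e b b']
  ring

lemma PD_omegaE_sub_right (U : G) (e b b₁ b₂ : X → F) :
    PD_omegaE U e b (b₁ - b₂) = PD_omegaE U e b b₁ - PD_omegaE U e b b₂ := by
  have h : b₁ - b₂ = b₁ + (-1 : F) • b₂ := by
    funext x; simp only [Pi.sub_apply, Pi.add_apply, Pi.smul_apply, smul_eq_mul]; ring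
  rw [h, PD_omegaE_add_right, PD_omegaE_smul_right]
  ring

lemma PD_omegaE_sub_left (U : G) (e b₁ b₂ b' : X → F) :
    PD_omegaE U e (b₁ - b₂) b' = PD_omegaE U e b₁ b' - PD_omegaE U e b₂ b' := by
  rw [PD_omegaE_swap, PD_omegaE_sub_right, PD_omegaE_swap U e b₁ b', PD_omegaE_swap U e b₂ b']
  ring

/-- The map `J n = n ∘ U² − n ∘ U`. -/
def PD_J (U : G) (n : X → F) : X → F := fun x => n (U • U • x) - n (U • x)

omit [Fintype X] in
lemma PD_J_mem {U : G} (hU3 : ∀ x : X, U • U • U • x = x) (n : X → F) :
    PD_J U n ∈ triZeroF F U := by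
  rw [mem_triZeroF]
  intro x
  refine ⟨?_, fun hx => ?_⟩
  · simp only [PD_J, hU3]; ring
  · simp only [PD_J, hx, sub_self]

/-- **Key identity**: `ω(b, J n) = ⟨b, n⟩` for `b ∈ triZeroF`. -/
theorem PD_omegaE_J {U : G} (hU3 : ∀ x : X, U • U • U • x = x) {e : X → F}
    (he : PD_IsUnity U e) {b : X → F} (hb : b ∈ triZeroF F U) (n : X → F) :
    PD_omegaE U e b (PD_J U n) = PD_ip b n := by
  classical
  have h1 : PD_ip b n = ∑ x, e x * symF3 F U (fun y => b y * n y) x :=
    PD_sum_eq hU3 he (fun y => b y * n y)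
  rw [h1]
  unfold PD_omegaE
  refine Finset.sum_congr rfl fun x _ => ?_
  congr 1
  rw [symF3_apply]
  rw [mem_triZeroF] at hb
  by_cases h : U • x = x
  · rw [if_pos h]
    simp only [PD_J, h, (hb x).2 h]
    ring
  · rw [if_neg h]
    simp only [PD_J, hU3]
    linear_combination (- n (U • U • x)) * (hb x).1

/-- `J` is anti-self-adjoint. -/
lemma PD_ip_J {U : G} (hU3 : ∀ x : X, U • U • U • x = x) (m n : X → F) :
    PD_ip (PD_J U m) n = - PD_ip m (PD_J U n) := by
  have e1 : ∑ x, m (U • U • x) * n x = ∑ x, m x * n (U • x) := by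
    rw [← Equiv.sum_comp (MulAction.toPerm U) (fun x => m (U • U • x) * n x)]
    refine Finset.sum_congr rfl fun x _ => ?_
    simp only [MulAction.toPerm_apply, hU3]
  have e2 : ∑ x, m (U • x) * n x = ∑ x, m x * n (U • U • x) := by
    rw [← Equiv.sum_comp (MulAction.toPerm (U * U)) (fun x => m (U • x) * n x)]
    refine Finset.sum_congr rfl fun x _ => ?_
    simp only [MulAction.toPerm_apply, mul_smul, hU3]
  have l : PD_ip (PD_J U m) n = ∑ x, m (U • U • x) * n x - ∑ x, m (U • x) * n x := by
    unfold PD_ip PD_J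
    rw [← Finset.sum_sub_distrib]
    exact Finset.sum_congr rfl fun x _ => by ring
  have r : PD_ip m (PD_J U n) = ∑ x, m x * n (U • U • x) - ∑ x, m x * n (U • x) := by
    unfold PD_ip PD_J
    rw [← Finset.sum_sub_distrib]
    exact Finset.sum_congr rfl fun x _ => by ring
  rw [l, r, e1, e2]
  ring

/-- `J` maps onto `triZeroF`. -/
theorem PD_J_surj {U : G} (hU3 : ∀ x : X, U • U • U • x = x) {b : X → F}
    (hb : b ∈ triZeroF F U) : ∃ n : X → F, PD_J U n = b := by
  classical
  set JL : (X → F) →ₗ[F] (X → F) := pullF F (U * U) - pullF F U with hJL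
  have hJLapp : ∀ n, JL n = PD_J U n := by
    intro n
    funext x
    simp only [hJL, LinearMap.sub_apply, pullF_apply, Pi.sub_apply, mul_smul, PD_J]
  have hker : LinearMap.ker JL = invF F U := by
    ext n
    rw [LinearMap.mem_ker, mem_invF, hJLapp]
    constructor
    · intro h x
      have := congrFun h (U • U • x)
      simp only [PD_J, hU3, Pi.zero_apply] at this
      linear_combination this
    · intro h
      funext x
      simp only [PD_J, h, sub_self, Pi.zero_apply]
  have hle : LinearMap.range JL ≤ triZeroF F U := by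
    rintro _ ⟨n, rfl⟩
    rw [hJLapp]
    exact PD_J_mem hU3 n
  have h1 := LinearMap.finrank_range_add_finrank_ker JL
  have h2 := LinearMap.finrank_range_add_finrank_ker (symF3 F (X := X) U)
  rw [hker] at h1
  rw [range_symF3 hU3, ker_symF3] at h2
  have h3 : finrank F (LinearMap.range JL) = finrank F (triZeroF F (X := X) U) := by omega
  have h4 : LinearMap.range JL = triZeroF F U := Submodule.eq_of_le_of_finrank_eq hle h3
  rw [← h4] at hb
  obtain ⟨n, hn⟩ := hb
  exact ⟨n, by rw [← hJLapp, hn]⟩

/-- `ω` is non-degenerate on `triZeroF`. -/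
theorem PD_omegaE_nondeg {U : G} (hU3 : ∀ x : X, U • U • U • x = x) {e : X → F}
    (he : PD_IsUnity U e) {w : X → F} (hw : w ∈ triZeroF F U)
    (h : ∀ v ∈ triZeroF F U, PD_omegaE U e v w = 0) : w = 0 := by
  obtain ⟨n', rfl⟩ := PD_J_surj hU3 hw
  apply PD_ip_eq_zero_left
  intro n''
  have h1 := h (PD_J U n'') (PD_J_mem hU3 n'')
  rw [PD_omegaE_J hU3 he (PD_J_mem hU3 n''), PD_ip_J hU3] at h1
  rw [PD_ip_comm]
  linear_combination -h1

/-- `ω` does not depend on the partition of unity (on `triZeroF`). -/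
theorem PD_omegaE_indep {U : G} (hU3 : ∀ x : X, U • U • U • x = x) {e e' : X → F}
    (he : PD_IsUnity U e) (he' : PD_IsUnity U e') {b b' : X → F} (hb : b ∈ triZeroF F U)
    (hb' : b' ∈ triZeroF F U) : PD_omegaE U e b b' = PD_omegaE U e' b b' := by
  obtain ⟨n', rfl⟩ := PD_J_surj hU3 hb'
  rw [PD_omegaE_J hU3 he hb, PD_omegaE_J hU3 he' hb]

omit [Fintype X] in
/-- The normalised coboundaries lie in `Z = antiInvF V ⊓ triZeroF U`. -/
theorem PD_cob_mem {U V : G} (hV2 : ∀ x : X, V • V • x = x) (hU3 : ∀ x : X, U • U • U • x = x)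
    {m : X → F} (hm : ∀ x, m (U • V • x) = m x) :
    (fun x => m (U • x) - m x) ∈ antiInvF F (X := X) V ⊓ triZeroF F U := by
  have hmV : ∀ x, m (U • x) = m (V • x) := by
    intro x
    have := hm (V • x)
    rwa [hV2] at this
  refine ⟨?_, ?_⟩
  · rw [SetLike.mem_coe, mem_antiInvF]
    intro x
    refine ⟨?_, fun hx => ?_⟩
    · simp only [hm, hmV x]; ring
    · have := hm x
      rw [hx] at this
      simp only [this, sub_self]
  · rw [SetLike.mem_coe, mem_triZeroF]
    intro x
    refine ⟨?_, fun hx => ?_⟩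
    · simp only [hU3]; ring
    · simp only [hx, sub_self]

/-- The normalised coboundaries are orthogonal to `Z`. -/
theorem PD_omegaE_cob {U V : G} (hV2 : ∀ x : X, V • V • x = x)
    (hU3 : ∀ x : X, U • U • U • x = x) {e : X → F} (he : PD_IsUnity U e)
    {b' : X → F} (hb' : b' ∈ antiInvF F (X := X) V ⊓ triZeroF F U)
    {m : X → F} (hm : ∀ x, m (U • V • x) = m x) :
    PD_omegaE U e b' (fun x => m (U • x) - m x) = 0 := by
  obtain ⟨hbV, hbU⟩ := hb'
  rw [SetLike.mem_coe] at hbV hbU
  have hmV : ∀ x, m (U • x) = m (V • x) := by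
    intro x
    have := hm (V • x)
    rwa [hV2] at this
  have hJ : (fun x => m (U • x) - m x) = PD_J U (fun x => m (U • U • x)) := by
    funext x
    simp only [PD_J, hU3]
  rw [hJ, PD_omegaE_J hU3 he hbU]
  -- `⟨b', m ∘ U²⟩ = 0`
  rw [mem_antiInvF] at hbV
  rw [mem_triZeroF] at hbU
  have s0 : ∑ x, b' x * m x + (∑ x, b' x * m (U • x) + ∑ x, b' x * m (U • U • x)) = 0 := by
    have e1 : ∑ x, b' x * m (U • x) = ∑ x, b' (U • U • x) * m x := by
      rw [← Equiv.sum_comp (MulAction.toPerm (U * U)) (fun x => b' x * m (U • x))]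
      refine Finset.sum_congr rfl fun x _ => ?_
      simp only [MulAction.toPerm_apply, mul_smul, hU3]
    have e2 : ∑ x, b' x * m (U • U • x) = ∑ x, b' (U • x) * m x := by
      rw [← Equiv.sum_comp (MulAction.toPerm U) (fun x => b' x * m (U • U • x))]
      refine Finset.sum_congr rfl fun x _ => ?_
      simp only [MulAction.toPerm_apply, hU3]
    rw [e1, e2, ← Finset.sum_add_distrib, ← Finset.sum_add_distrib]
    refine Finset.sum_eq_zero fun x _ => ?_
    linear_combination (m x) * (hbU x).1
  have s1 : ∑ x, b' x * m (U • x) = - ∑ x, b' x * m x := by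
    have e1 : ∑ x, b' x * m (U • x) = ∑ x, b' (V • x) * m x := by
      rw [← Equiv.sum_comp (MulAction.toPerm V) (fun x => b' x * m (U • x))]
      refine Finset.sum_congr rfl fun x _ => ?_
      simp only [MulAction.toPerm_apply, hm]
    rw [e1, ← Finset.sum_neg_distrib]
    refine Finset.sum_congr rfl fun x _ => ?_
    linear_combination (m x) * (hbV x).1
  unfold PD_ip
  linear_combination s0 - s1

/-- **The radical.**  An element of `Z = antiInvF V ⊓ triZeroF U` which is `ω`-orthogonal to `Z`
is a normalised coboundary `m ∘ U − m` with `m` invariant under `T = U V`. -/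
theorem PD_radical (h2 : (2 : F) ≠ 0) {U V : G} (hV2 : ∀ x : X, V • V • x = x)
    (hU3 : ∀ x : X, U • U • U • x = x) {e : X → F} (he : PD_IsUnity U e)
    {b : X → F} (hb : b ∈ antiInvF F (X := X) V ⊓ triZeroF F U)
    (h : ∀ b' ∈ antiInvF F (X := X) V ⊓ triZeroF F U, PD_omegaE U e b' b = 0) :
    ∃ m : X → F, (∀ x, m (U • V • x) = m x) ∧ b = fun x => m (U • x) - m x := by
  classical
  obtain ⟨hbV, hbU⟩ := hb
  rw [SetLike.mem_coe] at hbV hbU
  -- the functional `v ↦ ω(v, b)` on `triZeroF`
  set lam : triZeroF F (X := X) U →ₗ[F] F :=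
    { toFun := fun v => PD_omegaE U e (v : X → F) b
      map_add' := fun v w => by
        rw [Submodule.coe_add, PD_omegaE_add_left]
      map_smul' := fun c v => by
        rw [Submodule.coe_smul, PD_omegaE_smul_left, RingHom.id_apply, smul_eq_mul] } with hlam
  set f : triZeroF F (X := X) U →ₗ[F] (X → F) :=
    (LinearMap.id + pullF F V).comp (triZeroF F (X := X) U).subtype with hf
  have hfapp : ∀ (v : triZeroF F (X := X) U) (x : X), f v x = (v : X → F) x + (v : X → F) (V • x) := by
    intro v x
    rfl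
  have hmem : lam ∈ (LinearMap.ker f).dualAnnihilator := by
    rw [Submodule.mem_dualAnnihilator]
    intro v hv
    rw [LinearMap.mem_ker] at hv
    refine h (v : X → F) ⟨?_, v.2⟩
    rw [SetLike.mem_coe, mem_antiInvF]
    intro x
    have hx := congrFun hv x
    rw [hfapp] at hx
    refine ⟨hx, fun hfix => ?_⟩
    rw [hfix] at hx
    have h3 : (2 : F) * (v : X → F) x = 0 := by
      simp only [Pi.zero_apply] at hx
      linear_combination hx
    rcases mul_eq_zero.mp h3 with h4 | h4
    · exact absurd h4 h2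
    · exact h4
  rw [← LinearMap.range_dualMap_eq_dualAnnihilator_ker] at hmem
  obtain ⟨μ, hμ⟩ := hmem
  obtain ⟨n, hn⟩ := PD_exists_ip μ
  -- `s = n + n ∘ V`
  set s : X → F := fun x => n x + n (V • x) with hs
  have hsV : ∀ x, s (V • x) = s x := by
    intro x
    simp only [hs, hV2]; ring
  have key : ∀ v ∈ triZeroF F (X := X) U, PD_omegaE U e v b = PD_omegaE U e v (PD_J U s) := by
    intro v hv
    have h1 : lam ⟨v, hv⟩ = μ (f ⟨v, hv⟩) := by
      rw [← hμ]; rfl
    have h3 : PD_ip (f ⟨v, hv⟩) n = PD_ip v s := by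
      have e1 : ∑ x, v (V • x) * n x = ∑ x, v x * n (V • x) := by
        rw [← Equiv.sum_comp (MulAction.toPerm V) (fun x => v (V • x) * n x)]
        refine Finset.sum_congr rfl fun x _ => ?_
        simp only [MulAction.toPerm_apply, hV2]
      have l : PD_ip (f ⟨v, hv⟩) n = ∑ x, v x * n x + ∑ x, v (V • x) * n x := by
        unfold PD_ip
        rw [← Finset.sum_add_distrib]
        refine Finset.sum_congr rfl fun x _ => ?_
        rw [hfapp]; ring
      have r : PD_ip v s = ∑ x, v x * n x + ∑ x, v x * n (V • x) := by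
        unfold PD_ip
        rw [← Finset.sum_add_distrib]
        refine Finset.sum_congr rfl fun x _ => ?_
        simp only [hs]; ring
      rw [l, r, e1]
    rw [PD_omegaE_J hU3 he hv, ← h3, ← hn, ← h1]
    rfl
  have hbJ : b = PD_J U s := by
    have h0 : b - PD_J U s = 0 := by
      refine PD_omegaE_nondeg hU3 he
        ((triZeroF F U).sub_mem hbU (PD_J_mem hU3 s)) fun v hv => ?_
      rw [PD_omegaE_sub_right, key v hv, sub_self]
    exact sub_eq_zero.mp h0
  -- `m = (s ∘ U − s − s ∘ U²) / 2`
  rw [mem_antiInvF] at hbV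
  have hbV' : ∀ x, s (U • U • V • x) - s (U • V • x) = - (s (U • U • x) - s (U • x)) := by
    intro x
    have := (hbV x).1
    rw [hbJ] at this
    simp only [PD_J] at this
    linear_combination this
  refine ⟨fun x => 2⁻¹ * (s (U • x) - s x - s (U • U • x)), fun x => ?_, ?_⟩
  · simp only [hU3, hsV]
    linear_combination ((2 : F)⁻¹) * hbV' x
  · rw [hbJ]
    funext x
    have h2' : (2 : F)⁻¹ * 2 = 1 := inv_mul_cancel₀ h2
    simp only [PD_J, hU3]
    linear_combination (-(s (U • U • x) - s (U • x))) * h2'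

end PDLinAlg

end Fermat.Agent.S41
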