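import Mathlib
import Fermat.Agent.S41.PDLinAlg
import Fermat.Agent.S16.LB.ParCocycleF

/-!
# S41, package PD (Poincaré duality), part NONDEG-2: the explicit pairing on `parHomsF`

`Γ ≤ G = ⟨S, U⟩` of finite index, `U = S T`, `X = G ⧸ Γ`, `P` a conjugation invariant predicate
("elliptic or parabolic"), `F` a field of characteristic `≠ 2`.

For `φ ∈ parHomsF F Γ P` the cocycle `cocF φ` restricted to `T` is a coboundary `m ∘ T − m`
(`PD_IsPrim φ m`), and `PD_nrm φ m = cocF φ U − (m ∘ U − m)` is the value at `U` of the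
*normalised* cocycle `cocF φ − d m` (which vanishes at `T`).  The explicit Poincaré pairing is
`(φ, φ') ↦ ω(PD_nrm φ m, PD_nrm φ' m')`.

* `PD_pair_indep` : it does not depend on `m`, `m'` (nor on the partition of unity);
* `PD_cocycleSpace_eq` : "Shapiro surjectivity" `ξ(parHomsF) ⊔ coboundaries = cocycleSpaceF`,
  under the hypothesis that the dimension bound `six_mul_finrank_parHomsF_le` is an equality;
* `PD_nondeg` : under the same hypothesis the pairing is non-degenerate.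
-/

set_option autoImplicit false

namespace Fermat.Agent.S41

open Fermat.Agent.S16 Fermat.Agent.S21 Module

section PDShapiro

variable {F : Type*} [Field F] {G : Type*} [Group G] {Γ : Subgroup G} {P : G → Prop}

/-- **Shapiro surjectivity**, from the dimension equality: every parabolic cocycle datum is the
datum of a homomorphism in `parHomsF` plus a coboundary. -/
theorem PD_cocycleSpace_eq [Finite (G ⧸ Γ)] {S U T : G} (hU : U = S * T)
    (hgen : Subgroup.closure ({S, U} : Set G) = ⊤)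
    (hP : ∀ g h : G, P h → P (g⁻¹ * h * g))
    (hS2 : ∀ x : G ⧸ Γ, S • S • x = x) (hU3 : ∀ x : G ⧸ Γ, U • U • U • x = x)
    (hPS : P (S * S)) (hPU : P (U * U * U)) (hPS1 : P S) (hPU1 : P U)
    (hT : ∀ k : ℤ, P (T ^ k))
    (heq : Nat.card (G ⧸ Γ) + 12 ≤ 6 * finrank F (parHomsF F Γ P)
      + 3 * Nat.card {x : G ⧸ Γ // S • x = x} + 4 * Nat.card {x : G ⧸ Γ // U • x = x}
      + 6 * Nat.card (MulAction.orbitRel.Quotient (Subgroup.zpowers T) (G ⧸ Γ))) :
    (parHomsF F Γ P).map (xiMapF F S U) ⊔ LinearMap.range (cobMapF F (X := G ⧸ Γ) S U)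
      = cocycleSpaceF F (X := G ⧸ Γ) S U T := by
  classical
  let _ : Fintype (G ⧸ Γ) := Fintype.ofFinite _
  have := finiteDimensional_addHomF F (Γ := Γ) hgen
  set A : Submodule F (((G ⧸ Γ) → F) × ((G ⧸ Γ) → F)) := (parHomsF F Γ P).map (xiMapF F S U)
    with hA
  set B : Submodule F (((G ⧸ Γ) → F) × ((G ⧸ Γ) → F)) := LinearMap.range (cobMapF F S U) with hB
  have hAle : A ≤ cocycleSpaceF F S U T := by
    rintro _ ⟨φ, hφ, rfl⟩
    exact xiMapF_mem_cocycleSpaceF hP hφ hU hS2 hU3 hPS hPU hPS1 hPU1 hT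
  have hBle : B ≤ cocycleSpaceF F S U T := range_cobMapF_le_cocycleSpaceF hU hS2 hU3
  have hdisj : Disjoint A B := by
    rw [Submodule.disjoint_def]
    rintro _ ⟨φ, -, rfl⟩ ⟨m, hm⟩
    have := eq_zero_of_xiMapF_eq_cobMapF hgen φ m hm.symm
    rw [this, map_zero]
  have hAdim : finrank F A = finrank F (parHomsF F Γ P) :=
    (Submodule.equivMapOfInjective (xiMapF F S U) (xiMapF_injective hgen)
      (parHomsF F Γ P)).finrank_eq.symm
  have hBdim : finrank F B + 1 = Fintype.card (G ⧸ Γ) :=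
    finrank_range_cobMapF_add_one F (X := G ⧸ Γ) hgen
  have hsup := Submodule.finrank_sup_add_finrank_inf_eq A B
  rw [hdisj.eq_bot, finrank_bot, add_zero] at hsup
  have hmain := finrank_cocycleSpaceF_add_card_le F (X := G ⧸ Γ) (T := T) hgen hS2 hU3
  have h2 := two_mul_finrank_antiInvF F (X := G ⧸ Γ) hS2
  have h3 := three_mul_finrank_triZeroF F (X := G ⧸ Γ) hU3
  have h4 : finrank F (cobTF F (X := G ⧸ Γ) T)
      + Nat.card (MulAction.orbitRel.Quotient (Subgroup.zpowers T) (G ⧸ Γ))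
      = Fintype.card (G ⧸ Γ) := finrank_cobTF_add_card_orbits F (X := G ⧸ Γ) T
  simp only [Fintype.card_eq_nat_card] at h2 h3 h4 hmain hBdim
  refine Submodule.eq_of_le_of_finrank_le (sup_le hAle hBle) ?_
  omega

end PDShapiro

section PDNormal

variable {F : Type*} [Field F] {G : Type*} [Group G] {Γ : Subgroup G} {P : G → Prop}

/-- `m` is a primitive of the cocycle of `φ` along `T`: `m ∘ T − m = cocF φ T`. -/
def PD_IsPrim (T : G) (φ : Additive Γ →+ F) (m : G ⧸ Γ → F) : Prop :=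
  ∀ x, m (T • x) - m x = cocF φ T x

/-- The value at `U` of the normalised cocycle `cocF φ − d m`. -/
noncomputable def PD_nrm (U : G) (φ : Additive Γ →+ F) (m : G ⧸ Γ → F) : G ⧸ Γ → F :=
  fun x => cocF φ U x - (m (U • x) - m x)

lemma PD_exists_prim (hP : ∀ g h : G, P h → P (g⁻¹ * h * g))
    {φ : Additive Γ →+ F} (hφ : φ ∈ parHomsF F Γ P) {T : G} (hT : ∀ k : ℤ, P (T ^ k)) :
    ∃ m, PD_IsPrim T φ m := by
  obtain ⟨m, hm⟩ := cocF_mem_cobTF hP hφ hT
  refine ⟨m, fun x => ?_⟩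
  have := congrFun hm x
  simpa using this

lemma PD_IsPrim_add {T : G} {φ φ' : Additive Γ →+ F} {m m' : G ⧸ Γ → F}
    (h : PD_IsPrim T φ m) (h' : PD_IsPrim T φ' m') : PD_IsPrim T (φ + φ') (m + m') := by
  intro x
  have h1 := h x
  have h2 := h' x
  simp only [cocF, AddMonoidHom.add_apply, Pi.add_apply] at h1 h2 ⊢
  linear_combination h1 + h2

lemma PD_IsPrim_smul {T : G} {φ : Additive Γ →+ F} {m : G ⧸ Γ → F} (c : F)
    (h : PD_IsPrim T φ m) : PD_IsPrim T (c • φ) (c • m) := by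
  intro x
  have h1 := h x
  simp only [cocF, AddMonoidHom.smul_apply, Pi.smul_apply, smul_eq_mul] at h1 ⊢
  linear_combination c * h1

lemma PD_nrm_add (U : G) (φ φ' : Additive Γ →+ F) (m m' : G ⧸ Γ → F) :
    PD_nrm U (φ + φ') (m + m') = PD_nrm U φ m + PD_nrm U φ' m' := by
  funext x
  simp only [PD_nrm, cocF, AddMonoidHom.add_apply, Pi.add_apply]
  ring

lemma PD_nrm_smul (U : G) (c : F) (φ : Additive Γ →+ F) (m : G ⧸ Γ → F) :
    PD_nrm U (c • φ) (c • m) = c • PD_nrm U φ m := by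
  funext x
  simp only [PD_nrm, cocF, AddMonoidHom.smul_apply, Pi.smul_apply, smul_eq_mul]
  ring

/-- The element acting as the involution `x ↦ T⁻¹ S T x`. -/
def PD_V (S T : G) : G := T⁻¹ * S * T

lemma PD_V_sq {S T : G} (hS2 : ∀ x : G ⧸ Γ, S • S • x = x) (x : G ⧸ Γ) :
    PD_V S T • PD_V S T • x = x := by
  simp only [PD_V, mul_smul, smul_inv_smul, hS2, inv_smul_smul]

lemma PD_U_V {S U T : G} (hU : U = S * T) (hS2 : ∀ x : G ⧸ Γ, S • S • x = x) (x : G ⧸ Γ) :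
    U • PD_V S T • x = T • x := by
  simp only [hU, PD_V, mul_smul, smul_inv_smul, hS2]

/-- The normalised cocycle value lies in `Z = antiInvF V ⊓ triZeroF U`. -/
theorem PD_nrm_mem (hP : ∀ g h : G, P h → P (g⁻¹ * h * g))
    {φ : Additive Γ →+ F} (hφ : φ ∈ parHomsF F Γ P) {S U T : G} (hU : U = S * T)
    (hS2 : ∀ x : G ⧸ Γ, S • S • x = x) (hU3 : ∀ x : G ⧸ Γ, U • U • U • x = x)
    (hPS : P (S * S)) (hPU : P (U * U * U)) (hPS1 : P S) (hPU1 : P U)
    {m : G ⧸ Γ → F} (hm : PD_IsPrim T φ m) :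
    PD_nrm U φ m ∈ antiInvF F (X := G ⧸ Γ) (PD_V S T) ⊓ triZeroF F U := by
  have hA := cocF_mem_antiInvF hP hφ hS2 hPS hPS1
  have hB := cocF_mem_triZeroF hP hφ hU3 hPU hPU1
  rw [mem_antiInvF] at hA
  rw [mem_triZeroF] at hB
  -- `b x = a (T x)` with `a = cocF φ S − (m ∘ S − m)`
  have hba : ∀ x, PD_nrm U φ m x = cocF φ S (T • x) - (m (S • T • x) - m (T • x)) := by
    intro x
    have h1 : cocF φ U x = cocF φ S (T • x) + cocF φ T x := by
      rw [hU, cocF_mul]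
    have h2 := hm x
    have h3 : U • x = S • T • x := by rw [hU, mul_smul]
    simp only [PD_nrm, h1, h3]
    linear_combination -h2
  have hTV : ∀ x : G ⧸ Γ, T • PD_V S T • x = S • T • x := by
    intro x
    simp only [PD_V, mul_smul, smul_inv_smul]
  refine ⟨?_, ?_⟩
  · rw [SetLike.mem_coe, mem_antiInvF]
    intro x
    refine ⟨?_, fun hx => ?_⟩
    · rw [hba, hba, hTV, hS2]
      linear_combination (hA (T • x)).1
    · have hfix : S • T • x = T • x := by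
        rw [← hTV, hx]
      rw [hba, hfix, (hA (T • x)).2 hfix]
      ring
  · rw [SetLike.mem_coe, mem_triZeroF]
    intro x
    refine ⟨?_, fun hx => ?_⟩
    · simp only [PD_nrm, hU3]
      linear_combination (hB x).1
    · simp only [PD_nrm, hx, (hB x).2 hx]
      ring

variable [Fintype (G ⧸ Γ)]

/-- **Independence of the choices**: the pairing `ω(PD_nrm φ m, PD_nrm φ' m')` depends only on
`φ` and `φ'`. -/
theorem PD_pair_indep (hP : ∀ g h : G, P h → P (g⁻¹ * h * g))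
    {φ φ' : Additive Γ →+ F} (hφ : φ ∈ parHomsF F Γ P) (hφ' : φ' ∈ parHomsF F Γ P)
    {S U T : G} (hU : U = S * T)
    (hS2 : ∀ x : G ⧸ Γ, S • S • x = x) (hU3 : ∀ x : G ⧸ Γ, U • U • U • x = x)
    (hPS : P (S * S)) (hPU : P (U * U * U)) (hPS1 : P S) (hPU1 : P U)
    {e₁ e₂ : G ⧸ Γ → F} (he₁ : PD_IsUnity U e₁) (he₂ : PD_IsUnity U e₂)
    {m₁ m₂ m₁' m₂' : G ⧸ Γ → F} (hm₁ : PD_IsPrim T φ m₁) (hm₂ : PD_IsPrim T φ m₂)
    (hm₁' : PD_IsPrim T φ' m₁') (hm₂' : PD_IsPrim T φ' m₂') :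
    PD_omegaE U e₁ (PD_nrm U φ m₁) (PD_nrm U φ' m₁')
      = PD_omegaE U e₂ (PD_nrm U φ m₂) (PD_nrm U φ' m₂') := by
  have hV2 : ∀ x : G ⧸ Γ, PD_V S T • PD_V S T • x = x := PD_V_sq hS2
  have hb₁ := PD_nrm_mem hP hφ hU hS2 hU3 hPS hPU hPS1 hPU1 hm₁
  have hb₂ := PD_nrm_mem hP hφ hU hS2 hU3 hPS hPU hPS1 hPU1 hm₂
  have hb₁' := PD_nrm_mem hP hφ' hU hS2 hU3 hPS hPU hPS1 hPU1 hm₁'
  have hb₂' := PD_nrm_mem hP hφ' hU hS2 hU3 hPS hPU hPS1 hPU1 hm₂'
  -- differences are normalised coboundaries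
  have hd : ∀ {ψ : Additive Γ →+ F} {n₁ n₂ : G ⧸ Γ → F}, PD_IsPrim T ψ n₁ → PD_IsPrim T ψ n₂ →
      (∀ x, (n₂ - n₁) (U • PD_V S T • x) = (n₂ - n₁) x) ∧
      PD_nrm U ψ n₁ = PD_nrm U ψ n₂ + fun x => (n₂ - n₁) (U • x) - (n₂ - n₁) x := by
    intro ψ n₁ n₂ h₁ h₂
    refine ⟨fun x => ?_, ?_⟩
    · rw [PD_U_V hU hS2]
      simp only [Pi.sub_apply]
      linear_combination h₂ x - h₁ x
    · funext x
      simp only [PD_nrm, Pi.add_apply, Pi.sub_apply]
      ring
  obtain ⟨hinv, hdiff⟩ := hd hm₁ hm₂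
  obtain ⟨hinv', hdiff'⟩ := hd hm₁' hm₂'
  have z1 : PD_omegaE U e₂ (PD_nrm U φ m₂)
      (fun x => (m₂' - m₁') (U • x) - (m₂' - m₁') x) = 0 :=
    PD_omegaE_cob hV2 hU3 he₂ hb₂ hinv'
  have z2 : PD_omegaE U e₂ (fun x => (m₂ - m₁) (U • x) - (m₂ - m₁) x)
      (PD_nrm U φ' m₂') = 0 := by
    rw [PD_omegaE_swap, PD_omegaE_cob hV2 hU3 he₂ hb₂' hinv, neg_zero]
  have z3 : PD_omegaE U e₂ (fun x => (m₂ - m₁) (U • x) - (m₂ - m₁) x)
      (fun x => (m₂' - m₁') (U • x) - (m₂' - m₁') x) = 0 :=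
    PD_omegaE_cob hV2 hU3 he₂ (PD_cob_mem hV2 hU3 hinv) hinv'
  rw [PD_omegaE_indep hU3 he₁ he₂ hb₁.2 hb₁'.2, hdiff, hdiff', PD_omegaE_add_left,
    PD_omegaE_add_right, PD_omegaE_add_right, z1, z2, z3]
  ring

/-- **Non-degeneracy of the explicit pairing** (given Shapiro surjectivity). -/
theorem PD_nondeg_of_cocycleSpace_eq (h2 : (2 : F) ≠ 0) {S U T : G} (hU : U = S * T)
    (hgen : Subgroup.closure ({S, U} : Set G) = ⊤)
    (hP : ∀ g h : G, P h → P (g⁻¹ * h * g))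
    (hS2 : ∀ x : G ⧸ Γ, S • S • x = x) (hU3 : ∀ x : G ⧸ Γ, U • U • U • x = x)
    (hPS : P (S * S)) (hPU : P (U * U * U)) (hPS1 : P S) (hPU1 : P U)
    (hsh : cocycleSpaceF F (X := G ⧸ Γ) S U T
      ≤ (parHomsF F Γ P).map (xiMapF F S U) ⊔ LinearMap.range (cobMapF F (X := G ⧸ Γ) S U))
    {e : G ⧸ Γ → F} (he : PD_IsUnity U e)
    {φ : Additive Γ →+ F} (hφ : φ ∈ parHomsF F Γ P) {m : G ⧸ Γ → F} (hm : PD_IsPrim T φ m)
    (h : ∀ φ' ∈ parHomsF F Γ P, ∀ m', PD_IsPrim T φ' m' →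
      PD_omegaE U e (PD_nrm U φ' m') (PD_nrm U φ m) = 0) : φ = 0 := by
  have hV2 : ∀ x : G ⧸ Γ, PD_V S T • PD_V S T • x = x := PD_V_sq hS2
  have hb := PD_nrm_mem hP hφ hU hS2 hU3 hPS hPU hPS1 hPU1 hm
  have hTV : ∀ x : G ⧸ Γ, T • PD_V S T • x = S • T • x := by
    intro x
    simp only [PD_V, mul_smul, smul_inv_smul]
  -- every element of `Z` is a normalised cocycle value
  have hZ : ∀ b' ∈ antiInvF F (X := G ⧸ Γ) (PD_V S T) ⊓ triZeroF F U,
      ∃ φ' ∈ parHomsF F Γ P, ∃ m', PD_IsPrim T φ' m' ∧ b' = PD_nrm U φ' m' := by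
    rintro b' ⟨hbV, hbU⟩
    rw [SetLike.mem_coe] at hbV hbU
    have hbV' := mem_antiInvF.mp hbV
    have hmem : ((fun x => b' (T⁻¹ • x)), b') ∈ cocycleSpaceF F (X := G ⧸ Γ) S U T := by
      refine ⟨⟨?_, hbU⟩, ?_⟩
      · show (fun x => b' (T⁻¹ • x)) ∈ antiInvF F S
        rw [mem_antiInvF]
        intro x
        have hx : PD_V S T • T⁻¹ • x = T⁻¹ • S • x := by
          simp only [PD_V, mul_smul, smul_inv_smul]
        refine ⟨?_, fun hfix => ?_⟩
        · have := (hbV' (T⁻¹ • x)).1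
          rw [hx] at this
          exact this
        · refine (hbV' (T⁻¹ • x)).2 ?_
          rw [hx, hfix]
      · show tauMapF F T ((fun x => b' (T⁻¹ • x)), b') ∈ cobTF F T
        have : tauMapF F T ((fun x => b' (T⁻¹ • x)), b') = 0 := by
          funext x
          simp only [tauMapF_apply, inv_smul_smul, sub_self, Pi.zero_apply]
        rw [this]
        exact Submodule.zero_mem _
    obtain ⟨ξ, ⟨φ', hφ', rfl⟩, c, ⟨m'', rfl⟩, hsum⟩ := Submodule.mem_sup.mp (hsh hmem)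
    rw [xiMapF_apply, cobMapF_apply, Prod.mk_add_mk, Prod.mk.injEq] at hsum
    obtain ⟨hs1, hs2⟩ := hsum
    have hs1' : ∀ x, cocF φ' S x + (m'' (S • x) - m'' x) = b' (T⁻¹ • x) := fun x => by
      have := congrFun hs1 x
      simpa using this
    have hs2' : ∀ x, cocF φ' U x + (m'' (U • x) - m'' x) = b' x := fun x => by
      have := congrFun hs2 x
      simpa using this
    refine ⟨φ', hφ', -m'', fun x => ?_, ?_⟩
    · have h1 : cocF φ' U x = cocF φ' S (T • x) + cocF φ' T x := by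
        rw [hU, cocF_mul]
      have h3 : U • x = S • T • x := by rw [hU, mul_smul]
      have h4 := hs1' (T • x)
      rw [inv_smul_smul] at h4
      have h5 := hs2' x
      rw [h3] at h5
      simp only [Pi.neg_apply]
      linear_combination h4 - h5 + h1
    · funext x
      simp only [PD_nrm, Pi.neg_apply]
      linear_combination -hs2' x
  obtain ⟨m₁, hm₁, hbm⟩ := PD_radical h2 hV2 hU3 he hb (fun b' hb' => by
    obtain ⟨φ', hφ', m', hm', rfl⟩ := hZ b' hb'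
    exact h φ' hφ' m' hm')
  have hm₁T : ∀ x, m₁ (T • x) = m₁ x := fun x => by
    rw [← PD_U_V hU hS2]; exact hm₁ x
  refine eq_zero_of_xiMapF_eq_cobMapF hgen φ (m + m₁) ?_
  have hU' : ∀ x, cocF φ U x = (m + m₁) (U • x) - (m + m₁) x := by
    intro x
    have := congrFun hbm x
    simp only [PD_nrm] at this
    simp only [Pi.add_apply]
    linear_combination this
  rw [xiMapF_apply, cobMapF_apply, Prod.mk.injEq]
  refine ⟨?_, ?_⟩
  · funext y
    obtain ⟨x, rfl⟩ : ∃ x, T • x = y := ⟨T⁻¹ • y, smul_inv_smul T y⟩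
    have h1 : cocF φ U x = cocF φ S (T • x) + cocF φ T x := by
      rw [hU, cocF_mul]
    have h3 : U • x = S • T • x := by rw [hU, mul_smul]
    have h4 := hU' x
    rw [h3] at h4
    have h5 := hm x
    have h6 := hm₁T x
    simp only [Pi.sub_apply, pullF_apply, Pi.add_apply] at h4 ⊢
    linear_combination h4 - h1 + h5 + h6
  · funext x
    simp only [Pi.sub_apply, pullF_apply]
    exact hU' x

end PDNormal

end Fermat.Agent.S41
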