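import Mathlib
import Fermat.Agent.S41.PDNondeg
import Fermat.Agent.S16.LB.LiftB

/-!
# S41, package PD (Poincaré duality), part NONDEG-3: the pairing on `Hom_ell(Γ, F)`

For a subgroup `Γ ≤ SL(2, ℤ)` of finite index containing `-1` and a field `F`, `PD_form φ φ'` is
the explicit Poincaré pairing on `parHomsF F Γ ellPred` (homomorphisms `Γ → F` vanishing on the
elements with `tr² ≤ 4`).  It is bilinear and alternating (`PD_formL`), it can be computed with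
any primitives and any partition of unity (`PD_form_eq`), and for `Γ = Γ₀(N)`, `F = ZMod p`,
`p` an odd prime, it is non-degenerate (`PD_form_nondeg`).

With the conventions of the intrinsic definition (admissible cochains `F̃` for the cup product,
evaluated on the positive parabolic generators): `PD_form = 2 · B_Γ`.
-/

set_option autoImplicit false

open Matrix MatrixGroups ModularGroup CongruenceSubgroup Matrix.SpecialLinearGroup Module
open ModularCurve ModularCurve.Period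

namespace Fermat.Agent.S41

open Fermat.Agent.S16 Fermat.Agent.S21

section PDGeneral

variable {F : Type*} [Field F] {Γ : Subgroup SL(2, ℤ)}

lemma PD_neg_one_smul (hneg : (-1 : SL(2, ℤ)) ∈ Γ) (x : SL(2, ℤ) ⧸ Γ) :
    (-1 : SL(2, ℤ)) • x = x := by
  induction x using QuotientGroup.induction_on with
  | H g =>
    show (((-1 : SL(2, ℤ)) * g : SL(2, ℤ)) : SL(2, ℤ) ⧸ Γ) = (g : SL(2, ℤ) ⧸ Γ)
    rw [QuotientGroup.eq]
    have : ((-1 : SL(2, ℤ)) * g)⁻¹ * g = -1 := by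
      have h1 : ((-1 : SL(2, ℤ)) * g) * (-1) = g := by
        rw [neg_one_mul, mul_neg, mul_one, neg_neg]
      rw [inv_mul_eq_iff_eq_mul, h1]
    rw [this]
    exact hneg

lemma PD_hS2 (hneg : (-1 : SL(2, ℤ)) ∈ Γ) (x : SL(2, ℤ) ⧸ Γ) : S • S • x = x := by
  rw [← mul_smul, S_mul_S_eq_neg_one, PD_neg_one_smul hneg]

lemma PD_hU3 (hneg : (-1 : SL(2, ℤ)) ∈ Γ) (x : SL(2, ℤ) ⧸ Γ) :
    (S * T) • (S * T) • (S * T) • x = x := by
  rw [← mul_smul, ← mul_smul, ST_cube_eq_neg_one, PD_neg_one_smul hneg]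

lemma PD_ellPred_SS : ellPred (S * S) := by
  rw [S_mul_S_eq_neg_one]; exact ellPred_of_trPred trPred_neg_one

lemma PD_ellPred_UUU : ellPred (S * T * (S * T) * (S * T)) := by
  rw [ST_cube_eq_neg_one]; exact ellPred_of_trPred trPred_neg_one

lemma PD_ellPred_T (k : ℤ) : ellPred (T ^ k) := ellPred_of_trPred (trPred_T_zpow k)

open Classical in
/-- A chosen primitive of the cocycle of `φ` along `T`. -/
noncomputable def PD_prim (φ : Additive Γ →+ F) : SL(2, ℤ) ⧸ Γ → F :=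
  if h : ∃ m, PD_IsPrim T φ m then h.choose else 0

lemma PD_prim_spec {φ : Additive Γ →+ F} (hφ : φ ∈ parHomsF F Γ ellPred) :
    PD_IsPrim T φ (PD_prim φ) := by
  have h : ∃ m, PD_IsPrim T φ m := PD_exists_prim ellPred_conj hφ PD_ellPred_T
  unfold PD_prim
  rw [dif_pos h]
  exact h.choose_spec

variable (F Γ) in
open Classical in
/-- A chosen partition of unity for the orbits of `U = S T`. -/
noncomputable def PD_e : SL(2, ℤ) ⧸ Γ → F :=
  if h : ∃ e : SL(2, ℤ) ⧸ Γ → F, PD_IsUnity (S * T) e then h.choose else 0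

lemma PD_e_spec (hneg : (-1 : SL(2, ℤ)) ∈ Γ) : PD_IsUnity (S * T) (PD_e F Γ) := by
  have h : ∃ e : SL(2, ℤ) ⧸ Γ → F, PD_IsUnity (S * T) e := PD_exists_unity (PD_hU3 hneg)
  unfold PD_e
  rw [dif_pos h]
  exact h.choose_spec

variable [Γ.FiniteIndex]

/-- **The explicit Poincaré pairing** on `Hom(Γ, F)` (meaningful on `parHomsF F Γ ellPred`). -/
noncomputable def PD_form (φ φ' : Additive Γ →+ F) : F :=
  letI : Fintype (SL(2, ℤ) ⧸ Γ) := Fintype.ofFinite _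
  PD_omegaE (S * T) (PD_e F Γ) (PD_nrm (S * T) φ (PD_prim φ)) (PD_nrm (S * T) φ' (PD_prim φ'))

/-- The pairing can be computed with any primitives and any partition of unity. -/
theorem PD_form_eq [inst : Fintype (SL(2, ℤ) ⧸ Γ)] (hneg : (-1 : SL(2, ℤ)) ∈ Γ)
    {φ φ' : Additive Γ →+ F} (hφ : φ ∈ parHomsF F Γ ellPred) (hφ' : φ' ∈ parHomsF F Γ ellPred)
    {e : SL(2, ℤ) ⧸ Γ → F} (he : PD_IsUnity (S * T) e)
    {m m' : SL(2, ℤ) ⧸ Γ → F} (hm : PD_IsPrim T φ m) (hm' : PD_IsPrim T φ' m') :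
    PD_form φ φ' = PD_omegaE (S * T) e (PD_nrm (S * T) φ m) (PD_nrm (S * T) φ' m') := by
  obtain rfl : inst = Fintype.ofFinite (SL(2, ℤ) ⧸ Γ) := Subsingleton.elim _ _
  let _ : Fintype (SL(2, ℤ) ⧸ Γ) := Fintype.ofFinite _
  exact PD_pair_indep ellPred_conj hφ hφ' rfl (PD_hS2 hneg) (PD_hU3 hneg) PD_ellPred_SS
    PD_ellPred_UUU ellPred_S ellPred_ST (PD_e_spec hneg) he (PD_prim_spec hφ) hm
    (PD_prim_spec hφ') hm'

theorem PD_form_swap (φ φ' : Additive Γ →+ F) : PD_form φ φ' = - PD_form φ' φ := by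
  let _ : Fintype (SL(2, ℤ) ⧸ Γ) := Fintype.ofFinite _
  exact PD_omegaE_swap (S * T) (PD_e F Γ) (PD_nrm (S * T) φ (PD_prim φ))
    (PD_nrm (S * T) φ' (PD_prim φ'))

theorem PD_form_self (h2 : (2 : F) ≠ 0) (φ : Additive Γ →+ F) : PD_form φ φ = 0 := by
  have h := PD_form_swap φ φ
  have h3 : (2 : F) * PD_form φ φ = 0 := by linear_combination h
  rcases mul_eq_zero.mp h3 with h4 | h4
  · exact absurd h4 h2
  · exact h4

theorem PD_form_add_left (hneg : (-1 : SL(2, ℤ)) ∈ Γ)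
    {φ₁ φ₂ φ' : Additive Γ →+ F} (hφ₁ : φ₁ ∈ parHomsF F Γ ellPred)
    (hφ₂ : φ₂ ∈ parHomsF F Γ ellPred) (hφ' : φ' ∈ parHomsF F Γ ellPred) :
    PD_form (φ₁ + φ₂) φ' = PD_form φ₁ φ' + PD_form φ₂ φ' := by
  let _ : Fintype (SL(2, ℤ) ⧸ Γ) := Fintype.ofFinite _
  rw [PD_form_eq hneg ((parHomsF F Γ ellPred).add_mem hφ₁ hφ₂) hφ' (PD_e_spec hneg)
      (PD_IsPrim_add (PD_prim_spec hφ₁) (PD_prim_spec hφ₂)) (PD_prim_spec hφ'),
    PD_form_eq hneg hφ₁ hφ' (PD_e_spec hneg) (PD_prim_spec hφ₁) (PD_prim_spec hφ'),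
    PD_form_eq hneg hφ₂ hφ' (PD_e_spec hneg) (PD_prim_spec hφ₂) (PD_prim_spec hφ'),
    PD_nrm_add, PD_omegaE_add_left]

theorem PD_form_smul_left (hneg : (-1 : SL(2, ℤ)) ∈ Γ) (c : F)
    {φ φ' : Additive Γ →+ F} (hφ : φ ∈ parHomsF F Γ ellPred)
    (hφ' : φ' ∈ parHomsF F Γ ellPred) :
    PD_form (c • φ) φ' = c * PD_form φ φ' := by
  let _ : Fintype (SL(2, ℤ) ⧸ Γ) := Fintype.ofFinite _
  rw [PD_form_eq hneg ((parHomsF F Γ ellPred).smul_mem c hφ) hφ' (PD_e_spec hneg)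
      (PD_IsPrim_smul c (PD_prim_spec hφ)) (PD_prim_spec hφ'),
    PD_form_eq hneg hφ hφ' (PD_e_spec hneg) (PD_prim_spec hφ) (PD_prim_spec hφ'),
    PD_nrm_smul, PD_omegaE_smul_left]

theorem PD_form_add_right (hneg : (-1 : SL(2, ℤ)) ∈ Γ)
    {φ φ₁ φ₂ : Additive Γ →+ F} (hφ : φ ∈ parHomsF F Γ ellPred)
    (hφ₁ : φ₁ ∈ parHomsF F Γ ellPred) (hφ₂ : φ₂ ∈ parHomsF F Γ ellPred) :
    PD_form φ (φ₁ + φ₂) = PD_form φ φ₁ + PD_form φ φ₂ := by
  rw [PD_form_swap, PD_form_add_left hneg hφ₁ hφ₂ hφ, PD_form_swap φ φ₁, PD_form_swap φ φ₂]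
  ring

theorem PD_form_smul_right (hneg : (-1 : SL(2, ℤ)) ∈ Γ) (c : F)
    {φ φ' : Additive Γ →+ F} (hφ : φ ∈ parHomsF F Γ ellPred)
    (hφ' : φ' ∈ parHomsF F Γ ellPred) :
    PD_form φ (c • φ') = c * PD_form φ φ' := by
  rw [PD_form_swap, PD_form_smul_left hneg c hφ' hφ, PD_form_swap φ φ']
  ring

/-- The pairing as a bilinear map on `parHomsF F Γ ellPred`. -/
noncomputable def PD_formL (hneg : (-1 : SL(2, ℤ)) ∈ Γ) :
    parHomsF F Γ ellPred →ₗ[F] parHomsF F Γ ellPred →ₗ[F] F :=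
  LinearMap.mk₂ F (fun φ φ' => PD_form (φ : Additive Γ →+ F) (φ' : Additive Γ →+ F))
    (fun φ₁ φ₂ φ' => PD_form_add_left hneg φ₁.2 φ₂.2 φ'.2)
    (fun c φ φ' => PD_form_smul_left hneg c φ.2 φ'.2)
    (fun φ φ₁ φ₂ => PD_form_add_right hneg φ.2 φ₁.2 φ₂.2)
    (fun c φ φ' => PD_form_smul_right hneg c φ.2 φ'.2)

@[simp] lemma PD_formL_apply (hneg : (-1 : SL(2, ℤ)) ∈ Γ) (φ φ' : parHomsF F Γ ellPred) :
    PD_formL hneg φ φ' = PD_form (φ : Additive Γ →+ F) (φ' : Additive Γ →+ F) := rfl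

end PDGeneral

section PDGamma0

variable (N : ℕ) [NeZero N]

omit [NeZero N] in
lemma PD_neg_one_mem_Gamma0 : (-1 : SL(2, ℤ)) ∈ Gamma0 N := by
  rw [Gamma0_mem]
  simp

/-- For `F = ZMod p` the dimension bound for `Hom_ell(Γ₀(N), F)` is an equality. -/
theorem PD_dim_eq (p : ℕ) [Fact p.Prime] :
    Nat.card (SL(2, ℤ) ⧸ Gamma0 N) + 12 ≤
      6 * finrank (ZMod p) (parHomsF (ZMod p) (Gamma0 N) ellPred)
      + 3 * Nat.card {x : SL(2, ℤ) ⧸ Gamma0 N // S • x = x}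
      + 4 * Nat.card {x : SL(2, ℤ) ⧸ Gamma0 N // (S * T) • x = x}
      + 6 * Nat.card (MulAction.orbitRel.Quotient (Subgroup.zpowers T) (SL(2, ℤ) ⧸ Gamma0 N)) := by
  classical
  have c1 := Fermat.Agent.S20.S20_card_Q N
  have c2 := Fermat.Agent.S20.S20_card_fixed_S N
  have c3 := Fermat.Agent.S20.S20_card_fixed_ST N
  have c4 := Fermat.Agent.S20.S20_card_T_orbits N
  have h1 := six_mul_finrank_parabolicHoms N
  have h2 := finrank_parabolicHoms_le_finrank_parInt N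
  have hfin := finite_parInt N
  have hfree := free_parInt N
  set bA := Module.Free.chooseBasis ℤ (parInt N) with hbA
  set W := parHomsF (ZMod p) (Gamma0 N) ellPred with hW
  have hfdW : FiniteDimensional (ZMod p) (Additive (Gamma0 N) →+ ZMod p) :=
    (finrank_ellHoms_le N (ZMod p)).1
  set v : Module.Free.ChooseBasisIndex ℤ (parInt N) → W :=
    fun j => ⟨redMod p _ (bA j : Additive (Gamma0 N) →+ ℤ), redMod_mem_ellHoms p (bA j).2⟩
    with hv
  have hli : LinearIndependent (ZMod p) v := by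
    have := linearIndependent_redMod (N := N) p bA
    exact LinearIndependent.of_comp W.subtype this
  have h3 : finrank ℤ (parInt N) ≤ finrank (ZMod p) W := by
    rw [Module.finrank_eq_card_chooseBasisIndex (R := ℤ) (M := parInt N)]
    exact hli.fintype_card_le_finrank
  rw [c1, c2, c3, c4]
  omega

/-- **Non-degeneracy of the Poincaré pairing** on `Hom_ell(Γ₀(N), 𝔽_p)`, `p` odd. -/
theorem PD_form_nondeg (p : ℕ) [Fact p.Prime] (hp2 : p ≠ 2)
    {φ : Additive (Gamma0 N) →+ ZMod p} (hφ : φ ∈ parHomsF (ZMod p) (Gamma0 N) ellPred)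
    (h : ∀ φ' ∈ parHomsF (ZMod p) (Gamma0 N) ellPred, PD_form φ' φ = 0) : φ = 0 := by
  classical
  let _ : Fintype (SL(2, ℤ) ⧸ Gamma0 N) := Fintype.ofFinite _
  have hneg := PD_neg_one_mem_Gamma0 N
  have h2 : (2 : ZMod p) ≠ 0 := by
    intro h0
    have h1 : ((2 : ℕ) : ZMod p) = 0 := by exact_mod_cast h0
    rw [ZMod.natCast_eq_zero_iff] at h1
    have hp : p.Prime := Fact.out
    have := (Nat.prime_dvd_prime_iff_eq hp Nat.prime_two).mp h1
    exact hp2 this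
  have hsh := PD_cocycleSpace_eq (F := ZMod p) (Γ := Gamma0 N) (P := ellPred) (S := S)
    (U := S * T) (T := T) rfl closure_S_ST ellPred_conj (PD_hS2 hneg) (PD_hU3 hneg)
    PD_ellPred_SS PD_ellPred_UUU ellPred_S ellPred_ST PD_ellPred_T (PD_dim_eq N p)
  refine PD_nondeg_of_cocycleSpace_eq h2 rfl closure_S_ST ellPred_conj (PD_hS2 hneg)
    (PD_hU3 hneg) PD_ellPred_SS PD_ellPred_UUU ellPred_S ellPred_ST hsh.ge (PD_e_spec hneg) hφ
    (PD_prim_spec hφ) fun φ' hφ' m' hm' => ?_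
  rw [← PD_form_eq hneg hφ' hφ (PD_e_spec hneg) hm' (PD_prim_spec hφ)]
  exact h φ' hφ'

/-- Non-degeneracy on the left. -/
theorem PD_form_nondeg_left (p : ℕ) [Fact p.Prime] (hp2 : p ≠ 2)
    {φ : Additive (Gamma0 N) →+ ZMod p} (hφ : φ ∈ parHomsF (ZMod p) (Gamma0 N) ellPred)
    (h : ∀ φ' ∈ parHomsF (ZMod p) (Gamma0 N) ellPred, PD_form φ φ' = 0) : φ = 0 := by
  refine PD_form_nondeg N p hp2 hφ fun φ' hφ' => ?_
  rw [PD_form_swap, h φ' hφ', neg_zero]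

end PDGamma0

end Fermat.Agent.S41
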