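import Mathlib
import Fermat.Agent.S41.PDForm

/-!
# S41, package PD (Poincaré duality), part ADJ-a: restriction and transfer are adjoint

`Γ' ≤ Γ ≤ G` subgroups of finite index, `π : G ⧸ Γ' → G ⧸ Γ` the projection.  In the Shapiro model
(cocycles on `G` with values in the functions on `G ⧸ Γ`) the restriction of `φ : Γ → F` to `Γ'`
is `π^*` of the cocycle of `φ` and the transfer of `φ' : Γ' → F` is `π_*` of the cocycle of `φ'`,
both up to an explicit coboundary.  Consequently (`G = SL(2, ℤ)`)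

`PD_form (φ ∘ incl) φ' = PD_form φ ψ`  (`S41PA_adj`)

for every `ψ : Γ → F` which is a transfer of `φ'`, i.e. `ψ γ = ∑_{y ∈ Γ/Γ'} φ' (gam Γ' γ y)`.
-/

set_option autoImplicit false

open Matrix MatrixGroups ModularGroup CongruenceSubgroup Matrix.SpecialLinearGroup Module

namespace Fermat.Agent.S41

open Fermat.Agent.S16 Fermat.Agent.S21

section PDAdjGeneral

variable {F : Type*} [Field F] {G : Type*} [Group G] {Γ' Γ : Subgroup G}

/-- The projection `π : G ⧸ Γ' → G ⧸ Γ`. -/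
def S41PA_pi (hle : Γ' ≤ Γ) : G ⧸ Γ' → G ⧸ Γ := Subgroup.quotientMapOfLE hle

lemma S41PA_pi_mk (hle : Γ' ≤ Γ) (g : G) : S41PA_pi hle (g : G ⧸ Γ') = (g : G ⧸ Γ) := rfl

lemma S41PA_pi_smul (hle : Γ' ≤ Γ) (g : G) (y : G ⧸ Γ') :
    S41PA_pi hle (g • y) = g • S41PA_pi hle y := by
  induction y using QuotientGroup.induction_on with
  | H a => rfl

lemma S41PA_pi_out (hle : Γ' ≤ Γ) (y : G ⧸ Γ') :
    ((Quotient.out y : G) : G ⧸ Γ) = S41PA_pi hle y := by
  conv_rhs => rw [← QuotientGroup.out_eq' y]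
  rfl

lemma S41PA_n_mem (hle : Γ' ≤ Γ) (y : G ⧸ Γ') :
    (Quotient.out (S41PA_pi hle y))⁻¹ * Quotient.out y ∈ Γ := by
  rw [← QuotientGroup.eq, QuotientGroup.out_eq', S41PA_pi_out]

/-- The comparison of the two sections: `n y = r(π y)⁻¹ r'(y) ∈ Γ`. -/
noncomputable def S41PA_n (hle : Γ' ≤ Γ) (y : G ⧸ Γ') : Γ :=
  ⟨(Quotient.out (S41PA_pi hle y))⁻¹ * Quotient.out y, S41PA_n_mem hle y⟩

lemma S41PA_incl_gam (hle : Γ' ≤ Γ) (g : G) (y : G ⧸ Γ') :
    Subgroup.inclusion hle (gam Γ' g y)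
      = (S41PA_n hle (g • y))⁻¹ * gam Γ g (S41PA_pi hle y) * S41PA_n hle y := by
  apply Subtype.ext
  simp only [gam, S41PA_n, Subgroup.coe_mul, Subgroup.coe_inv, Subgroup.coe_inclusion,
    S41PA_pi_smul]
  group

/-- The potential `ν` comparing the cocycle of `φ ∘ incl` with the pull-back of the cocycle
of `φ`. -/
noncomputable def S41PA_nu (hle : Γ' ≤ Γ) (φ : Additive Γ →+ F) : G ⧸ Γ' → F :=
  fun y => φ (Additive.ofMul (S41PA_n hle y))

/-- The restriction of `φ` to `Γ'`. -/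
def S41PA_res (hle : Γ' ≤ Γ) (φ : Additive Γ →+ F) : Additive Γ' →+ F :=
  φ.comp (MonoidHom.toAdditive (Subgroup.inclusion hle))

lemma S41PA_res_apply (hle : Γ' ≤ Γ) (φ : Additive Γ →+ F) (γ : Γ') :
    S41PA_res hle φ (Additive.ofMul γ) = φ (Additive.ofMul (Subgroup.inclusion hle γ)) := rfl

/-- **Shapiro, restriction**: `cocF (res φ) = π^* cocF φ − dν`. -/
lemma S41PA_cocF_res (hle : Γ' ≤ Γ) (φ : Additive Γ →+ F) (g : G) (y : G ⧸ Γ') :
    cocF (S41PA_res hle φ) g y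
      = cocF φ g (S41PA_pi hle y) - (S41PA_nu hle φ (g • y) - S41PA_nu hle φ y) := by
  simp only [cocF, S41PA_res_apply, S41PA_incl_gam, S41PA_nu, ofMul_mul, ofMul_inv, map_add,
    map_neg]
  ring

variable [Fintype (G ⧸ Γ')]

open Classical in
/-- The push-forward `π_*` (sum over the fibres) of functions. -/
noncomputable def S41PA_push (hle : Γ' ≤ Γ) : (G ⧸ Γ' → F) →ₗ[F] (G ⧸ Γ → F) where
  toFun f x := ∑ y, if S41PA_pi hle y = x then f y else 0
  map_add' f f' := by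
    funext x
    simp only [Pi.add_apply]
    rw [← Finset.sum_add_distrib]
    refine Finset.sum_congr rfl fun y _ => ?_
    split_ifs <;> simp
  map_smul' c f := by
    funext x
    simp only [Pi.smul_apply, smul_eq_mul, RingHom.id_apply]
    rw [Finset.mul_sum]
    refine Finset.sum_congr rfl fun y _ => ?_
    split_ifs <;> simp

open Classical in
lemma S41PA_push_apply (hle : Γ' ≤ Γ) (f : G ⧸ Γ' → F) (x : G ⧸ Γ) :
    S41PA_push hle f x = ∑ y, if S41PA_pi hle y = x then f y else 0 := rfl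

/-- `π_*` is equivariant. -/
lemma S41PA_push_smul (hle : Γ' ≤ Γ) (f : G ⧸ Γ' → F) (g : G) (x : G ⧸ Γ) :
    S41PA_push hle (fun y => f (g • y)) x = S41PA_push hle f (g • x) := by
  classical
  rw [S41PA_push_apply, S41PA_push_apply]
  rw [← Equiv.sum_comp (MulAction.toPerm g)
    (fun y => if S41PA_pi hle y = g • x then f y else 0)]
  refine Finset.sum_congr rfl fun y _ => ?_
  simp only [MulAction.toPerm_apply, S41PA_pi_smul]
  by_cases h : S41PA_pi hle y = x
  · rw [if_pos h, if_pos (by rw [h])]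
  · rw [if_neg h, if_neg (fun h' => h (smul_left_cancel g h'))]

/-- The projection formula `∑_x a x · (π_* f) x = ∑_y a (π y) · f y`. -/
lemma S41PA_sum_push [Fintype (G ⧸ Γ)] (hle : Γ' ≤ Γ) (a : G ⧸ Γ → F) (f : G ⧸ Γ' → F) :
    ∑ x, a x * S41PA_push hle f x = ∑ y, a (S41PA_pi hle y) * f y := by
  classical
  simp only [S41PA_push_apply, Finset.mul_sum]
  rw [Finset.sum_comm]
  refine Finset.sum_congr rfl fun y _ => ?_
  rw [Finset.sum_eq_single (S41PA_pi hle y)]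
  · rw [if_pos rfl]
  · intro x _ hx
    rw [if_neg (fun h => hx h.symm), mul_zero]
  · intro h
    exact absurd (Finset.mem_univ _) h

/-- `ψ : Γ → F` is a transfer of `φ' : Γ' → F`: `ψ γ = ∑_{y ∈ Γ/Γ'} φ' (gam Γ' γ y)`. -/
def S41PA_IsTransfer (hle : Γ' ≤ Γ) (φ' : Additive Γ' →+ F) (ψ : Additive Γ →+ F) : Prop :=
  ∀ γ : Γ, ψ (Additive.ofMul γ) = S41PA_push hle (cocF φ' (γ : G)) ((1 : G) : G ⧸ Γ)

/-- The potential `μ` comparing the cocycle of the transfer with the push-forward of the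
cocycle. -/
noncomputable def S41PA_mu (hle : Γ' ≤ Γ) (φ' : Additive Γ' →+ F) : G ⧸ Γ → F :=
  fun x => S41PA_push hle (cocF φ' (Quotient.out x : G)) ((1 : G) : G ⧸ Γ)

/-- **Shapiro, transfer**: `π_* cocF φ' = cocF (tr φ') + dμ`. -/
lemma S41PA_push_cocF (hle : Γ' ≤ Γ) {φ' : Additive Γ' →+ F} {ψ : Additive Γ →+ F}
    (hψ : S41PA_IsTransfer hle φ' ψ) (g : G) (x : G ⧸ Γ) :
    S41PA_push hle (cocF φ' g) x
      = cocF ψ g x + (S41PA_mu hle φ' (g • x) - S41PA_mu hle φ' x) := by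
  set x₀ : G ⧸ Γ := ((1 : G) : G ⧸ Γ) with hx₀
  set a : G := Quotient.out (g • x) with ha
  set b : G := Quotient.out x with hb
  have hgam : (gam Γ g x : G) = a⁻¹ * g * b := rfl
  have hbx : b • x₀ = x := by
    rw [hx₀, MulAction.Quotient.smul_coe, smul_eq_mul, mul_one]
    exact QuotientGroup.out_eq' x
  have hfix : (a⁻¹ * g * b) • x₀ = x₀ := by
    rw [← hgam]; exact smul_one_coset Γ _
  have h1 : cocF ψ g x = S41PA_push hle (cocF φ' (a⁻¹ * g * b)) x₀ := by
    show ψ (Additive.ofMul (gam Γ g x)) = _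
    rw [hψ, hgam]
  have h2 : cocF φ' (a⁻¹ * g * b)
      = (fun y => cocF φ' g (b • y)) + cocF φ' b
        - (fun y => cocF φ' a ((a⁻¹ * g * b) • y)) := by
    funext y
    simp only [Pi.add_apply, Pi.sub_apply]
    rw [cocF_mul, cocF_mul, cocF_inv, mul_smul, mul_smul]
    ring
  rw [h1, h2, map_sub, map_add]
  simp only [Pi.add_apply, Pi.sub_apply]
  rw [S41PA_push_smul hle (cocF φ' g) b x₀, S41PA_push_smul hle (cocF φ' a) (a⁻¹ * g * b) x₀,
    hbx, hfix]
  simp only [S41PA_mu]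
  ring

end PDAdjGeneral

section PDAdjMain

variable {F : Type*} [Field F] {Γ' Γ : Subgroup SL(2, ℤ)}

lemma S41PA_res_mem (hle : Γ' ≤ Γ) {φ : Additive Γ →+ F} (hφ : φ ∈ parHomsF F Γ ellPred) :
    S41PA_res hle φ ∈ parHomsF F Γ' ellPred := by
  intro γ hγ
  exact hφ (Subgroup.inclusion hle γ) hγ

/-- A partition of unity on `G ⧸ Γ'` which is the pull-back of a partition of unity on `G ⧸ Γ`
over the free `U`-orbits of `G ⧸ Γ`. -/
lemma S41PA_exists_unity (hle : Γ' ≤ Γ) (hneg : (-1 : SL(2, ℤ)) ∈ Γ') {e : SL(2, ℤ) ⧸ Γ → F}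
    (he : PD_IsUnity (S * T) e) :
    ∃ e' : SL(2, ℤ) ⧸ Γ' → F, PD_IsUnity (S * T) e' ∧
      ∀ y, (S * T) • S41PA_pi hle y ≠ S41PA_pi hle y → e' y = e (S41PA_pi hle y) := by
  classical
  have hU3 := PD_hU3 (Γ := Γ) (hle hneg)
  have hU3' := PD_hU3 (Γ := Γ') hneg
  obtain ⟨e₀, he₀⟩ := PD_exists_unity (F := F) hU3'
  refine ⟨fun y => if (S * T) • S41PA_pi hle y = S41PA_pi hle y then e₀ y
    else e (S41PA_pi hle y), ?_, fun y hy => if_neg hy⟩
  have he₀' := fun y => congrFun he₀ y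
  have he' := fun x => congrFun he x
  funext y
  have h0 := he₀' y
  have h1 := he' (S41PA_pi hle y)
  rw [symF3_apply] at h0 h1 ⊢
  by_cases hx : (S * T) • S41PA_pi hle y = S41PA_pi hle y
  · have hx1 : (S * T) • S41PA_pi hle ((S * T) • y) = S41PA_pi hle ((S * T) • y) := by
      rw [S41PA_pi_smul, hx, hx]
    have hx2 : (S * T) • S41PA_pi hle ((S * T) • (S * T) • y)
        = S41PA_pi hle ((S * T) • (S * T) • y) := by
      rw [S41PA_pi_smul, S41PA_pi_smul, hx, hx, hx]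
    by_cases hy : (S * T) • y = y
    · rw [if_pos hy] at h0 ⊢
      rw [if_pos hx]
      exact h0
    · rw [if_neg hy] at h0 ⊢
      rw [if_pos hx, if_pos hx1, if_pos hx2]
      exact h0
  · have hy : (S * T) • y ≠ y := by
      intro h
      apply hx
      rw [← S41PA_pi_smul, h]
    have hx1 : (S * T) • S41PA_pi hle ((S * T) • y) ≠ S41PA_pi hle ((S * T) • y) := by
      rw [S41PA_pi_smul]
      intro h
      exact hx ((smul_fixed_iff_three hU3 _).mp h)
    have hx2 : (S * T) • S41PA_pi hle ((S * T) • (S * T) • y)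
        ≠ S41PA_pi hle ((S * T) • (S * T) • y) := by
      rw [S41PA_pi_smul, S41PA_pi_smul]
      intro h
      exact hx ((smul_fixed_iff_three hU3 _).mp ((smul_fixed_iff_three hU3 _).mp h))
    rw [if_neg hy, if_neg hx, if_neg hx1, if_neg hx2]
    rw [if_neg hx] at h1
    simp only [S41PA_pi_smul]
    exact h1

/-- The adjunction for the form `ω`: `ω'(π^* b, b') = ω(b, π_* b')`. -/
lemma S41PA_omegaE_adj [Fintype (SL(2, ℤ) ⧸ Γ')] [Fintype (SL(2, ℤ) ⧸ Γ)] (hle : Γ' ≤ Γ)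
    {e : SL(2, ℤ) ⧸ Γ → F} {e' : SL(2, ℤ) ⧸ Γ' → F}
    (hee' : ∀ y, (S * T) • S41PA_pi hle y ≠ S41PA_pi hle y → e' y = e (S41PA_pi hle y))
    {b : SL(2, ℤ) ⧸ Γ → F} (hb : b ∈ triZeroF F (S * T)) (b' : SL(2, ℤ) ⧸ Γ' → F) :
    PD_omegaE (S * T) e' (fun y => b (S41PA_pi hle y)) b'
      = PD_omegaE (S * T) e b (S41PA_push hle b') := by
  classical
  rw [mem_triZeroF] at hb
  have h1 : PD_omegaE (S * T) e b (S41PA_push hle b')
      = ∑ x, (e x * b x) * S41PA_push hle (fun y => b' ((S * T) • y)) x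
        - ∑ x, (e x * b ((S * T) • x)) * S41PA_push hle b' x := by
    unfold PD_omegaE
    rw [← Finset.sum_sub_distrib]
    refine Finset.sum_congr rfl fun x _ => ?_
    rw [S41PA_push_smul]
    ring
  rw [h1, S41PA_sum_push, S41PA_sum_push, ← Finset.sum_sub_distrib]
  unfold PD_omegaE
  refine Finset.sum_congr rfl fun y _ => ?_
  by_cases hx : (S * T) • S41PA_pi hle y = S41PA_pi hle y
  · have h0 := (hb (S41PA_pi hle y)).2 hx
    simp only [S41PA_pi_smul, hx, h0]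
    ring
  · rw [hee' y hx]
    simp only [S41PA_pi_smul]
    ring

variable [Γ'.FiniteIndex] [Γ.FiniteIndex]

/-- **ADJ (model case)**: restriction and transfer are adjoint for the Poincaré pairings. -/
theorem S41PA_adj [Fintype (SL(2, ℤ) ⧸ Γ')] (hle : Γ' ≤ Γ) (hneg : (-1 : SL(2, ℤ)) ∈ Γ')
    {φ : Additive Γ →+ F} {φ' : Additive Γ' →+ F} {ψ : Additive Γ →+ F}
    (hφ : φ ∈ parHomsF F Γ ellPred) (hφ' : φ' ∈ parHomsF F Γ' ellPred)
    (hψ : ψ ∈ parHomsF F Γ ellPred) (hψt : S41PA_IsTransfer hle φ' ψ) :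
    PD_form (S41PA_res hle φ) φ' = PD_form φ ψ := by
  classical
  let _ : Fintype (SL(2, ℤ) ⧸ Γ) := Fintype.ofFinite _
  have hnegΓ : (-1 : SL(2, ℤ)) ∈ Γ := hle hneg
  obtain ⟨e', he', hee'⟩ := S41PA_exists_unity (F := F) hle hneg (PD_e_spec hnegΓ)
  have hm := PD_prim_spec hφ
  have hm' := PD_prim_spec hφ'
  set m := PD_prim φ with hmdef
  set m' := PD_prim φ' with hm'def
  -- the primitives
  have hm₁ : PD_IsPrim T (S41PA_res hle φ)
      (fun y => m (S41PA_pi hle y) - S41PA_nu hle φ y) := by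
    intro y
    have := hm (S41PA_pi hle y)
    beta_reduce
    rw [S41PA_cocF_res, S41PA_pi_smul]
    linear_combination this
  have hpush : ∀ (g : SL(2, ℤ)) (x : SL(2, ℤ) ⧸ Γ),
      S41PA_push hle m' (g • x) - S41PA_push hle m' x
        = S41PA_push hle (fun y => m' (g • y) - m' y) x := by
    intro g x
    rw [← S41PA_push_smul]
    have : (fun y => m' (g • y) - m' y) = (fun y => m' (g • y)) - m' := rfl
    rw [this, map_sub]
    rfl
  have hM : PD_IsPrim T ψ (fun x => S41PA_push hle m' x - S41PA_mu hle φ' x) := by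
    intro x
    have h1 := hpush T x
    have h2 : (fun y => m' (T • y) - m' y) = cocF φ' T := funext hm'
    rw [h2, S41PA_push_cocF hle hψt] at h1
    beta_reduce
    linear_combination h1
  rw [PD_form_eq hneg (S41PA_res_mem hle hφ) hφ' he' hm₁ hm',
    PD_form_eq hnegΓ hφ hψ (PD_e_spec hnegΓ) hm hM]
  -- the normalised values
  have hb₁ : PD_nrm (S * T) (S41PA_res hle φ) (fun y => m (S41PA_pi hle y) - S41PA_nu hle φ y)
      = fun y => PD_nrm (S * T) φ m (S41PA_pi hle y) := by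
    funext y
    simp only [PD_nrm, S41PA_cocF_res, S41PA_pi_smul]
    ring
  have hb₂ : PD_nrm (S * T) ψ (fun x => S41PA_push hle m' x - S41PA_mu hle φ' x)
      = S41PA_push hle (PD_nrm (S * T) φ' m') := by
    funext x
    have h1 := hpush (S * T) x
    have h2 : PD_nrm (S * T) φ' m' = cocF φ' (S * T) - fun y => m' ((S * T) • y) - m' y := rfl
    rw [h2, map_sub]
    simp only [PD_nrm, Pi.sub_apply]
    rw [S41PA_push_cocF hle hψt, ← h1]
    ring
  rw [hb₁, hb₂]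
  exact S41PA_omegaE_adj hle hee'
    (PD_nrm_mem ellPred_conj hφ rfl (PD_hS2 hnegΓ) (PD_hU3 hnegΓ) PD_ellPred_SS PD_ellPred_UUU
      ellPred_S ellPred_ST hm).2 _

end PDAdjMain

end Fermat.Agent.S41
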