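import Mathlib
import Fermat.Agent.S41.PDAdj
import Fermat.Agent.S41.DegDefs

/-!
# S41, package PD, part ADJ-a': the integral transfer `S41D_tr` is a transfer in the sense of
`S41PA_IsTransfer`

`Γ' ≤ Γ ≤ G`, `j : H →* Γ` injective with range `Γ'`.  For `χ : H → ℤ` the reduction of
`S41D_tr j hj χ` to any field `F` is a transfer of the character of `Γ'` corresponding to `χ`.
-/

set_option autoImplicit false

namespace Fermat.Agent.S41

open Fermat.Agent.S16 Fermat.Agent.S21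

section PDAdjTr

variable {F : Type*} [Field F] {G : Type*} [Group G] {Γ' Γ : Subgroup G}

lemma S41PA_out_mem (hle : Γ' ≤ Γ) {y : G ⧸ Γ'} (hy : S41PA_pi hle y = ((1 : G) : G ⧸ Γ)) :
    (Quotient.out y : G) ∈ Γ := by
  rw [← S41PA_pi_out hle y] at hy
  have := QuotientGroup.eq.mp hy
  have h2 := Γ.inv_mem this
  simpa using h2

/-- the fibre of `π` over the base point is `Γ ⧸ Γ'`: the representatives `Quotient.out y`
form a left transversal of the range of `j` in `Γ`. -/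
lemma S41PA_fibre_bijective (hle : Γ' ≤ Γ) (K : Subgroup Γ)
    (hK : ∀ γ : Γ, γ ∈ K ↔ (γ : G) ∈ Γ') :
    Function.Bijective (fun i : {y : G ⧸ Γ' // S41PA_pi hle y = ((1 : G) : G ⧸ Γ)} =>
      (((⟨Quotient.out i.1, S41PA_out_mem hle i.2⟩ : Γ) : Γ) : Γ ⧸ K)) := by
  constructor
  · rintro ⟨y₁, h₁⟩ ⟨y₂, h₂⟩ h
    have h' := QuotientGroup.eq.mp h
    rw [hK] at h'
    have h3 : ((Quotient.out y₁ : G) : G ⧸ Γ') = ((Quotient.out y₂ : G) : G ⧸ Γ') :=
      QuotientGroup.eq.mpr h'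
    rw [QuotientGroup.out_eq', QuotientGroup.out_eq'] at h3
    exact Subtype.ext h3
  · intro x
    induction x using QuotientGroup.induction_on with
    | H g =>
      have hy : S41PA_pi hle ((g : G) : G ⧸ Γ') = ((1 : G) : G ⧸ Γ) := by
        rw [S41PA_pi_mk, QuotientGroup.eq, mul_one]
        exact Γ.inv_mem g.2
      refine ⟨⟨((g : G) : G ⧸ Γ'), hy⟩, ?_⟩
      show (((⟨Quotient.out ((g : G) : G ⧸ Γ'), _⟩ : Γ) : Γ) : Γ ⧸ K) = ((g : Γ) : Γ ⧸ K)
      rw [QuotientGroup.eq, hK]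
      show (Quotient.out ((g : G) : G ⧸ Γ'))⁻¹ * (g : G) ∈ Γ'
      rw [← QuotientGroup.eq, QuotientGroup.out_eq']

variable [Fintype (G ⧸ Γ')]

/-- **The integral transfer is a transfer.** -/
theorem S41PA_isTransfer_of_tr (hle : Γ' ≤ Γ) {H : Type*} [Group H] (j : H →* Γ)
    (hj : Function.Injective j) [j.range.FiniteIndex]
    (hrange : ∀ γ : Γ, γ ∈ j.range ↔ (γ : G) ∈ Γ')
    (χ : Additive H →+ ℤ) (φ' : Additive Γ' →+ F)
    (hφ' : ∀ (h : H) (γ' : Γ'), ((j h : Γ) : G) = (γ' : G) →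
      φ' (Additive.ofMul γ') = ((χ (Additive.ofMul h) : ℤ) : F))
    (ψ : Additive Γ →+ F)
    (hψ : ∀ γ : Γ, ψ (Additive.ofMul γ) = ((S41D_tr j hj χ (Additive.ofMul γ) : ℤ) : F)) :
    S41PA_IsTransfer hle φ' ψ := by
  classical
  intro γ
  set x₀ : G ⧸ Γ := ((1 : G) : G ⧸ Γ) with hx₀
  -- the fibre
  let ι : Type _ := {y : G ⧸ Γ' // S41PA_pi hle y = x₀}
  have hfix : ∀ (g : Γ) (y : G ⧸ Γ'), S41PA_pi hle y = x₀ → S41PA_pi hle ((g : G) • y) = x₀ := by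
    intro g y hy
    rw [S41PA_pi_smul, hy]
    exact smul_one_coset Γ g
  let σ : ι → ι := fun i => ⟨((γ⁻¹ : Γ) : G) • i.1, hfix γ⁻¹ i.1 i.2⟩
  let σ' : ι → ι := fun i => ⟨((γ : Γ) : G) • i.1, hfix γ i.1 i.2⟩
  have hσσ' : ∀ i, σ (σ' i) = i := by
    rintro ⟨y, hy⟩
    apply Subtype.ext
    show ((γ⁻¹ : Γ) : G) • ((γ : Γ) : G) • y = y
    rw [Subgroup.coe_inv, inv_smul_smul]
  have hσ'σ : ∀ i, σ' (σ i) = i := by
    rintro ⟨y, hy⟩
    apply Subtype.ext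
    show ((γ : Γ) : G) • ((γ⁻¹ : Γ) : G) • y = y
    rw [Subgroup.coe_inv, smul_inv_smul]
  let e : ι ≃ ι := ⟨σ', σ, hσσ', hσ'σ⟩
  let t : ι → Γ := fun i => ⟨Quotient.out i.1, S41PA_out_mem hle i.2⟩
  have ht : Function.Bijective (fun i => ((t i : Γ) : Γ ⧸ j.range)) :=
    S41PA_fibre_bijective hle j.range hrange
  -- the elements `h i`
  have hex : ∀ i : ι, ∃ h : H, ((j h : Γ) : G) = (gam Γ' (γ : G) (σ i).1 : G) := by
    intro i
    have hmem : (⟨(gam Γ' (γ : G) (σ i).1 : G), hle (gam Γ' (γ : G) (σ i).1).2⟩ : Γ) ∈ j.range := by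
      rw [hrange]
      exact (gam Γ' (γ : G) (σ i).1).2
    obtain ⟨h, hh⟩ := hmem
    exact ⟨h, congrArg Subtype.val hh⟩
  choose h hh using hex
  have hmul : ∀ i, γ * t (σ i) = t i * j (h i) := by
    intro i
    apply Subtype.ext
    rw [Subgroup.coe_mul, Subgroup.coe_mul, hh i]
    have h1 : ((γ : Γ) : G) • (σ i).1 = i.1 := congrArg Subtype.val (hσ'σ i)
    show (γ : G) * Quotient.out (σ i).1
      = Quotient.out i.1 * ((Quotient.out ((γ : G) • (σ i).1))⁻¹ * (γ : G) * Quotient.out (σ i).1)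
    rw [h1]
    group
  rw [hψ, S41D_tr_apply j hj χ t ht γ σ h hmul, Int.cast_sum, S41PA_push_apply]
  have h3 : ∀ i : ι, ((χ (Additive.ofMul (h i)) : ℤ) : F) = cocF φ' (γ : G) (σ i).1 := by
    intro i
    rw [← hφ' (h i) (gam Γ' (γ : G) (σ i).1) (hh i)]
    rfl
  rw [Finset.sum_congr rfl fun i _ => h3 i]
  rw [← Equiv.sum_comp e (fun i : ι => cocF φ' (γ : G) (σ i).1)]
  simp only [e, Equiv.coe_fn_mk, hσσ']
  rw [← Finset.sum_filter]
  exact (Finset.sum_subtype (Finset.univ.filter fun y => S41PA_pi hle y = x₀)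
    (fun y => by simp) (fun y => cocF φ' (γ : G) y)).symm

end PDAdjTr

end Fermat.Agent.S41
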