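import Mathlib
import Fermat.Agent.S41.PDAdjTr
import Fermat.Agent.S41.DegId

/-!
# S41, package PD, part ADJ-b: the adjunctions on `parInt`

`S41PA_pair M p : parInt M →+ parInt M →+ ZMod p` is the Poincaré pairing of the reductions
mod `p`.  For a prime `p` it is alternating and non-degenerate mod `p` (`S41PA_pair_nondeg`), and

* `S41PA_adjA` : `⟨α x, y⟩_{N q} = ⟨x, trA y⟩_N`;
* `S41PA_adjB` : `⟨β x, y⟩_{N q} = ⟨x, trB y⟩_N`, given the invariance of the pairing under
  conjugation (`S41PA_ConjInv`);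
* `S41PA_hecke_selfadj` : `T_q` (`q ∤ N` prime) is self-adjoint for `⟨ , ⟩_N`.
-/

set_option autoImplicit false

open Matrix MatrixGroups ModularGroup CongruenceSubgroup Matrix.SpecialLinearGroup Module
open ModularCurve ModularCurve.Period

namespace Fermat.Agent.S41

open Fermat.Agent.S16 Fermat.Agent.S21 Fermat.Agent.GalRep

section red

variable (M p : ℕ)

/-- The reduction mod `p` of a parabolic class, as an element of `parHomsF`. -/
noncomputable def S41PA_red (x : ↥(parInt M)) : Additive (Gamma0 M) →+ ZMod p :=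
  redMod p _ (x : Additive (Gamma0 M) →+ ℤ)

lemma S41PA_red_mem [Fact p.Prime] (x : ↥(parInt M)) :
    S41PA_red M p x ∈ parHomsF (ZMod p) (Gamma0 M) ellPred :=
  redMod_mem_ellHoms p x.2

lemma S41PA_red_apply (x : ↥(parInt M)) (γ : Gamma0 M) :
    S41PA_red M p x (Additive.ofMul γ)
      = (((x : Additive (Gamma0 M) →+ ℤ) (Additive.ofMul γ) : ℤ) : ZMod p) := rfl

lemma S41PA_red_add (x y : ↥(parInt M)) :
    S41PA_red M p (x + y) = S41PA_red M p x + S41PA_red M p y := by
  unfold S41PA_red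
  rw [Submodule.coe_add, map_add]

end red

section pairing

variable (M p : ℕ) [NeZero M] [Fact p.Prime]

/-- **The Poincaré pairing mod `p`** on `parInt M`. -/
noncomputable def S41PA_pair : ↥(parInt M) →+ ↥(parInt M) →+ ZMod p :=
  AddMonoidHom.mk' (fun x => AddMonoidHom.mk' (fun y => PD_form (S41PA_red M p x) (S41PA_red M p y))
    (fun y y' => by
      rw [S41PA_red_add]
      exact PD_form_add_right (PD_neg_one_mem_Gamma0 M) (S41PA_red_mem M p x)
        (S41PA_red_mem M p y) (S41PA_red_mem M p y')))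
    (fun x x' => by
      refine AddMonoidHom.ext fun y => ?_
      show PD_form (S41PA_red M p (x + x')) (S41PA_red M p y)
        = PD_form (S41PA_red M p x) (S41PA_red M p y) + PD_form (S41PA_red M p x') (S41PA_red M p y)
      rw [S41PA_red_add]
      exact PD_form_add_left (PD_neg_one_mem_Gamma0 M) (S41PA_red_mem M p x)
        (S41PA_red_mem M p x') (S41PA_red_mem M p y))

lemma S41PA_pair_apply (x y : ↥(parInt M)) :
    S41PA_pair M p x y = PD_form (S41PA_red M p x) (S41PA_red M p y) := rfl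

lemma S41PA_pair_swap (x y : ↥(parInt M)) : S41PA_pair M p x y = - S41PA_pair M p y x := by
  rw [S41PA_pair_apply, S41PA_pair_apply, PD_form_swap]

/-- **Non-degeneracy mod `p`** of the pairing on `parInt M`, `p` odd. -/
theorem S41PA_pair_nondeg (hp2 : p ≠ 2) (x : ↥(parInt M))
    (h : ∀ y, S41PA_pair M p x y = 0) : ∃ z : ↥(parInt M), x = (p : ℤ) • z := by
  have h0 : S41PA_red M p x = 0 := by
    refine PD_form_nondeg_left M p hp2 (S41PA_red_mem M p x) fun φ' hφ' => ?_
    obtain ⟨χ, hχ, rfl⟩ := exists_lift_prime p φ' hφ'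
    exact h ⟨χ, hχ⟩
  obtain ⟨χ', hχ', hx⟩ := exists_div_of_redMod_eq_zero (Fact.out : p.Prime).ne_zero x.2 h0
  refine ⟨⟨χ', hχ'⟩, Subtype.ext ?_⟩
  rw [hx]
  simp

end pairing

section adjA

variable (N q p : ℕ) [NeZero N] [NeZero q] [Fact p.Prime]

omit [NeZero N] [NeZero q] in
lemma S41PA_mem_range_res (γ : Gamma0 N) :
    γ ∈ (S41A_res N q).range ↔ (γ : SL(2, ℤ)) ∈ Gamma0 (N * q) := by
  constructor
  · rintro ⟨h, rfl⟩
    exact h.2
  · intro h
    exact ⟨⟨(γ : SL(2, ℤ)), h⟩, Subtype.ext rfl⟩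

/-- **ADJ-α**: `⟨α x, y⟩_{N q} = ⟨x, trA y⟩_N`. -/
theorem S41PA_adjA (x : ↥(parInt N)) (y : ↥(parInt (N * q))) :
    S41PA_pair (N * q) p (S41D_alpha N q x) y = S41PA_pair N p x (S41D_trA N q y) := by
  classical
  let _ : Fintype (SL(2, ℤ) ⧸ Gamma0 (N * q)) := Fintype.ofFinite _
  have := S41D_res_finiteIndex N q
  rw [S41PA_pair_apply, S41PA_pair_apply]
  have h1 : S41PA_red (N * q) p (S41D_alpha N q x)
      = S41PA_res (S41A_Gamma0_le N q) (S41PA_red N p x) := rfl
  rw [h1]
  refine S41PA_adj (S41A_Gamma0_le N q) (PD_neg_one_mem_Gamma0 (N * q)) (S41PA_red_mem N p x)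
    (S41PA_red_mem (N * q) p y) (S41PA_red_mem N p _) ?_
  refine S41PA_isTransfer_of_tr (S41A_Gamma0_le N q) (S41A_res N q) (S41D_res_injective N q)
    (S41PA_mem_range_res N q) (y : Additive (Gamma0 (N * q)) →+ ℤ) _ ?_ _ ?_
  · intro h γ' hh
    have : h = γ' := Subtype.ext hh
    rw [this]
    rfl
  · intro γ
    rfl

end adjA

end Fermat.Agent.S41
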