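import Mathlib
import Fermat.Agent.S41.PDAdjWire
import Fermat.Agent.S41.DegPoly

/-!
# S41, package PD, part ADJ-b (continued): `β`, `trB` and the Hecke operators

Given the invariance of the Poincaré pairing under conjugation by integral matrices of positive
determinant (`S41PA_ConjInv F`, the statement of `S41P_form_conj`):

* `S41PA_adjB` : `⟨β x, y⟩_{N q} = ⟨x, trB y⟩_N`;
* `S41PA_hecke_selfadj` : `T_ℓ` is self-adjoint for `⟨ , ⟩_N` (`ℓ ∤ N` prime);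
* `S41PA_rho_selfadj` : `S41D_rho N q (X ℓ − C c)` is self-adjoint.
-/

set_option autoImplicit false

open Matrix MatrixGroups ModularGroup CongruenceSubgroup Matrix.SpecialLinearGroup Module
open ModularCurve ModularCurve.Period

namespace Fermat.Agent.S41

open Fermat.Agent.S16 Fermat.Agent.S21 Fermat.Agent.GalRep

/-- **Conjugation invariance of the Poincaré pairing** (the statement of `S41P_form_conj`). -/
def S41PA_ConjInv (F : Type*) [Field F] : Prop :=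
  ∀ (Γ₁ Γ₂ : Subgroup SL(2, ℤ)) [Γ₁.FiniteIndex] [Γ₂.FiniteIndex]
    (_ : (-1 : SL(2, ℤ)) ∈ Γ₁) (_ : (-1 : SL(2, ℤ)) ∈ Γ₂)
    (j : Γ₁ ≃* Γ₂) (δ : Matrix (Fin 2) (Fin 2) ℤ) (_ : 0 < δ.det)
    (_ : ∀ γ : Γ₁, δ * ((γ : SL(2, ℤ)) : Matrix (Fin 2) (Fin 2) ℤ)
      = ((j γ : SL(2, ℤ)) : Matrix (Fin 2) (Fin 2) ℤ) * δ)
    (φ φ' : Additive Γ₂ →+ F) (_ : φ ∈ parHomsF F Γ₂ ellPred) (_ : φ' ∈ parHomsF F Γ₂ ellPred),
    PD_form (φ.comp (MonoidHom.toAdditive j.toMonoidHom))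
      (φ'.comp (MonoidHom.toAdditive j.toMonoidHom)) = PD_form φ φ'

section G2

variable (N q : ℕ)

/-- `Γ₂ = δ Γ₀(N q) δ⁻¹`, `δ = diag(q, 1)`, as a subgroup of `SL(2, ℤ)`. -/
def S41PA_G2 : Subgroup SL(2, ℤ) := (S41A_deg N q).range.map (Gamma0 N).subtype

lemma S41PA_G2_le : S41PA_G2 N q ≤ Gamma0 N := by
  rintro _ ⟨γ, -, rfl⟩
  exact γ.2

lemma S41PA_deg_mem (γ : Gamma0 (N * q)) : ((S41A_deg N q γ : Gamma0 N) : SL(2, ℤ)) ∈ S41PA_G2 N q :=
  ⟨S41A_deg N q γ, ⟨γ, rfl⟩, rfl⟩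

lemma S41PA_mem_range_deg (γ : Gamma0 N) :
    γ ∈ (S41A_deg N q).range ↔ (γ : SL(2, ℤ)) ∈ S41PA_G2 N q := by
  constructor
  · intro h
    exact ⟨γ, h, rfl⟩
  · rintro ⟨γ', h, h'⟩
    have : γ' = γ := Subtype.ext h'
    rw [← this]
    exact h

lemma S41PA_G2_finiteIndex [NeZero N] [NeZero q] : (S41PA_G2 N q).FiniteIndex := by
  have := S41D_deg_finiteIndex N q
  refine ⟨?_⟩
  unfold S41PA_G2
  rw [Subgroup.index_map_subtype]
  exact mul_ne_zero Subgroup.FiniteIndex.index_ne_zero Subgroup.FiniteIndex.index_ne_zero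

lemma S41PA_neg_one_mem_G2 : (-1 : SL(2, ℤ)) ∈ S41PA_G2 N q := by
  have h := S41PA_deg_mem N q ⟨-1, PD_neg_one_mem_Gamma0 (N * q)⟩
  have h1 : ((S41A_deg N q ⟨-1, PD_neg_one_mem_Gamma0 (N * q)⟩ : Gamma0 N) : SL(2, ℤ)) = -1 := by
    rw [S41A_deg_coe]
    apply S41A_ext_int
    · rfl
    · rw [S41A_degMat_01]
      show (q : ℤ) * (-1 : SL(2, ℤ)) 0 1 = (-1 : SL(2, ℤ)) 0 1
      simp
    · rw [S41A_degMat_10]
      show (-1 : SL(2, ℤ)) 1 0 / (q : ℤ) = (-1 : SL(2, ℤ)) 1 0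
      simp
    · rfl
  rw [h1] at h
  exact h

/-- the isomorphism `j : Γ₀(N q) ≃ Γ₂`, `γ ↦ δ γ δ⁻¹`. -/
noncomputable def S41PA_j [NeZero q] : Gamma0 (N * q) ≃* S41PA_G2 N q :=
  MulEquiv.ofBijective
    (MonoidHom.codRestrict ((Gamma0 N).subtype.comp (S41A_deg N q)) (S41PA_G2 N q)
      (S41PA_deg_mem N q))
    ⟨fun a b h => S41D_deg_injective N q (Subtype.ext (by
        have h' := congrArg (fun z : S41PA_G2 N q => (z : SL(2, ℤ))) h
        exact h')),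
     fun ⟨g, γ, ⟨γ', hγ'⟩, hg⟩ => ⟨γ', Subtype.ext (by
        show ((S41A_deg N q γ' : Gamma0 N) : SL(2, ℤ)) = g
        rw [hγ']
        exact hg)⟩⟩

lemma S41PA_j_coe [NeZero q] (γ : Gamma0 (N * q)) :
    ((S41PA_j N q γ : S41PA_G2 N q) : SL(2, ℤ)) = ((S41A_deg N q γ : Gamma0 N) : SL(2, ℤ)) := rfl

/-- `δ γ = j(γ) δ` for `δ = diag(q, 1)`. -/
lemma S41PA_j_conj [NeZero q] (γ : Gamma0 (N * q)) :
    (!![(q : ℤ), 0; 0, 1] : Matrix (Fin 2) (Fin 2) ℤ)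
        * ((γ : SL(2, ℤ)) : Matrix (Fin 2) (Fin 2) ℤ)
      = ((S41PA_j N q γ : SL(2, ℤ)) : Matrix (Fin 2) (Fin 2) ℤ)
        * (!![(q : ℤ), 0; 0, 1] : Matrix (Fin 2) (Fin 2) ℤ) := by
  rw [S41PA_j_coe, S41A_deg_coe]
  have h10 := S41A_q_mul_degMat_10 γ
  have h00 := S41A_degMat_00 γ
  have h01 := S41A_degMat_01 γ
  have h11 := S41A_degMat_11 γ
  ext i j
  fin_cases i <;> fin_cases j
  · simp [Matrix.mul_apply, Fin.sum_univ_two]
    rw [show (S41A_degMat γ : Matrix (Fin 2) (Fin 2) ℤ) 0 0 = (γ : SL(2, ℤ)) 0 0 from h00]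
    ring
  · simp [Matrix.mul_apply, Fin.sum_univ_two]
    exact h01.symm
  · simp [Matrix.mul_apply, Fin.sum_univ_two]
    rw [← h10]
    ring
  · simp [Matrix.mul_apply, Fin.sum_univ_two]
    exact h11.symm

end G2

section adjB

variable (N q p : ℕ) [NeZero N] [NeZero q] [Fact p.Prime]

/-- **ADJ-β**: `⟨β x, y⟩_{N q} = ⟨x, trB y⟩_N`. -/
theorem S41PA_adjB (hconj : S41PA_ConjInv (ZMod p)) (x : ↥(parInt N)) (y : ↥(parInt (N * q))) :
    S41PA_pair (N * q) p (S41D_beta N q x) y = S41PA_pair N p x (S41D_trB N q y) := by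
  classical
  have hfi := S41PA_G2_finiteIndex N q
  let _ : Fintype (SL(2, ℤ) ⧸ S41PA_G2 N q) := Fintype.ofFinite _
  have := S41D_deg_finiteIndex N q
  rw [S41PA_pair_apply, S41PA_pair_apply]
  set j := S41PA_j N q with hjdef
  set X₂ : Additive (S41PA_G2 N q) →+ ZMod p :=
    S41PA_res (S41PA_G2_le N q) (S41PA_red N p x) with hX₂
  set Y₂ : Additive (S41PA_G2 N q) →+ ZMod p :=
    (S41PA_red (N * q) p y).comp (MonoidHom.toAdditive j.symm.toMonoidHom) with hY₂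
  have h1 : S41PA_red (N * q) p (S41D_beta N q x)
      = X₂.comp (MonoidHom.toAdditive j.toMonoidHom) := by
    refine AddMonoidHom.ext fun γ => ?_
    obtain ⟨γ, rfl⟩ := Additive.ofMul.surjective γ
    rfl
  have h2 : S41PA_red (N * q) p y = Y₂.comp (MonoidHom.toAdditive j.toMonoidHom) := by
    refine AddMonoidHom.ext fun γ => ?_
    obtain ⟨γ, rfl⟩ := Additive.ofMul.surjective γ
    show _ = S41PA_red (N * q) p y (Additive.ofMul (j.symm (j γ)))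
    rw [MulEquiv.symm_apply_apply]
  have hX₂m : X₂ ∈ parHomsF (ZMod p) (S41PA_G2 N q) ellPred :=
    S41PA_res_mem (S41PA_G2_le N q) (S41PA_red_mem N p x)
  have hY₂m : Y₂ ∈ parHomsF (ZMod p) (S41PA_G2 N q) ellPred := by
    intro γ' hγ'
    show S41PA_red (N * q) p y (Additive.ofMul (j.symm γ')) = 0
    refine S41PA_red_mem (N * q) p y (j.symm γ') ?_
    have h3 : ((j (j.symm γ') : S41PA_G2 N q) : SL(2, ℤ)) = (γ' : SL(2, ℤ)) := by
      rw [MulEquiv.apply_symm_apply]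
    have h4 := S41D_deg_trace N q (j.symm γ')
    rw [← S41PA_j_coe, h3] at h4
    unfold ellPred at hγ' ⊢
    rw [← h4]
    exact hγ'
  calc PD_form (S41PA_red (N * q) p (S41D_beta N q x)) (S41PA_red (N * q) p y)
      = PD_form (X₂.comp (MonoidHom.toAdditive j.toMonoidHom))
          (Y₂.comp (MonoidHom.toAdditive j.toMonoidHom)) := by rw [← h1, ← h2]
    _ = PD_form X₂ Y₂ :=
        hconj (Gamma0 (N * q)) (S41PA_G2 N q) (PD_neg_one_mem_Gamma0 (N * q))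
          (S41PA_neg_one_mem_G2 N q) j !![(q : ℤ), 0; 0, 1]
          (by
            rw [Matrix.det_fin_two_of]
            have : (0 : ℤ) < q := by exact_mod_cast Nat.pos_of_ne_zero (NeZero.ne q)
            linarith)
          (S41PA_j_conj N q) X₂ Y₂ hX₂m hY₂m
    _ = PD_form (S41PA_red N p x) (S41PA_red N p (S41D_trB N q y)) := by
        refine S41PA_adj (S41PA_G2_le N q) (S41PA_neg_one_mem_G2 N q) (S41PA_red_mem N p x)
          hY₂m (S41PA_red_mem N p _) ?_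
        refine S41PA_isTransfer_of_tr (S41PA_G2_le N q) (S41A_deg N q) (S41D_deg_injective N q)
          (S41PA_mem_range_deg N q) (y : Additive (Gamma0 (N * q)) →+ ℤ) _ ?_ _ ?_
        · intro h γ' hh
          have h5 : j h = γ' := Subtype.ext hh
          show S41PA_red (N * q) p y (Additive.ofMul (j.symm γ')) = _
          rw [← h5, MulEquiv.symm_apply_apply]
          rfl
        · intro γ
          rfl

end adjB

section hecke

variable (N ℓ p : ℕ) [NeZero N] [Fact ℓ.Prime] [Fact p.Prime]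

/-- **`T_ℓ` is self-adjoint** for the Poincaré pairing mod `p` on `parInt N` (`ℓ ∤ N` prime). -/
theorem S41PA_hecke_selfadj (hconj : S41PA_ConjInv (ZMod p)) (hℓN : ¬ ℓ ∣ N)
    (x y : ↥(parInt N)) :
    S41PA_pair N p (GRD_heckeL N (ModularCurve.heckeGen ⟨ℓ, Fact.out⟩) x) y
      = S41PA_pair N p x (GRD_heckeL N (ModularCurve.heckeGen ⟨ℓ, Fact.out⟩) y) := by
  rw [← S41D_trA_beta N ℓ hℓN x, ← S41D_trB_alpha N ℓ hℓN y, ← S41PA_adjB N ℓ p hconj,
    S41PA_pair_swap, ← S41PA_adjA N ℓ p, S41PA_pair_swap (N * ℓ) p (S41D_alpha N ℓ y), neg_neg]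

end hecke

section rho

variable (N q p : ℕ) [NeZero N] [Fact q.Prime] [Fact p.Prime]

omit [Fact q.Prime] in
/-- **`ρ(X_ℓ − c)` is self-adjoint** (`ℓ ∤ N`, `ℓ ≠ q` prime). -/
theorem S41PA_rho_selfadj (hconj : S41PA_ConjInv (ZMod p))
    (ℓ : {ℓ : Nat.Primes // (ℓ : ℕ) ≠ q}) (hℓN : ¬ ((ℓ.1 : ℕ) ∣ N)) (c : ℤ) (x y : ↥(parInt N)) :
    S41PA_pair N p (S41D_rho N q (MvPolynomial.X ℓ - MvPolynomial.C c) x) y
      = S41PA_pair N p x (S41D_rho N q (MvPolynomial.X ℓ - MvPolynomial.C c) y) := by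
  have : Fact (ℓ.1 : ℕ).Prime := ⟨ℓ.1.2⟩
  have h : S41PA_pair N p (GRD_heckeL N (ModularCurve.heckeGen ℓ.1) x) y
      = S41PA_pair N p x (GRD_heckeL N (ModularCurve.heckeGen ℓ.1) y) :=
    S41PA_hecke_selfadj N (ℓ.1 : ℕ) p hconj hℓN x y
  rw [map_sub, S41D_rho_X, S41D_rho_C]
  simp only [LinearMap.sub_apply, Module.End.intCast_apply, map_sub, AddMonoidHom.sub_apply,
    map_zsmul, AddMonoidHom.coe_smul, Pi.smul_apply]
  rw [h]

end rho

end Fermat.Agent.S41
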