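import Mathlib

/-!
# S41, package PD, piece (P5) DUAL: the abstract duality lemma

`S41PD_dual_abstract`: for finitely generated abelian groups `L`, `L'` with pairings `b`, `b'`
to `ZMod p` that are nondegenerate modulo `p`, maps `α β : L → L'` with adjoints `trA trB`
and a self-adjoint endomorphism `r` of `L`:

  Ihara in annihilator form (`α v₁ + β v₂ ∈ pL' ⇒ r v₁, r v₂ ∈ pL`)
  ⇒ dual Ihara (`∀ w₁ w₂, ∃ y, r w₁ ≡ trA y, r w₂ ≡ trB y mod p`).

This is the implication `hIh ⇒ hDual` in the shape consumed by `S41G_main'` (S41/Alg.lean).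

Two auxiliary lemmas on finitely generated abelian groups (proved through the `ZMod p`-vector
space `M ⧸ W`):
* `S41PD_sep`: a subgroup `W ⊇ pM` is cut out by the additive functionals `M → ZMod p`
  vanishing on it;
* `S41PD_repr`: if `b` is nondegenerate modulo `p` on the left then every additive functional
  `L → ZMod p` is `b v` for some `v`.
-/

set_option autoImplicit false

namespace Fermat.Agent.S41

/-- **Separation.** If `W ≤ M` contains `pM` and `u ∉ W`, there is an additive functional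
`M → ZMod p` vanishing on `W` but not at `u`. -/
theorem S41PD_sep {M : Type*} [AddCommGroup M] (p : ℕ) [Fact p.Prime] (W : AddSubgroup M)
    (hW : ∀ m : M, p • m ∈ W) (u : M) (hu : u ∉ W) :
    ∃ g : M →+ ZMod p, (∀ w ∈ W, g w = 0) ∧ g u ≠ 0 := by
  classical
  obtain ⟨_inst⟩ : Nonempty (Module (ZMod p) (M ⧸ W)) := ⟨QuotientAddGroup.zmodModule hW⟩
  have hne : (QuotientAddGroup.mk u : M ⧸ W) ≠ 0 := by
    rwa [Ne, QuotientAddGroup.eq_zero_iff]
  obtain ⟨f, hf⟩ : ∃ f : ((M ⧸ W) →ₗ[ZMod p] ZMod p), f (QuotientAddGroup.mk u) ≠ 0 := by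
    by_contra hcon
    push Not at hcon
    exact hne ((Module.forall_dual_apply_eq_zero_iff (ZMod p) _).mp hcon)
  refine ⟨f.toAddMonoidHom.comp (QuotientAddGroup.mk' W), ?_, hf⟩
  intro w hw
  have h0 : (QuotientAddGroup.mk w : M ⧸ W) = 0 := (QuotientAddGroup.eq_zero_iff w).mpr hw
  show f (QuotientAddGroup.mk w) = 0
  rw [h0, map_zero]

/-- **Representation.** If `b` is nondegenerate modulo `p` on the left, every additive functional
`L → ZMod p` is of the form `b v`. -/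
theorem S41PD_repr {L : Type*} [AddCommGroup L] [Module.Finite ℤ L] (p : ℕ) [Fact p.Prime]
    (b : L →+ L →+ ZMod p) (hb : ∀ x, (∀ y, b x y = 0) → ∃ z, x = (p : ℤ) • z)
    (g : L →+ ZMod p) : ∃ v : L, ∀ y, g y = b v y := by
  classical
  -- the subgroup `P = pL`
  set P : AddSubgroup L := (zsmulAddGroupHom (p : ℤ) : L →+ L).range with hP
  have hPmem : ∀ x : L, x ∈ P ↔ ∃ z, x = (p : ℤ) • z := by
    intro x
    rw [hP, AddMonoidHom.mem_range]
    constructor
    · rintro ⟨z, hz⟩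
      exact ⟨z, by rw [← hz]; rfl⟩
    · rintro ⟨z, hz⟩
      exact ⟨z, by rw [hz]; rfl⟩
  have hpP : ∀ x : L, p • x ∈ P := fun x => (hPmem _).mpr ⟨x, by rw [natCast_zsmul]⟩
  have hp0 : ∀ c : ZMod p, p • c = 0 := fun c => by
    rw [nsmul_eq_mul, ZMod.natCast_self, zero_mul]
  -- additive functionals kill `P`
  have hkill : ∀ (f : L →+ ZMod p) (x : L), x ∈ P → f x = 0 := by
    intro f x hx
    obtain ⟨z, rfl⟩ := (hPmem x).mp hx
    rw [map_zsmul, natCast_zsmul, hp0]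
  obtain ⟨_inst⟩ : Nonempty (Module (ZMod p) (L ⧸ P)) := ⟨QuotientAddGroup.zmodModule hpP⟩
  have : Module.Finite ℤ (L ⧸ P) :=
    Module.Finite.of_surjective (QuotientAddGroup.mk' P).toIntLinearMap
      (QuotientAddGroup.mk'_surjective P)
  have : Module.Finite (ZMod p) (L ⧸ P) := Module.Finite.of_restrictScalars_finite ℤ (ZMod p) _
  -- descend a functional
  let desc : (L →+ ZMod p) → ((L ⧸ P) →ₗ[ZMod p] ZMod p) := fun f =>
    AddMonoidHom.toZModLinearMap p (QuotientAddGroup.lift P f (fun x hx => hkill f x hx))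
  have hdesc : ∀ (f : L →+ ZMod p) (y : L), desc f (QuotientAddGroup.mk y) = f y := fun f y => rfl
  -- the map `Φ : L/P → Dual (L/P)`
  have hbP : ∀ x ∈ P, ∀ y, b x y = 0 := by
    intro x hx y
    obtain ⟨z, rfl⟩ := (hPmem x).mp hx
    rw [map_zsmul, AddMonoidHom.coe_smul, Pi.smul_apply, natCast_zsmul, hp0]
  let Φ₀ : L →+ ((L ⧸ P) →ₗ[ZMod p] ZMod p) :=
    { toFun := fun x => desc (b x)
      map_zero' := by
        apply LinearMap.ext
        intro y
        induction y using QuotientAddGroup.induction_on with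
        | H y => rw [hdesc, map_zero]; rfl
      map_add' := by
        intro x x'
        apply LinearMap.ext
        intro y
        induction y using QuotientAddGroup.induction_on with
        | H y => rw [LinearMap.add_apply, hdesc, hdesc, hdesc, map_add]; rfl }
  have hΦ₀ : ∀ x y, Φ₀ x (QuotientAddGroup.mk y) = b x y := fun x y => rfl
  have hΦ₀P : ∀ x ∈ P, Φ₀ x = 0 := by
    intro x hx
    apply LinearMap.ext
    intro y
    induction y using QuotientAddGroup.induction_on with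
    | H y => rw [hΦ₀, hbP x hx]; rfl
  let Φ : (L ⧸ P) →ₗ[ZMod p] ((L ⧸ P) →ₗ[ZMod p] ZMod p) :=
    AddMonoidHom.toZModLinearMap p (QuotientAddGroup.lift P Φ₀ hΦ₀P)
  have hΦ : ∀ x y, Φ (QuotientAddGroup.mk x) (QuotientAddGroup.mk y) = b x y := fun x y => rfl
  have hinj : Function.Injective Φ := by
    rw [← LinearMap.ker_eq_bot, LinearMap.ker_eq_bot']
    intro x hx
    induction x using QuotientAddGroup.induction_on with
    | H x =>
      have h1 : ∀ y, b x y = 0 := by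
        intro y
        rw [← hΦ, hx]
        rfl
      exact (QuotientAddGroup.eq_zero_iff x).mpr ((hPmem x).mpr (hb x h1))
  have hsurj : Function.Surjective Φ :=
    (LinearMap.injective_iff_surjective_of_finrank_eq_finrank
      (Subspace.dual_finrank_eq (K := ZMod p) (V := L ⧸ P)).symm).mp hinj
  obtain ⟨v, hv⟩ := hsurj (desc g)
  induction v using QuotientAddGroup.induction_on with
  | H v =>
    refine ⟨v, fun y => ?_⟩
    rw [← hdesc g y, ← hv, hΦ]

/-- **(P5) DUAL, abstract form**: Ihara in annihilator form implies dual Ihara. -/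
theorem S41PD_dual_abstract {L L' : Type*} [AddCommGroup L] [AddCommGroup L']
    [Module.Finite ℤ L] (p : ℕ) [Fact p.Prime]
    (b : L →+ L →+ ZMod p) (b' : L' →+ L' →+ ZMod p)
    (hb : ∀ x, (∀ y, b x y = 0) → ∃ z, x = (p : ℤ) • z)
    (hb' : ∀ x, (∀ y, b' x y = 0) → ∃ z, x = (p : ℤ) • z)
    (α β : L →ₗ[ℤ] L') (trA trB : L' →ₗ[ℤ] L) (r : L →ₗ[ℤ] L)
    (hadjA : ∀ x y, b' (α x) y = b x (trA y)) (hadjB : ∀ x y, b' (β x) y = b x (trB y))
    (hr : ∀ x y, b (r x) y = b x (r y))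
    (hIh : ∀ v₁ v₂ : L, (∃ w, α v₁ + β v₂ = (p : ℤ) • w) →
        (∃ w₁, r v₁ = (p : ℤ) • w₁) ∧ (∃ w₂, r v₂ = (p : ℤ) • w₂)) :
    ∀ w₁ w₂ : L, ∃ (y : L') (z₁ z₂ : L),
      r w₁ - trA y = (p : ℤ) • z₁ ∧ r w₂ - trB y = (p : ℤ) • z₂ := by
  classical
  intro w₁ w₂
  have hp0 : ∀ c : ZMod p, p • c = 0 := fun c => by
    rw [nsmul_eq_mul, ZMod.natCast_self, zero_mul]
  -- the subgroup `W = range (trA, trB) + p (L × L)`
  let W : AddSubgroup (L × L) :=
    { carrier := {m | ∃ (y : L') (z₁ z₂ : L),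
        m.1 - trA y = (p : ℤ) • z₁ ∧ m.2 - trB y = (p : ℤ) • z₂}
      zero_mem' := ⟨0, 0, 0, by simp, by simp⟩
      add_mem' := by
        rintro m m' ⟨y, z₁, z₂, h₁, h₂⟩ ⟨y', z₁', z₂', h₁', h₂'⟩
        refine ⟨y + y', z₁ + z₁', z₂ + z₂', ?_, ?_⟩
        · rw [Prod.fst_add, map_add, smul_add, ← h₁, ← h₁']; abel
        · rw [Prod.snd_add, map_add, smul_add, ← h₂, ← h₂']; abel
      neg_mem' := by
        rintro m ⟨y, z₁, z₂, h₁, h₂⟩
        refine ⟨-y, -z₁, -z₂, ?_, ?_⟩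
        · rw [Prod.fst_neg, map_neg, smul_neg, ← h₁]; abel
        · rw [Prod.snd_neg, map_neg, smul_neg, ← h₂]; abel }
  have hWmem : ∀ m : L × L, m ∈ W ↔ ∃ (y : L') (z₁ z₂ : L),
      m.1 - trA y = (p : ℤ) • z₁ ∧ m.2 - trB y = (p : ℤ) • z₂ := fun m => Iff.rfl
  have hpW : ∀ m : L × L, p • m ∈ W := by
    intro m
    refine (hWmem _).mpr ⟨0, m.1, m.2, ?_, ?_⟩
    · rw [map_zero, sub_zero, natCast_zsmul]; rfl
    · rw [map_zero, sub_zero, natCast_zsmul]; rfl
  by_contra hcon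
  have hu : ((r w₁, r w₂) : L × L) ∉ W := fun h => hcon ((hWmem _).mp h)
  obtain ⟨g, hgW, hgu⟩ := S41PD_sep p W hpW _ hu
  -- the two components of `g`
  obtain ⟨v₁, hv₁⟩ := S41PD_repr p b hb (g.comp (AddMonoidHom.inl L L))
  obtain ⟨v₂, hv₂⟩ := S41PD_repr p b hb (g.comp (AddMonoidHom.inr L L))
  have hg : ∀ x₁ x₂ : L, g (x₁, x₂) = b v₁ x₁ + b v₂ x₂ := by
    intro x₁ x₂
    rw [← hv₁, ← hv₂]
    simp only [AddMonoidHom.comp_apply, AddMonoidHom.inl_apply, AddMonoidHom.inr_apply]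
    rw [← map_add, Prod.mk_add_mk, add_zero, zero_add]
  -- `α v₁ + β v₂ ∈ p L'`
  have h1 : ∀ y, b' (α v₁ + β v₂) y = 0 := by
    intro y
    have hy : ((trA y, trB y) : L × L) ∈ W :=
      (hWmem _).mpr ⟨y, 0, 0, by simp, by simp⟩
    have := hgW _ hy
    rw [hg] at this
    rw [map_add, AddMonoidHom.add_apply, hadjA, hadjB, this]
  obtain ⟨⟨s₁, hs₁⟩, ⟨s₂, hs₂⟩⟩ := hIh v₁ v₂ (hb' _ h1)
  apply hgu
  rw [hg, ← hr, ← hr, hs₁, hs₂, map_zsmul, map_zsmul, AddMonoidHom.coe_smul,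
    AddMonoidHom.coe_smul, Pi.smul_apply, Pi.smul_apply, natCast_zsmul, natCast_zsmul, hp0, hp0,
    add_zero]

end Fermat.Agent.S41
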