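import Mathlib
import Fermat.Agent.S41.AsmTail
import Fermat.Agent.S41.IharaAsm
import Fermat.Agent.S41.PDAdjB
import Fermat.Agent.S41.PDDual
import Fermat.Agent.S41.NEMain

/-!
# S41 — final assembly, conditional form (helper9)

`S41FIN_of` : the frozen statement of S41 from the three remaining inputs

* `hPair : S41J_PairStmt N q' p`   (gluing on `Γ₀(N)[1/q']`, helper6's `IharaPair`),
* `hMain : S41J_MainStmt N q' p`   (the pointwise Ihara step, helper27's `IharaTower`),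
* `hconj : S41PA_ConjInv (ZMod p)` (conjugation invariance of `PD_form`, from `PDCup` + `PDCusp`).

Everything else (NE, IHARA-ASM-B, PD adjunctions, DUAL, ALG, DICT, UNEW, ASM tail) is wired here.
-/

set_option autoImplicit false

open scoped CongruenceSubgroup
open WeierstrassCurve WeierstrassCurve.Affine WeierstrassCurve.Affine.Point CuspForm ModularCurve

namespace Fermat.Agent.S41

open Fermat.Agent.S16 Fermat.Agent.GalRep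

/-- **S41, conditional form.** -/
theorem S41FIN_of
    (E : WeierstrassCurve ℚ) [E.IsElliptic] {W : WeierstrassCurve ℤ} (hW : W.IsIntegralModelOf E)
    {p N q' : ℕ} (hp : p.Prime) (hp2 : p ≠ 2) (hN : 0 < N) (hq' : q'.Prime) (hq'N : ¬ q' ∣ N)
    (hirr : GaloisRepIsIrreducible (K := AlgebraicClosure ℚ) ℚ E p)
    (f : CuspForm (CongruenceSubgroup.Gamma0 N) 2) (𝔪 : Ideal (integralClosure ℤ ℂ))
    (hf : f.IsNormalizedEigenform) (hmax : 𝔪.IsMaximal) (hpm : (p : integralClosure ℤ ℂ) ∈ 𝔪)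
    (hcong : ∀ ℓ : ℕ, ℓ.Prime → W.IsGoodPrimeFor ℓ → ¬ ℓ ∣ N → ℓ ≠ p →
      ∃ a : integralClosure ℤ ℂ, (a : ℂ) = ModularFormClass.qCoeff f ℓ ∧
        a - ((W.apOfModel ℓ : ℤ) : integralClosure ℤ ℂ) ∈ 𝔪)
    (hLR : ∃ a : integralClosure ℤ ℂ, (a : ℂ) = ModularFormClass.qCoeff f q' ∧
      a ^ 2 - ((q' : integralClosure ℤ ℂ) + 1) ^ 2 ∈ 𝔪)
    (hPair : haveI : NeZero N := ⟨hN.ne'⟩; haveI : Fact q'.Prime := ⟨hq'⟩
      S41J_PairStmt N q' p)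
    (hMain : haveI : NeZero N := ⟨hN.ne'⟩; haveI : Fact q'.Prime := ⟨hq'⟩
      S41J_MainStmt N q' p)
    (hconj : haveI : Fact p.Prime := ⟨hp⟩; S41PA_ConjInv (ZMod p)) :
    ∃ (g : CuspForm (CongruenceSubgroup.Gamma0 (N * q')) 2) (𝔪' : Ideal (integralClosure ℤ ℂ)),
      g.IsNormalizedEigenform ∧ 𝔪'.IsMaximal ∧ (p : integralClosure ℤ ℂ) ∈ 𝔪' ∧
      (∀ ℓ : ℕ, ℓ.Prime → W.IsGoodPrimeFor ℓ → ¬ ℓ ∣ N * q' → ℓ ≠ p →
        ∃ a : integralClosure ℤ ℂ, (a : ℂ) = ModularFormClass.qCoeff g ℓ ∧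
          a - ((W.apOfModel ℓ : ℤ) : integralClosure ℤ ℂ) ∈ 𝔪') ∧
      g.IsNewAt q' := by
  classical
  haveI : NeZero N := ⟨hN.ne'⟩
  haveI : Fact q'.Prime := ⟨hq'⟩
  haveI : Fact p.Prime := ⟨hp⟩
  haveI : NeZero q' := ⟨hq'.ne_zero⟩
  haveI := finite_parInt N
  haveI := hmax
  letI : Field (integralClosure ℤ ℂ ⧸ 𝔪) := Ideal.Quotient.field 𝔪
  -- NE for the eigensystem of `f`
  have hNE : ∀ M : ℕ, 0 < M → ∃ ℓ : {ℓ : Nat.Primes // (ℓ : ℕ) ≠ q'},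
      ((ℓ.1 : Nat.Primes) : ℕ) ≡ 1 [MOD M] ∧ ¬ ((ℓ.1 : Nat.Primes) : ℕ) ∣ N ∧
      ((ℓ.1 : Nat.Primes) : ℕ) ≠ p ∧ S41T_theta N q' hf 𝔪 (S41J_r q' ℓ) ≠ 0 := by
    intro M hM
    obtain ⟨ℓ, hℓ, hℓT, hℓM, -, hℓN, hℓp, hne⟩ :=
      S41NE_main_form E hW hp hp2 hN hirr f 𝔪 hmax hpm hcong M hM {q'}
    have hℓq : ℓ ≠ q' := fun h => hℓT (by rw [h]; exact Finset.mem_singleton_self _)
    refine ⟨⟨⟨ℓ, hℓ⟩, hℓq⟩, hℓM, hℓN, hℓp, ?_⟩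
    unfold S41J_r
    rw [S41T_theta_eis]
    have h1 := hne (S41F_char hf (heckeGen ⟨ℓ, hℓ⟩)) (S41F_char_heckeGen hf ⟨ℓ, hℓ⟩)
    have h2 : (((((⟨ℓ, hℓ⟩ : Nat.Primes) : ℕ) : ℤ) + 1 : ℤ) : integralClosure ℤ ℂ)
        = (ℓ : integralClosure ℤ ℂ) + 1 := by
      push_cast
      rfl
    rw [h2]
    exact h1
  obtain ⟨ℓ, hℓN, -, hθ, hkill⟩ :=
    S41J_hIh' N q' hq'N p hPair hMain (S41T_theta N q' hf 𝔪) hNE
  have hdual := S41PD_dual_abstract p (S41PA_pair N p) (S41PA_pair (N * q') p)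
    (S41PA_pair_nondeg N p hp2) (S41PA_pair_nondeg (N * q') p hp2)
    (S41D_alpha N q') (S41D_beta N q') (S41D_trA N q') (S41D_trB N q')
    (S41D_rho N q' (S41J_r q' ℓ)) (S41PA_adjA N q' p) (S41PA_adjB N q' p hconj)
    (S41PA_rho_selfadj N q' p hconj ℓ hℓN _) hkill
  exact S41T_S41_of hp hN hq' hq'N f 𝔪 hf hmax hpm hcong hLR
    ⟨S41J_r q' ℓ, hθ, hkill⟩ ⟨S41J_r q' ℓ, hθ, hdual⟩

end Fermat.Agent.S41
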