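import Mathlib
import Fermat.Prelude.Def_ModularCurve_PeriodMap
import Fermat.Prelude.Sol.S_ModularForm_heckeT_slash_eq_self_of_mem_Gamma0

/-!
# S41 (level raising), package EIS: parabolic congruence classes are Eisenstein

`χ : Γ₀(N) → M` a homomorphism to an abelian group which is parabolic (`IsParabolicHom`) and
trivial on `Γ₀(N) ∩ Γ(R)`.  Then for EVERY prime `ℓ ∤ N·R` the coset formula for `T_ℓ` gives
`T_ℓ χ = (ℓ + 1) χ`  (`S41E_eisenstein`).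

Idea: conjugation by `δ = diag(1, ℓ)` modulo `R` only rescales the off-diagonal entries, and
those are killed by parabolic elements.
-/

set_option autoImplicit false

open CongruenceSubgroup Matrix Matrix.SpecialLinearGroup ModularCurve.Period
open scoped MatrixGroups
open P2MW.S_ModularForm_heckeT_slash_eq_self_of_mem_Gamma0.ModularForm.HeckeSlashInvariance
open ModularForm

namespace Fermat.Agent.S41

/-- reduction of an integral matrix modulo `R`. -/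
noncomputable def S41E_red (R : ℕ) : Matrix (Fin 2) (Fin 2) ℤ →+* Matrix (Fin 2) (Fin 2) (ZMod R) :=
  (Int.castRingHom (ZMod R)).mapMatrix

theorem S41E_red_apply (R : ℕ) (A : Matrix (Fin 2) (Fin 2) ℤ) (i j : Fin 2) :
    S41E_red R A i j = ((A i j : ℤ) : ZMod R) := rfl

theorem S41E_red_of (R : ℕ) (a b c d : ℤ) :
    S41E_red R !![a, b; c, d] = !![(a : ZMod R), (b : ZMod R); (c : ZMod R), (d : ZMod R)] := by
  ext i j
  fin_cases i <;> fin_cases j <;> simp [S41E_red_apply]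

/-- the matrix `diag(1, ℓ)` modulo `R`. -/
def S41E_delta (R : ℕ) (ℓ : ℤ) : Matrix (Fin 2) (Fin 2) (ZMod R) := !![1, 0; 0, (ℓ : ZMod R)]

/-- `g ≡ δ h δ⁻¹ mod R`, written without inverses. -/
def S41E_Rel (R : ℕ) (ℓ : ℤ) (g h : SL(2, ℤ)) : Prop :=
  S41E_red R (g : Matrix (Fin 2) (Fin 2) ℤ) * S41E_delta R ℓ
    = S41E_delta R ℓ * S41E_red R (h : Matrix (Fin 2) (Fin 2) ℤ)

theorem S41E_Rel_iff {R : ℕ} {ℓ : ℤ} {g h : SL(2, ℤ)} : S41E_Rel R ℓ g h ↔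
    S41E_red R (g : Matrix (Fin 2) (Fin 2) ℤ) * S41E_delta R ℓ
      = S41E_delta R ℓ * S41E_red R (h : Matrix (Fin 2) (Fin 2) ℤ) := Iff.rfl

theorem S41E_red_mul (R : ℕ) (g h : SL(2, ℤ)) :
    S41E_red R ((g * h : SL(2, ℤ)) : Matrix (Fin 2) (Fin 2) ℤ)
      = S41E_red R (g : Matrix (Fin 2) (Fin 2) ℤ) * S41E_red R (h : Matrix (Fin 2) (Fin 2) ℤ) := by
  rw [← map_mul]; rfl

theorem S41E_red_one (R : ℕ) :
    S41E_red R ((1 : SL(2, ℤ)) : Matrix (Fin 2) (Fin 2) ℤ) = 1 := by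
  rw [← map_one (S41E_red R)]; rfl

theorem S41E_Rel.mul {R : ℕ} {ℓ : ℤ} {g₁ g₂ h₁ h₂ : SL(2, ℤ)} (h1 : S41E_Rel R ℓ g₁ h₁)
    (h2 : S41E_Rel R ℓ g₂ h₂) : S41E_Rel R ℓ (g₁ * g₂) (h₁ * h₂) := by
  rw [S41E_Rel_iff] at *
  rw [S41E_red_mul, S41E_red_mul, Matrix.mul_assoc, h2, ← Matrix.mul_assoc, h1, Matrix.mul_assoc]

theorem S41E_red_mul_inv (R : ℕ) (g : SL(2, ℤ)) :
    S41E_red R (g : Matrix (Fin 2) (Fin 2) ℤ) * S41E_red R ((g⁻¹ : SL(2, ℤ)) : Matrix (Fin 2) (Fin 2) ℤ)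
      = 1 := by
  rw [← S41E_red_mul, mul_inv_cancel, S41E_red_one]

theorem S41E_red_inv_mul (R : ℕ) (g : SL(2, ℤ)) :
    S41E_red R ((g⁻¹ : SL(2, ℤ)) : Matrix (Fin 2) (Fin 2) ℤ) * S41E_red R (g : Matrix (Fin 2) (Fin 2) ℤ)
      = 1 := by
  rw [← S41E_red_mul, inv_mul_cancel, S41E_red_one]

theorem S41E_Rel.inv {R : ℕ} {ℓ : ℤ} {g h : SL(2, ℤ)} (h1 : S41E_Rel R ℓ g h) :
    S41E_Rel R ℓ g⁻¹ h⁻¹ := by
  rw [S41E_Rel_iff] at *
  calc S41E_red R ((g⁻¹ : SL(2, ℤ)) : Matrix (Fin 2) (Fin 2) ℤ) * S41E_delta R ℓ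
      = S41E_red R ((g⁻¹ : SL(2, ℤ)) : Matrix (Fin 2) (Fin 2) ℤ) * (S41E_delta R ℓ
          * (S41E_red R (h : Matrix (Fin 2) (Fin 2) ℤ)
            * S41E_red R ((h⁻¹ : SL(2, ℤ)) : Matrix (Fin 2) (Fin 2) ℤ))) := by
        rw [S41E_red_mul_inv, Matrix.mul_one]
    _ = S41E_red R ((g⁻¹ : SL(2, ℤ)) : Matrix (Fin 2) (Fin 2) ℤ)
          * ((S41E_red R (g : Matrix (Fin 2) (Fin 2) ℤ) * S41E_delta R ℓ)
            * S41E_red R ((h⁻¹ : SL(2, ℤ)) : Matrix (Fin 2) (Fin 2) ℤ)) := by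
        rw [h1, Matrix.mul_assoc]
    _ = (S41E_red R ((g⁻¹ : SL(2, ℤ)) : Matrix (Fin 2) (Fin 2) ℤ)
          * S41E_red R (g : Matrix (Fin 2) (Fin 2) ℤ)) * (S41E_delta R ℓ
            * S41E_red R ((h⁻¹ : SL(2, ℤ)) : Matrix (Fin 2) (Fin 2) ℤ)) := by
        simp only [Matrix.mul_assoc]
    _ = S41E_delta R ℓ * S41E_red R ((h⁻¹ : SL(2, ℤ)) : Matrix (Fin 2) (Fin 2) ℤ) := by
        rw [S41E_red_inv_mul, Matrix.one_mul]

/-- upper unipotent matrices. -/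
def S41E_U (x : ℤ) : SL(2, ℤ) := ⟨!![1, x; 0, 1], by simp [Matrix.det_fin_two_of]⟩

/-- lower unipotent matrices. -/
def S41E_L (y : ℤ) : SL(2, ℤ) := ⟨!![1, 0; y, 1], by simp [Matrix.det_fin_two_of]⟩

theorem S41E_U_coe (x : ℤ) : ((S41E_U x : SL(2, ℤ)) : Matrix (Fin 2) (Fin 2) ℤ) = !![1, x; 0, 1] := rfl

theorem S41E_L_coe (y : ℤ) : ((S41E_L y : SL(2, ℤ)) : Matrix (Fin 2) (Fin 2) ℤ) = !![1, 0; y, 1] := rfl

theorem S41E_Rel_U {R : ℕ} {ℓ : ℤ} {x' x : ℤ} (h : ((ℓ * x' : ℤ) : ZMod R) = (x : ZMod R)) :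
    S41E_Rel R ℓ (S41E_U x') (S41E_U x) := by
  rw [S41E_Rel_iff, S41E_U_coe, S41E_U_coe, S41E_red_of, S41E_red_of, S41E_delta]
  push_cast at h
  ext i j
  fin_cases i <;> fin_cases j <;> simp [Matrix.mul_apply, Fin.sum_univ_two, mul_comm, h]

theorem S41E_Rel_L {R : ℕ} {ℓ : ℤ} (w : ℤ) : S41E_Rel R ℓ (S41E_L (ℓ * w)) (S41E_L w) := by
  rw [S41E_Rel_iff, S41E_L_coe, S41E_L_coe, S41E_red_of, S41E_red_of, S41E_delta]
  ext i j
  fin_cases i <;> fin_cases j <;> simp [Matrix.mul_apply, Fin.sum_univ_two]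

/-! ### entries -/

theorem S41E_mul_U (A : SL(2, ℤ)) (y : ℤ) :
    ((A * S41E_U y : SL(2, ℤ)) : Matrix (Fin 2) (Fin 2) ℤ)
      = !![A 0 0, A 0 0 * y + A 0 1; A 1 0, A 1 0 * y + A 1 1] := by
  show (A : Matrix (Fin 2) (Fin 2) ℤ) * !![1, y; 0, 1] = _
  ext i j
  fin_cases i <;> fin_cases j <;> simp [Matrix.mul_apply, Fin.sum_univ_two]

theorem S41E_mul_L (A : SL(2, ℤ)) (w : ℤ) :
    ((A * S41E_L w : SL(2, ℤ)) : Matrix (Fin 2) (Fin 2) ℤ)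
      = !![A 0 0 + A 0 1 * w, A 0 1; A 1 0 + A 1 1 * w, A 1 1] := by
  show (A : Matrix (Fin 2) (Fin 2) ℤ) * !![1, 0; w, 1] = _
  ext i j
  fin_cases i <;> fin_cases j <;> simp [Matrix.mul_apply, Fin.sum_univ_two]

theorem S41E_U_mul (x : ℤ) (A : SL(2, ℤ)) :
    ((S41E_U x * A : SL(2, ℤ)) : Matrix (Fin 2) (Fin 2) ℤ)
      = !![A 0 0 + x * A 1 0, A 0 1 + x * A 1 1; A 1 0, A 1 1] := by
  show !![1, x; 0, 1] * (A : Matrix (Fin 2) (Fin 2) ℤ) = _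
  ext i j
  fin_cases i <;> fin_cases j <;> simp [Matrix.mul_apply, Fin.sum_univ_two]

theorem S41E_U_mem (N : ℕ) (x : ℤ) : S41E_U x ∈ Gamma0 N := by
  rw [Gamma0_mem]
  show (((!![1, x; 0, 1] : Matrix (Fin 2) (Fin 2) ℤ) 1 0 : ℤ) : ZMod N) = 0
  simp

theorem S41E_L_mem {N : ℕ} {y : ℤ} (h : (N : ℤ) ∣ y) : S41E_L y ∈ Gamma0 N := by
  rw [Gamma0_mem]
  show (((!![1, 0; y, 1] : Matrix (Fin 2) (Fin 2) ℤ) 1 0 : ℤ) : ZMod N) = 0
  simpa using (ZMod.intCast_zmod_eq_zero_iff_dvd y N).mpr h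

theorem S41E_U_trace (x : ℤ) :
    ((S41E_U x : SL(2, ℤ)) : Matrix (Fin 2) (Fin 2) ℤ).trace ^ 2 = 4 := by
  rw [S41E_U_coe, Matrix.trace_fin_two_of]; norm_num

theorem S41E_L_trace (y : ℤ) :
    ((S41E_L y : SL(2, ℤ)) : Matrix (Fin 2) (Fin 2) ℤ).trace ^ 2 = 4 := by
  rw [S41E_L_coe, Matrix.trace_fin_two_of]; norm_num

/-! ### a unit in an arithmetic progression -/

/-- for coprime `c, d` there is `y` with `d + c y` prime to `R`. -/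
theorem S41E_exists_coprime (c d : ℤ) (hcd : IsCoprime c d) (R : ℕ) (hR : R ≠ 0) :
    ∃ y : ℤ, IsCoprime (d + c * y) (R : ℤ) := by
  classical
  let S : Finset ℕ := R.primeFactors.filter (fun r => ¬ (r : ℤ) ∣ d)
  refine ⟨((∏ r ∈ S, r : ℕ) : ℤ), ?_⟩
  rw [Int.isCoprime_iff_gcd_eq_one]
  by_contra hne
  obtain ⟨r, hr, hrdvd⟩ := Nat.exists_prime_and_dvd hne
  have hre : (r : ℤ) ∣ d + c * ((∏ r ∈ S, r : ℕ) : ℤ) :=
    Int.natCast_dvd.mpr ((hrdvd.trans (Int.gcd_dvd_natAbs_left _ _)))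
  have hrR : r ∣ R := by
    have := hrdvd.trans (Int.gcd_dvd_natAbs_right (d + c * ((∏ r ∈ S, r : ℕ) : ℤ)) (R : ℤ))
    simpa using this
  have hrZ : Prime (r : ℤ) := Nat.prime_iff_prime_int.mp hr
  by_cases hrd : (r : ℤ) ∣ d
  · -- then `r ∤ y`, so `r ∣ c`
    have hcy : (r : ℤ) ∣ c * ((∏ r ∈ S, r : ℕ) : ℤ) := (Int.dvd_add_right hrd).mp hre
    rcases hrZ.dvd_or_dvd hcy with hc | hy
    · exact hrZ.not_isUnit (hcd.isUnit_of_dvd' hc hrd)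
    · have hy' : r ∣ ∏ s ∈ S, s := Int.natCast_dvd_natCast.mp hy
      obtain ⟨s, hs, hrs⟩ := (Nat.Prime.prime hr).exists_mem_finset_dvd hy'
      have hsmem := Finset.mem_filter.mp hs
      have hsp : s.Prime := Nat.prime_of_mem_primeFactors hsmem.1
      have : r = s := (Nat.prime_dvd_prime_iff_eq hr hsp).mp hrs
      exact hsmem.2 (this ▸ hrd)
  · have hrS : r ∈ S := Finset.mem_filter.mpr ⟨Nat.mem_primeFactors.mpr ⟨hr, hrR, hR⟩, hrd⟩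
    have hy : (r : ℤ) ∣ ((∏ r ∈ S, r : ℕ) : ℤ) :=
      Int.natCast_dvd_natCast.mpr (Finset.dvd_prod_of_mem _ hrS)
    exact hrd ((Int.dvd_add_left (Dvd.dvd.mul_left hy c)).mp hre)

/-! ### entries of products with unipotent matrices -/

theorem S41E_mul_U_apply0 (A : SL(2, ℤ)) (y : ℤ) (i : Fin 2) : (A * S41E_U y) i 0 = A i 0 := by
  show ((A : Matrix (Fin 2) (Fin 2) ℤ) * !![1, y; 0, 1]) i 0 = _
  simp [Matrix.mul_apply, Fin.sum_univ_two]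

theorem S41E_mul_U_apply1 (A : SL(2, ℤ)) (y : ℤ) (i : Fin 2) :
    (A * S41E_U y) i 1 = A i 0 * y + A i 1 := by
  show ((A : Matrix (Fin 2) (Fin 2) ℤ) * !![1, y; 0, 1]) i 1 = _
  simp [Matrix.mul_apply, Fin.sum_univ_two]

theorem S41E_mul_L_apply0 (A : SL(2, ℤ)) (w : ℤ) (i : Fin 2) :
    (A * S41E_L w) i 0 = A i 0 + A i 1 * w := by
  show ((A : Matrix (Fin 2) (Fin 2) ℤ) * !![1, 0; w, 1]) i 0 = _
  simp [Matrix.mul_apply, Fin.sum_univ_two]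

theorem S41E_mul_L_apply1 (A : SL(2, ℤ)) (w : ℤ) (i : Fin 2) : (A * S41E_L w) i 1 = A i 1 := by
  show ((A : Matrix (Fin 2) (Fin 2) ℤ) * !![1, 0; w, 1]) i 1 = _
  simp [Matrix.mul_apply, Fin.sum_univ_two]

theorem S41E_U_mul_apply0 (x : ℤ) (A : SL(2, ℤ)) (j : Fin 2) :
    (S41E_U x * A) 0 j = A 0 j + x * A 1 j := by
  show (!![1, x; 0, 1] * (A : Matrix (Fin 2) (Fin 2) ℤ)) 0 j = _
  simp [Matrix.mul_apply, Fin.sum_univ_two]

theorem S41E_U_mul_apply1 (x : ℤ) (A : SL(2, ℤ)) (j : Fin 2) : (S41E_U x * A) 1 j = A 1 j := by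
  show (!![1, x; 0, 1] * (A : Matrix (Fin 2) (Fin 2) ℤ)) 1 j = _
  simp [Matrix.mul_apply, Fin.sum_univ_two]

theorem S41E_isCoprime_row (h : SL(2, ℤ)) : IsCoprime (h 1 0) (h 1 1) := by
  have hdet : h 0 0 * h 1 1 - h 0 1 * h 1 0 = 1 := by
    have := h.det_coe
    rwa [Matrix.det_fin_two] at this
  exact ⟨-h 0 1, h 0 0, by linarith⟩

/-- an element of `Γ₀(N)` can be made diagonal modulo `R` by parabolic elements of `Γ₀(N)`. -/
theorem S41E_exists_diag {N R : ℕ} (hR : R ≠ 0) (hNR : N ∣ R) (h : SL(2, ℤ))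
    (hh : (N : ℤ) ∣ h 1 0) :
    ∃ x y z : ℤ,
      ((((S41E_U x * (h * S41E_U y * S41E_L ((N : ℤ) * z)) : SL(2, ℤ)) 0 1 : ℤ)) : ZMod R) = 0 ∧
      ((((S41E_U x * (h * S41E_U y * S41E_L ((N : ℤ) * z)) : SL(2, ℤ)) 1 0 : ℤ)) : ZMod R) = 0 := by
  obtain ⟨y, hy⟩ := S41E_exists_coprime (h 1 0) (h 1 1) (S41E_isCoprime_row h) R hR
  obtain ⟨u, v, huv⟩ := hy
  obtain ⟨c₀, hc₀⟩ := hh
  obtain ⟨R', rfl⟩ := hNR
  -- `d₁ * u ≡ 1`
  set d₁ : ℤ := h 1 1 + h 1 0 * y with hd₁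
  have hunit : ((u * d₁ : ℤ) : ZMod (N * R')) = 1 := by
    have : (u * d₁ : ℤ) = 1 - v * ((N * R' : ℕ) : ℤ) := by linarith
    rw [this]
    push_cast
    have h0 : ((N : ZMod (N * R')) * (R' : ZMod (N * R'))) = 0 := by
      have := ZMod.natCast_self (N * R')
      push_cast at this
      exact this
    rw [mul_left_comm] at *
    linear_combination (-(v : ZMod (N * R'))) * h0
  refine ⟨-(h 0 0 * y + h 0 1) * u, y, -c₀ * u, ?_, ?_⟩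
  · rw [S41E_U_mul_apply0, S41E_mul_L_apply1, S41E_mul_L_apply1, S41E_mul_U_apply1,
      S41E_mul_U_apply1]
    have e : h 0 0 * y + h 0 1 + -(h 0 0 * y + h 0 1) * u * (h 1 0 * y + h 1 1)
        = (h 0 0 * y + h 0 1) * (1 - u * d₁) := by rw [hd₁]; ring
    rw [e]
    push_cast at hunit ⊢
    rw [hunit]; ring
  · rw [S41E_U_mul_apply1, S41E_mul_L_apply0, S41E_mul_U_apply0, S41E_mul_U_apply1, hc₀]
    have e : (N : ℤ) * c₀ + ((N : ℤ) * c₀ * y + h 1 1) * ((N : ℤ) * (-c₀ * u))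
        = (N : ℤ) * c₀ * (1 - u * ((N : ℤ) * c₀ * y + h 1 1)) := by ring
    rw [e]
    have hd : d₁ = (N : ℤ) * c₀ * y + h 1 1 := by rw [hd₁, hc₀]; ring
    rw [← hd]
    push_cast at hunit ⊢
    rw [hunit]; ring

/-! ### the key lemma -/

theorem S41E_Rel_entries {R : ℕ} {ℓ : ℤ} {g h : SL(2, ℤ)} (hrel : S41E_Rel R ℓ g h) :
    ((g 0 0 : ℤ) : ZMod R) = ((h 0 0 : ℤ) : ZMod R) ∧
    ((g 0 1 : ℤ) : ZMod R) * (ℓ : ZMod R) = ((h 0 1 : ℤ) : ZMod R) ∧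
    ((g 1 0 : ℤ) : ZMod R) = (ℓ : ZMod R) * ((h 1 0 : ℤ) : ZMod R) ∧
    ((g 1 1 : ℤ) : ZMod R) * (ℓ : ZMod R) = (ℓ : ZMod R) * ((h 1 1 : ℤ) : ZMod R) := by
  rw [S41E_Rel_iff, S41E_delta] at hrel
  have e00 := congrFun (congrFun hrel 0) 0
  have e01 := congrFun (congrFun hrel 0) 1
  have e10 := congrFun (congrFun hrel 1) 0
  have e11 := congrFun (congrFun hrel 1) 1
  simp only [Matrix.mul_apply, Fin.sum_univ_two, S41E_red_apply, Matrix.of_apply, Matrix.cons_val',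
    Matrix.cons_val_zero, Matrix.cons_val_one, Matrix.cons_val_fin_one, mul_one, mul_zero,
    add_zero, zero_add, one_mul, zero_mul] at e00 e01 e10 e11
  exact ⟨e00, e01, e10, e11⟩

theorem S41E_Rel_diag {R : ℕ} {ℓ : ℤ} {u : ZMod R} (hu : (ℓ : ZMod R) * u = 1) {g h : SL(2, ℤ)}
    (hrel : S41E_Rel R ℓ g h) (h01 : ((h 0 1 : ℤ) : ZMod R) = 0)
    (h10 : ((h 1 0 : ℤ) : ZMod R) = 0) :
    S41E_red R (g : Matrix (Fin 2) (Fin 2) ℤ) = S41E_red R (h : Matrix (Fin 2) (Fin 2) ℤ) := by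
  obtain ⟨e00, e01, e10, e11⟩ := S41E_Rel_entries hrel
  have g01 : ((g 0 1 : ℤ) : ZMod R) = 0 := by
    have := congrArg (· * u) e01
    simp only [h01, zero_mul, mul_assoc, hu, mul_one] at this
    exact this
  have g11 : ((g 1 1 : ℤ) : ZMod R) = ((h 1 1 : ℤ) : ZMod R) := by
    have := congrArg (· * u) e11
    simp only [mul_assoc, hu, mul_one] at this
    rw [mul_comm ((h 1 1 : ℤ) : ZMod R) u, ← mul_assoc, hu, one_mul] at this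
    exact this
  ext i j
  rw [S41E_red_apply, S41E_red_apply]
  fin_cases i <;> fin_cases j
  · exact e00
  · exact g01.trans h01.symm
  · show ((g 1 0 : ℤ) : ZMod R) = ((h 1 0 : ℤ) : ZMod R)
    rw [e10, h10, mul_zero]
  · exact g11

/-- equal reductions modulo `R` give the same value of a class trivial on `Γ₀(N) ∩ Γ(R)`. -/
theorem S41E_eq_of_red_eq {N : ℕ} {M : Type*} [AddCommGroup M] (χ : Additive (Gamma0 N) →+ M)
    {R : ℕ} (hcong : ∀ γ : Gamma0 N, (γ : SL(2, ℤ)) ∈ Gamma R → χ (Additive.ofMul γ) = 0)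
    (g h : Gamma0 N)
    (hred : S41E_red R ((g : SL(2, ℤ)) : Matrix (Fin 2) (Fin 2) ℤ)
      = S41E_red R ((h : SL(2, ℤ)) : Matrix (Fin 2) (Fin 2) ℤ)) :
    χ (Additive.ofMul g) = χ (Additive.ofMul h) := by
  have hmem : ((g * h⁻¹ : Gamma0 N) : SL(2, ℤ)) ∈ Gamma R := by
    rw [Gamma_mem']
    have hmap : SpecialLinearGroup.map (Int.castRingHom (ZMod R)) (g : SL(2, ℤ))
        = SpecialLinearGroup.map (Int.castRingHom (ZMod R)) (h : SL(2, ℤ)) :=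
      Subtype.ext hred
    show SpecialLinearGroup.map (Int.castRingHom (ZMod R)) ((g : SL(2, ℤ)) * (h : SL(2, ℤ))⁻¹) = 1
    rw [map_mul, map_inv, hmap, mul_inv_cancel]
  have h0 := hcong _ hmem
  have e : Additive.ofMul g = Additive.ofMul (g * h⁻¹) + Additive.ofMul h := by
    rw [← ofMul_mul, inv_mul_cancel_right]
  rw [e, map_add, h0, zero_add]

/-- `U(x)` as an element of `Γ₀(N)`. -/
def S41E_pU (N : ℕ) (x : ℤ) : Gamma0 N := ⟨S41E_U x, S41E_U_mem N x⟩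

/-- `L(N z)` as an element of `Γ₀(N)`. -/
def S41E_pL (N : ℕ) (z : ℤ) : Gamma0 N := ⟨S41E_L ((N : ℤ) * z), S41E_L_mem (dvd_mul_right _ _)⟩

theorem S41E_chi_pU {N : ℕ} {M : Type*} [AddCommGroup M] (χ : Additive (Gamma0 N) →+ M)
    (hpar : IsParabolicHom (Gamma0 N) χ) (x : ℤ) : χ (Additive.ofMul (S41E_pU N x)) = 0 :=
  hpar _ (S41E_U_trace x)

theorem S41E_chi_pL {N : ℕ} {M : Type*} [AddCommGroup M] (χ : Additive (Gamma0 N) →+ M)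
    (hpar : IsParabolicHom (Gamma0 N) χ) (z : ℤ) : χ (Additive.ofMul (S41E_pL N z)) = 0 :=
  hpar _ (S41E_L_trace _)

/-- **Key lemma**: a parabolic class trivial on `Γ₀(N) ∩ Γ(R)` is invariant under conjugation by
`diag(1, ℓ)` modulo `R`. -/
theorem S41E_key {N : ℕ} {M : Type*} [AddCommGroup M] (χ : Additive (Gamma0 N) →+ M)
    (hpar : IsParabolicHom (Gamma0 N) χ) {R : ℕ} (hR : R ≠ 0) (hNR : N ∣ R)
    (hcong : ∀ γ : Gamma0 N, (γ : SL(2, ℤ)) ∈ Gamma R → χ (Additive.ofMul γ) = 0)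
    {ℓ : ℤ} (hℓ : IsCoprime ℓ (R : ℤ)) (g h : Gamma0 N)
    (hrel : S41E_Rel R ℓ (g : SL(2, ℤ)) (h : SL(2, ℤ))) :
    χ (Additive.ofMul g) = χ (Additive.ofMul h) := by
  have hh : (N : ℤ) ∣ (h : SL(2, ℤ)) 1 0 :=
    (ZMod.intCast_zmod_eq_zero_iff_dvd _ _).mp (Gamma0_mem.mp h.2)
  obtain ⟨x, y, z, h01, h10⟩ := S41E_exists_diag hR hNR (h : SL(2, ℤ)) hh
  obtain ⟨u, v, huv⟩ := hℓ
  have hu : (ℓ : ZMod R) * (u : ZMod R) = 1 := by
    have : (ℓ * u : ℤ) = 1 - v * (R : ℤ) := by linarith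
    have h2 := congrArg (Int.cast : ℤ → ZMod R) this
    push_cast at h2
    rw [h2, ZMod.natCast_self, mul_zero, sub_zero]
  have hux : ∀ t : ℤ, ((ℓ * (u * t) : ℤ) : ZMod R) = (t : ZMod R) := by
    intro t
    push_cast
    rw [← mul_assoc, hu, one_mul]
  set h' : Gamma0 N := S41E_pU N x * (h * S41E_pU N y * S41E_pL N z) with hh'
  set g' : Gamma0 N := S41E_pU N (u * x) * (g * S41E_pU N (u * y) * S41E_pL N (ℓ * z)) with hg'
  have hrel' : S41E_Rel R ℓ (g' : SL(2, ℤ)) (h' : SL(2, ℤ)) := by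
    have hL : S41E_Rel R ℓ (S41E_L ((N : ℤ) * (ℓ * z))) (S41E_L ((N : ℤ) * z)) := by
      have := S41E_Rel_L (R := R) (ℓ := ℓ) ((N : ℤ) * z)
      rwa [show ℓ * ((N : ℤ) * z) = (N : ℤ) * (ℓ * z) by ring] at this
    exact (S41E_Rel_U (hux x)).mul ((hrel.mul (S41E_Rel_U (hux y))).mul hL)
  have hred := S41E_Rel_diag hu hrel' h01 h10
  have e1 := S41E_eq_of_red_eq χ hcong g' h' hred
  have eg : χ (Additive.ofMul g') = χ (Additive.ofMul g) := by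
    rw [hg', ofMul_mul, ofMul_mul, ofMul_mul, map_add, map_add, map_add, S41E_chi_pU χ hpar,
      S41E_chi_pU χ hpar, S41E_chi_pL χ hpar, zero_add, add_zero, add_zero]
  have eh : χ (Additive.ofMul h') = χ (Additive.ofMul h) := by
    rw [hh', ofMul_mul, ofMul_mul, ofMul_mul, map_add, map_add, map_add, S41E_chi_pU χ hpar,
      S41E_chi_pU χ hpar, S41E_chi_pL χ hpar, zero_add, add_zero, add_zero]
  rw [← eg, e1, eh]

/-! ### the Hecke representatives as integral matrices -/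

/-- the integral matrices behind `heckeRep ℓ`. -/
def S41E_A (ℓ : ℕ) (i : OnePoint (ZMod ℓ)) : Matrix (Fin 2) (Fin 2) ℤ :=
  i.elim !![(ℓ : ℤ), 0; 0, 1] (fun j => !![1, (j.val : ℤ); 0, (ℓ : ℤ)])

theorem S41E_A_infty (ℓ : ℕ) : S41E_A ℓ (OnePoint.infty) = !![(ℓ : ℤ), 0; 0, 1] := rfl

theorem S41E_A_coe (ℓ : ℕ) (j : ZMod ℓ) :
    S41E_A ℓ (j : OnePoint (ZMod ℓ)) = !![1, (j.val : ℤ); 0, (ℓ : ℤ)] := rfl

theorem S41E_heckeRep_val {ℓ : ℕ} (hℓ : ℓ ≠ 0) (i : OnePoint (ZMod ℓ)) :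
    ((heckeRep ℓ i : GL (Fin 2) ℝ) : Matrix (Fin 2) (Fin 2) ℝ)
      = (S41E_A ℓ i).map (Int.cast : ℤ → ℝ) := by
  induction i using OnePoint.rec with
  | infty =>
    rw [heckeRep_infty, val_heckeDiagMatrix hℓ, S41E_A_infty]
    ext a b
    fin_cases a <;> fin_cases b <;> simp
  | coe j =>
    rw [heckeRep_coe, val_heckeMatrix hℓ, S41E_A_coe]
    ext a b
    fin_cases a <;> fin_cases b <;> simp

/-- the integral form of the coset relation. -/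
theorem S41E_int_of_hmul {ℓ : ℕ} (hℓ : ℓ ≠ 0) (i i' : OnePoint (ZMod ℓ)) (γ g : SL(2, ℤ))
    (hmul : heckeRep ℓ i * mapGL ℝ γ = mapGL ℝ g * heckeRep ℓ i') :
    S41E_A ℓ i * (γ : Matrix (Fin 2) (Fin 2) ℤ) = (g : Matrix (Fin 2) (Fin 2) ℤ) * S41E_A ℓ i' := by
  have h := congrArg (fun x : GL (Fin 2) ℝ => (x : Matrix (Fin 2) (Fin 2) ℝ)) hmul
  simp only [Units.val_mul, S41E_heckeRep_val hℓ] at h
  have h' : (Int.castRingHom ℝ).mapMatrix (S41E_A ℓ i)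
        * (Int.castRingHom ℝ).mapMatrix (γ : Matrix (Fin 2) (Fin 2) ℤ)
      = (Int.castRingHom ℝ).mapMatrix (g : Matrix (Fin 2) (Fin 2) ℤ)
        * (Int.castRingHom ℝ).mapMatrix (S41E_A ℓ i') := h
  rw [← map_mul, ← map_mul] at h'
  have hinj : Function.Injective ((Int.castRingHom ℝ).mapMatrix (m := Fin 2)) := by
    intro A B hAB
    exact Matrix.map_injective (RingHom.injective_int (Int.castRingHom ℝ)) hAB
  exact hinj h'

/-! ### the elements `β_i ∈ Γ₀(N)` with `A_i ≡ δ β_i mod R` -/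

/-- an element of `Γ₀(N)` congruent to `diag(ℓ, ℓ⁻¹)` modulo `R`. -/
theorem S41E_exists_betaInf {N R : ℕ} (hNR : N ∣ R) {ℓ : ℤ} (hℓ : IsCoprime ℓ (R : ℤ)) :
    ∃ β : Gamma0 N, S41E_delta R ℓ * S41E_red R ((β : SL(2, ℤ)) : Matrix (Fin 2) (Fin 2) ℤ)
      = !![(ℓ : ZMod R), 0; 0, 1] := by
  obtain ⟨u, v, huv⟩ := hℓ
  -- `d = u (2 - u ℓ)`, `ℓ d = 1 - (v R)²`
  have hdet : (!![ℓ, (R : ℤ); -(v ^ 2 * R), u * (2 - u * ℓ)] : Matrix (Fin 2) (Fin 2) ℤ).det = 1 := by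
    rw [Matrix.det_fin_two_of]
    have : v * (R : ℤ) = 1 - u * ℓ := by linarith
    have h2 : ℓ * (u * (2 - u * ℓ)) - (R : ℤ) * -(v ^ 2 * R) = 1 - (1 - u * ℓ) ^ 2 + (v * R) ^ 2 := by
      ring
    rw [h2, this]; ring
  let B : SL(2, ℤ) := ⟨!![ℓ, (R : ℤ); -(v ^ 2 * R), u * (2 - u * ℓ)], hdet⟩
  have hmem : B ∈ Gamma0 N := by
    rw [Gamma0_mem]
    show (((!![ℓ, (R : ℤ); -(v ^ 2 * R), u * (2 - u * ℓ)] : Matrix (Fin 2) (Fin 2) ℤ) 1 0 : ℤ) :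
      ZMod N) = 0
    obtain ⟨R', rfl⟩ := hNR
    simp
  refine ⟨⟨B, hmem⟩, ?_⟩
  show S41E_delta R ℓ * S41E_red R !![ℓ, (R : ℤ); -(v ^ 2 * R), u * (2 - u * ℓ)] = _
  rw [S41E_red_of, S41E_delta]
  have hR0 : ((R : ℤ) : ZMod R) = 0 := by simp
  have hd : (ℓ : ZMod R) * ((u * (2 - u * ℓ) : ℤ) : ZMod R) = 1 := by
    have e : ℓ * (u * (2 - u * ℓ)) = 1 - (v * (R : ℤ)) ^ 2 := by
      have : v * (R : ℤ) = 1 - u * ℓ := by linarith
      rw [this]; ring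
    have e2 := congrArg (Int.cast : ℤ → ZMod R) e
    push_cast at e2 ⊢
    rw [e2]
    simp
  ext a b
  fin_cases a <;> fin_cases b
  · simp [Matrix.mul_apply, Fin.sum_univ_two]
  · simp [Matrix.mul_apply, Fin.sum_univ_two]
  · simp [Matrix.mul_apply, Fin.sum_univ_two]
  · simpa [Matrix.mul_apply, Fin.sum_univ_two] using hd

theorem S41E_delta_mul_U (R : ℕ) (ℓ : ℕ) (j : ZMod ℓ) :
    S41E_delta R (ℓ : ℤ) * S41E_red R ((S41E_U (j.val : ℤ) : SL(2, ℤ)) : Matrix (Fin 2) (Fin 2) ℤ)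
      = S41E_red R (S41E_A ℓ (j : OnePoint (ZMod ℓ))) := by
  rw [S41E_U_coe, S41E_A_coe, S41E_red_of, S41E_red_of, S41E_delta]
  ext a b
  fin_cases a <;> fin_cases b <;> simp [Matrix.mul_apply, Fin.sum_univ_two]

/-- the family `β_i`. -/
theorem S41E_exists_beta {N R : ℕ} (hNR : N ∣ R) {ℓ : ℕ} (hℓ : IsCoprime (ℓ : ℤ) (R : ℤ)) :
    ∃ β : OnePoint (ZMod ℓ) → Gamma0 N, ∀ i,
      S41E_delta R (ℓ : ℤ) * S41E_red R (((β i : Gamma0 N) : SL(2, ℤ)) : Matrix (Fin 2) (Fin 2) ℤ)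
        = S41E_red R (S41E_A ℓ i) := by
  obtain ⟨β₀, hβ₀⟩ := S41E_exists_betaInf (N := N) hNR hℓ
  refine ⟨fun i => i.elim β₀ (fun j => S41E_pU N (j.val : ℤ)), fun i => ?_⟩
  induction i using OnePoint.rec with
  | infty =>
    show S41E_delta R (ℓ : ℤ) * S41E_red R (((β₀ : Gamma0 N) : SL(2, ℤ)) : Matrix (Fin 2) (Fin 2) ℤ)
      = S41E_red R (S41E_A ℓ OnePoint.infty)
    rw [hβ₀, S41E_A_infty, S41E_red_of]
    simp
  | coe j => exact S41E_delta_mul_U R ℓ j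

/-- the relation `g'_i ≡ δ (β_i γ β_{σ i}⁻¹) δ⁻¹`. -/
theorem S41E_rel_of_int {R : ℕ} {ℓ : ℤ} {A A' : Matrix (Fin 2) (Fin 2) ℤ} {β β' γ g : SL(2, ℤ)}
    (hA : S41E_delta R ℓ * S41E_red R (β : Matrix (Fin 2) (Fin 2) ℤ) = S41E_red R A)
    (hA' : S41E_delta R ℓ * S41E_red R (β' : Matrix (Fin 2) (Fin 2) ℤ) = S41E_red R A')
    (hint : A * (γ : Matrix (Fin 2) (Fin 2) ℤ) = (g : Matrix (Fin 2) (Fin 2) ℤ) * A') :
    S41E_Rel R ℓ g (β * γ * β'⁻¹) := by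
  rw [S41E_Rel_iff, S41E_red_mul, S41E_red_mul]
  have h1 := congrArg (S41E_red R) hint
  rw [map_mul, map_mul, ← hA, ← hA'] at h1
  -- h1 : δ β γ = g δ β'
  calc S41E_red R (g : Matrix (Fin 2) (Fin 2) ℤ) * S41E_delta R ℓ
      = S41E_red R (g : Matrix (Fin 2) (Fin 2) ℤ) * (S41E_delta R ℓ
          * (S41E_red R (β' : Matrix (Fin 2) (Fin 2) ℤ)
            * S41E_red R ((β'⁻¹ : SL(2, ℤ)) : Matrix (Fin 2) (Fin 2) ℤ))) := by
        rw [S41E_red_mul_inv, Matrix.mul_one]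
    _ = (S41E_red R (g : Matrix (Fin 2) (Fin 2) ℤ) * (S41E_delta R ℓ
          * S41E_red R (β' : Matrix (Fin 2) (Fin 2) ℤ)))
            * S41E_red R ((β'⁻¹ : SL(2, ℤ)) : Matrix (Fin 2) (Fin 2) ℤ) := by
        simp only [Matrix.mul_assoc]
    _ = (S41E_delta R ℓ * S41E_red R (β : Matrix (Fin 2) (Fin 2) ℤ)
          * S41E_red R (γ : Matrix (Fin 2) (Fin 2) ℤ))
            * S41E_red R ((β'⁻¹ : SL(2, ℤ)) : Matrix (Fin 2) (Fin 2) ℤ) := by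
        rw [h1]
    _ = _ := by simp only [Matrix.mul_assoc]

/-! ### the theorem -/

/-- **EIS**: a parabolic class `χ : Γ₀(N) → M` which is trivial on `Γ₀(N) ∩ Γ(R)` satisfies
`T_ℓ χ = (ℓ + 1) χ` (coset formula) for every prime `ℓ ∤ N R`. -/
theorem S41E_eisenstein {N : ℕ} [NeZero N] {M : Type*} [AddCommGroup M]
    (χ : Additive (Gamma0 N) →+ M) (hpar : IsParabolicHom (Gamma0 N) χ) (R : ℕ) (hR : 0 < R)
    (hcong : ∀ γ : Gamma0 N, (γ : SL(2, ℤ)) ∈ Gamma R → χ (Additive.ofMul γ) = 0)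
    {ℓ : ℕ} [Fact ℓ.Prime] (hℓN : ¬ ℓ ∣ N) (hℓR : ¬ ℓ ∣ R) (γ : Gamma0 N)
    (σ : Equiv.Perm (OnePoint (ZMod ℓ))) (g' : OnePoint (ZMod ℓ) → Gamma0 N)
    (hmul : ∀ i, heckeRep ℓ i * mapGL ℝ (γ : SL(2, ℤ))
      = mapGL ℝ (g' i : SL(2, ℤ)) * heckeRep ℓ (σ i)) :
    ∑ i, χ (Additive.ofMul (g' i)) = (ℓ + 1) • χ (Additive.ofMul γ) := by
  have hp : ℓ.Prime := Fact.out
  -- replace `R` by `N * R`
  have hR' : N * R ≠ 0 := Nat.mul_ne_zero (NeZero.ne N) hR.ne'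
  have hcong' : ∀ γ : Gamma0 N, (γ : SL(2, ℤ)) ∈ Gamma (N * R) → χ (Additive.ofMul γ) = 0 := by
    intro γ hγ
    apply hcong γ
    rw [Gamma_mem] at hγ ⊢
    have hcast : ∀ a : ℤ, ∀ b : ℤ, ((a : ℤ) : ZMod (N * R)) = (b : ZMod (N * R)) →
        ((a : ℤ) : ZMod R) = (b : ZMod R) := by
      intro a b hab
      rw [ZMod.intCast_eq_intCast_iff_dvd_sub] at hab ⊢
      exact (Int.natCast_dvd_natCast.mpr (Dvd.intro_left N rfl)).trans hab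
    refine ⟨?_, ?_, ?_, ?_⟩
    · have := hcast _ 1 (by simpa using hγ.1); simpa using this
    · have := hcast _ 0 (by simpa using hγ.2.1); simpa using this
    · have := hcast _ 0 (by simpa using hγ.2.2.1); simpa using this
    · have := hcast _ 1 (by simpa using hγ.2.2.2); simpa using this
  have hcop : IsCoprime (ℓ : ℤ) ((N * R : ℕ) : ℤ) := by
    rw [Int.isCoprime_iff_gcd_eq_one, Int.gcd_natCast_natCast]
    exact (Nat.Prime.coprime_iff_not_dvd hp).mpr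
      (fun h => (hp.dvd_mul.mp h).elim hℓN hℓR)
  obtain ⟨β, hβ⟩ := S41E_exists_beta (N := N) (R := N * R) (Dvd.intro R rfl) hcop
  have hrel : ∀ i, S41E_Rel (N * R) (ℓ : ℤ) ((g' i : Gamma0 N) : SL(2, ℤ))
      (((β i * γ * (β (σ i))⁻¹ : Gamma0 N)) : SL(2, ℤ)) := fun i =>
    S41E_rel_of_int (hβ i) (hβ (σ i)) (S41E_int_of_hmul hp.ne_zero i (σ i) _ _ (hmul i))
  have hval : ∀ i, χ (Additive.ofMul (g' i))
      = χ (Additive.ofMul (β i)) + χ (Additive.ofMul γ) - χ (Additive.ofMul (β (σ i))) := by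
    intro i
    rw [S41E_key χ hpar hR' (Dvd.intro R rfl) hcong' hcop (g' i) _ (hrel i), ofMul_mul, ofMul_mul,
      ofMul_inv, map_add, map_add, map_neg, sub_eq_add_neg]
  simp only [hval, Finset.sum_sub_distrib, Finset.sum_add_distrib, Finset.sum_const,
    Finset.card_univ]
  rw [Equiv.sum_comp σ (fun i => χ (Additive.ofMul (β i)))]
  have hcard : Fintype.card (OnePoint (ZMod ℓ)) = ℓ + 1 := by
    have : Fintype.card (Option (ZMod ℓ)) = ℓ + 1 := by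
      rw [Fintype.card_option, ZMod.card]
    exact this
  rw [hcard]
  abel

end Fermat.Agent.S41
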