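import Fermat.Agent.S41.HKRed
import Fermat.Agent.S41.Amalgam

/-!
# S41 / HK-CORE (helper7), part 2: the Hecke–Kummer identity

`ψ : G = Γ₀(N)[1/q] → k` a homomorphism (char `k = p`) killing the unipotent elements
`u_x` and `l_{Ny}` (`x, y ∈ ℤ[1/q]`).  Let `γ ∈ G` have lower left entry `c`, let `r ≠ q` be a prime
with `r ≡ 1 mod c`, `q^{2m} ≡ 1 mod c` (in `ℤ[1/q]`) and `p ∣ ord_r(q^{2m})`.  Then for ANY coset data
`A_r i · γ = g' i · A_r (σ i)` (`A_r ∞ = diag(r,1)`, `A_r j = (1 j; 0 r)`):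

  `∑ i, ψ (g' i) = 2 • ψ γ`        (`S41H_core`).

Proof: the two cosets which change type contribute `ψ γ` each; the others have bottom rows
`(r c, y)`, `y ≡ d mod c`, `y mod r` running through `𝔽_r^×`, and `ψ` of such a row is invariant under
`y ↦ q^{2m} y`; the orbits of `q^{2m}` on `𝔽_r^×` have size divisible by `p`.
-/

set_option autoImplicit false
set_option linter.unusedSimpArgs false
set_option linter.unusedVariables false

open Matrix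
open scoped MatrixGroups

noncomputable section

/-- the Hecke coset representatives over `ℚ`: `A ∞ = diag(r,1)`, `A j = (1 j; 0 r)`. -/
def S41H_A (r : ℕ) (i : OnePoint (ZMod r)) : Matrix (Fin 2) (Fin 2) ℚ :=
  i.elim !![(r : ℚ), 0; 0, 1] (fun j => !![1, (j.val : ℚ); 0, (r : ℚ)])

theorem S41H_A_infty (r : ℕ) : S41H_A r OnePoint.infty = !![(r : ℚ), 0; 0, 1] := rfl

theorem S41H_A_coe (r : ℕ) (j : ZMod r) :
    S41H_A r (j : OnePoint (ZMod r)) = !![1, (j.val : ℚ); 0, (r : ℚ)] := rfl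

/-! ### bottom rows from the coset relation -/

section rows

variable {r : ℕ} {M g : SL(2, ℚ)}

theorem S41H_rows_ii
    (h : S41H_A r OnePoint.infty * (M : Matrix (Fin 2) (Fin 2) ℚ)
      = (g : Matrix (Fin 2) (Fin 2) ℚ) * S41H_A r OnePoint.infty) :
    g 1 0 * (r : ℚ) = M 1 0 ∧ g 1 1 = M 1 1 := by
  have h0 := congrFun (congrFun h 1) 0
  have h1 := congrFun (congrFun h 1) 1
  simp only [S41H_A_infty, Matrix.mul_apply, Fin.sum_univ_two, Matrix.of_apply, Matrix.cons_val_zero,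
    Matrix.cons_val_one, Matrix.cons_val', Matrix.cons_val_fin_one] at h0 h1
  constructor
  · linarith
  · linarith

theorem S41H_rows_if {j' : ZMod r}
    (h : S41H_A r OnePoint.infty * (M : Matrix (Fin 2) (Fin 2) ℚ)
      = (g : Matrix (Fin 2) (Fin 2) ℚ) * S41H_A r (j' : OnePoint (ZMod r))) :
    g 1 0 = M 1 0 ∧ g 1 0 * (j'.val : ℚ) + g 1 1 * (r : ℚ) = M 1 1 := by
  have h0 := congrFun (congrFun h 1) 0
  have h1 := congrFun (congrFun h 1) 1
  simp only [S41H_A_infty, S41H_A_coe, Matrix.mul_apply, Fin.sum_univ_two, Matrix.of_apply,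
    Matrix.cons_val_zero, Matrix.cons_val_one, Matrix.cons_val', Matrix.cons_val_fin_one] at h0 h1
  constructor
  · linarith
  · linarith

theorem S41H_rows_fi {j : ZMod r}
    (h : S41H_A r (j : OnePoint (ZMod r)) * (M : Matrix (Fin 2) (Fin 2) ℚ)
      = (g : Matrix (Fin 2) (Fin 2) ℚ) * S41H_A r OnePoint.infty) :
    g 1 0 * (r : ℚ) = (r : ℚ) * M 1 0 ∧ g 1 1 = (r : ℚ) * M 1 1 := by
  have h0 := congrFun (congrFun h 1) 0
  have h1 := congrFun (congrFun h 1) 1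
  simp only [S41H_A_infty, S41H_A_coe, Matrix.mul_apply, Fin.sum_univ_two, Matrix.of_apply,
    Matrix.cons_val_zero, Matrix.cons_val_one, Matrix.cons_val', Matrix.cons_val_fin_one] at h0 h1
  constructor
  · linarith
  · linarith

theorem S41H_rows_ff {j j' : ZMod r}
    (h : S41H_A r (j : OnePoint (ZMod r)) * (M : Matrix (Fin 2) (Fin 2) ℚ)
      = (g : Matrix (Fin 2) (Fin 2) ℚ) * S41H_A r (j' : OnePoint (ZMod r))) :
    g 1 0 = (r : ℚ) * M 1 0 ∧ g 1 0 * (j'.val : ℚ) + g 1 1 * (r : ℚ) = (r : ℚ) * M 1 1 := by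
  have h0 := congrFun (congrFun h 1) 0
  have h1 := congrFun (congrFun h 1) 1
  simp only [S41H_A_coe, Matrix.mul_apply, Fin.sum_univ_two, Matrix.of_apply,
    Matrix.cons_val_zero, Matrix.cons_val_one, Matrix.cons_val', Matrix.cons_val_fin_one] at h0 h1
  constructor
  · linarith
  · linarith

end rows

/-! ### the row symbol -/

section symbol

variable {N q : ℕ} {k : Type*} [AddCommGroup k]

/-- `ψ` kills the upper unipotent elements of `G` (entrywise form). -/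
def S41H_KillsU (ψ : Additive (S41A_G N q) →+ k) : Prop :=
  ∀ g : S41A_G N q, (g : SL(2, ℚ)) 1 0 = 0 → (g : SL(2, ℚ)) 0 0 = 1 → ψ (Additive.ofMul g) = 0

/-- `ψ` kills the lower unipotent elements of `G` (entrywise form). -/
def S41H_KillsL (ψ : Additive (S41A_G N q) →+ k) : Prop :=
  ∀ g : S41A_G N q, (g : SL(2, ℚ)) 0 1 = 0 → (g : SL(2, ℚ)) 0 0 = 1 → ψ (Additive.ofMul g) = 0

theorem S41H_psi_mul (ψ : Additive (S41A_G N q) →+ k) (g h : S41A_G N q) :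
    ψ (Additive.ofMul (g * h)) = ψ (Additive.ofMul g) + ψ (Additive.ofMul h) := by
  rw [ofMul_mul, map_add]

theorem S41H_psi_inv (ψ : Additive (S41A_G N q) →+ k) (g : S41A_G N q) :
    ψ (Additive.ofMul g⁻¹) = - ψ (Additive.ofMul g) := by
  rw [ofMul_inv, map_neg]

theorem S41H_coe_mul (g h : S41A_G N q) :
    ((g * h : S41A_G N q) : SL(2, ℚ)) = (g : SL(2, ℚ)) * (h : SL(2, ℚ)) := rfl

theorem S41H_coe_inv (g : S41A_G N q) :
    ((g⁻¹ : S41A_G N q) : SL(2, ℚ)) = (g : SL(2, ℚ))⁻¹ := rfl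

/-- two elements of `G` with the same bottom row have the same `ψ`. -/
theorem S41H_same_row {ψ : Additive (S41A_G N q) →+ k} (hU : S41H_KillsU ψ) (g₁ g₂ : S41A_G N q)
    (h0 : (g₁ : SL(2, ℚ)) 1 0 = (g₂ : SL(2, ℚ)) 1 0)
    (h1 : (g₁ : SL(2, ℚ)) 1 1 = (g₂ : SL(2, ℚ)) 1 1) :
    ψ (Additive.ofMul g₁) = ψ (Additive.ofMul g₂) := by
  have hu : ψ (Additive.ofMul (g₂ * g₁⁻¹)) = 0 := by
    apply hU
    · rw [S41H_coe_mul, S41H_coe_inv, S41A_mul_10, S41A_inv_00, S41A_inv_10, h0, h1]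
      ring
    · rw [S41H_coe_mul, S41H_coe_inv, S41A_mul_00, S41A_inv_00, S41A_inv_10, h0, h1]
      have := S41A_det_eq (g₂ : SL(2, ℚ))
      linarith
  rw [S41H_psi_mul, S41H_psi_inv] at hu
  have : ψ (Additive.ofMul g₂) = ψ (Additive.ofMul g₁) := by
    rw [← sub_eq_zero, sub_eq_add_neg]; exact hu
  exact this.symm

theorem S41H_up_mem {x : ℚ} (hx : x ∈ S41A_R q) : S41A_up x ∈ S41A_G N q := by
  refine ⟨⟨?_, ?_, ?_⟩, 0, zero_mem _, ?_⟩
  · show (1 : ℚ) ∈ S41A_R q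
    exact one_mem _
  · exact hx
  · show (1 : ℚ) ∈ S41A_R q
    exact one_mem _
  · show (0 : ℚ) = N * 0
    ring

/-- lower unipotent `[[1,0],[y,1]]`. -/
def S41H_low (y : ℚ) : SL(2, ℚ) := S41A_mk 1 0 y 1 (by ring)

theorem S41H_low_mem {y : ℚ} (hy : y ∈ S41A_R q) : S41H_low ((N : ℚ) * y) ∈ S41A_G N q := by
  refine ⟨⟨?_, ?_, ?_⟩, y, hy, rfl⟩
  · show (1 : ℚ) ∈ S41A_R q
    exact one_mem _
  · show (0 : ℚ) ∈ S41A_R q
    exact zero_mem _
  · show (1 : ℚ) ∈ S41A_R q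
    exact one_mem _

theorem S41H_diag_mem {t : ℚˣ} (ht : (t : ℚ) ∈ S41A_R q) (ht' : ((t : ℚ))⁻¹ ∈ S41A_R q) :
    S41A_diag t ∈ S41A_G N q := by
  refine ⟨⟨ht, ?_, ht'⟩, 0, zero_mem _, ?_⟩
  · show (0 : ℚ) ∈ S41A_R q
    exact zero_mem _
  · show (0 : ℚ) = N * 0
    ring

/-- shifting the second entry of the bottom row by a multiple of the first does not change `ψ`. -/
theorem S41H_shift {ψ : Additive (S41A_G N q) →+ k} (hU : S41H_KillsU ψ) (g₁ g₂ : S41A_G N q)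
    {x : ℚ} (hx : x ∈ S41A_R q)
    (h0 : (g₂ : SL(2, ℚ)) 1 0 = (g₁ : SL(2, ℚ)) 1 0)
    (h1 : (g₂ : SL(2, ℚ)) 1 1 = (g₁ : SL(2, ℚ)) 1 1 + (g₁ : SL(2, ℚ)) 1 0 * x) :
    ψ (Additive.ofMul g₂) = ψ (Additive.ofMul g₁) := by
  let u : S41A_G N q := ⟨S41A_up x, S41H_up_mem hx⟩
  have hu : ψ (Additive.ofMul u) = 0 := hU u rfl rfl
  have h : ψ (Additive.ofMul g₂) = ψ (Additive.ofMul (g₁ * u)) := by
    apply S41H_same_row hU
    · rw [S41H_coe_mul, S41A_mul_10, h0]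
      show _ = (g₁ : SL(2, ℚ)) 1 0 * 1 + (g₁ : SL(2, ℚ)) 1 1 * 0
      ring
    · rw [S41H_coe_mul, S41A_mul_11, h1]
      show _ = (g₁ : SL(2, ℚ)) 1 0 * x + (g₁ : SL(2, ℚ)) 1 1 * 1
      ring
  rw [h, S41H_psi_mul, hu, add_zero]

/-- `ψ (diag(σ, σ⁻¹)) = 0` for a unit `σ ≡ 1 mod N`:
`diag(σ,σ⁻¹) = u(−σ) · l(σ⁻¹ − 1) · u(1) · l(σ − 1)`. -/
theorem S41H_psi_diag {ψ : Additive (S41A_G N q) →+ k} (hU : S41H_KillsU ψ) (hL : S41H_KillsL ψ)
    {t : ℚˣ} (ht : (t : ℚ) ∈ S41A_R q) (ht' : ((t : ℚ))⁻¹ ∈ S41A_R q)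
    {y : ℚ} (hy : y ∈ S41A_R q) (hty : (t : ℚ) - 1 = N * y) :
    ψ (Additive.ofMul (⟨S41A_diag t, S41H_diag_mem ht ht'⟩ : S41A_G N q)) = 0 := by
  have ht0 : (t : ℚ) ≠ 0 := t.ne_zero
  have hy' : -(y * (t : ℚ)⁻¹) ∈ S41A_R q := neg_mem (mul_mem hy ht')
  have e1 : ((t : ℚ))⁻¹ - 1 = N * (-(y * (t : ℚ)⁻¹)) := by
    have : (t : ℚ) = 1 + N * y := by linarith
    field_simp
    linarith
  let u1 : S41A_G N q := ⟨S41A_up (-(t : ℚ)), S41H_up_mem (neg_mem ht)⟩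
  let l1 : S41A_G N q := ⟨S41H_low ((N : ℚ) * (-(y * (t : ℚ)⁻¹))), S41H_low_mem hy'⟩
  let u2 : S41A_G N q := ⟨S41A_up 1, S41H_up_mem (one_mem _)⟩
  let l2 : S41A_G N q := ⟨S41H_low ((N : ℚ) * y), S41H_low_mem hy⟩
  have hprod : (⟨S41A_diag t, S41H_diag_mem ht ht'⟩ : S41A_G N q) = u1 * l1 * u2 * l2 := by
    apply Subtype.ext
    show S41A_diag t = S41A_up (-(t : ℚ)) * S41H_low ((N : ℚ) * (-(y * (t : ℚ)⁻¹))) * S41A_up 1
      * S41H_low ((N : ℚ) * y)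
    rw [← e1, ← hty]
    apply S41A_ext
    · simp only [S41A_mul_00, S41A_mul_01, S41A_mul_10, S41A_mul_11, S41A_diag, S41A_up, S41H_low,
        S41A_mk_00, S41A_mk_01, S41A_mk_10, S41A_mk_11]
      field_simp
      ring
    · simp only [S41A_mul_00, S41A_mul_01, S41A_mul_10, S41A_mul_11, S41A_diag, S41A_up, S41H_low,
        S41A_mk_00, S41A_mk_01, S41A_mk_10, S41A_mk_11]
      field_simp
      ring
    · simp only [S41A_mul_00, S41A_mul_01, S41A_mul_10, S41A_mul_11, S41A_diag, S41A_up, S41H_low,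
        S41A_mk_00, S41A_mk_01, S41A_mk_10, S41A_mk_11]
      field_simp
      ring
    · simp only [S41A_mul_00, S41A_mul_01, S41A_mul_10, S41A_mul_11, S41A_diag, S41A_up, S41H_low,
        S41A_mk_00, S41A_mk_01, S41A_mk_10, S41A_mk_11]
      field_simp
      ring
  rw [hprod, S41H_psi_mul, S41H_psi_mul, S41H_psi_mul, hU u1 rfl rfl, hU u2 rfl rfl,
    hL l1 rfl rfl, hL l2 rfl rfl]
  simp

end symbol

end
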