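import Mathlib
import Fermat.Agent.S41.EisPar
import Fermat.Agent.S41.HKCore

/-!
# S41, IHARA at a non-Eisenstein maximal ideal: the `r`-tower argument (helper27)

`c : Γ₀(N) → A` a parabolic homomorphism which extends to a homomorphism `F` of
`G = Γ₀(N)[1/q]`.  For `γ ∈ Γ₀(N)` with bottom row `(c₀, d)`, `d ≠ 0`, and a prime `r ∤ N q`,
`r ≡ 1 mod d`, there is `y` such that for `γ' = γ · l_N^y` and ANY coset data
`α_i γ' = g'_i α_{σ i}` of `T_r`:   `∑ i, c (g' i) = (r + 1) • c γ`      (`S41I_tower`).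

* `S41I_killsU`, `S41I_killsL` : `F` kills the unipotent elements of `G`.
* `S41I_unit_inv` : `c g'' = c g` if `g''` has bottom row `(C, q^(2m) D + x C)`, `(C, D)` the bottom
  row of `g`, `q^m ≡ 1 mod N` (this is where the unit `q` is used).
-/

set_option autoImplicit false

open CongruenceSubgroup Matrix Matrix.SpecialLinearGroup ModularCurve.Period
open scoped MatrixGroups
open P2MW.S_ModularForm_heckeT_slash_eq_self_of_mem_Gamma0.ModularForm.HeckeSlashInvariance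
open ModularForm

namespace Fermat.Agent.S41

/-! ### unipotent elements of `G` -/

theorem S41I_up_mul (x y : ℚ) : S41A_up x * S41A_up y = S41A_up (x + y) := by
  apply S41A_ext
  · rw [S41A_mul_00]; simp [S41A_up]
  · rw [S41A_mul_01]; simp [S41A_up]; ring
  · rw [S41A_mul_10]; simp [S41A_up]
  · rw [S41A_mul_11]; simp [S41A_up]

theorem S41I_low_mul (x y : ℚ) : S41H_low x * S41H_low y = S41H_low (x + y) := by
  apply S41A_ext
  · rw [S41A_mul_00]; simp [S41H_low]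
  · rw [S41A_mul_01]; simp [S41H_low]
  · rw [S41A_mul_10]; simp [S41H_low]
  · rw [S41A_mul_11]; simp [S41H_low]

theorem S41I_up_zero : S41A_up 0 = 1 := by
  apply S41A_ext
  · rw [S41A_one_00]; simp [S41A_up]
  · rw [S41A_one_01]; simp [S41A_up]
  · rw [S41A_one_10]; simp [S41A_up]
  · rw [S41A_one_11]; simp [S41A_up]

theorem S41I_low_zero : S41H_low 0 = 1 := by
  apply S41A_ext
  · rw [S41A_one_00]; simp [S41H_low]
  · rw [S41A_one_01]; simp [S41H_low]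
  · rw [S41A_one_10]; simp [S41H_low]
  · rw [S41A_one_11]; simp [S41H_low]

theorem S41I_up_pow (x : ℚ) (n : ℕ) : S41A_up x ^ n = S41A_up (n * x) := by
  induction n with
  | zero => simp [S41I_up_zero]
  | succ n ih => rw [pow_succ, ih, S41I_up_mul]; congr 1; push_cast; ring

theorem S41I_low_pow (x : ℚ) (n : ℕ) : S41H_low x ^ n = S41H_low (n * x) := by
  induction n with
  | zero => simp [S41I_low_zero]
  | succ n ih => rw [pow_succ, ih, S41I_low_mul]; congr 1; push_cast; ring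

/-- the image of `U(m)` in `SL(2,ℚ)`. -/
theorem S41I_inc_U (m : ℤ) : S41A_inc (S41E_U m) = S41A_up (m : ℚ) := by
  apply S41A_ext
  · rw [S41A_inc_apply]
    show (((!![1, m; 0, 1] : Matrix (Fin 2) (Fin 2) ℤ) 0 0 : ℤ) : ℚ) = 1
    simp
  · rw [S41A_inc_apply]
    show (((!![1, m; 0, 1] : Matrix (Fin 2) (Fin 2) ℤ) 0 1 : ℤ) : ℚ) = (m : ℚ)
    simp
  · rw [S41A_inc_apply]
    show (((!![1, m; 0, 1] : Matrix (Fin 2) (Fin 2) ℤ) 1 0 : ℤ) : ℚ) = 0
    simp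
  · rw [S41A_inc_apply]
    show (((!![1, m; 0, 1] : Matrix (Fin 2) (Fin 2) ℤ) 1 1 : ℤ) : ℚ) = 1
    simp

/-- the image of `L(m)` in `SL(2,ℚ)`. -/
theorem S41I_inc_L (m : ℤ) : S41A_inc (S41E_L m) = S41H_low (m : ℚ) := by
  apply S41A_ext
  · rw [S41A_inc_apply]
    show (((!![1, 0; m, 1] : Matrix (Fin 2) (Fin 2) ℤ) 0 0 : ℤ) : ℚ) = 1
    simp
  · rw [S41A_inc_apply]
    show (((!![1, 0; m, 1] : Matrix (Fin 2) (Fin 2) ℤ) 0 1 : ℤ) : ℚ) = 0
    simp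
  · rw [S41A_inc_apply]
    show (((!![1, 0; m, 1] : Matrix (Fin 2) (Fin 2) ℤ) 1 0 : ℤ) : ℚ) = (m : ℚ)
    simp
  · rw [S41A_inc_apply]
    show (((!![1, 0; m, 1] : Matrix (Fin 2) (Fin 2) ℤ) 1 1 : ℤ) : ℚ) = 1
    simp

variable {N q : ℕ} {A : Type*} [AddCommGroup A]

theorem S41I_pow_smul_eq_zero (hqA : ∀ a : A, q • a = 0 → a = 0) (k : ℕ) (a : A)
    (h : (q ^ k) • a = 0) : a = 0 := by
  induction k with
  | zero => simpa using h
  | succ k ih =>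
    apply ih
    apply hqA
    rw [← mul_smul, ← pow_succ']
    exact h

/-- `F` kills the upper unipotent elements of `G`. -/
theorem S41I_killsU (hq : q.Prime) (hqA : ∀ a : A, q • a = 0 → a = 0)
    (F : Additive (S41A_G N q) →+ A) (c : Additive (Gamma0 N) →+ A)
    (hF : ∀ γ : Gamma0 N, F (Additive.ofMul (S41A_i1 N q γ)) = c (Additive.ofMul γ))
    (hpar : IsParabolicHom (Gamma0 N) c) : S41H_KillsU F := by
  intro g h10 h00
  have hq0 : q ≠ 0 := hq.ne_zero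
  have hqQ : (q : ℚ) ≠ 0 := by exact_mod_cast hq0
  obtain ⟨⟨-, hb, -⟩, -⟩ := S41A_mem_G_iff.1 g.2
  obtain ⟨m, k, hx⟩ := (S41A_mem_R_iff hq0 _).1 hb
  have hdet := S41A_det_eq (g : SL(2, ℚ))
  have h11 : (g : SL(2, ℚ)) 1 1 = 1 := by
    rw [h10, h00] at hdet; linarith
  have hg : (g : SL(2, ℚ)) = S41A_up ((m : ℚ) / (q : ℚ) ^ k) := by
    apply S41A_ext
    · rw [h00]; rfl
    · rw [hx]; rfl
    · rw [h10]; rfl
    · rw [h11]; rfl
  have hpow : g ^ (q ^ k) = S41A_i1 N q (S41E_pU N m) := by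
    apply Subtype.ext
    rw [S41A_i1_coe]
    show (g : SL(2, ℚ)) ^ (q ^ k) = S41A_inc (S41E_U m)
    rw [hg, S41I_up_pow, S41I_inc_U]
    congr 1
    push_cast
    field_simp
  apply S41I_pow_smul_eq_zero hqA k
  rw [← map_nsmul, ← ofMul_pow, hpow, hF]
  exact S41E_chi_pU c hpar m

/-- `F` kills the lower unipotent elements of `G`. -/
theorem S41I_killsL (hq : q.Prime) (hqA : ∀ a : A, q • a = 0 → a = 0)
    (F : Additive (S41A_G N q) →+ A) (c : Additive (Gamma0 N) →+ A)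
    (hF : ∀ γ : Gamma0 N, F (Additive.ofMul (S41A_i1 N q γ)) = c (Additive.ofMul γ))
    (hpar : IsParabolicHom (Gamma0 N) c) : S41H_KillsL F := by
  intro g h01 h00
  have hq0 : q ≠ 0 := hq.ne_zero
  have hqQ : (q : ℚ) ≠ 0 := by exact_mod_cast hq0
  obtain ⟨-, y, hy, hc⟩ := S41A_mem_G_iff.1 g.2
  obtain ⟨m, k, hx⟩ := (S41A_mem_R_iff hq0 _).1 hy
  have hdet := S41A_det_eq (g : SL(2, ℚ))
  have h11 : (g : SL(2, ℚ)) 1 1 = 1 := by
    rw [h01, h00] at hdet; linarith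
  have hg : (g : SL(2, ℚ)) = S41H_low ((N : ℚ) * ((m : ℚ) / (q : ℚ) ^ k)) := by
    apply S41A_ext
    · rw [h00]; rfl
    · rw [h01]; rfl
    · rw [hc, hx]; rfl
    · rw [h11]; rfl
  have hpow : g ^ (q ^ k) = S41A_i1 N q (S41E_pL N m) := by
    apply Subtype.ext
    rw [S41A_i1_coe]
    show (g : SL(2, ℚ)) ^ (q ^ k) = S41A_inc (S41E_L ((N : ℤ) * m))
    rw [hg, S41I_low_pow, S41I_inc_L]
    congr 1
    push_cast
    field_simp
  apply S41I_pow_smul_eq_zero hqA k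
  rw [← map_nsmul, ← ofMul_pow, hpow, hF]
  exact S41E_chi_pL c hpar m

/-! ### values on `Γ₀(N)` through `F` -/

theorem S41I_i1_apply (γ : Gamma0 N) (i j : Fin 2) :
    ((S41A_i1 N q γ : S41A_G N q) : SL(2, ℚ)) i j = (((γ : SL(2, ℤ)) i j : ℤ) : ℚ) := rfl

/-- two elements of `Γ₀(N)` with the same bottom row have the same value. -/
theorem S41I_same_row (F : Additive (S41A_G N q) →+ A) (c : Additive (Gamma0 N) →+ A)
    (hF : ∀ γ : Gamma0 N, F (Additive.ofMul (S41A_i1 N q γ)) = c (Additive.ofMul γ))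
    (hU : S41H_KillsU F) (g₁ g₂ : Gamma0 N)
    (h0 : (g₁ : SL(2, ℤ)) 1 0 = (g₂ : SL(2, ℤ)) 1 0)
    (h1 : (g₁ : SL(2, ℤ)) 1 1 = (g₂ : SL(2, ℤ)) 1 1) :
    c (Additive.ofMul g₁) = c (Additive.ofMul g₂) := by
  rw [← hF, ← hF]
  apply S41H_same_row hU
  · rw [S41I_i1_apply, S41I_i1_apply, h0]
  · rw [S41I_i1_apply, S41I_i1_apply, h1]

/-- **unit invariance**: multiplying the lower right entry by `q ^ (2 m)`, `q ^ m ≡ 1 mod N`,
(and shifting by a multiple of the lower left entry) does not change the value. -/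
theorem S41I_unit_inv (hq : q.Prime) (F : Additive (S41A_G N q) →+ A)
    (c : Additive (Gamma0 N) →+ A)
    (hF : ∀ γ : Gamma0 N, F (Additive.ofMul (S41A_i1 N q γ)) = c (Additive.ofMul γ))
    (hU : S41H_KillsU F) (hL : S41H_KillsL F) (g g'' : Gamma0 N) (m : ℕ)
    (hm : (N : ℤ) ∣ (q : ℤ) ^ m - 1) (x : ℤ)
    (h10 : (g'' : SL(2, ℤ)) 1 0 = (g : SL(2, ℤ)) 1 0)
    (h11 : (g'' : SL(2, ℤ)) 1 1 = (q : ℤ) ^ (2 * m) * (g : SL(2, ℤ)) 1 1
      + x * (g : SL(2, ℤ)) 1 0) :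
    c (Additive.ofMul g'') = c (Additive.ofMul g) := by
  have hq0 : q ≠ 0 := hq.ne_zero
  have hqQ : (q : ℚ) ≠ 0 := by exact_mod_cast hq0
  obtain ⟨y, hy⟩ := hm
  set t : ℚˣ := S41A_u q ^ m with ht
  have htv : (t : ℚ) = (q : ℚ) ^ m := by
    rw [ht, Units.val_pow_eq_pow_val, S41A_u_val hq0]
  have ht0 : (t : ℚ) ≠ 0 := t.ne_zero
  have htR : (t : ℚ) ∈ S41A_R q := by rw [htv]; exact pow_mem (S41A_nat_mem_R q q) m
  have htR' : ((t : ℚ))⁻¹ ∈ S41A_R q := by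
    rw [htv, ← inv_pow]; exact pow_mem (S41A_inv_mem_R q) m
  have hty : (t : ℚ) - 1 = N * (y : ℚ) := by
    rw [htv]
    have := congrArg (Int.cast : ℤ → ℚ) hy
    push_cast at this
    exact this
  have hd : F (Additive.ofMul (⟨S41A_diag t, S41H_diag_mem htR htR'⟩ : S41A_G N q)) = 0 :=
    S41H_psi_diag hU hL htR htR' (S41A_int_mem_R q y) hty
  set D : S41A_G N q := (⟨S41A_diag t, S41H_diag_mem htR htR'⟩ : S41A_G N q)⁻¹ with hD
  have hDF : F (Additive.ofMul D) = 0 := by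
    rw [hD, S41H_psi_inv, hd, neg_zero]
  have hD00 : (D : SL(2, ℚ)) 0 0 = ((t : ℚ))⁻¹ := by
    rw [hD, S41H_coe_inv, S41A_inv_00]; rfl
  have hD01 : (D : SL(2, ℚ)) 0 1 = 0 := by
    rw [hD, S41H_coe_inv, S41A_inv_01]
    show -(0 : ℚ) = 0
    simp
  have hD10 : (D : SL(2, ℚ)) 1 0 = 0 := by
    rw [hD, S41H_coe_inv, S41A_inv_10]
    show -(0 : ℚ) = 0
    simp
  have hD11 : (D : SL(2, ℚ)) 1 1 = (t : ℚ) := by
    rw [hD, S41H_coe_inv, S41A_inv_11]; rfl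
  set e : S41A_G N q := D * S41A_i1 N q g * D with he
  have heF : F (Additive.ofMul e) = c (Additive.ofMul g) := by
    rw [he, S41H_psi_mul, S41H_psi_mul, hDF, hF, zero_add, add_zero]
  have he10 : (e : SL(2, ℚ)) 1 0 = (((g : SL(2, ℤ)) 1 0 : ℤ) : ℚ) := by
    rw [he, S41H_coe_mul, S41H_coe_mul, S41A_mul_10, S41A_mul_10, S41A_mul_11, hD00, hD10, hD11]
    simp only [S41I_i1_apply]
    field_simp
    ring
  have he11 : (e : SL(2, ℚ)) 1 1 = (t : ℚ) ^ 2 * (((g : SL(2, ℤ)) 1 1 : ℤ) : ℚ) := by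
    rw [he, S41H_coe_mul, S41H_coe_mul, S41A_mul_11, S41A_mul_10, S41A_mul_11, hD01, hD10, hD11]
    simp only [S41I_i1_apply]
    ring
  rw [← heF, ← hF]
  apply S41H_shift hU e (S41A_i1 N q g'') (S41A_int_mem_R q x)
  · rw [S41I_i1_apply, he10, h10]
  · rw [S41I_i1_apply, he10, he11, h11, htv]
    push_cast
    ring

/-! ### arithmetic of the tower -/

omit [AddCommGroup A] in
/-- move the lower left entry away from `q`. -/
theorem S41I_exists_c1 (hq : q.Prime) (hqN : ¬ q ∣ N) (c₀ d : ℤ) (hcd : IsCoprime c₀ d) :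
    ∃ y₁ : ℤ, ¬ (q : ℤ) ∣ c₀ + (N : ℤ) * d * y₁ := by
  have hqZ : Prime (q : ℤ) := Nat.prime_iff_prime_int.mp hq
  by_cases h : (q : ℤ) ∣ c₀
  · refine ⟨1, fun h1 => ?_⟩
    rw [mul_one] at h1
    have h2 : (q : ℤ) ∣ (N : ℤ) * d := (Int.dvd_add_right h).mp h1
    rcases hqZ.dvd_or_dvd h2 with h3 | h3
    · exact hqN (Int.natCast_dvd_natCast.mp h3)
    · exact hqZ.not_isUnit (hcd.isUnit_of_dvd' h h3)
  · exact ⟨0, by simpa using h⟩

theorem S41I_pow_one_add (a : ℤ) (n : ℕ) : ∃ s : ℤ, (1 + a) ^ n = 1 + n * a + a ^ 2 * s := by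
  induction n with
  | zero => exact ⟨0, by simp⟩
  | succ n ih =>
    obtain ⟨s, hs⟩ := ih
    refine ⟨s + n + a * s, ?_⟩
    rw [pow_succ, hs]
    push_cast
    ring

theorem S41I_exists_exp {r : ℕ} (hr : r.Prime) (z d j' : ℤ) (hz : ¬ (r : ℤ) ∣ z)
    (hd : ¬ (r : ℤ) ∣ d) : ∃ n : ℕ, (r : ℤ) ∣ n * z * d + j' := by
  have : Fact r.Prime := ⟨hr⟩
  have hu : ((z * d : ℤ) : ZMod r) ≠ 0 := by
    intro h
    rw [ZMod.intCast_zmod_eq_zero_iff_dvd] at h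
    rcases (Nat.prime_iff_prime_int.mp hr).dvd_or_dvd h with h1 | h1
    · exact hz h1
    · exact hd h1
  refine ⟨((-(j' : ZMod r)) * ((z * d : ℤ) : ZMod r)⁻¹).val, ?_⟩
  rw [← ZMod.intCast_zmod_eq_zero_iff_dvd]
  push_cast
  rw [ZMod.natCast_zmod_val]
  push_cast at hu
  rw [mul_assoc, mul_assoc, inv_mul_cancel₀ hu]
  ring

omit [AddCommGroup A] in
/-- the level `k` of the tower at which the unit `q ^ (2 m₀)` jumps. -/
theorem S41I_exists_level (hq : q.Prime) (hqN : ¬ q ∣ N) (hN : N ≠ 0) {r : ℕ} (hr : r.Prime)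
    (hrq : r ≠ q) (c₁ : ℤ) (hc₁ : ¬ (q : ℤ) ∣ c₁) :
    ∃ (m₀ k : ℕ) (z : ℤ), (N : ℤ) ∣ (q : ℤ) ^ m₀ - 1 ∧
      (q : ℤ) ^ (2 * m₀) - 1 = c₁ * (r : ℤ) ^ (k + 1) * z ∧ ¬ (r : ℤ) ∣ z := by
  have hc₁0 : c₁ ≠ 0 := fun h => hc₁ (h ▸ dvd_zero _)
  set n : ℕ := N * c₁.natAbs * r with hn
  have hcop : Nat.Coprime q n := by
    rw [hn]
    refine Nat.Coprime.mul_right (Nat.Coprime.mul_right ?_ ?_) ?_
    · exact (Nat.Prime.coprime_iff_not_dvd hq).mpr hqN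
    · refine (Nat.Prime.coprime_iff_not_dvd hq).mpr (fun h => hc₁ ?_)
      exact Int.natCast_dvd.mpr h
    · exact (Nat.coprime_primes hq hr).mpr (Ne.symm hrq)
  have hmod : q ^ n.totient ≡ 1 [MOD n] := Nat.ModEq.pow_totient hcop
  have hdvd : (n : ℤ) ∣ (q : ℤ) ^ n.totient - 1 := by
    have := (Nat.modEq_iff_dvd.mp hmod.symm)
    push_cast at this
    exact this
  have hNn : (N : ℤ) ∣ (n : ℤ) :=
    Int.natCast_dvd_natCast.mpr ⟨c₁.natAbs * r, by rw [hn]; ring⟩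
  have hcrn : c₁ * (r : ℤ) ∣ (n : ℤ) := by
    have h1 : c₁ ∣ ((c₁.natAbs : ℕ) : ℤ) := Int.dvd_natAbs.mpr dvd_rfl
    have h2 : c₁ * (r : ℤ) ∣ ((c₁.natAbs : ℕ) : ℤ) * (r : ℤ) := mul_dvd_mul_right h1 _
    have h3 : ((c₁.natAbs : ℕ) : ℤ) * (r : ℤ) ∣ (n : ℤ) := by
      have : c₁.natAbs * r ∣ n := ⟨N, by rw [hn]; ring⟩
      exact_mod_cast Int.natCast_dvd_natCast.mpr this
    exact h2.trans h3
  set X : ℤ := (q : ℤ) ^ (2 * n.totient) - 1 with hX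
  have hXfac : X = ((q : ℤ) ^ n.totient - 1) * ((q : ℤ) ^ n.totient + 1) := by
    rw [hX]; ring
  have hnX : (n : ℤ) ∣ X := by rw [hXfac]; exact Dvd.dvd.mul_right hdvd _
  have hq2 : (2 : ℤ) ≤ (q : ℤ) := by exact_mod_cast hq.two_le
  have hn0 : n ≠ 0 := by
    rw [hn]
    exact Nat.mul_ne_zero (Nat.mul_ne_zero hN (Int.natAbs_ne_zero.mpr hc₁0)) hr.ne_zero
  have htot : 0 < n.totient := Nat.totient_pos.mpr (Nat.pos_of_ne_zero hn0)
  have hX0 : X ≠ 0 := by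
    have h1 : (1 : ℤ) < (q : ℤ) ^ (2 * n.totient) :=
      one_lt_pow₀ (by linarith) (by omega)
    rw [hX]; linarith
  -- the first level which does not divide
  have hex : ∃ j : ℕ, ¬ c₁ * (r : ℤ) ^ j ∣ X := by
    refine ⟨X.natAbs, fun h => ?_⟩
    have h1 : (r : ℤ) ^ X.natAbs ∣ X := (Dvd.intro_left _ rfl).trans h
    have h2 : ((r ^ X.natAbs : ℕ) : ℤ) ∣ X := by push_cast; exact h1
    have h3 : r ^ X.natAbs ∣ X.natAbs := Int.natCast_dvd.mp h2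
    have h4 : r ^ X.natAbs ≤ X.natAbs :=
      Nat.le_of_dvd (Nat.pos_of_ne_zero (Int.natAbs_ne_zero.mpr hX0)) h3
    have h5 : X.natAbs < r ^ X.natAbs := Nat.lt_pow_self hr.one_lt
    omega
  classical
  set j₀ := Nat.find hex with hj₀
  have hj₀spec : ¬ c₁ * (r : ℤ) ^ j₀ ∣ X := Nat.find_spec hex
  have hP1 : c₁ * (r : ℤ) ^ 1 ∣ X := by rw [pow_one]; exact hcrn.trans hnX
  have hP0 : c₁ * (r : ℤ) ^ 0 ∣ X := by
    rw [pow_zero, mul_one]; exact (Dvd.intro _ rfl).trans (hcrn.trans hnX)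
  have hj2 : 2 ≤ j₀ := by
    by_contra hlt
    have : j₀ = 0 ∨ j₀ = 1 := by omega
    rcases this with h | h
    · rw [h] at hj₀spec; exact hj₀spec hP0
    · rw [h] at hj₀spec; exact hj₀spec hP1
  obtain ⟨k, hk⟩ : ∃ k, j₀ = k + 2 := ⟨j₀ - 2, by omega⟩
  have hPk : c₁ * (r : ℤ) ^ (k + 1) ∣ X := by
    by_contra hnot
    have := Nat.find_min hex (m := k + 1) (by rw [← hj₀]; omega)
    exact this hnot
  obtain ⟨z, hz⟩ := hPk
  refine ⟨n.totient, k, z, hNn.trans hdvd, hz, fun hrz => ?_⟩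
  apply hj₀spec
  rw [hk, hz]
  obtain ⟨z', rfl⟩ := hrz
  exact ⟨z', by ring⟩

/-- the unit `q ^ (2 m₀)` generates the kernel of `(ℤ/rc)ˣ → (ℤ/c)ˣ`. -/
theorem S41I_lift {r : ℕ} (hr : r.Prime) (c₁ d z : ℤ) (k m₀ : ℕ) (w : ℤ)
    (hw : w ^ (2 * m₀) - 1 = c₁ * (r : ℤ) ^ (k + 1) * z) (hz : ¬ (r : ℤ) ∣ z)
    (hd : ¬ (r : ℤ) ∣ d) (j' : ℤ) :
    ∃ (n : ℕ) (x : ℤ), d - j' * (c₁ * (r : ℤ) ^ (k + 1))
      = w ^ (2 * (m₀ * n)) * d + x * ((r : ℤ) * (c₁ * (r : ℤ) ^ (k + 1))) := by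
  obtain ⟨n, u, hu⟩ := S41I_exists_exp hr z d j' hz hd
  obtain ⟨s, hs⟩ := S41I_pow_one_add (c₁ * (r : ℤ) ^ (k + 1) * z) n
  have hw' : w ^ (2 * m₀) = 1 + c₁ * (r : ℤ) ^ (k + 1) * z := by linarith
  have hpow : w ^ (2 * (m₀ * n)) = (1 + c₁ * (r : ℤ) ^ (k + 1) * z) ^ n := by
    rw [← hw', ← pow_mul]; ring_nf
  refine ⟨n, -(u + c₁ * (r : ℤ) ^ k * z ^ 2 * s * d), ?_⟩
  rw [hpow, hs]
  have e : (n : ℤ) * z * d = (r : ℤ) * u - j' := by linarith
  linear_combination (-(c₁ * (r : ℤ) ^ (k + 1))) * e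

/-! ### bottom rows from the integral coset relation -/

omit [AddCommGroup A] in
theorem S41I_rows_ii {r : ℕ} {M g : SL(2, ℤ)}
    (h : S41E_A r OnePoint.infty * (M : Matrix (Fin 2) (Fin 2) ℤ)
      = (g : Matrix (Fin 2) (Fin 2) ℤ) * S41E_A r OnePoint.infty) :
    g 1 0 * (r : ℤ) = M 1 0 ∧ g 1 1 = M 1 1 := by
  have h0 := congrFun (congrFun h 1) 0
  have h1 := congrFun (congrFun h 1) 1
  simp only [S41E_A_infty, Matrix.mul_apply, Fin.sum_univ_two, Matrix.of_apply,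
    Matrix.cons_val_zero, Matrix.cons_val_one, Matrix.cons_val', Matrix.cons_val_fin_one] at h0 h1
  constructor
  · linarith
  · linarith

omit [AddCommGroup A] in
theorem S41I_rows_if {r : ℕ} {M g : SL(2, ℤ)} {j' : ZMod r}
    (h : S41E_A r OnePoint.infty * (M : Matrix (Fin 2) (Fin 2) ℤ)
      = (g : Matrix (Fin 2) (Fin 2) ℤ) * S41E_A r (j' : OnePoint (ZMod r))) :
    g 1 0 = M 1 0 ∧ g 1 0 * (j'.val : ℤ) + g 1 1 * (r : ℤ) = M 1 1 := by
  have h0 := congrFun (congrFun h 1) 0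
  have h1 := congrFun (congrFun h 1) 1
  simp only [S41E_A_infty, S41E_A_coe, Matrix.mul_apply, Fin.sum_univ_two, Matrix.of_apply,
    Matrix.cons_val_zero, Matrix.cons_val_one, Matrix.cons_val', Matrix.cons_val_fin_one] at h0 h1
  constructor
  · linarith
  · linarith

omit [AddCommGroup A] in
theorem S41I_rows_fi {r : ℕ} {M g : SL(2, ℤ)} {j : ZMod r}
    (h : S41E_A r (j : OnePoint (ZMod r)) * (M : Matrix (Fin 2) (Fin 2) ℤ)
      = (g : Matrix (Fin 2) (Fin 2) ℤ) * S41E_A r OnePoint.infty) :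
    g 1 0 * (r : ℤ) = (r : ℤ) * M 1 0 ∧ g 1 1 = (r : ℤ) * M 1 1 := by
  have h0 := congrFun (congrFun h 1) 0
  have h1 := congrFun (congrFun h 1) 1
  simp only [S41E_A_infty, S41E_A_coe, Matrix.mul_apply, Fin.sum_univ_two, Matrix.of_apply,
    Matrix.cons_val_zero, Matrix.cons_val_one, Matrix.cons_val', Matrix.cons_val_fin_one] at h0 h1
  constructor
  · linarith
  · linarith

omit [AddCommGroup A] in
theorem S41I_rows_ff {r : ℕ} {M g : SL(2, ℤ)} {j j' : ZMod r}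
    (h : S41E_A r (j : OnePoint (ZMod r)) * (M : Matrix (Fin 2) (Fin 2) ℤ)
      = (g : Matrix (Fin 2) (Fin 2) ℤ) * S41E_A r (j' : OnePoint (ZMod r))) :
    g 1 0 = (r : ℤ) * M 1 0 ∧ g 1 0 * (j'.val : ℤ) + g 1 1 * (r : ℤ) = (r : ℤ) * M 1 1 := by
  have h0 := congrFun (congrFun h 1) 0
  have h1 := congrFun (congrFun h 1) 1
  simp only [S41E_A_coe, Matrix.mul_apply, Fin.sum_univ_two, Matrix.of_apply,
    Matrix.cons_val_zero, Matrix.cons_val_one, Matrix.cons_val', Matrix.cons_val_fin_one] at h0 h1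
  constructor
  · linarith
  · linarith

omit [AddCommGroup A] in
theorem S41I_mul_pL_10 (γ : Gamma0 N) (y : ℤ) :
    ((γ * S41E_pL N y : Gamma0 N) : SL(2, ℤ)) 1 0
      = (γ : SL(2, ℤ)) 1 0 + (γ : SL(2, ℤ)) 1 1 * ((N : ℤ) * y) :=
  S41E_mul_L_apply0 (γ : SL(2, ℤ)) ((N : ℤ) * y) 1

omit [AddCommGroup A] in
theorem S41I_mul_pL_11 (γ : Gamma0 N) (y : ℤ) :
    ((γ * S41E_pL N y : Gamma0 N) : SL(2, ℤ)) 1 1 = (γ : SL(2, ℤ)) 1 1 :=
  S41E_mul_L_apply1 (γ : SL(2, ℤ)) ((N : ℤ) * y) 1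

theorem S41I_c_mul_pL (c : Additive (Gamma0 N) →+ A) (hpar : IsParabolicHom (Gamma0 N) c)
    (γ : Gamma0 N) (y : ℤ) :
    c (Additive.ofMul (γ * S41E_pL N y)) = c (Additive.ofMul γ) := by
  rw [ofMul_mul, map_add, S41E_chi_pL c hpar, add_zero]

/-! ### the theorem -/

/-- **The `r`-tower identity.**  `c : Γ₀(N) → A` parabolic, extending to a homomorphism `F` of
`G = Γ₀(N)[1/q]`; `γ ∈ Γ₀(N)` with lower right entry `d ∣ r - 1`, `r ≠ q` prime.  Then there is `y`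
such that the coset formula of `T_r` at `γ · l_N^y` gives `(r + 1) • c γ`. -/
theorem S41I_tower (hN : N ≠ 0) (hq : q.Prime) (hqN : ¬ q ∣ N)
    (hqA : ∀ a : A, q • a = 0 → a = 0)
    (F : Additive (S41A_G N q) →+ A) (c : Additive (Gamma0 N) →+ A)
    (hF : ∀ γ : Gamma0 N, F (Additive.ofMul (S41A_i1 N q γ)) = c (Additive.ofMul γ))
    (hpar : IsParabolicHom (Gamma0 N) c)
    {r : ℕ} [Fact r.Prime] (hrq : r ≠ q) (γ : Gamma0 N)
    (hrd : (γ : SL(2, ℤ)) 1 1 ∣ (r : ℤ) - 1) :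
    ∃ y : ℤ, ∀ (σ : Equiv.Perm (OnePoint (ZMod r))) (g' : OnePoint (ZMod r) → Gamma0 N),
      (∀ i, heckeRep r i * mapGL ℝ ((γ * S41E_pL N y : Gamma0 N) : SL(2, ℤ))
        = mapGL ℝ (g' i : SL(2, ℤ)) * heckeRep r (σ i)) →
      ∑ i, c (Additive.ofMul (g' i)) = (r + 1) • c (Additive.ofMul γ) := by
  have hr : r.Prime := Fact.out
  have hrZ : Prime (r : ℤ) := Nat.prime_iff_prime_int.mp hr
  have hr0 : (r : ℤ) ≠ 0 := by exact_mod_cast hr.ne_zero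
  have hU := S41I_killsU hq hqA F c hF hpar
  have hL := S41I_killsL hq hqA F c hF hpar
  set c₀ : ℤ := (γ : SL(2, ℤ)) 1 0 with hc₀
  set d : ℤ := (γ : SL(2, ℤ)) 1 1 with hd
  have hcd : IsCoprime c₀ d := S41E_isCoprime_row (γ : SL(2, ℤ))
  have hNc₀ : (N : ℤ) ∣ c₀ := (ZMod.intCast_zmod_eq_zero_iff_dvd _ _).mp (Gamma0_mem.mp γ.2)
  -- `r ∤ d`
  have hrd' : ¬ (r : ℤ) ∣ d := by
    intro h
    have h1 : (r : ℤ) ∣ (r : ℤ) - 1 := h.trans hrd
    have h2 : (r : ℤ) ∣ 1 := by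
      have := dvd_sub (dvd_refl (r : ℤ)) h1
      simpa using this
    exact hrZ.not_isUnit (isUnit_of_dvd_one h2)
  -- powers of `r` are `≡ 1 mod d`
  have hpow : ∀ j : ℕ, d ∣ (r : ℤ) ^ j - 1 := by
    intro j
    have h1 : (r : ℤ) ≡ 1 [ZMOD d] := (Int.modEq_iff_dvd.mpr (by
      have := hrd; rwa [← neg_sub, dvd_neg] at this)).symm.symm
    have h2 := h1.pow j
    rw [one_pow] at h2
    have := Int.modEq_iff_dvd.mp h2.symm
    exact this
  obtain ⟨y₁, hy₁⟩ := S41I_exists_c1 hq hqN c₀ d hcd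
  set c₁ : ℤ := c₀ + (N : ℤ) * d * y₁ with hc₁
  obtain ⟨m₀, k, z, hNm, hX, hz⟩ := S41I_exists_level hq hqN hN hr hrq c₁ hy₁
  have hNc₁ : (N : ℤ) ∣ c₁ := dvd_add hNc₀ ⟨d * y₁, by ring⟩
  obtain ⟨c₁', hc₁'⟩ := hNc₁
  -- the elements `γ_j` with bottom row `(c₁ r^j, d)`
  have hrow : ∀ j : ℕ, ∃ y : ℤ, c₀ + d * ((N : ℤ) * y) = c₁ * (r : ℤ) ^ j := by
    intro j
    obtain ⟨e, he⟩ := hpow j
    refine ⟨y₁ + c₁' * e, ?_⟩
    have : (r : ℤ) ^ j = 1 + d * e := by linarith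
    rw [this]
    have h2 : c₁ = c₀ + (N : ℤ) * d * y₁ := hc₁
    calc c₀ + d * ((N : ℤ) * (y₁ + c₁' * e))
        = (c₀ + (N : ℤ) * d * y₁) + (N : ℤ) * c₁' * (d * e) := by ring
      _ = c₁ + c₁ * (d * e) := by rw [← h2, ← hc₁']
      _ = c₁ * (1 + d * e) := by ring
  obtain ⟨y, hy⟩ := hrow (k + 1)
  obtain ⟨ym, hym⟩ := hrow k
  obtain ⟨yp, hyp⟩ := hrow (k + 2)
  refine ⟨y, fun σ g' hmul => ?_⟩
  set γ' : Gamma0 N := γ * S41E_pL N y with hγ'
  have hγ'10 : (γ' : SL(2, ℤ)) 1 0 = c₁ * (r : ℤ) ^ (k + 1) := by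
    rw [hγ', S41I_mul_pL_10]; exact hy
  have hγ'11 : (γ' : SL(2, ℤ)) 1 1 = d := by
    rw [hγ', S41I_mul_pL_11]
  have hval : ∀ i, c (Additive.ofMul (g' i)) = c (Additive.ofMul γ) := by
    intro i
    have hint := S41E_int_of_hmul hr.ne_zero i (σ i) _ _ (hmul i)
    have hdetg : (g' i : SL(2, ℤ)) 0 0 * (g' i : SL(2, ℤ)) 1 1
        - (g' i : SL(2, ℤ)) 0 1 * (g' i : SL(2, ℤ)) 1 0 = 1 := S41A_det_eq_int _
    generalize hσ : σ i = i' at hint
    induction i using OnePoint.rec with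
    | infty =>
      induction i' using OnePoint.rec with
      | infty =>
        obtain ⟨h0, h1⟩ := S41I_rows_ii hint
        rw [hγ'10] at h0
        rw [hγ'11] at h1
        have h0' : (g' OnePoint.infty : SL(2, ℤ)) 1 0 = c₁ * (r : ℤ) ^ k := by
          apply mul_right_cancel₀ hr0
          rw [h0]; ring
        rw [← S41I_c_mul_pL c hpar γ ym]
        apply S41I_same_row F c hF hU
        · rw [h0', S41I_mul_pL_10]; exact hym.symm
        · rw [h1, S41I_mul_pL_11]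
      | coe j' =>
        exfalso
        obtain ⟨h0, h1⟩ := S41I_rows_if hint
        rw [hγ'10] at h0
        rw [hγ'11] at h1
        apply hrd'
        rw [← h1, h0]
        exact ⟨c₁ * (r : ℤ) ^ k * (j'.val : ℤ) + (g' OnePoint.infty : SL(2, ℤ)) 1 1, by ring⟩
    | coe j =>
      induction i' using OnePoint.rec with
      | infty =>
        exfalso
        obtain ⟨h0, h1⟩ := S41I_rows_fi hint
        rw [hγ'10] at h0
        rw [hγ'11] at h1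
        have h0' : (g' (j : OnePoint (ZMod r)) : SL(2, ℤ)) 1 0 = c₁ * (r : ℤ) ^ (k + 1) := by
          apply mul_right_cancel₀ hr0
          rw [h0]; ring
        rw [h0', h1] at hdetg
        have : (r : ℤ) ∣ 1 := by
          rw [← hdetg]
          exact ⟨(g' (j : OnePoint (ZMod r)) : SL(2, ℤ)) 0 0 * d
            - (g' (j : OnePoint (ZMod r)) : SL(2, ℤ)) 0 1 * (c₁ * (r : ℤ) ^ k), by ring⟩
        exact hrZ.not_isUnit (isUnit_of_dvd_one this)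
      | coe j' =>
        obtain ⟨h0, h1⟩ := S41I_rows_ff hint
        rw [hγ'10] at h0
        rw [hγ'11] at h1
        have h1' : (g' (j : OnePoint (ZMod r)) : SL(2, ℤ)) 1 1
            = d - (j'.val : ℤ) * (c₁ * (r : ℤ) ^ (k + 1)) := by
          apply mul_right_cancel₀ hr0
          rw [h0] at h1
          linarith
        obtain ⟨n, x, hnx⟩ := S41I_lift hr c₁ d z k m₀ (q : ℤ) hX hz hrd' (j'.val : ℤ)
        have hm : (N : ℤ) ∣ (q : ℤ) ^ (m₀ * n) - 1 := by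
          have h1 : (q : ℤ) ^ m₀ ≡ 1 [ZMOD (N : ℤ)] :=
            (Int.modEq_iff_dvd.mpr (by
              have := hNm; rwa [← neg_sub, dvd_neg] at this)).symm.symm
          have h2 := h1.pow n
          rw [one_pow, ← pow_mul] at h2
          exact Int.modEq_iff_dvd.mp h2.symm
        rw [← S41I_c_mul_pL c hpar γ yp]
        apply S41I_unit_inv hq F c hF hU hL (γ * S41E_pL N yp) (g' (j : OnePoint (ZMod r)))
          (m₀ * n) hm x
        · rw [h0, S41I_mul_pL_10, hyp]; ring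
        · rw [h1', S41I_mul_pL_11, S41I_mul_pL_10, hyp, hnx]; ring
  rw [Finset.sum_congr rfl (fun i _ => hval i), Finset.sum_const, Finset.card_univ]
  have hcard : Fintype.card (OnePoint (ZMod r)) = r + 1 := by
    have : Fintype.card (Option (ZMod r)) = r + 1 := by
      rw [Fintype.card_option, ZMod.card]
    exact this
  rw [hcard]

end Fermat.Agent.S41
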