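import Mathlib
import Fermat.Agent.S41.IharaTower
import Fermat.Agent.GalRep.DimHecke

/-!
# S41, IHARA at a non-Eisenstein maximal ideal: pointwise annihilator form (helper27)

`v ∈ parInt N` whose reduction mod `p` extends to a homomorphism `χ` of `G = Γ₀(N)[1/q]`.  Then for
every prime `r ∤ N`, `r ≠ q`, and every `γ ∈ Γ₀(N)` whose lower right entry divides `r - 1`:

  `p ∣ (T_r v)(γ) - (r + 1) v(γ)`            (`S41I_main`).
-/

set_option autoImplicit false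
set_option linter.unusedVariables false

open CongruenceSubgroup Matrix Matrix.SpecialLinearGroup ModularCurve.Period
open scoped MatrixGroups
open P2MW.S_ModularForm_heckeT_slash_eq_self_of_mem_Gamma0.ModularForm.HeckeSlashInvariance
open ModularForm

namespace Fermat.Agent.S41

open Fermat.Agent.S16 Fermat.Agent.GalRep

/-- **IHARA, pointwise form.** -/
theorem S41I_main {N q p : ℕ} [NeZero N] (hq : q.Prime) (hqN : ¬ q ∣ N) (hp : p.Prime)
    (hp2 : p ≠ 2) (hpq : p ≠ q) (v : ↥(parInt N)) (χ : Additive (S41A_G N q) →+ ZMod p)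
    (hχ : ∀ γ : Gamma0 N, χ (Additive.ofMul (S41A_i1 N q γ))
      = (((v : Additive (Gamma0 N) →+ ℤ) (Additive.ofMul γ) : ℤ) : ZMod p))
    (r : Nat.Primes) (hrN : ¬ (r : ℕ) ∣ N) (hrq : (r : ℕ) ≠ q) (γ : Gamma0 N)
    (hd : (γ : SL(2, ℤ)) 1 1 ≠ 0) (hr : (γ : SL(2, ℤ)) 1 1 ∣ ((r : ℕ) : ℤ) - 1) :
    (p : ℤ) ∣ ((GRD_heckeL N (ModularCurve.heckeGen r) v : ↥(parInt N)) :
        Additive (Gamma0 N) →+ ℤ) (Additive.ofMul γ)
      - (((r : ℕ) : ℤ) + 1) * (v : Additive (Gamma0 N) →+ ℤ) (Additive.ofMul γ) := by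
  have : Fact p.Prime := ⟨hp⟩
  have : Fact (r : ℕ).Prime := ⟨r.2⟩
  let c : Additive (Gamma0 N) →+ ZMod p :=
    (Int.castAddHom (ZMod p)).comp (v : Additive (Gamma0 N) →+ ℤ)
  have hc : ∀ g : Gamma0 N, c (Additive.ofMul g)
      = (((v : Additive (Gamma0 N) →+ ℤ) (Additive.ofMul g) : ℤ) : ZMod p) := fun g => rfl
  have hpar : IsParabolicHom (Gamma0 N) c := by
    intro g hg
    show (((v : Additive (Gamma0 N) →+ ℤ) (Additive.ofMul g) : ℤ) : ZMod p) = 0
    rw [v.2 g hg, Int.cast_zero]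
  have hqA : ∀ a : ZMod p, q • a = 0 → a = 0 := by
    intro a ha
    rw [nsmul_eq_mul] at ha
    rcases mul_eq_zero.mp ha with h | h
    · exfalso
      rw [ZMod.natCast_eq_zero_iff] at h
      exact hpq ((Nat.prime_dvd_prime_iff_eq hp hq).mp h)
    · exact h
  obtain ⟨y, hy⟩ := S41I_tower (NeZero.ne N) hq hqN hqA χ c (fun g => (hχ g).trans (hc g).symm)
    hpar hrq γ hr
  obtain ⟨σ, g', hmul⟩ := S16_exists_heckeT_data (N := N) hrN (γ * S41E_pL N y)
  have h1 := hy σ g' hmul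
  have h2 := GRD_heckeL_heckeT (N := N) r hrN v (γ * S41E_pL N y) σ g' hmul
  -- `T_r v` is parabolic
  have h3 : ((GRD_heckeL N (ModularCurve.heckeGen r) v : ↥(parInt N)) :
      Additive (Gamma0 N) →+ ℤ) (Additive.ofMul (γ * S41E_pL N y))
      = ((GRD_heckeL N (ModularCurve.heckeGen r) v : ↥(parInt N)) :
        Additive (Gamma0 N) →+ ℤ) (Additive.ofMul γ) := by
    rw [ofMul_mul, map_add]
    have : ((GRD_heckeL N (ModularCurve.heckeGen r) v : ↥(parInt N)) :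
        Additive (Gamma0 N) →+ ℤ) (Additive.ofMul (S41E_pL N y)) = 0 :=
      (GRD_heckeL N (ModularCurve.heckeGen r) v).2 _ (S41E_L_trace _)
    rw [this, add_zero]
  rw [← ZMod.intCast_zmod_eq_zero_iff_dvd, ← h3, h2]
  push_cast
  have h4 : ∑ i, (((v : Additive (Gamma0 N) →+ ℤ) (Additive.ofMul (g' i)) : ℤ) : ZMod p)
      = ((r : ℕ) + 1) • (((v : Additive (Gamma0 N) →+ ℤ) (Additive.ofMul γ) : ℤ) : ZMod p) := h1
  rw [h4, nsmul_eq_mul]
  push_cast
  ring

end Fermat.Agent.S41
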