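import Mathlib
import Fermat.Agent.S41.Amalgam
import Fermat.Agent.S41.DegDefs

/-!
# S41 / IHARA — step (B0): the two characters of `G = Γ₀(N)[1/q]` attached to a pair in the
kernel of `α + β` modulo `p` (helper6)

* `S41K_conjG N q hq : S41A_G N q →* S41A_G N q` — conjugation `M ↦ δ⁻¹ M δ`, `δ = diag(q,1)`,
  restricted to `G`; `S41K_conjG_i1 : conjG (i1 γ) = i2 γ`;
* `S41K_pair` : for `v₁ v₂ : parInt N` with `α v₁ + β v₂ ∈ p · parInt (N q)` there are additive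
  characters `χ χ' : G → ZMod p` with `χ ∘ i1 = v₁ mod p` and `χ' ∘ i1 = v₂ mod p`.
-/

set_option autoImplicit false

open Matrix MatrixGroups CongruenceSubgroup Matrix.SpecialLinearGroup
open ModularCurve ModularCurve.Period

namespace Fermat.Agent.S41

open Fermat.Agent.S16

/-- conjugation by `δ = diag(q,1)` preserves `G = Γ₀(N)[1/q]`. -/
theorem S41K_conj_mem_G {N q : ℕ} (hq : q ≠ 0) {M : SL(2, ℚ)} (hM : M ∈ S41A_G N q) :
    S41A_conj q M ∈ S41A_G N q := by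
  obtain ⟨⟨ha, hb, hd⟩, r, hr, hc⟩ := hM
  refine ⟨⟨?_, ?_, ?_⟩, (q : ℚ) * r, mul_mem (S41A_nat_mem_R q q) hr, ?_⟩
  · rw [S41A_conj_00]; exact ha
  · rw [S41A_conj_01 hq, div_eq_mul_inv]; exact mul_mem hb (S41A_inv_mem_R q)
  · rw [S41A_conj_11]; exact hd
  · rw [S41A_conj_10 hq, hc]; ring

/-- conjugation `M ↦ δ⁻¹ M δ` as an endomorphism of `G`. -/
def S41K_conjG (N q : ℕ) (hq : q ≠ 0) : S41A_G N q →* S41A_G N q :=
  ((S41A_conj q).comp (S41A_G N q).subtype).codRestrict (S41A_G N q)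
    (fun M => S41K_conj_mem_G hq M.2)

theorem S41K_conjG_coe (N q : ℕ) (hq : q ≠ 0) (M : S41A_G N q) :
    ((S41K_conjG N q hq M : S41A_G N q) : SL(2, ℚ)) = S41A_conj q (M : SL(2, ℚ)) := rfl

theorem S41K_conjG_i1 (N q : ℕ) (hq : q ≠ 0) (γ : Gamma0 N) :
    S41K_conjG N q hq (S41A_i1 N q γ) = S41A_i2 N q γ := by
  apply Subtype.ext
  rw [S41K_conjG_coe, S41A_i2_coe hq, S41A_i1_coe]

theorem S41K_conjG_injective (N q : ℕ) (hq : q ≠ 0) : Function.Injective (S41K_conjG N q hq) := by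
  intro M M' h
  apply Subtype.ext
  apply S41A_conj_injective q
  have := congrArg (fun X : S41A_G N q => (X : SL(2, ℚ))) h
  simpa only [S41K_conjG_coe] using this

/-- reduction modulo `p` of an integral class. -/
noncomputable def S41K_red {N : ℕ} (p : ℕ) (v : ↥(parInt N)) : Additive (Gamma0 N) →+ ZMod p :=
  (Int.castAddHom (ZMod p)).comp (v : Additive (Gamma0 N) →+ ℤ)

theorem S41K_red_apply {N : ℕ} (p : ℕ) (v : ↥(parInt N)) (γ : Gamma0 N) :
    S41K_red p v (Additive.ofMul γ)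
      = (((v : Additive (Gamma0 N) →+ ℤ) (Additive.ofMul γ) : ℤ) : ZMod p) := rfl

/-- **(B0)** the two characters of `G` attached to a pair `(v₁, v₂)` with
`α v₁ + β v₂ ∈ p · parInt (N q)`. -/
theorem S41K_pair {N q : ℕ} [NeZero N] [NeZero q] (hq : q.Prime) (hqN : ¬ q ∣ N) (p : ℕ)
    (v₁ v₂ : ↥(parInt N)) (w : ↥(parInt (N * q)))
    (h : S41D_alpha N q v₁ + S41D_beta N q v₂ = (p : ℤ) • w) :
    ∃ χ χ' : Additive (S41A_G N q) →+ ZMod p,
      (∀ γ : Gamma0 N, χ (Additive.ofMul (S41A_i1 N q γ))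
        = (((v₁ : Additive (Gamma0 N) →+ ℤ) (Additive.ofMul γ) : ℤ) : ZMod p)) ∧
      (∀ γ : Gamma0 N, χ' (Additive.ofMul (S41A_i1 N q γ))
        = (((v₂ : Additive (Gamma0 N) →+ ℤ) (Additive.ofMul γ) : ℤ) : ZMod p)) := by
  have hq0 : q ≠ 0 := hq.ne_zero
  have hrel : ∀ γ : Gamma0 (N * q), S41K_red p v₁ (Additive.ofMul (S41A_res N q γ))
      = (-S41K_red p v₂) (Additive.ofMul (S41A_deg N q γ)) := by
    intro γ
    have h1 := congrArg (fun x : ↥(parInt (N * q)) =>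
      (x : Additive (Gamma0 (N * q)) →+ ℤ) (Additive.ofMul γ)) h
    simp only [Submodule.coe_add, AddMonoidHom.add_apply, S41D_alpha_apply, S41D_beta_apply,
      Submodule.coe_smul, AddMonoidHom.smul_apply] at h1
    rw [AddMonoidHom.neg_apply, S41K_red_apply, S41K_red_apply, eq_neg_iff_add_eq_zero,
      ← Int.cast_add, h1]
    simp
  obtain ⟨F, hF1, hF2⟩ := S41A_glue_add hq hqN (S41K_red p v₁) (-S41K_red p v₂) hrel
  refine ⟨F, -(F.comp (MonoidHom.toAdditive (S41K_conjG N q hq0))), fun γ => ?_, fun γ => ?_⟩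
  · rw [hF1 γ, S41K_red_apply]
  · rw [AddMonoidHom.neg_apply, AddMonoidHom.comp_apply]
    have : (MonoidHom.toAdditive (S41K_conjG N q hq0)) (Additive.ofMul (S41A_i1 N q γ))
        = Additive.ofMul (S41A_i2 N q γ) := by
      show Additive.ofMul (S41K_conjG N q hq0 (S41A_i1 N q γ)) = _
      rw [S41K_conjG_i1]
    rw [this, hF2 γ, AddMonoidHom.neg_apply, neg_neg, S41K_red_apply]

end Fermat.Agent.S41
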