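import Mathlib
import Fermat.Agent.S16.LB.LiftB

/-!
# S41, package PD (Poincaré duality on `Hom_ell(Γ, k)`): definitions

`Γ ≤ SL(2, ℤ)` of finite index, `k` a field of odd characteristic.

* `S41P_Adm Γ c c' F`: `F : Γ → k` is an admissible cochain for the pair of homomorphisms `(c, c')`:
  `F (γ₁ γ₂) = F γ₁ + F γ₂ + c γ₁ * c' γ₂`, `F = 0` on elliptic elements (`tr² < 4`) and at `-1`.
* `S41P_cuspGen Γ x`: the parabolic element `r_x⁻¹ T^w r_x ∈ Γ`, `w` the period of `x` under `T`.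
* `S41P_cuspSum Γ F`: the sum of `F` over the cusp generators (one for each `T`-orbit on `SL(2,ℤ)/Γ`).
* `S41P_B Γ c c'`: the pairing `= S41P_cuspSum Γ F` for an admissible `F`.
-/

set_option autoImplicit false

open Matrix MatrixGroups ModularGroup

namespace Fermat.Agent.S41

variable {k : Type*} [Field k]

/-- Admissible cochains. -/
def S41P_Adm (Γ : Subgroup SL(2, ℤ)) (c c' : Additive Γ →+ k) (F : Γ → k) : Prop :=
  (∀ γ₁ γ₂ : Γ, F (γ₁ * γ₂)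
      = F γ₁ + F γ₂ + c (Additive.ofMul γ₁) * c' (Additive.ofMul γ₂)) ∧
  (∀ γ : Γ, ((γ : SL(2, ℤ)) : Matrix (Fin 2) (Fin 2) ℤ).trace ^ 2 < 4 → F γ = 0) ∧
  (∀ γ : Γ, (γ : SL(2, ℤ)) = -1 → F γ = 0)

/-- The cusp generator attached to a coset `x`: `r_x⁻¹ T^w r_x`, `w` the `T`-period of `x`. -/
noncomputable def S41P_cuspGen (Γ : Subgroup SL(2, ℤ)) (x : SL(2, ℤ) ⧸ Γ) : Γ :=
  Fermat.Agent.S21.gam Γ (T ^ (Function.minimalPeriod (fun y : SL(2, ℤ) ⧸ Γ => T • y) x)) x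

/-- The set of `T`-orbits on `SL(2,ℤ)/Γ` (the cusps of `Γ`). -/
abbrev S41P_Cusps (Γ : Subgroup SL(2, ℤ)) : Type :=
  MulAction.orbitRel.Quotient (Subgroup.zpowers (T : SL(2, ℤ))) (SL(2, ℤ) ⧸ Γ)

/-- The cusp sum of a cochain. -/
noncomputable def S41P_cuspSum (Γ : Subgroup SL(2, ℤ)) (F : Γ → k) : k :=
  ∑ᶠ O : S41P_Cusps Γ, F (S41P_cuspGen Γ (Quotient.out O))

open Classical in
/-- The pairing. -/
noncomputable def S41P_B (Γ : Subgroup SL(2, ℤ)) (c c' : Additive Γ →+ k) : k :=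
  if h : ∃ F : Γ → k, S41P_Adm Γ c c' F then S41P_cuspSum Γ h.choose else 0

/-- A matrix of trace `2` is *positive parabolic* if it is not `1`, its upper right entry is `≥ 0`
and its lower left entry is `≤ 0`. -/
def S41P_posPar (g : SL(2, ℤ)) : Prop :=
  (g : Matrix (Fin 2) (Fin 2) ℤ).trace = 2 ∧ g ≠ 1 ∧ 0 ≤ g 0 1 ∧ g 1 0 ≤ 0

/-- Primitive positive parabolic elements of `Γ`: not a proper power of a positive parabolic
element of `Γ`. -/
def S41P_primPar (Γ : Subgroup SL(2, ℤ)) (t : Γ) : Prop :=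
  S41P_posPar (t : SL(2, ℤ)) ∧
    ∀ (s : Γ) (n : ℕ), S41P_posPar (s : SL(2, ℤ)) → s ^ n = t → n = 1

end Fermat.Agent.S41
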