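import Mathlib
import Fermat.Agent.S41.PDDefs
import Fermat.Agent.S21.GroupBound

/-!
# S41, package PD, part TR: the cusp sum of a homomorphism vanishes

`Γ ≤ SL(2, ℤ)` of finite index, `-1 ∈ Γ`, `h : Γ → k` a homomorphism (to the additive group of a
field) which vanishes on the elements with `tr² < 4` and at `-1`.  Then
`S41P_cuspSum Γ h = 0`: the cusp sum is the value at `T` of the transfer of `h`, and the transfer
of `h` kills `S` and `S * T`.

Consequences: `S41P_cuspSum` takes the same value on any two admissible cochains for the same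
pair of characters (`S41P_cuspSum_adm_unique`), and `S41P_B` is computed by any admissible
cochain (`S41P_B_eq`).
-/

set_option autoImplicit false

open Matrix MatrixGroups ModularGroup

namespace Fermat.Agent.S41

variable {k : Type*} [Field k]

/-- The transfer of a character is trivial at `g` as soon as the character kills all the cycle
elements `out(x)⁻¹ g ^ (period of x) out(x)`. -/
theorem S41PT_transfer_eq_one (Γ : Subgroup SL(2, ℤ)) [Γ.FiniteIndex]
    (ϕ : Γ →* Multiplicative k) (g : SL(2, ℤ))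
    (hg : ∀ (x : SL(2, ℤ) ⧸ Γ) (γ : Γ),
      (γ : SL(2, ℤ)) = (Quotient.out x)⁻¹ * g ^ Function.minimalPeriod (g • ·) x * Quotient.out x →
      ϕ γ = 1) :
    MonoidHom.transfer ϕ g = 1 := by
  classical
  have : Finite (SL(2, ℤ) ⧸ Γ) := Subgroup.finite_quotient_of_finiteIndex
  let _ : Fintype (Quotient (MulAction.orbitRel (Subgroup.zpowers g) (SL(2, ℤ) ⧸ Γ))) :=
    Fintype.ofFinite _
  rw [MonoidHom.transfer_eq_prod_quotient_orbitRel_zpowers_quot]
  exact Finset.prod_eq_one fun q _ => hg q.out _ rfl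

/-- The cusp sum of a character is the transfer at `T`. -/
theorem S41PT_cuspSum_eq_transfer (Γ : Subgroup SL(2, ℤ)) [Γ.FiniteIndex]
    (h : Additive Γ →+ k) :
    S41P_cuspSum Γ (fun γ => h (Additive.ofMul γ))
      = Multiplicative.toAdd (MonoidHom.transfer (AddMonoidHom.toMultiplicativeRight h) T) := by
  classical
  have : Finite (SL(2, ℤ) ⧸ Γ) := Subgroup.finite_quotient_of_finiteIndex
  let _ : Fintype (Quotient (MulAction.orbitRel (Subgroup.zpowers (T : SL(2, ℤ)))
    (SL(2, ℤ) ⧸ Γ))) := Fintype.ofFinite _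
  rw [MonoidHom.transfer_eq_prod_quotient_orbitRel_zpowers_quot, toAdd_prod]
  unfold S41P_cuspSum
  rw [finsum_eq_sum_of_fintype]
  refine Finset.sum_congr rfl fun O _ => ?_
  show h (Additive.ofMul (S41P_cuspGen Γ (Quotient.out O))) = h (Additive.ofMul _)
  congr 2
  apply Subtype.ext
  unfold S41P_cuspGen
  rw [Fermat.Agent.S21.coe_gam_of_smul_eq]
  exact MulAction.pow_smul_eq_iff_minimalPeriod_dvd.mpr dvd_rfl

/-- `-1` acts trivially on the cosets of a subgroup containing `-1`. -/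
theorem S41PT_neg_one_smul (Γ : Subgroup SL(2, ℤ)) (hneg : (-1 : SL(2, ℤ)) ∈ Γ)
    (x : SL(2, ℤ) ⧸ Γ) : (-1 : SL(2, ℤ)) • x = x := by
  induction x using QuotientGroup.induction_on with
  | H g =>
    rw [MulAction.Quotient.smul_mk, QuotientGroup.eq]
    have h2 : ∀ a : SL(2, ℤ), a * (-1) = -a := fun a => by simp
    have h3 : ((-1 : SL(2, ℤ)) • g : SL(2, ℤ)) = g * (-1) := by
      rw [smul_eq_mul, h2]; simp
    have : ((-1 : SL(2, ℤ)) • g)⁻¹ * g = (-1 : SL(2, ℤ)) := by
      rw [h3, _root_.mul_inv_rev, mul_assoc, inv_mul_cancel, mul_one, inv_eq_iff_eq_inv,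
        eq_inv_iff_mul_eq_one]
      simp
    rw [this]
    exact hneg

/-- The transfer of a character killing the elliptic elements and `-1` is trivial at every `g`
with `tr(g)² < 4` some prime power `g ^ m` of which is `-1`. -/
theorem S41PT_transfer_ell (Γ : Subgroup SL(2, ℤ)) [Γ.FiniteIndex] (hneg : (-1 : SL(2, ℤ)) ∈ Γ)
    (h : Additive Γ →+ k)
    (hell : ∀ γ : Γ, ((γ : SL(2, ℤ)) : Matrix (Fin 2) (Fin 2) ℤ).trace ^ 2 < 4 →
      h (Additive.ofMul γ) = 0)
    (hm1 : ∀ γ : Γ, (γ : SL(2, ℤ)) = -1 → h (Additive.ofMul γ) = 0)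
    (g : SL(2, ℤ)) (m : ℕ) (hm : m.Prime) (hgm : g ^ m = -1)
    (hg : ((g : SL(2, ℤ)) : Matrix (Fin 2) (Fin 2) ℤ).trace ^ 2 < 4) :
    MonoidHom.transfer (AddMonoidHom.toMultiplicativeRight h) g = 1 := by
  refine S41PT_transfer_eq_one Γ _ g fun x γ hγ => ?_
  show Multiplicative.ofAdd (h (Additive.ofMul γ)) = 1
  rw [ofAdd_eq_one]
  have hdvd : Function.minimalPeriod (g • ·) x ∣ m := by
    rw [← MulAction.pow_smul_eq_iff_minimalPeriod_dvd, hgm]
    exact S41PT_neg_one_smul Γ hneg x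
  rcases (Nat.dvd_prime hm).mp hdvd with h1 | h1
  · apply hell
    rw [hγ, h1, pow_one, Matrix.SpecialLinearGroup.coe_mul, Matrix.trace_mul_comm,
      ← Matrix.SpecialLinearGroup.coe_mul, ← mul_assoc, mul_inv_cancel, one_mul]
    exact hg
  · apply hm1
    rw [hγ, h1, hgm]
    have h2 : ∀ a : SL(2, ℤ), a * (-1) = -a := fun a => by simp
    rw [h2, neg_mul, inv_mul_cancel]

/-- **TR.** The cusp sum of a character killing the elliptic elements and `-1` vanishes. -/
theorem S41P_cuspSum_hom (Γ : Subgroup SL(2, ℤ)) [Γ.FiniteIndex] (hneg : (-1 : SL(2, ℤ)) ∈ Γ)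
    (h : Additive Γ →+ k)
    (hell : ∀ γ : Γ, ((γ : SL(2, ℤ)) : Matrix (Fin 2) (Fin 2) ℤ).trace ^ 2 < 4 →
      h (Additive.ofMul γ) = 0)
    (hm1 : ∀ γ : Γ, (γ : SL(2, ℤ)) = -1 → h (Additive.ofMul γ) = 0) :
    S41P_cuspSum Γ (fun γ => h (Additive.ofMul γ)) = 0 := by
  rw [S41PT_cuspSum_eq_transfer]
  have hS : MonoidHom.transfer (AddMonoidHom.toMultiplicativeRight h) S = 1 := by
    refine S41PT_transfer_ell Γ hneg h hell hm1 S 2 Nat.prime_two ?_ ?_
    · rw [pow_two]; exact Fermat.Agent.S21.S_mul_S_eq_neg_one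
    · simp [S, Matrix.trace_fin_two]
  have hU : MonoidHom.transfer (AddMonoidHom.toMultiplicativeRight h) (S * T) = 1 := by
    refine S41PT_transfer_ell Γ hneg h hell hm1 (S * T) 3 Nat.prime_three ?_ ?_
    · rw [pow_succ, pow_two]; exact Fermat.Agent.S21.ST_cube_eq_neg_one
    · simp [S, T, Matrix.trace_fin_two]
  have hT : (T : SL(2, ℤ)) = S⁻¹ * (S * T) := by group
  rw [hT, map_mul, map_inv, hS, hU]
  simp

/-- Two admissible cochains for the same pair of characters have the same cusp sum. -/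
theorem S41P_cuspSum_adm_unique (Γ : Subgroup SL(2, ℤ)) [Γ.FiniteIndex]
    (hneg : (-1 : SL(2, ℤ)) ∈ Γ) (c c' : Additive Γ →+ k) (A A' : Γ → k)
    (hA : S41P_Adm Γ c c' A) (hA' : S41P_Adm Γ c c' A') :
    S41P_cuspSum Γ A = S41P_cuspSum Γ A' := by
  classical
  have : Finite (SL(2, ℤ) ⧸ Γ) := Subgroup.finite_quotient_of_finiteIndex
  let _ : Fintype (S41P_Cusps Γ) := Fintype.ofFinite _
  -- the difference is a character
  let h : Additive Γ →+ k :=
    { toFun := fun γ => A (Additive.toMul γ) - A' (Additive.toMul γ)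
      map_zero' := by
        have h1 := hA.1 1 1
        have h2 := hA'.1 1 1
        rw [mul_one] at h1 h2
        show A 1 - A' 1 = 0
        linear_combination h2 - h1
      map_add' := fun x y => by
        show A (Additive.toMul x * Additive.toMul y) - A' (Additive.toMul x * Additive.toMul y)
          = _
        rw [hA.1, hA'.1]
        ring }
  have h0 := S41P_cuspSum_hom Γ hneg h
    (fun γ hγ => by
      show A γ - A' γ = 0
      rw [hA.2.1 γ hγ, hA'.2.1 γ hγ, sub_zero])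
    (fun γ hγ => by
      show A γ - A' γ = 0
      rw [hA.2.2 γ hγ, hA'.2.2 γ hγ, sub_zero])
  have h1 : S41P_cuspSum Γ (fun γ => h (Additive.ofMul γ))
      = S41P_cuspSum Γ A - S41P_cuspSum Γ A' := by
    unfold S41P_cuspSum
    rw [finsum_eq_sum_of_fintype, finsum_eq_sum_of_fintype, finsum_eq_sum_of_fintype,
      ← Finset.sum_sub_distrib]
    rfl
  rw [h1] at h0
  exact sub_eq_zero.mp h0

/-- The pairing is computed by any admissible cochain. -/
theorem S41P_B_eq (Γ : Subgroup SL(2, ℤ)) [Γ.FiniteIndex]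
    (hneg : (-1 : SL(2, ℤ)) ∈ Γ) (c c' : Additive Γ →+ k) (A : Γ → k)
    (hA : S41P_Adm Γ c c' A) : S41P_B Γ c c' = S41P_cuspSum Γ A := by
  classical
  have hex : ∃ F : Γ → k, S41P_Adm Γ c c' F := ⟨A, hA⟩
  unfold S41P_B
  rw [dif_pos hex]
  exact S41P_cuspSum_adm_unique Γ hneg c c' _ A hex.choose_spec hA

end Fermat.Agent.S41
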