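import Mathlib
import Fermat.Agent.S41.PDDefs
import Fermat.Agent.S41.PDTransfer
import Fermat.Agent.S41.PDForm

/-!
# S41, package PD, κ-INV wiring (helper28): the pairing is invariant under conjugation

`j : Γ₁ ≃* Γ₂` the conjugation by an integral matrix `δ` with `det δ > 0`
(`δ γ = j(γ) δ`).  Then `PD_form (φ ∘ j) (φ' ∘ j) = PD_form φ φ'`.

* (K1) `S41PK_trace`, `S41PK_neg_one`, `S41PK_mem_parHomsF` : `j` preserves traces and `-1`;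
* (K2) `S41PK_adm_comp` : admissible cochains pull back along `j`;
* (K3) `S41PK_adm_conj` : admissible cochains are conjugation invariant on parabolic elements;
* (K4) `S41PK_form_conj_of` : the assembly, with the inputs (E) (existence of admissible
  cochains computing `PD_form`) and (C) (conjugation invariance of the cusp sum) as hypotheses.
-/

set_option autoImplicit false
set_option linter.unusedSectionVars false
set_option linter.unusedVariables false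

open Matrix MatrixGroups ModularGroup

namespace Fermat.Agent.S41

open Fermat.Agent.S16

variable {F : Type*} [Field F]

section transport

variable {Γ₁ Γ₂ : Subgroup SL(2, ℤ)} (j : Γ₁ ≃* Γ₂) (δ : Matrix (Fin 2) (Fin 2) ℤ)

/-- (K1) `j` preserves traces. -/
lemma S41PK_trace (hδ : δ.det ≠ 0)
    (hj : ∀ γ : Γ₁, δ * ((γ : SL(2, ℤ)) : Matrix (Fin 2) (Fin 2) ℤ)
      = ((j γ : SL(2, ℤ)) : Matrix (Fin 2) (Fin 2) ℤ) * δ) (γ : Γ₁) :
    ((j γ : SL(2, ℤ)) : Matrix (Fin 2) (Fin 2) ℤ).trace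
      = ((γ : SL(2, ℤ)) : Matrix (Fin 2) (Fin 2) ℤ).trace := by
  set A : Matrix (Fin 2) (Fin 2) ℤ := ((γ : SL(2, ℤ)) : Matrix (Fin 2) (Fin 2) ℤ) with hA
  set B : Matrix (Fin 2) (Fin 2) ℤ := ((j γ : SL(2, ℤ)) : Matrix (Fin 2) (Fin 2) ℤ) with hB
  have h0 : δ * A = B * δ := hj γ
  have h1 : (B * δ * δ.adjugate).trace = δ.det * B.trace := by
    rw [Matrix.mul_assoc, Matrix.mul_adjugate, Matrix.mul_smul, Matrix.mul_one,
      Matrix.trace_smul, smul_eq_mul]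
  have h2 : (δ * A * δ.adjugate).trace = δ.det * A.trace := by
    rw [Matrix.trace_mul_comm, ← Matrix.mul_assoc, Matrix.adjugate_mul, Matrix.smul_mul,
      Matrix.one_mul, Matrix.trace_smul, smul_eq_mul]
  rw [h0, h1] at h2
  exact mul_left_cancel₀ hδ h2

/-- (K1) `j` maps `-1` to `-1`. -/
lemma S41PK_neg_one (hδ : δ.det ≠ 0)
    (hj : ∀ γ : Γ₁, δ * ((γ : SL(2, ℤ)) : Matrix (Fin 2) (Fin 2) ℤ)
      = ((j γ : SL(2, ℤ)) : Matrix (Fin 2) (Fin 2) ℤ) * δ) (γ : Γ₁)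
    (hγ : (γ : SL(2, ℤ)) = -1) : (j γ : SL(2, ℤ)) = -1 := by
  have h0 := hj γ
  rw [hγ] at h0
  have h1 : δ * ((-1 : SL(2, ℤ)) : Matrix (Fin 2) (Fin 2) ℤ) = -δ := by
    rw [Matrix.SpecialLinearGroup.coe_neg, Matrix.SpecialLinearGroup.coe_one, Matrix.mul_neg,
      Matrix.mul_one]
  rw [h1] at h0
  have h2 : (-δ) * δ.adjugate
      = ((j γ : SL(2, ℤ)) : Matrix (Fin 2) (Fin 2) ℤ) * δ * δ.adjugate := by rw [h0]
  rw [Matrix.neg_mul, Matrix.mul_adjugate, Matrix.mul_assoc, Matrix.mul_adjugate,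
    Matrix.mul_smul, Matrix.mul_one] at h2
  apply Subtype.ext
  rw [Matrix.SpecialLinearGroup.coe_neg, Matrix.SpecialLinearGroup.coe_one]
  ext a b
  have h3 := congrFun (congrFun h2 a) b
  simp only [Matrix.neg_apply, Matrix.smul_apply, smul_eq_mul] at h3
  have h4 : δ.det * ((j γ : SL(2, ℤ)) : Matrix (Fin 2) (Fin 2) ℤ) a b
      = δ.det * (-(1 : Matrix (Fin 2) (Fin 2) ℤ)) a b := by
    rw [← h3, Matrix.neg_apply]
    ring
  exact mul_left_cancel₀ hδ h4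

/-- (K1) pull-back of parabolic characters. -/
lemma S41PK_mem_parHomsF (hδ : δ.det ≠ 0)
    (hj : ∀ γ : Γ₁, δ * ((γ : SL(2, ℤ)) : Matrix (Fin 2) (Fin 2) ℤ)
      = ((j γ : SL(2, ℤ)) : Matrix (Fin 2) (Fin 2) ℤ) * δ)
    {φ : Additive Γ₂ →+ F} (hφ : φ ∈ parHomsF F Γ₂ ellPred) :
    φ.comp (MonoidHom.toAdditive j.toMonoidHom) ∈ parHomsF F Γ₁ ellPred := by
  intro γ hγ
  show φ (Additive.ofMul (j γ)) = 0
  apply hφ
  unfold ellPred at hγ ⊢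
  rw [S41PK_trace j δ hδ hj γ]
  exact hγ

/-- (K2) admissible cochains pull back along `j`. -/
lemma S41PK_adm_comp (hδ : δ.det ≠ 0)
    (hj : ∀ γ : Γ₁, δ * ((γ : SL(2, ℤ)) : Matrix (Fin 2) (Fin 2) ℤ)
      = ((j γ : SL(2, ℤ)) : Matrix (Fin 2) (Fin 2) ℤ) * δ)
    {c c' : Additive Γ₂ →+ F} {A : Γ₂ → F} (hA : S41P_Adm Γ₂ c c' A) :
    S41P_Adm Γ₁ (c.comp (MonoidHom.toAdditive j.toMonoidHom))
      (c'.comp (MonoidHom.toAdditive j.toMonoidHom)) (A ∘ j) := by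
  refine ⟨fun γ₁ γ₂ => ?_, fun γ hγ => ?_, fun γ hγ => ?_⟩
  · show A (j (γ₁ * γ₂)) = A (j γ₁) + A (j γ₂)
      + c (Additive.ofMul (j γ₁)) * c' (Additive.ofMul (j γ₂))
    rw [map_mul]
    exact hA.1 _ _
  · show A (j γ) = 0
    apply hA.2.1
    rw [S41PK_trace j δ hδ hj γ]
    exact hγ
  · show A (j γ) = 0
    exact hA.2.2 _ (S41PK_neg_one j δ hδ hj γ hγ)

end transport

/-- (K3) admissible cochains for parabolic characters are conjugation invariant on the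
elements of trace `2`. -/
lemma S41PK_adm_conj {Γ : Subgroup SL(2, ℤ)} {c c' : Additive Γ →+ F}
    (hc : c ∈ parHomsF F Γ ellPred) (hc' : c' ∈ parHomsF F Γ ellPred) {A : Γ → F}
    (hA : S41P_Adm Γ c c' A) (g t : Γ)
    (ht : ((t : SL(2, ℤ)) : Matrix (Fin 2) (Fin 2) ℤ).trace = 2) :
    A (g * t * g⁻¹) = A t := by
  have hell : ellPred (t : SL(2, ℤ)) := by
    unfold ellPred
    rw [ht]
    norm_num
  have hct : c (Additive.ofMul t) = 0 := hc t hell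
  have hct' : c' (Additive.ofMul t) = 0 := hc' t hell
  have hA1 : A 1 = 0 := by
    have h1 := hA.1 1 1
    rw [mul_one] at h1
    have h2 : c (Additive.ofMul (1 : Γ)) = 0 := map_zero c
    rw [h2, zero_mul, add_zero] at h1
    linear_combination -h1
  have e1 := hA.1 (g * t) g⁻¹
  have e2 := hA.1 g t
  have e3 := hA.1 g g⁻¹
  rw [mul_inv_cancel, hA1] at e3
  have e4 : c (Additive.ofMul (g * t)) = c (Additive.ofMul g) + c (Additive.ofMul t) :=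
    map_add c (Additive.ofMul g) (Additive.ofMul t)
  rw [e1, e2, e4, hct, hct']
  linear_combination -e3

/-- (K4) **conjugation invariance of the pairing**, from the inputs (E) and (C). -/
theorem S41PK_form_conj_of (h2 : (2 : F) ≠ 0) (Γ₁ Γ₂ : Subgroup SL(2, ℤ)) [Γ₁.FiniteIndex]
    [Γ₂.FiniteIndex] (hneg₁ : (-1 : SL(2, ℤ)) ∈ Γ₁) (hneg₂ : (-1 : SL(2, ℤ)) ∈ Γ₂)
    (j : Γ₁ ≃* Γ₂) (δ : Matrix (Fin 2) (Fin 2) ℤ) (hδ : 0 < δ.det)
    (hj : ∀ γ : Γ₁, δ * ((γ : SL(2, ℤ)) : Matrix (Fin 2) (Fin 2) ℤ)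
      = ((j γ : SL(2, ℤ)) : Matrix (Fin 2) (Fin 2) ℤ) * δ)
    (φ φ' : Additive Γ₂ →+ F) (hφ : φ ∈ parHomsF F Γ₂ ellPred)
    (hφ' : φ' ∈ parHomsF F Γ₂ ellPred)
    (hE₁ : ∀ ψ ψ' : Additive Γ₁ →+ F, ψ ∈ parHomsF F Γ₁ ellPred → ψ' ∈ parHomsF F Γ₁ ellPred →
      ∃ A : Γ₁ → F, S41P_Adm Γ₁ ψ ψ' A ∧ 2 * S41P_cuspSum Γ₁ A = PD_form ψ ψ')
    (hE₂ : ∃ A : Γ₂ → F, S41P_Adm Γ₂ φ φ' A ∧ 2 * S41P_cuspSum Γ₂ A = PD_form φ φ')
    (hC : ∀ A : Γ₂ → F,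
      (∀ g t : Γ₂, ((t : SL(2, ℤ)) : Matrix (Fin 2) (Fin 2) ℤ).trace = 2 →
        A (g * t * g⁻¹) = A t) →
      S41P_cuspSum Γ₁ (A ∘ j) = S41P_cuspSum Γ₂ A) :
    PD_form (φ.comp (MonoidHom.toAdditive j.toMonoidHom))
      (φ'.comp (MonoidHom.toAdditive j.toMonoidHom)) = PD_form φ φ' := by
  have hδ0 : δ.det ≠ 0 := hδ.ne'
  obtain ⟨A₂, hA₂, hval₂⟩ := hE₂
  obtain ⟨A₁, hA₁, hval₁⟩ := hE₁ _ _ (S41PK_mem_parHomsF j δ hδ0 hj hφ)
    (S41PK_mem_parHomsF j δ hδ0 hj hφ')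
  have hA₂j := S41PK_adm_comp (F := F) j δ hδ0 hj hA₂
  have hu := S41P_cuspSum_adm_unique Γ₁ hneg₁ _ _ A₁ (A₂ ∘ j) hA₁ hA₂j
  have hc := hC A₂ (fun g t ht => S41PK_adm_conj hφ hφ' hA₂ g t ht)
  rw [← hval₁, hu, hc, hval₂]

end Fermat.Agent.S41
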