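import Mathlib
import Fermat.Agent.S41.PDDefs
import Fermat.Agent.S21.Parabolic

/-!
# S41, package PD, piece CUSP: matrix lemmas on parabolic elements of `SL(2, ℤ)`

* `S41PC_conj_T_zpow`   : the entries of `g⁻¹ T^m g`.
* `S41PC_exists_conj_T` : `tr t = 2 ⇒ t = g⁻¹ T^m g`.
* `S41PC_comm_T`        : `h T^w = T^w' h`, `w' ≠ 0 ⇒ h = ± T^a`.
* `S41PC_posPar_of_conj`: positivity is invariant under conjugation by an integral matrix of
  positive determinant.
-/

set_option autoImplicit false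

open Matrix MatrixGroups ModularGroup

namespace Fermat.Agent.S41

lemma S41PC_det (g : SL(2, ℤ)) : g 0 0 * g 1 1 - g 0 1 * g 1 0 = 1 := by
  have := g.det_coe
  rwa [Matrix.det_fin_two] at this

/-- The entries of `g⁻¹ T^m g`. -/
lemma S41PC_conj_T_zpow (g : SL(2, ℤ)) (m : ℤ) :
    ((g⁻¹ * T ^ m * g : SL(2, ℤ)) : Matrix (Fin 2) (Fin 2) ℤ) =
      !![1 + m * g 1 0 * g 1 1, m * g 1 1 ^ 2; -(m * g 1 0 ^ 2), 1 - m * g 1 0 * g 1 1] := by
  have hdet := S41PC_det g
  have hT : ((T ^ m : SL(2, ℤ)) : Matrix (Fin 2) (Fin 2) ℤ) = !![1, m; 0, 1] := coe_T_zpow m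
  ext i j
  fin_cases i <;> fin_cases j <;>
    simp only [Matrix.SpecialLinearGroup.coe_mul, Matrix.SpecialLinearGroup.coe_inv,
      Matrix.adjugate_fin_two, Matrix.mul_apply, Fin.sum_univ_two, Matrix.of_apply, hT,
      Matrix.cons_val', Matrix.cons_val_zero, Matrix.cons_val_one, Matrix.cons_val_fin_one,
      Fin.zero_eta, Fin.mk_one, Fin.isValue]
  · linear_combination hdet
  · ring
  · ring
  · linear_combination hdet

lemma S41PC_conj_T_zpow_01 (g : SL(2, ℤ)) (m : ℤ) :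
    (g⁻¹ * T ^ m * g : SL(2, ℤ)) 0 1 = m * g 1 1 ^ 2 := by
  have := congrFun (congrFun (S41PC_conj_T_zpow g m) 0) 1
  rw [this]
  rfl

lemma S41PC_conj_T_zpow_10 (g : SL(2, ℤ)) (m : ℤ) :
    (g⁻¹ * T ^ m * g : SL(2, ℤ)) 1 0 = -(m * g 1 0 ^ 2) := by
  have := congrFun (congrFun (S41PC_conj_T_zpow g m) 1) 0
  rw [this]
  rfl

lemma S41PC_trace_conj (g t : SL(2, ℤ)) :
    ((g⁻¹ * t * g : SL(2, ℤ)) : Matrix (Fin 2) (Fin 2) ℤ).trace
      = (t : Matrix (Fin 2) (Fin 2) ℤ).trace := by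
  have hdet := S41PC_det g
  simp only [Matrix.SpecialLinearGroup.coe_mul, Matrix.SpecialLinearGroup.coe_inv,
    Matrix.adjugate_fin_two, Matrix.trace_fin_two, Matrix.mul_apply, Fin.sum_univ_two,
    Matrix.of_apply, Matrix.cons_val', Matrix.cons_val_zero, Matrix.cons_val_one,
    Matrix.cons_val_fin_one]
  linear_combination (t 0 0 + t 1 1) * hdet

lemma S41PC_trace_conj' (g t : SL(2, ℤ)) :
    ((g * t * g⁻¹ : SL(2, ℤ)) : Matrix (Fin 2) (Fin 2) ℤ).trace
      = (t : Matrix (Fin 2) (Fin 2) ℤ).trace := by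
  have := S41PC_trace_conj g⁻¹ t
  rwa [inv_inv] at this

/-- A matrix of trace `2` is conjugate to a power of `T`. -/
lemma S41PC_exists_conj_T (t : SL(2, ℤ)) (htr : (t : Matrix (Fin 2) (Fin 2) ℤ).trace = 2) :
    ∃ (g : SL(2, ℤ)) (m : ℤ), t = g⁻¹ * T ^ m * g := by
  obtain ⟨δ, hδ⟩ := Fermat.Agent.S21.S21_p2_exists_conj_upper t (by rw [htr]; norm_num)
  set u : SL(2, ℤ) := δ⁻¹ * t * δ with hu
  have htru : (u : Matrix (Fin 2) (Fin 2) ℤ).trace = 2 := by
    rw [hu, S41PC_trace_conj, htr]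
  rw [Matrix.trace_fin_two] at htru
  have hdet := S41PC_det u
  have h10 : u 1 0 = 0 := hδ
  rw [h10, mul_zero, sub_zero] at hdet
  have h00 : u 0 0 = 1 := by
    have h11 : u 1 1 = 2 - u 0 0 := by linarith
    rw [h11] at hdet
    nlinarith [sq_nonneg (u 0 0 - 1)]
  have h11 : u 1 1 = 1 := by linarith
  have huT : u = T ^ (u 0 1) := by
    apply Subtype.ext
    rw [coe_T_zpow]
    ext i j
    fin_cases i <;> fin_cases j <;> simp [h00, h11, h10]
  refine ⟨δ⁻¹, u 0 1, ?_⟩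
  rw [← huT, hu]
  group

/-- An element conjugating a nontrivial power of `T` into a power of `T` is `± T^a`. -/
lemma S41PC_comm_T (h : SL(2, ℤ)) (w w' : ℤ) (hw' : w' ≠ 0) (hh : h * T ^ w = T ^ w' * h) :
    ∃ a : ℤ, h = T ^ a ∨ h = -T ^ a := by
  have hdet := S41PC_det h
  have hT : ((T ^ w : SL(2, ℤ)) : Matrix (Fin 2) (Fin 2) ℤ) = !![1, w; 0, 1] := coe_T_zpow w
  have hT' : ((T ^ w' : SL(2, ℤ)) : Matrix (Fin 2) (Fin 2) ℤ) = !![1, w'; 0, 1] := coe_T_zpow w'
  have hm : ((h * T ^ w : SL(2, ℤ)) : Matrix (Fin 2) (Fin 2) ℤ)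
      = ((T ^ w' * h : SL(2, ℤ)) : Matrix (Fin 2) (Fin 2) ℤ) := by rw [hh]
  have h00 := congrFun (congrFun hm 0) 0
  simp only [Matrix.SpecialLinearGroup.coe_mul, Matrix.mul_apply, Fin.sum_univ_two, hT, hT',
    Matrix.of_apply, Matrix.cons_val', Matrix.cons_val_zero, Matrix.cons_val_one,
    Matrix.cons_val_fin_one] at h00
  have hc : h 1 0 = 0 := by
    have : w' * h 1 0 = 0 := by linarith
    rcases mul_eq_zero.mp this with h1 | h1
    · exact absurd h1 hw'
    · exact h1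
  rw [hc, mul_zero, sub_zero] at hdet
  rcases Int.eq_one_or_neg_one_of_mul_eq_one' hdet with ⟨ha, hd⟩ | ⟨ha, hd⟩
  · refine ⟨h 0 1, Or.inl ?_⟩
    apply Subtype.ext
    rw [coe_T_zpow]
    ext i j
    fin_cases i <;> fin_cases j <;> simp [ha, hd, hc]
  · refine ⟨-h 0 1, Or.inr ?_⟩
    apply Subtype.ext
    rw [Matrix.SpecialLinearGroup.coe_neg, coe_T_zpow]
    ext i j
    fin_cases i <;> fin_cases j <;> simp [ha, hd, hc]

/-- Positivity of a parabolic matrix is invariant under conjugation by an integral matrix of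
positive determinant. -/
lemma S41PC_posPar_of_conj (δ : Matrix (Fin 2) (Fin 2) ℤ) (hδ : 0 < δ.det) (t t' : SL(2, ℤ))
    (h : δ * (t : Matrix (Fin 2) (Fin 2) ℤ) = (t' : Matrix (Fin 2) (Fin 2) ℤ) * δ)
    (ht : S41P_posPar t) : S41P_posPar t' := by
  obtain ⟨htr, hne, hb, hc⟩ := ht
  rw [Matrix.trace_fin_two] at htr
  rw [Matrix.det_fin_two] at hδ
  have hdet := S41PC_det t
  have hdet' := S41PC_det t'
  have e00 := congrFun (congrFun h 0) 0
  have e01 := congrFun (congrFun h 0) 1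
  have e10 := congrFun (congrFun h 1) 0
  have e11 := congrFun (congrFun h 1) 1
  simp only [Matrix.mul_apply, Fin.sum_univ_two] at e00 e01 e10 e11
  set a := δ 0 0
  set b := δ 0 1
  set c := δ 1 0
  set d := δ 1 1
  -- D • t' = δ t adj(δ)
  have f00 : (a * d - b * c) * t' 0 0 = (a * t 0 0 + b * t 1 0) * d - (a * t 0 1 + b * t 1 1) * c := by
    linear_combination -d * e00 + c * e01
  have f01 : (a * d - b * c) * t' 0 1 = -(a * t 0 0 + b * t 1 0) * b + (a * t 0 1 + b * t 1 1) * a := by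
    linear_combination b * e00 - a * e01
  have f10 : (a * d - b * c) * t' 1 0 = (c * t 0 0 + d * t 1 0) * d - (c * t 0 1 + d * t 1 1) * c := by
    linear_combination -d * e10 + c * e11
  have f11 : (a * d - b * c) * t' 1 1 = -(c * t 0 0 + d * t 1 0) * b + (c * t 0 1 + d * t 1 1) * a := by
    linear_combination b * e10 - a * e11
  -- α := t 0 0 - 1, so t 1 1 = 1 - α, α² = - β γ
  have hα : (t 0 0 - 1) ^ 2 = t 0 1 * (-(t 1 0)) := by
    have h11 : t 1 1 = 2 - t 0 0 := by linarith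
    rw [h11] at hdet
    linear_combination -hdet
  have h11 : t 1 1 = 2 - t 0 0 := by linarith
  -- nonnegativity of the form x² β - 2 x y α + y² (-γ)
  have key : ∀ x y : ℤ, 0 ≤ x ^ 2 * t 0 1 - 2 * x * y * (t 0 0 - 1) + y ^ 2 * (-(t 1 0)) := by
    intro x y
    rcases hb.lt_or_eq with hb' | hb'
    · have h1 : 0 ≤ t 0 1 * (x ^ 2 * t 0 1 - 2 * x * y * (t 0 0 - 1) + y ^ 2 * (-(t 1 0))) := by
        have : t 0 1 * (x ^ 2 * t 0 1 - 2 * x * y * (t 0 0 - 1) + y ^ 2 * (-(t 1 0)))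
            = (x * t 0 1 - y * (t 0 0 - 1)) ^ 2 := by
          linear_combination (-(y ^ 2)) * hα
        rw [this]
        exact sq_nonneg _
      exact nonneg_of_mul_nonneg_right h1 hb'
    · have hα0 : t 0 0 - 1 = 0 := by
        rw [← hb', zero_mul] at hα
        exact pow_eq_zero_iff (two_ne_zero) |>.mp hα
      rw [← hb', hα0]
      have : 0 ≤ y ^ 2 * (-(t 1 0)) := mul_nonneg (sq_nonneg _) (by linarith)
      linarith
  refine ⟨?_, ?_, ?_, ?_⟩
  · rw [Matrix.trace_fin_two]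
    have : (a * d - b * c) * (t' 0 0 + t' 1 1) = (a * d - b * c) * 2 := by
      rw [mul_add, f00, f11, h11]
      ring
    exact mul_left_cancel₀ hδ.ne' this
  · rintro rfl
    apply hne
    have hone : δ * (t : Matrix (Fin 2) (Fin 2) ℤ) = δ := by
      rw [h, Matrix.SpecialLinearGroup.coe_one, Matrix.one_mul]
    have h2 : (δ.adjugate * δ) * (t : Matrix (Fin 2) (Fin 2) ℤ) = δ.adjugate * δ := by
      rw [Matrix.mul_assoc, hone]
    rw [Matrix.adjugate_mul, Matrix.smul_mul, Matrix.one_mul] at h2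
    apply Subtype.ext
    rw [Matrix.SpecialLinearGroup.coe_one]
    have hd0 : δ.det ≠ 0 := by
      rw [Matrix.det_fin_two]
      exact hδ.ne'
    ext i j
    have := congrFun (congrFun h2 i) j
    simp only [Matrix.smul_apply, smul_eq_mul] at this
    exact mul_left_cancel₀ hd0 this
  · have h1 : 0 ≤ (a * d - b * c) * t' 0 1 := by
      rw [f01, h11]
      have := key a b
      linarith
    exact nonneg_of_mul_nonneg_right h1 hδ
  · have h1 : (a * d - b * c) * t' 1 0 ≤ 0 := by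
      rw [f10, h11]
      have := key c d
      linarith
    by_contra hcon
    have := mul_pos hδ (not_le.mp hcon)
    linarith

end Fermat.Agent.S41
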