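import Mathlib
import Fermat.Agent.S41.PDCuspMat

/-!
# S41, package PD, piece CUSP: conjugation invariance of the cusp sum

`S41P_cuspSum_conj`: if `j : Γ₁ ≃* Γ₂` is induced by conjugation with an integral matrix `δ` of
positive determinant, and `A : Γ₂ → F` is conjugation invariant on elements of trace `2`, then
`S41P_cuspSum Γ₁ (A ∘ j) = S41P_cuspSum Γ₂ A`.

Route: the cusp generators `S41P_cuspGen Γ O.out` form a system of representatives of the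
`Γ`-conjugacy classes of primitive positive parabolic elements of `Γ`
(`S41PC_cuspGen_primPar`, `S41PC_primPar_conj`, `S41PC_cuspGen_conj_unique`), and `j` preserves
primitive positive parabolic elements (`S41PC_primPar_map`).
-/

set_option autoImplicit false

open Matrix MatrixGroups ModularGroup

namespace Fermat.Agent.S41

variable (Γ : Subgroup SL(2, ℤ))

/-- The `T`-period of a coset. -/
noncomputable abbrev S41PC_w (x : SL(2, ℤ) ⧸ Γ) : ℕ :=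
  Function.minimalPeriod (fun y : SL(2, ℤ) ⧸ Γ => T • y) x

lemma S41PC_w_pos [Γ.FiniteIndex] (x : SL(2, ℤ) ⧸ Γ) : 0 < S41PC_w Γ x := by
  have : Finite (SL(2, ℤ) ⧸ Γ) := Subgroup.finite_quotient_of_finiteIndex
  have : Finite (MulAction.orbit (Subgroup.zpowers (T : SL(2, ℤ))) x) := Subtype.finite
  exact Nat.pos_of_ne_zero (NeZero.ne _)

lemma S41PC_zpow_smul_iff (x : SL(2, ℤ) ⧸ Γ) (m : ℤ) :
    T ^ m • x = x ↔ (S41PC_w Γ x : ℤ) ∣ m :=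
  MulAction.zpow_smul_eq_iff_minimalPeriod_dvd

lemma S41PC_pow_w_smul (x : SL(2, ℤ) ⧸ Γ) : T ^ (S41PC_w Γ x) • x = x := by
  have := (S41PC_zpow_smul_iff Γ x (S41PC_w Γ x : ℤ)).mpr dvd_rfl
  rwa [zpow_natCast] at this

lemma S41PC_cuspGen_coe (x : SL(2, ℤ) ⧸ Γ) :
    (S41P_cuspGen Γ x : SL(2, ℤ))
      = (Quotient.out x)⁻¹ * T ^ (S41PC_w Γ x : ℤ) * Quotient.out x := by
  rw [zpow_natCast]
  exact Fermat.Agent.S21.coe_gam_of_smul_eq Γ (S41PC_pow_w_smul Γ x)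

/-- `h` fixes the coset of `g` iff `g⁻¹ h g ∈ Γ`. -/
lemma S41PC_smul_mk_iff (h g : SL(2, ℤ)) :
    h • (g : SL(2, ℤ) ⧸ Γ) = (g : SL(2, ℤ) ⧸ Γ) ↔ g⁻¹ * h * g ∈ Γ := by
  rw [MulAction.Quotient.smul_coe, smul_eq_mul, eq_comm, QuotientGroup.eq, mul_assoc]

/-- The period is constant on `T`-orbits. -/
lemma S41PC_w_smul (x : SL(2, ℤ) ⧸ Γ) (a : ℤ) : S41PC_w Γ (T ^ a • x) = S41PC_w Γ x := by
  have key : ∀ m : ℤ, T ^ m • (T ^ a • x) = T ^ a • x ↔ T ^ m • x = x := by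
    intro m
    rw [← mul_smul, ← _root_.zpow_add, add_comm, _root_.zpow_add, mul_smul]
    exact smul_left_cancel_iff _
  apply Nat.dvd_antisymm
  · have := (key (S41PC_w Γ x : ℤ)).mpr ((S41PC_zpow_smul_iff Γ x _).mpr dvd_rfl)
    exact Int.natCast_dvd_natCast.mp ((S41PC_zpow_smul_iff Γ _ _).mp this)
  · have := (key (S41PC_w Γ (T ^ a • x) : ℤ)).mp ((S41PC_zpow_smul_iff Γ _ _).mpr dvd_rfl)
    exact Int.natCast_dvd_natCast.mp ((S41PC_zpow_smul_iff Γ _ _).mp this)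

/-- `g⁻¹ T^m g` with `m > 0` is positive parabolic. -/
lemma S41PC_posPar_conj_T (g : SL(2, ℤ)) (m : ℤ) (hm : 0 < m) :
    S41P_posPar (g⁻¹ * T ^ m * g) := by
  have hE := S41PC_conj_T_zpow g m
  have hdet := S41PC_det g
  have e01 := S41PC_conj_T_zpow_01 g m
  have e10 := S41PC_conj_T_zpow_10 g m
  refine ⟨?_, ?_, ?_, ?_⟩
  · rw [hE, Matrix.trace_fin_two]
    simp
  · intro h1
    rw [h1] at e01 e10
    simp only [Matrix.SpecialLinearGroup.coe_one, ne_eq, zero_ne_one, not_false_eq_true,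
      Matrix.one_apply_ne, one_ne_zero] at e01 e10
    have h11 : g 1 1 = 0 := by
      rcases mul_eq_zero.mp e01.symm with h | h
      · exact absurd h hm.ne'
      · exact pow_eq_zero_iff (two_ne_zero) |>.mp h
    have h10 : g 1 0 = 0 := by
      rcases mul_eq_zero.mp (neg_eq_zero.mp e10.symm) with h | h
      · exact absurd h hm.ne'
      · exact pow_eq_zero_iff (two_ne_zero) |>.mp h
    rw [h11, h10] at hdet
    simp at hdet
  · rw [e01]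
    positivity
  · rw [e10]
    have : 0 ≤ m * g 1 0 ^ 2 := by positivity
    linarith

/-- Conversely, if `g⁻¹ T^m g` is positive parabolic then `m > 0`. -/
lemma S41PC_pos_of_posPar (g : SL(2, ℤ)) (m : ℤ) (h : S41P_posPar (g⁻¹ * T ^ m * g)) :
    0 < m := by
  obtain ⟨-, hne, hb, hc⟩ := h
  have hdet := S41PC_det g
  have e01 := S41PC_conj_T_zpow_01 g m
  have e10 := S41PC_conj_T_zpow_10 g m
  rw [e01] at hb
  rw [e10] at hc
  rcases lt_trichotomy m 0 with hm | hm | hm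
  · exfalso
    have h1 : g 1 1 ^ 2 ≤ 0 := by
      by_contra hcon
      have := mul_neg_of_neg_of_pos hm (not_le.mp hcon)
      linarith
    have h2 : g 1 0 ^ 2 ≤ 0 := by
      by_contra hcon
      have := mul_neg_of_neg_of_pos hm (not_le.mp hcon)
      linarith
    have h1' : g 1 1 = 0 := by
      have := le_antisymm h1 (sq_nonneg _)
      exact pow_eq_zero_iff (two_ne_zero) |>.mp this
    have h2' : g 1 0 = 0 := by
      have := le_antisymm h2 (sq_nonneg _)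
      exact pow_eq_zero_iff (two_ne_zero) |>.mp this
    rw [h1', h2'] at hdet
    simp at hdet
  · exfalso
    apply hne
    rw [hm]
    simp
  · exact hm

lemma S41PC_T_zpow_inj {m n : ℤ} (h : (T : SL(2, ℤ)) ^ m = T ^ n) : m = n := by
  have h1 : ((T ^ m : SL(2, ℤ)) : Matrix (Fin 2) (Fin 2) ℤ) = ((T ^ n : SL(2, ℤ)) : _) := by
    rw [h]
  rw [coe_T_zpow, coe_T_zpow] at h1
  have := congrFun (congrFun h1 0) 1
  simpa using this

/-- The cusp generators are primitive positive parabolic elements. -/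
lemma S41PC_cuspGen_primPar [Γ.FiniteIndex] (x : SL(2, ℤ) ⧸ Γ) :
    S41P_primPar Γ (S41P_cuspGen Γ x) := by
  have hw := S41PC_w_pos Γ x
  have hwZ : (0 : ℤ) < (S41PC_w Γ x : ℤ) := by exact_mod_cast hw
  have hpos : S41P_posPar (S41P_cuspGen Γ x : SL(2, ℤ)) := by
    rw [S41PC_cuspGen_coe]
    exact S41PC_posPar_conj_T _ _ hwZ
  refine ⟨hpos, ?_⟩
  intro s n hs hsn
  obtain ⟨g₁, m, hg₁⟩ := S41PC_exists_conj_T (s : SL(2, ℤ)) hs.1
  set g := Quotient.out x with hg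
  have hsn' : ((s : SL(2, ℤ)) ^ n) = g⁻¹ * T ^ (S41PC_w Γ x : ℤ) * g := by
    rw [← S41PC_cuspGen_coe, ← hsn]
    rfl
  have hpow : (s : SL(2, ℤ)) ^ n = g₁⁻¹ * T ^ (m * n) * g₁ := by
    rw [hg₁, _root_.zpow_mul, zpow_natCast]
    have := conj_pow (a := g₁⁻¹) (b := T ^ m) (i := n)
    rwa [inv_inv] at this
  have hmn : m * n ≠ 0 := by
    intro h0
    rw [h0, zpow_zero, mul_one, inv_mul_cancel] at hpow
    rw [hpow] at hsn'
    have : T ^ (S41PC_w Γ x : ℤ) = (1 : SL(2, ℤ)) := by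
      have h1 : g * (g⁻¹ * T ^ (S41PC_w Γ x : ℤ) * g) * g⁻¹ = g * 1 * g⁻¹ := by rw [← hsn']
      simpa [mul_assoc] using h1
    have := S41PC_T_zpow_inj (this.trans (zpow_zero _).symm)
    exact hwZ.ne' this
  have hcomm : (g₁ * g⁻¹) * T ^ (S41PC_w Γ x : ℤ) = T ^ (m * n) * (g₁ * g⁻¹) := by
    have h1 : g₁⁻¹ * T ^ (m * n) * g₁ = g⁻¹ * T ^ (S41PC_w Γ x : ℤ) * g := by
      rw [← hpow, hsn']
    calc (g₁ * g⁻¹) * T ^ (S41PC_w Γ x : ℤ)
        = g₁ * (g⁻¹ * T ^ (S41PC_w Γ x : ℤ) * g) * g⁻¹ := by group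
      _ = g₁ * (g₁⁻¹ * T ^ (m * n) * g₁) * g⁻¹ := by rw [h1]
      _ = T ^ (m * n) * (g₁ * g⁻¹) := by group
  obtain ⟨a, ha⟩ := S41PC_comm_T _ _ _ hmn hcomm
  -- `w = m n`
  have hwmn : (S41PC_w Γ x : ℤ) = m * n := by
    rcases ha with ha | ha
    · rw [ha] at hcomm
      rw [← _root_.zpow_add, ← _root_.zpow_add] at hcomm
      have := S41PC_T_zpow_inj hcomm
      linarith
    · rw [ha] at hcomm
      rw [neg_mul, mul_neg, neg_inj, ← _root_.zpow_add, ← _root_.zpow_add] at hcomm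
      have := S41PC_T_zpow_inj hcomm
      linarith
  -- `s = g⁻¹ T^m g`
  have hs' : (s : SL(2, ℤ)) = g⁻¹ * T ^ m * g := by
    have hg₁' : g₁ = (g₁ * g⁻¹) * g := by group
    rw [hg₁, hg₁']
    rcases ha with ha | ha
    · rw [ha]; group
    · rw [ha]
      simp only [neg_mul, mul_neg, inv_neg, neg_neg, _root_.mul_inv_rev]
      group
  -- `T^m` fixes `x`, so `w ∣ m`
  have hfix : T ^ m • x = x := by
    have h1 : T ^ m • (g : SL(2, ℤ) ⧸ Γ) = (g : SL(2, ℤ) ⧸ Γ) := by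
      rw [S41PC_smul_mk_iff, ← hs']
      exact s.2
    rwa [hg, QuotientGroup.out_eq'] at h1
  obtain ⟨k, hk⟩ := (S41PC_zpow_smul_iff Γ x m).mp hfix
  -- conclusion
  have h1 : (S41PC_w Γ x : ℤ) * 1 = (S41PC_w Γ x : ℤ) * (k * n) := by
    rw [mul_one]
    conv_lhs => rw [hwmn, hk]
    ring
  have h2 : k * (n : ℤ) = 1 := (mul_left_cancel₀ hwZ.ne' h1).symm
  have h3 : (n : ℤ) ∣ 1 := Dvd.intro_left _ h2
  have h4 : n ∣ 1 := by exact_mod_cast h3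
  exact Nat.dvd_one.mp h4

/-- The cusp generators at two points of the same `T`-orbit are conjugate in `Γ`. -/
lemma S41PC_cuspGen_smul (x : SL(2, ℤ) ⧸ Γ) (a : ℤ) :
    ∃ γ : Γ, S41P_cuspGen Γ (T ^ a • x) = γ * S41P_cuspGen Γ x * γ⁻¹ := by
  obtain ⟨γ₁, hγ₁⟩ := QuotientGroup.mk_out_eq_mul Γ (T ^ a * Quotient.out x)
  have hx : ((T ^ a * Quotient.out x : SL(2, ℤ)) : SL(2, ℤ) ⧸ Γ) = T ^ a • x := by
    conv_rhs => rw [← QuotientGroup.out_eq' x]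
    rfl
  rw [hx] at hγ₁
  refine ⟨γ₁⁻¹, ?_⟩
  apply Subtype.ext
  rw [Subgroup.coe_mul, Subgroup.coe_mul, S41PC_cuspGen_coe, S41PC_cuspGen_coe, S41PC_w_smul,
    hγ₁]
  simp only [inv_inv, Subgroup.coe_inv]
  group

/-- Every primitive positive parabolic element of `Γ` is conjugate in `Γ` to a cusp generator. -/
lemma S41PC_primPar_conj' [Γ.FiniteIndex] (t : Γ) (ht : S41P_primPar Γ t) :
    ∃ (x : SL(2, ℤ) ⧸ Γ) (γ : Γ), t = γ * S41P_cuspGen Γ x * γ⁻¹ := by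
  obtain ⟨hpos, hprim⟩ := ht
  obtain ⟨g₀, m, hg₀⟩ := S41PC_exists_conj_T (t : SL(2, ℤ)) hpos.1
  have hm : 0 < m := by
    rw [hg₀] at hpos
    exact S41PC_pos_of_posPar g₀ m hpos
  obtain ⟨x, hx⟩ : ∃ x : SL(2, ℤ) ⧸ Γ, x = (g₀ : SL(2, ℤ) ⧸ Γ) := ⟨_, rfl⟩
  have hw := S41PC_w_pos Γ x
  have hwZ : (0 : ℤ) < (S41PC_w Γ x : ℤ) := by exact_mod_cast hw
  have hfix : T ^ m • x = x := by
    rw [hx, S41PC_smul_mk_iff, ← hg₀]
    exact t.2
  obtain ⟨k, hk⟩ := (S41PC_zpow_smul_iff Γ x m).mp hfix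
  have hk0 : 0 < k := by
    by_contra hcon
    have : (S41PC_w Γ x : ℤ) * k ≤ 0 := mul_nonpos_of_nonneg_of_nonpos hwZ.le (not_lt.mp hcon)
    linarith
  -- the element `s = g₀⁻¹ T^w g₀ ∈ Γ`
  have hsmem : g₀⁻¹ * T ^ (S41PC_w Γ x : ℤ) * g₀ ∈ Γ := by
    rw [← S41PC_smul_mk_iff, ← hx, S41PC_zpow_smul_iff]
  have hspos : S41P_posPar (g₀⁻¹ * T ^ (S41PC_w Γ x : ℤ) * g₀) := S41PC_posPar_conj_T _ _ hwZ
  have hspow : (⟨_, hsmem⟩ : Γ) ^ k.toNat = t := by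
    apply Subtype.ext
    rw [Subgroup.coe_pow, hg₀]
    have := conj_pow (a := g₀⁻¹) (b := T ^ (S41PC_w Γ x : ℤ)) (i := k.toNat)
    rw [inv_inv] at this
    rw [this, ← zpow_natCast, ← _root_.zpow_mul, Int.toNat_of_nonneg hk0.le, ← hk]
  have hk1 := hprim ⟨_, hsmem⟩ k.toNat hspos hspow
  have hk1' : k = 1 := by
    have := Int.toNat_of_nonneg hk0.le
    rw [hk1] at this
    exact this.symm
  rw [hk1', mul_one] at hk
  -- now `t = g₀⁻¹ T^w g₀`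
  obtain ⟨γ₀, hγ₀⟩ := QuotientGroup.mk_out_eq_mul Γ g₀
  refine ⟨x, γ₀, ?_⟩
  apply Subtype.ext
  rw [Subgroup.coe_mul, Subgroup.coe_mul, S41PC_cuspGen_coe, hg₀, hk]
  subst hx
  rw [hγ₀]
  simp only [Subgroup.coe_inv]
  group

/-- Every primitive positive parabolic element of `Γ` is conjugate in `Γ` to the cusp generator of
a cusp. -/
lemma S41PC_primPar_conj [Γ.FiniteIndex] (t : Γ) (ht : S41P_primPar Γ t) :
    ∃ (O : S41P_Cusps Γ) (γ : Γ), t = γ * S41P_cuspGen Γ (Quotient.out O) * γ⁻¹ := by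
  obtain ⟨x, γ, hγ⟩ := S41PC_primPar_conj' Γ t ht
  set O : S41P_Cusps Γ := Quotient.mk'' x with hO
  have hout : Quotient.out O ∈ MulAction.orbit (Subgroup.zpowers (T : SL(2, ℤ))) x := by
    have : (MulAction.orbitRel (Subgroup.zpowers (T : SL(2, ℤ))) (SL(2, ℤ) ⧸ Γ)).r
        (Quotient.out O) x := Quotient.mk_out x
    exact this
  obtain ⟨⟨h, hh⟩, hhx⟩ := hout
  obtain ⟨a, rfl⟩ := Subgroup.mem_zpowers_iff.mp hh
  have hhx' : T ^ a • x = Quotient.out O := hhx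
  obtain ⟨γ₁, hγ₁⟩ := S41PC_cuspGen_smul Γ x a
  rw [hhx'] at hγ₁
  refine ⟨O, γ * γ₁⁻¹, ?_⟩
  rw [hγ, hγ₁]
  group

/-- Conjugate cusp generators belong to the same `T`-orbit. -/
lemma S41PC_cuspGen_conj_unique [Γ.FiniteIndex] (hneg : -1 ∈ Γ) (x x' : SL(2, ℤ) ⧸ Γ) (γ : Γ)
    (h : S41P_cuspGen Γ x' = γ * S41P_cuspGen Γ x * γ⁻¹) :
    (Quotient.mk'' x' : S41P_Cusps Γ) = Quotient.mk'' x := by
  have hw' := S41PC_w_pos Γ x'
  have hwZ' : (S41PC_w Γ x' : ℤ) ≠ 0 := by exact_mod_cast hw'.ne'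
  set g := Quotient.out x with hg
  set g' := Quotient.out x' with hg'
  have h1 : g'⁻¹ * T ^ (S41PC_w Γ x' : ℤ) * g'
      = γ * (g⁻¹ * T ^ (S41PC_w Γ x : ℤ) * g) * (γ : SL(2, ℤ))⁻¹ := by
    rw [← S41PC_cuspGen_coe, ← S41PC_cuspGen_coe, h, Subgroup.coe_mul, Subgroup.coe_mul,
      Subgroup.coe_inv]
  have hcomm : (g' * γ * g⁻¹) * T ^ (S41PC_w Γ x : ℤ)
      = T ^ (S41PC_w Γ x' : ℤ) * (g' * γ * g⁻¹) := by
    calc (g' * γ * g⁻¹) * T ^ (S41PC_w Γ x : ℤ)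
        = g' * (γ * (g⁻¹ * T ^ (S41PC_w Γ x : ℤ) * g) * (γ : SL(2, ℤ))⁻¹) * (γ * g⁻¹) := by
          group
      _ = g' * (g'⁻¹ * T ^ (S41PC_w Γ x' : ℤ) * g') * (γ * g⁻¹) := by rw [h1]
      _ = T ^ (S41PC_w Γ x' : ℤ) * (g' * γ * g⁻¹) := by group
  obtain ⟨a, ha⟩ := S41PC_comm_T _ _ _ hwZ' hcomm
  -- `x' = T^a • x`
  have hx' : x' = T ^ a • x := by
    have e1 : x' = ((g' * γ : SL(2, ℤ)) : SL(2, ℤ) ⧸ Γ) := by
      rw [← QuotientGroup.out_eq' x', ← hg', QuotientGroup.eq]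
      have : g'⁻¹ * (g' * (γ : SL(2, ℤ))) = γ := by group
      rw [this]
      exact γ.2
    have e2 : T ^ a • x = ((T ^ a * g : SL(2, ℤ)) : SL(2, ℤ) ⧸ Γ) := by
      conv_lhs => rw [← QuotientGroup.out_eq' x]
      rfl
    rw [e1, e2, QuotientGroup.eq]
    have hgg : g' * γ = (g' * γ * g⁻¹) * g := by group
    rw [hgg]
    rcases ha with ha | ha
    · rw [ha]
      have : (T ^ a * g)⁻¹ * (T ^ a * g) = 1 := inv_mul_cancel _
      rw [this]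
      exact Γ.one_mem
    · rw [ha]
      have : (-T ^ a * g)⁻¹ * (T ^ a * g) = -1 := by
        rw [neg_mul, inv_neg, neg_mul, inv_mul_cancel]
      rw [this]
      exact hneg
  rw [hx']
  apply Quotient.sound'
  exact ⟨⟨T ^ a, Subgroup.mem_zpowers_iff.mpr ⟨a, rfl⟩⟩, rfl⟩

/-- An isomorphism induced by conjugation with an integral matrix of positive determinant
preserves positive parabolic elements. -/
lemma S41PC_posPar_map (Γ₁ Γ₂ : Subgroup SL(2, ℤ)) (j : Γ₁ ≃* Γ₂)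
    (δ : Matrix (Fin 2) (Fin 2) ℤ) (hδ : 0 < δ.det)
    (hj : ∀ γ : Γ₁, δ * ((γ : SL(2, ℤ)) : Matrix (Fin 2) (Fin 2) ℤ)
      = ((j γ : SL(2, ℤ)) : Matrix (Fin 2) (Fin 2) ℤ) * δ)
    (t : Γ₁) (ht : S41P_posPar (t : SL(2, ℤ))) : S41P_posPar (j t : SL(2, ℤ)) :=
  S41PC_posPar_of_conj δ hδ _ _ (hj t) ht

/-- The inverse isomorphism is induced by conjugation with the adjugate matrix. -/
lemma S41PC_symm_conj (Γ₁ Γ₂ : Subgroup SL(2, ℤ)) (j : Γ₁ ≃* Γ₂)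
    (δ : Matrix (Fin 2) (Fin 2) ℤ) (hδ : 0 < δ.det)
    (hj : ∀ γ : Γ₁, δ * ((γ : SL(2, ℤ)) : Matrix (Fin 2) (Fin 2) ℤ)
      = ((j γ : SL(2, ℤ)) : Matrix (Fin 2) (Fin 2) ℤ) * δ) (γ : Γ₂) :
    δ.adjugate * ((γ : SL(2, ℤ)) : Matrix (Fin 2) (Fin 2) ℤ)
      = ((j.symm γ : SL(2, ℤ)) : Matrix (Fin 2) (Fin 2) ℤ) * δ.adjugate := by
  have h := hj (j.symm γ)
  rw [MulEquiv.apply_symm_apply] at h
  have h1 : δ.adjugate * (δ * ((j.symm γ : SL(2, ℤ)) : Matrix (Fin 2) (Fin 2) ℤ)) * δ.adjugate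
      = δ.adjugate * (((γ : SL(2, ℤ)) : Matrix (Fin 2) (Fin 2) ℤ) * δ) * δ.adjugate := by
    rw [h]
  rw [← Matrix.mul_assoc, Matrix.adjugate_mul, Matrix.mul_assoc δ.adjugate, Matrix.mul_assoc,
    Matrix.mul_assoc, Matrix.mul_adjugate, Matrix.smul_mul, Matrix.one_mul, Matrix.mul_smul,
    Matrix.mul_one, Matrix.mul_smul] at h1
  have hd0 : δ.det ≠ 0 := hδ.ne'
  ext i k
  have := congrFun (congrFun h1 i) k
  simp only [Matrix.smul_apply, smul_eq_mul] at this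
  exact (mul_left_cancel₀ hd0 this).symm

lemma S41PC_det_adjugate (δ : Matrix (Fin 2) (Fin 2) ℤ) : δ.adjugate.det = δ.det := by
  rw [Matrix.adjugate_fin_two, Matrix.det_fin_two, Matrix.det_fin_two]
  simp only [Matrix.of_apply, Matrix.cons_val', Matrix.cons_val_zero, Matrix.cons_val_one,
    Matrix.cons_val_fin_one]
  ring

/-- An isomorphism induced by conjugation with an integral matrix of positive determinant
preserves primitive positive parabolic elements. -/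
lemma S41PC_primPar_map (Γ₁ Γ₂ : Subgroup SL(2, ℤ)) (j : Γ₁ ≃* Γ₂)
    (δ : Matrix (Fin 2) (Fin 2) ℤ) (hδ : 0 < δ.det)
    (hj : ∀ γ : Γ₁, δ * ((γ : SL(2, ℤ)) : Matrix (Fin 2) (Fin 2) ℤ)
      = ((j γ : SL(2, ℤ)) : Matrix (Fin 2) (Fin 2) ℤ) * δ)
    (t : Γ₁) (ht : S41P_primPar Γ₁ t) : S41P_primPar Γ₂ (j t) := by
  refine ⟨S41PC_posPar_map Γ₁ Γ₂ j δ hδ hj t ht.1, ?_⟩
  intro s n hs hsn
  have hs' : S41P_posPar (j.symm s : SL(2, ℤ)) :=
    S41PC_posPar_map Γ₂ Γ₁ j.symm δ.adjugate (by rw [S41PC_det_adjugate]; exact hδ)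
      (S41PC_symm_conj Γ₁ Γ₂ j δ hδ hj) s hs
  refine ht.2 (j.symm s) n hs' ?_
  rw [← map_pow, hsn, MulEquiv.symm_apply_apply]

/-- **CUSP**: conjugation invariance of the cusp sum. -/
theorem S41P_cuspSum_conj {F : Type*} [Field F] (Γ₁ Γ₂ : Subgroup SL(2, ℤ))
    [Γ₁.FiniteIndex] [Γ₂.FiniteIndex] (hneg₁ : -1 ∈ Γ₁) (hneg₂ : -1 ∈ Γ₂)
    (j : Γ₁ ≃* Γ₂) (δ : Matrix (Fin 2) (Fin 2) ℤ) (hδ : 0 < δ.det)
    (hj : ∀ γ : Γ₁, δ * ((γ : SL(2, ℤ)) : Matrix (Fin 2) (Fin 2) ℤ)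
      = ((j γ : SL(2, ℤ)) : Matrix (Fin 2) (Fin 2) ℤ) * δ)
    (A : Γ₂ → F)
    (hA : ∀ g t : Γ₂, ((t : SL(2, ℤ)) : Matrix (Fin 2) (Fin 2) ℤ).trace = 2 →
      A (g * t * g⁻¹) = A t) :
    S41P_cuspSum Γ₁ (A ∘ j) = S41P_cuspSum Γ₂ A := by
  have hex : ∀ O₁ : S41P_Cusps Γ₁, ∃ (O₂ : S41P_Cusps Γ₂) (γ : Γ₂),
      j (S41P_cuspGen Γ₁ (Quotient.out O₁)) = γ * S41P_cuspGen Γ₂ (Quotient.out O₂) * γ⁻¹ :=
    fun O₁ => S41PC_primPar_conj Γ₂ _
      (S41PC_primPar_map Γ₁ Γ₂ j δ hδ hj _ (S41PC_cuspGen_primPar Γ₁ _))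
  choose e γe he using hex
  have hinj : Function.Injective e := by
    intro O₁ O₁' hOO
    have h1 := he O₁
    have h2 := he O₁'
    rw [hOO] at h1
    -- `j t₁' = (γ' γ⁻¹) (j t₁) (γ' γ⁻¹)⁻¹`
    have h3 : j (S41P_cuspGen Γ₁ (Quotient.out O₁'))
        = (γe O₁' * (γe O₁)⁻¹) * j (S41P_cuspGen Γ₁ (Quotient.out O₁))
          * (γe O₁' * (γe O₁)⁻¹)⁻¹ := by
      rw [h1, h2]; group
    have h4 : S41P_cuspGen Γ₁ (Quotient.out O₁')
        = j.symm (γe O₁' * (γe O₁)⁻¹) * S41P_cuspGen Γ₁ (Quotient.out O₁)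
          * (j.symm (γe O₁' * (γe O₁)⁻¹))⁻¹ := by
      apply j.injective
      rw [h3, map_mul, map_mul, map_inv, MulEquiv.apply_symm_apply]
    have := S41PC_cuspGen_conj_unique Γ₁ hneg₁ _ _ _ h4
    rw [Quotient.out_eq', Quotient.out_eq'] at this
    exact this.symm
  have hsurj : Function.Surjective e := by
    intro O₂
    obtain ⟨O₁, γ, hγ⟩ := S41PC_primPar_conj Γ₁ _
      (S41PC_primPar_map Γ₂ Γ₁ j.symm δ.adjugate (by rw [S41PC_det_adjugate]; exact hδ)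
        (S41PC_symm_conj Γ₁ Γ₂ j δ hδ hj) _ (S41PC_cuspGen_primPar Γ₂ (Quotient.out O₂)))
    refine ⟨O₁, ?_⟩
    have h1 := he O₁
    -- `cuspGen Γ₂ O₂.out = j γ * j (cuspGen Γ₁ O₁.out) * (j γ)⁻¹`
    have h2 : S41P_cuspGen Γ₂ (Quotient.out O₂)
        = j γ * j (S41P_cuspGen Γ₁ (Quotient.out O₁)) * (j γ)⁻¹ := by
      have := congrArg j hγ
      rw [MulEquiv.apply_symm_apply, map_mul, map_mul, map_inv] at this
      exact this
    rw [h1] at h2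
    have h3 : S41P_cuspGen Γ₂ (Quotient.out O₂)
        = (j γ * γe O₁) * S41P_cuspGen Γ₂ (Quotient.out (e O₁)) * (j γ * γe O₁)⁻¹ := by
      rw [h2]; group
    have := S41PC_cuspGen_conj_unique Γ₂ hneg₂ _ _ _ h3
    rw [Quotient.out_eq', Quotient.out_eq'] at this
    exact this.symm
  unfold S41P_cuspSum
  refine finsum_eq_of_bijective e ⟨hinj, hsurj⟩ ?_
  intro O₁
  rw [Function.comp_apply, he O₁]
  refine hA _ _ ?_
  exact (S41PC_cuspGen_primPar Γ₂ _).1.1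

end Fermat.Agent.S41
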