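import Mathlib
import Fermat.Agent.S41.PDConj
import Fermat.Agent.S41.PDCusp

/-!
# S41, package PD, κ-INV wiring (helper28), second step

`S41PK_form_conj_of_E` : conjugation invariance of `PD_form`, with the only remaining input
(E) (existence of admissible cochains computing `PD_form`, helper24's `S41P_exists_adm`) as a
hypothesis; input (C) is helper14's `S41P_cuspSum_conj`.
-/

set_option autoImplicit false
set_option linter.unusedSectionVars false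
set_option linter.unusedVariables false

open Matrix MatrixGroups ModularGroup

namespace Fermat.Agent.S41

open Fermat.Agent.S16

variable {F : Type*} [Field F]

/-- **conjugation invariance of the pairing**, from the input (E). -/
theorem S41PK_form_conj_of_E (h2 : (2 : F) ≠ 0) (Γ₁ Γ₂ : Subgroup SL(2, ℤ)) [Γ₁.FiniteIndex]
    [Γ₂.FiniteIndex] (hneg₁ : (-1 : SL(2, ℤ)) ∈ Γ₁) (hneg₂ : (-1 : SL(2, ℤ)) ∈ Γ₂)
    (j : Γ₁ ≃* Γ₂) (δ : Matrix (Fin 2) (Fin 2) ℤ) (hδ : 0 < δ.det)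
    (hj : ∀ γ : Γ₁, δ * ((γ : SL(2, ℤ)) : Matrix (Fin 2) (Fin 2) ℤ)
      = ((j γ : SL(2, ℤ)) : Matrix (Fin 2) (Fin 2) ℤ) * δ)
    (φ φ' : Additive Γ₂ →+ F) (hφ : φ ∈ parHomsF F Γ₂ ellPred)
    (hφ' : φ' ∈ parHomsF F Γ₂ ellPred)
    (hE₁ : ∀ ψ ψ' : Additive Γ₁ →+ F, ψ ∈ parHomsF F Γ₁ ellPred → ψ' ∈ parHomsF F Γ₁ ellPred →
      ∃ A : Γ₁ → F, S41P_Adm Γ₁ ψ ψ' A ∧ 2 * S41P_cuspSum Γ₁ A = PD_form ψ ψ')
    (hE₂ : ∃ A : Γ₂ → F, S41P_Adm Γ₂ φ φ' A ∧ 2 * S41P_cuspSum Γ₂ A = PD_form φ φ') :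
    PD_form (φ.comp (MonoidHom.toAdditive j.toMonoidHom))
      (φ'.comp (MonoidHom.toAdditive j.toMonoidHom)) = PD_form φ φ' :=
  S41PK_form_conj_of h2 Γ₁ Γ₂ hneg₁ hneg₂ j δ hδ hj φ φ' hφ hφ' hE₁ hE₂
    (fun A hA => S41P_cuspSum_conj Γ₁ Γ₂ hneg₁ hneg₂ j δ hδ hj A hA)

end Fermat.Agent.S41
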