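import Mathlib
import Fermat.Agent.S41.PDConjC
import Fermat.Agent.S41.PDAdjB

/-!
# S41, package PD, κ-INV wiring (helper28), third step

`S41PK_conjInv_of_E` : helper5's `S41PA_ConjInv F` (conjugation invariance of `PD_form`, the
hypothesis of `S41PA_adjB`, `S41PA_hecke_selfadj`, `S41PA_rho_selfadj`) follows from
`S41PK_ExistsAdm F`, the statement of helper24's `S41P_exists_adm` (existence of admissible
cochains computing `PD_form`).
-/

set_option autoImplicit false
set_option linter.unusedSectionVars false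
set_option linter.unusedVariables false

open Matrix MatrixGroups ModularGroup

namespace Fermat.Agent.S41

open Fermat.Agent.S16

/-- the statement (E): admissible cochains computing `PD_form` exist. -/
def S41PK_ExistsAdm (F : Type*) [Field F] : Prop :=
  ∀ (Γ : Subgroup SL(2, ℤ)) [Γ.FiniteIndex] (_ : (-1 : SL(2, ℤ)) ∈ Γ)
    (φ φ' : Additive Γ →+ F) (_ : φ ∈ parHomsF F Γ ellPred) (_ : φ' ∈ parHomsF F Γ ellPred),
    ∃ A : Γ → F, S41P_Adm Γ φ φ' A ∧ 2 * S41P_cuspSum Γ A = PD_form φ φ'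

/-- **conjugation invariance of the pairing** in helper5's form, from (E). -/
theorem S41PK_conjInv_of_E {F : Type*} [Field F] (h2 : (2 : F) ≠ 0)
    (hE : S41PK_ExistsAdm F) : S41PA_ConjInv F :=
  fun Γ₁ Γ₂ _ _ hneg₁ hneg₂ j δ hδ hj φ φ' hφ hφ' =>
    S41PK_form_conj_of_E h2 Γ₁ Γ₂ hneg₁ hneg₂ j δ hδ hj φ φ' hφ hφ'
      (fun ψ ψ' hψ hψ' => hE Γ₁ hneg₁ ψ ψ' hψ hψ') (hE Γ₂ hneg₂ φ φ' hφ hφ')

end Fermat.Agent.S41
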