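import Mathlib
import Fermat.Agent.S41.Final
import Fermat.Agent.S41.IharaNE
import Fermat.Agent.S41.IharaPair
import Fermat.Agent.S41.PDConjE

/-!
# S41 — final assembly from the single remaining input (E) (helper9)

`S41FIN_of_E` : the frozen statement of S41 from
`hE : S41PK_ExistsAdm (ZMod p)` (existence of admissible cochains computing `PD_form`,
helper24's `PDCup`/`PDComp`).
-/

set_option autoImplicit false

open scoped CongruenceSubgroup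
open WeierstrassCurve WeierstrassCurve.Affine WeierstrassCurve.Affine.Point CuspForm ModularCurve

namespace Fermat.Agent.S41

open Fermat.Agent.S16 Fermat.Agent.GalRep

/-- `2 ≠ 0` in `ZMod p` for an odd prime `p`. -/
theorem S41FIN_two_ne_zero {p : ℕ} (hp : p.Prime) (hp2 : p ≠ 2) :
    haveI : Fact p.Prime := ⟨hp⟩
    (2 : ZMod p) ≠ 0 := by
  haveI : Fact p.Prime := ⟨hp⟩
  intro h
  have h1 : ((2 : ℕ) : ZMod p) = 0 := by exact_mod_cast h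
  rw [ZMod.natCast_eq_zero_iff] at h1
  exact hp2 ((Nat.prime_dvd_prime_iff_eq hp Nat.prime_two).mp h1)

/-- **S41 from (E).** -/
theorem S41FIN_of_E
    (E : WeierstrassCurve ℚ) [E.IsElliptic] {W : WeierstrassCurve ℤ} (hW : W.IsIntegralModelOf E)
    {p N q' : ℕ} (hp : p.Prime) (hp2 : p ≠ 2) (hN : 0 < N) (hq' : q'.Prime) (hq'N : ¬ q' ∣ N)
    (hq'p : q' ≠ p)
    (hirr : GaloisRepIsIrreducible (K := AlgebraicClosure ℚ) ℚ E p)
    (f : CuspForm (CongruenceSubgroup.Gamma0 N) 2) (𝔪 : Ideal (integralClosure ℤ ℂ))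
    (hf : f.IsNormalizedEigenform) (hmax : 𝔪.IsMaximal) (hpm : (p : integralClosure ℤ ℂ) ∈ 𝔪)
    (hcong : ∀ ℓ : ℕ, ℓ.Prime → W.IsGoodPrimeFor ℓ → ¬ ℓ ∣ N → ℓ ≠ p →
      ∃ a : integralClosure ℤ ℂ, (a : ℂ) = ModularFormClass.qCoeff f ℓ ∧
        a - ((W.apOfModel ℓ : ℤ) : integralClosure ℤ ℂ) ∈ 𝔪)
    (hLR : ∃ a : integralClosure ℤ ℂ, (a : ℂ) = ModularFormClass.qCoeff f q' ∧
      a ^ 2 - ((q' : integralClosure ℤ ℂ) + 1) ^ 2 ∈ 𝔪)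
    (hE : haveI : Fact p.Prime := ⟨hp⟩; S41PK_ExistsAdm (ZMod p)) :
    ∃ (g : CuspForm (CongruenceSubgroup.Gamma0 (N * q')) 2) (𝔪' : Ideal (integralClosure ℤ ℂ)),
      g.IsNormalizedEigenform ∧ 𝔪'.IsMaximal ∧ (p : integralClosure ℤ ℂ) ∈ 𝔪' ∧
      (∀ ℓ : ℕ, ℓ.Prime → W.IsGoodPrimeFor ℓ → ¬ ℓ ∣ N * q' → ℓ ≠ p →
        ∃ a : integralClosure ℤ ℂ, (a : ℂ) = ModularFormClass.qCoeff g ℓ ∧
          a - ((W.apOfModel ℓ : ℤ) : integralClosure ℤ ℂ) ∈ 𝔪') ∧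
      g.IsNewAt q' := by
  haveI : NeZero N := ⟨hN.ne'⟩
  haveI : Fact q'.Prime := ⟨hq'⟩
  haveI : Fact p.Prime := ⟨hp⟩
  haveI : NeZero q' := ⟨hq'.ne_zero⟩
  refine S41FIN_of E hW hp hp2 hN hq' hq'N hirr f 𝔪 hf hmax hpm hcong hLR ?_ ?_ ?_
  · intro v₁ v₂ w h
    exact S41K_pair hq' hq'N p v₁ v₂ w h
  · intro v χ hχ r hrN hrq _ γ hd _ hr
    exact S41I_main hq' hq'N hp hp2 (Ne.symm hq'p) v χ hχ r hrN hrq γ hd hr
  · exact S41PK_conjInv_of_E (S41FIN_two_ne_zero hp hp2) hE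

end Fermat.Agent.S41
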