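import Mathlib

/-!
# S41, package PD: the Heisenberg-type group of cup-product cochains  (part of CUPF)

For a group `P` acting on a set `X` and a commutative ring `F`, `PD_Heis F P X` is the set of
quadruples `(g, m, m', n)`, `g ∈ P`, `m, m', n : X → F`, with the multiplication
`(g, m, m', n) (h, μ, μ', ν) = (g h, m∘h + μ, m'∘h + μ', n∘h + ν + (m∘h)·μ')`.
A homomorphism `Ψ : G → PD_Heis F P X` is the same as a pair of `Fun(X,F)`-valued cocycles
`c̃, c̃'` together with a cochain `F̃` bounding their cup product.
-/

set_option autoImplicit false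
set_option linter.unusedSectionVars false

namespace Fermat.Agent.S41

/-- Quadruples `(g, m, m', n)`. -/
@[ext] structure PD_Heis (F : Type*) (P : Type*) (X : Type*) where
  /-- the group component -/
  g : P
  /-- the first cocycle component -/
  m : X → F
  /-- the second cocycle component -/
  m' : X → F
  /-- the cochain component -/
  n : X → F

namespace PD_Heis

variable {F : Type*} [CommRing F] {P : Type*} [Group P] {X : Type*} [MulAction P X]

instance : Mul (PD_Heis F P X) where
  mul a b :=
    { g := a.g * b.g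
      m := fun x => a.m (b.g • x) + b.m x
      m' := fun x => a.m' (b.g • x) + b.m' x
      n := fun x => a.n (b.g • x) + b.n x + a.m (b.g • x) * b.m' x }

instance : One (PD_Heis F P X) where
  one := { g := 1, m := 0, m' := 0, n := 0 }

instance : Inv (PD_Heis F P X) where
  inv a :=
    { g := a.g⁻¹
      m := fun x => - a.m (a.g⁻¹ • x)
      m' := fun x => - a.m' (a.g⁻¹ • x)
      n := fun x => - a.n (a.g⁻¹ • x) + a.m (a.g⁻¹ • x) * a.m' (a.g⁻¹ • x) }

@[simp] lemma mul_g (a b : PD_Heis F P X) : (a * b).g = a.g * b.g := rfl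
@[simp] lemma mul_m (a b : PD_Heis F P X) (x : X) : (a * b).m x = a.m (b.g • x) + b.m x := rfl
@[simp] lemma mul_m' (a b : PD_Heis F P X) (x : X) :
    (a * b).m' x = a.m' (b.g • x) + b.m' x := rfl
@[simp] lemma mul_n (a b : PD_Heis F P X) (x : X) :
    (a * b).n x = a.n (b.g • x) + b.n x + a.m (b.g • x) * b.m' x := rfl
@[simp] lemma one_g : (1 : PD_Heis F P X).g = 1 := rfl
@[simp] lemma one_m (x : X) : (1 : PD_Heis F P X).m x = 0 := rfl
@[simp] lemma one_m' (x : X) : (1 : PD_Heis F P X).m' x = 0 := rfl
@[simp] lemma one_n (x : X) : (1 : PD_Heis F P X).n x = 0 := rfl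
@[simp] lemma inv_g (a : PD_Heis F P X) : (a⁻¹).g = a.g⁻¹ := rfl
@[simp] lemma inv_m (a : PD_Heis F P X) (x : X) : (a⁻¹).m x = - a.m (a.g⁻¹ • x) := rfl
@[simp] lemma inv_m' (a : PD_Heis F P X) (x : X) : (a⁻¹).m' x = - a.m' (a.g⁻¹ • x) := rfl
@[simp] lemma inv_n (a : PD_Heis F P X) (x : X) :
    (a⁻¹).n x = - a.n (a.g⁻¹ • x) + a.m (a.g⁻¹ • x) * a.m' (a.g⁻¹ • x) := rfl

instance : Group (PD_Heis F P X) :=
  Group.ofLeftAxioms
    (fun a b c => by
      ext x
      · simp only [mul_g, mul_assoc]
      · simp only [mul_m, mul_g, mul_smul]; ring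
      · simp only [mul_m', mul_g, mul_smul]; ring
      · simp only [mul_n, mul_m, mul_m', mul_g, mul_smul]; ring)
    (fun a => by
      ext x
      · simp only [mul_g, one_g, one_mul]
      · simp only [mul_m, one_m, zero_add]
      · simp only [mul_m', one_m', zero_add]
      · simp only [mul_n, one_n, one_m, zero_add, zero_mul, add_zero])
    (fun a => by
      ext x
      · simp only [mul_g, inv_g, inv_mul_cancel, one_g]
      · simp only [mul_m, inv_m, inv_smul_smul, one_m]; ring
      · simp only [mul_m', inv_m', inv_smul_smul, one_m']; ring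
      · simp only [mul_n, inv_n, inv_m, inv_smul_smul, one_n]; ring)

/-- The projection to the group component. -/
def proj : PD_Heis F P X →* P where
  toFun a := a.g
  map_one' := rfl
  map_mul' _ _ := rfl

@[simp] lemma proj_apply (a : PD_Heis F P X) : proj a = a.g := rfl

end PD_Heis

end Fermat.Agent.S41
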