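import Mathlib
import Fermat.Agent.S41.PDHeis
import Fermat.Agent.S16.LB.PermLinAlgF
import Fermat.Agent.S41.PDLinAlg

/-!
# S41, package PD, CUPF part A: homomorphisms into the Heisenberg group (abstract `G`-set `X`)

`G` a group acting on `X`, `Ψ : G →* PD_Heis F (Equiv.Perm X) X` a homomorphism lifting the action.
* `PD_psi_m_mul`, `PD_psi_n_mul`: cocycle and cochain rules;
* `PD_psi_conj`: `F̃(h⁻¹ g h)(h⁻¹ x) = F̃(g)(x)` if `g x = x` and `c̃(g)(x) = c̃'(g)(x) = 0`;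
* `PD_psi_pow`: `F̃(T^k)(x) = ∑_{j<k} F̃(T)(T^j x)` if `c̃(T) = c̃'(T) = 0`;
* `PD_psi_zpow_fixed`: vanishing at powers of an element fixing `x`;
* `PD_heis_s`, `PD_heis_u`: the elements `s = (S, a, a', a a'/2)`, `u = (U, b, b', -e Q)` with
  `s² = 1`, `u³ = 1`.
-/

set_option autoImplicit false
set_option linter.unusedSectionVars false

namespace Fermat.Agent.S41

open Fermat.Agent.S16

section PDCupA

variable {F : Type*} [Field F] {G X : Type*} [Group G] [MulAction G X]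

/-- `Ψ` lifts the action of `G` on `X`. -/
def PD_Lifts (Ψ : G →* PD_Heis F (Equiv.Perm X) X) : Prop :=
  ∀ g : G, (Ψ g).g = MulAction.toPerm g

variable {Ψ : G →* PD_Heis F (Equiv.Perm X) X}

lemma PD_psi_smul (hΨ : PD_Lifts Ψ) (g : G) (x : X) : (Ψ g).g • x = g • x := by
  rw [hΨ g]; rfl

lemma PD_psi_m_mul (hΨ : PD_Lifts Ψ) (g h : G) (x : X) :
    (Ψ (g * h)).m x = (Ψ g).m (h • x) + (Ψ h).m x := by
  rw [map_mul, PD_Heis.mul_m, PD_psi_smul hΨ]

lemma PD_psi_m'_mul (hΨ : PD_Lifts Ψ) (g h : G) (x : X) :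
    (Ψ (g * h)).m' x = (Ψ g).m' (h • x) + (Ψ h).m' x := by
  rw [map_mul, PD_Heis.mul_m', PD_psi_smul hΨ]

lemma PD_psi_n_mul (hΨ : PD_Lifts Ψ) (g h : G) (x : X) :
    (Ψ (g * h)).n x = (Ψ g).n (h • x) + (Ψ h).n x + (Ψ g).m (h • x) * (Ψ h).m' x := by
  rw [map_mul, PD_Heis.mul_n, PD_psi_smul hΨ]

lemma PD_psi_m_one (x : X) : (Ψ 1).m x = 0 := by rw [map_one]; rfl
lemma PD_psi_m'_one (x : X) : (Ψ 1).m' x = 0 := by rw [map_one]; rfl
lemma PD_psi_n_one (x : X) : (Ψ 1).n x = 0 := by rw [map_one]; rfl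

/-- Conjugation formula. -/
theorem PD_psi_conj (hΨ : PD_Lifts Ψ) (g h : G) (x : X) (hx : g • x = x)
    (hm : (Ψ g).m x = 0) (hm' : (Ψ g).m' x = 0) :
    (Ψ (h⁻¹ * g * h)).n (h⁻¹ • x) = (Ψ g).n x := by
  have e1 := PD_psi_n_mul hΨ (h⁻¹ * g) h (h⁻¹ • x)
  have e2 := PD_psi_n_mul hΨ h⁻¹ g x
  have e3 := PD_psi_m_mul hΨ h⁻¹ g x
  have e4 := PD_psi_n_mul hΨ h⁻¹ h (h⁻¹ • x)
  rw [inv_mul_cancel, PD_psi_n_one, smul_inv_smul] at e4
  rw [smul_inv_smul] at e1
  rw [hx] at e2 e3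
  rw [e1, e2, e3, hm, hm']
  linear_combination -e4

/-- The stabiliser-type subgroup on which all components vanish at `x`. -/
def PD_vanSub (hΨ : PD_Lifts Ψ) (x : X) : Subgroup G where
  carrier := {h | h • x = x ∧ (Ψ h).m x = 0 ∧ (Ψ h).m' x = 0 ∧ (Ψ h).n x = 0}
  one_mem' := ⟨one_smul _ _, PD_psi_m_one x, PD_psi_m'_one x, PD_psi_n_one x⟩
  mul_mem' := by
    rintro g h ⟨hg, hg1, hg2, hg3⟩ ⟨hh, hh1, hh2, hh3⟩
    refine ⟨by rw [mul_smul, hh, hg], ?_, ?_, ?_⟩
    · rw [PD_psi_m_mul hΨ, hh, hg1, hh1, add_zero]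
    · rw [PD_psi_m'_mul hΨ, hh, hg2, hh2, add_zero]
    · rw [PD_psi_n_mul hΨ, hh, hg3, hh3, hg1, hh2, add_zero, zero_mul, add_zero]
  inv_mem' := by
    rintro h ⟨hh, hh1, hh2, hh3⟩
    have hinv : h⁻¹ • x = x := by rw [inv_smul_eq_iff, hh]
    have e1 := PD_psi_m_mul hΨ h⁻¹ h x
    have e2 := PD_psi_m'_mul hΨ h⁻¹ h x
    have e3 := PD_psi_n_mul hΨ h⁻¹ h x
    rw [inv_mul_cancel, hh] at e1 e2 e3
    rw [PD_psi_m_one, hh1, add_zero] at e1
    rw [PD_psi_m'_one, hh2, add_zero] at e2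
    rw [PD_psi_n_one, hh3, hh2, add_zero, mul_zero, add_zero] at e3
    exact ⟨hinv, e1.symm, e2.symm, e3.symm⟩

/-- Vanishing at all powers of an element which fixes `x` and has vanishing components at `x`. -/
theorem PD_psi_zpow_fixed (hΨ : PD_Lifts Ψ) (U : G) (x : X) (hx : U • x = x)
    (hm : (Ψ U).m x = 0) (hm' : (Ψ U).m' x = 0) (hn : (Ψ U).n x = 0) (j : ℤ) :
    (Ψ (U ^ j)).m x = 0 ∧ (Ψ (U ^ j)).m' x = 0 ∧ (Ψ (U ^ j)).n x = 0 := by
  have h : U ^ j ∈ PD_vanSub hΨ x :=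
    Subgroup.zpow_mem _ (show U ∈ PD_vanSub hΨ x from ⟨hx, hm, hm', hn⟩) j
  exact h.2

/-- Powers of an element on which both cocycles vanish. -/
theorem PD_psi_pow (hΨ : PD_Lifts Ψ) (T : G) (hm : ∀ x, (Ψ T).m x = 0)
    (hm' : ∀ x, (Ψ T).m' x = 0) (k : ℕ) :
    (∀ x, (Ψ (T ^ k)).m x = 0) ∧ (∀ x, (Ψ (T ^ k)).m' x = 0) ∧
      ∀ x, (Ψ (T ^ k)).n x = ∑ j ∈ Finset.range k, (Ψ T).n (T ^ j • x) := by
  induction k with
  | zero =>
    refine ⟨fun x => ?_, fun x => ?_, fun x => ?_⟩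
    · rw [pow_zero]; exact PD_psi_m_one x
    · rw [pow_zero]; exact PD_psi_m'_one x
    · rw [pow_zero, Finset.range_zero, Finset.sum_empty]; exact PD_psi_n_one x
  | succ k ih =>
    obtain ⟨ih1, ih2, ih3⟩ := ih
    refine ⟨fun x => ?_, fun x => ?_, fun x => ?_⟩
    · rw [pow_succ', PD_psi_m_mul hΨ, hm, ih1, add_zero]
    · rw [pow_succ', PD_psi_m'_mul hΨ, hm', ih2, add_zero]
    · rw [pow_succ', PD_psi_n_mul hΨ, hm, zero_mul, add_zero, ih3, Finset.sum_range_succ,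
        add_comm]

end PDCupA

section PDCupB

variable {F : Type*} [Field F] {G X : Type*} [Group G] [MulAction G X]

/-- The function `Q = (b∘U²)(b'∘U) + (b∘U²) b' + (b∘U) b'`. -/
def PD_Q (U : G) (b b' : X → F) (x : X) : F :=
  b (U • U • x) * b' (U • x) + b (U • U • x) * b' x + b (U • x) * b' x

lemma PD_Q_smul {U : G} (hU3 : ∀ x : X, U • U • U • x = x) {b b' : X → F}
    (hb : b ∈ triZeroF F U) (hb' : b' ∈ triZeroF F U) (x : X) :
    PD_Q U b b' (U • x) = PD_Q U b b' x := by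
  have h1 := (mem_triZeroF.mp hb x).1
  have h2 := (mem_triZeroF.mp hb' x).1
  simp only [PD_Q, hU3]
  linear_combination (-b' x) * h1 + (b x) * h2

lemma PD_Q_fixed {U : G} {b b' : X → F} (hb : b ∈ triZeroF F U) {x : X} (hx : U • x = x) :
    PD_Q U b b' x = 0 := by
  have h1 := (mem_triZeroF.mp hb x).2 hx
  simp only [PD_Q, hx, h1]
  ring

/-- The element `s = (S, a, a', a a' / 2)`. -/
noncomputable def PD_heis_s (S : G) (a a' : X → F) : PD_Heis F (Equiv.Perm X) X :=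
  ⟨MulAction.toPerm S, a, a', fun x => 2⁻¹ * (a x * a' x)⟩

/-- The element `u = (U, b, b', - e Q)`. -/
noncomputable def PD_heis_u (U : G) (b b' e : X → F) : PD_Heis F (Equiv.Perm X) X :=
  ⟨MulAction.toPerm U, b, b', fun x => - (e x * PD_Q U b b' x)⟩

theorem PD_heis_s_sq (h2 : (2 : F) ≠ 0) {S : G} (hS2 : ∀ x : X, S • S • x = x)
    {a a' : X → F} (ha : a ∈ antiInvF F S) (ha' : a' ∈ antiInvF F S) :
    PD_heis_s S a a' * PD_heis_s S a a' = 1 := by
  have h2' : (2 : F)⁻¹ * 2 = 1 := inv_mul_cancel₀ h2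
  ext x
  · show (MulAction.toPerm S * MulAction.toPerm S : Equiv.Perm X) x = x
    rw [Equiv.Perm.mul_apply, MulAction.toPerm_apply, MulAction.toPerm_apply, hS2]
  · have h1 := (mem_antiInvF.mp ha x).1
    show a (MulAction.toPerm S • x) + a x = 0
    rw [Equiv.Perm.smul_def, MulAction.toPerm_apply]
    linear_combination h1
  · have h1 := (mem_antiInvF.mp ha' x).1
    show a' (MulAction.toPerm S • x) + a' x = 0
    rw [Equiv.Perm.smul_def, MulAction.toPerm_apply]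
    linear_combination h1
  · have h1 := (mem_antiInvF.mp ha x).1
    have h1' := (mem_antiInvF.mp ha' x).1
    show 2⁻¹ * (a (MulAction.toPerm S • x) * a' (MulAction.toPerm S • x)) + 2⁻¹ * (a x * a' x)
      + a (MulAction.toPerm S • x) * a' x = 0
    rw [Equiv.Perm.smul_def, MulAction.toPerm_apply]
    have e1 : a (S • x) = - a x := by linear_combination h1
    have e2 : a' (S • x) = - a' x := by linear_combination h1'
    rw [e1, e2]
    linear_combination (a x * a' x) * h2'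

theorem PD_heis_u_cube {U : G} (hU3 : ∀ x : X, U • U • U • x = x)
    {b b' e : X → F} (hb : b ∈ triZeroF F U) (hb' : b' ∈ triZeroF F U)
    (he : PD_IsUnity U e) :
    PD_heis_u U b b' e * PD_heis_u U b b' e * PD_heis_u U b b' e = 1 := by
  classical
  have hsm : ∀ y : X, (MulAction.toPerm U : Equiv.Perm X) • y = U • y := fun y => rfl
  ext x
  · show (MulAction.toPerm U * MulAction.toPerm U * MulAction.toPerm U : Equiv.Perm X) x = x
    rw [Equiv.Perm.mul_apply, Equiv.Perm.mul_apply, MulAction.toPerm_apply,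
      MulAction.toPerm_apply, MulAction.toPerm_apply, hU3]
  · have h1 := (mem_triZeroF.mp hb x).1
    show b (MulAction.toPerm U • MulAction.toPerm U • x) + b (MulAction.toPerm U • x) + b x = 0
    rw [hsm, hsm]
    linear_combination h1
  · have h1 := (mem_triZeroF.mp hb' x).1
    show b' (MulAction.toPerm U • MulAction.toPerm U • x) + b' (MulAction.toPerm U • x) + b' x
      = 0
    rw [hsm, hsm]
    linear_combination h1
  · show -(e (MulAction.toPerm U • MulAction.toPerm U • x)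
          * PD_Q U b b' (MulAction.toPerm U • MulAction.toPerm U • x))
        + -(e (MulAction.toPerm U • x) * PD_Q U b b' (MulAction.toPerm U • x))
        + b (MulAction.toPerm U • MulAction.toPerm U • x) * b' (MulAction.toPerm U • x)
        + -(e x * PD_Q U b b' x)
        + (b (MulAction.toPerm U • MulAction.toPerm U • x) + b (MulAction.toPerm U • x)) * b' x
        = 0
    rw [hsm, hsm, PD_Q_smul hU3 hb hb', PD_Q_smul hU3 hb hb']
    by_cases hx : U • x = x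
    · have hQ := PD_Q_fixed (b' := b') hb hx
      have h1 := (mem_triZeroF.mp hb x).2 hx
      rw [hQ, hx, hx, h1]
      ring
    · have hex := congrFun he x
      rw [symF3_apply, if_neg hx] at hex
      have hQ : PD_Q U b b' x
          = b (U • U • x) * b' (U • x) + b (U • U • x) * b' x + b (U • x) * b' x := rfl
      linear_combination (- PD_Q U b b' x) * hex - hQ

end PDCupB

end Fermat.Agent.S41
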