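import Mathlib
import Fermat.Agent.S21.GroupBound

/-!
# S41, package PD: the universal property of `PSL(2, ℤ) = C₂ * C₃`  (PRES)

`PDP_lift`: for elements `s`, `u` of a group `K` with `s² = 1` and `u³ = 1` there is a
homomorphism `Ψ : SL(2, ℤ) →* K` with `Ψ S = s` and `Ψ (S T) = u`.

Proof: `SL(2, ℤ)` acts on the integral symmetric matrices by `M ↦ g M gᵀ` (`-1` acts trivially);
ping-pong for the images of `S` and `U = S T` on the sets `{v vᵀ | x y > 0}`, `{v vᵀ | x y < 0}`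
shows that `C₂ * C₃ → Perm` is injective, and its range contains the image of `SL(2, ℤ)`.
-/

set_option autoImplicit false

open Matrix MatrixGroups ModularGroup
open scoped Pointwise

namespace Fermat.Agent.S41

section PDPres

/-- The homomorphism `ZMod n → K`, `1 ↦ s`, for `s ^ n = 1`. -/
noncomputable def PDP_zmodHom {K : Type*} [Group K] (n : ℕ) (s : K) (hs : s ^ n = 1) :
    Multiplicative (ZMod n) →* K :=
  AddMonoidHom.toMultiplicativeLeft
    (ZMod.lift n ⟨zmultiplesHom (Additive K) (Additive.ofMul s), by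
      show (n : ℤ) • Additive.ofMul s = 0
      rw [natCast_zsmul, ← ofMul_pow, hs]
      rfl⟩)

lemma PDP_zmodHom_apply {K : Type*} [Group K] (n : ℕ) (s : K) (hs : s ^ n = 1) (k : ℤ) :
    PDP_zmodHom n s hs (Multiplicative.ofAdd (k : ZMod n)) = s ^ k := by
  show Additive.toMul (ZMod.lift n _ (k : ZMod n)) = s ^ k
  rw [ZMod.lift_coe]
  show Additive.toMul (k • Additive.ofMul s) = s ^ k
  rw [← ofMul_zpow]
  rfl

/-- Coercion of `SL(2, ℤ)` to matrices. -/
def PDP_mat (g : SL(2, ℤ)) : Matrix (Fin 2) (Fin 2) ℤ := g.1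

lemma PDP_mat_mul (g h : SL(2, ℤ)) : PDP_mat (g * h) = PDP_mat g * PDP_mat h := rfl

lemma PDP_mat_one : PDP_mat 1 = 1 := rfl

lemma PDP_mat_S : PDP_mat S = !![0, -1; 1, 0] := rfl

lemma PDP_mat_U : PDP_mat (S * T) = !![0, -1; 1, 1] := by
  rw [PDP_mat_mul]
  show (!![0, -1; 1, 0] : Matrix (Fin 2) (Fin 2) ℤ) * !![1, 1; 0, 1] = !![0, -1; 1, 1]
  ext i j
  fin_cases i <;> fin_cases j <;> simp [Matrix.mul_apply, Fin.sum_univ_two]

lemma PDP_mat_neg_one : PDP_mat (-1) = -1 := by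
  have h := Fermat.Agent.S21.S_mul_S_eq_neg_one
  rw [← h, PDP_mat_mul, PDP_mat_S]
  ext i j
  fin_cases i <;> fin_cases j <;> simp [Matrix.mul_apply, Fin.sum_univ_two]

lemma PDP_mat_inv_mul (g : SL(2, ℤ)) : PDP_mat g⁻¹ * PDP_mat g = 1 := by
  rw [← PDP_mat_mul, inv_mul_cancel, PDP_mat_one]

lemma PDP_mat_mul_inv (g : SL(2, ℤ)) : PDP_mat g * PDP_mat g⁻¹ = 1 := by
  rw [← PDP_mat_mul, mul_inv_cancel, PDP_mat_one]

/-- The congruence action `M ↦ g M gᵀ` of `SL(2, ℤ)` on matrices. -/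
def PDP_rho : SL(2, ℤ) →* Equiv.Perm (Matrix (Fin 2) (Fin 2) ℤ) where
  toFun g :=
    { toFun := fun M => PDP_mat g * M * (PDP_mat g)ᵀ
      invFun := fun M => PDP_mat g⁻¹ * M * (PDP_mat g⁻¹)ᵀ
      left_inv := fun M => by
        have h := PDP_mat_inv_mul g
        have h' : (PDP_mat g)ᵀ * (PDP_mat g⁻¹)ᵀ = 1 := by
          rw [← Matrix.transpose_mul, h, Matrix.transpose_one]
        calc PDP_mat g⁻¹ * (PDP_mat g * M * (PDP_mat g)ᵀ) * (PDP_mat g⁻¹)ᵀ
            = (PDP_mat g⁻¹ * PDP_mat g) * M * ((PDP_mat g)ᵀ * (PDP_mat g⁻¹)ᵀ) := by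
              simp only [Matrix.mul_assoc]
          _ = M := by rw [h, h', Matrix.one_mul, Matrix.mul_one]
      right_inv := fun M => by
        have h := PDP_mat_mul_inv g
        have h' : (PDP_mat g⁻¹)ᵀ * (PDP_mat g)ᵀ = 1 := by
          rw [← Matrix.transpose_mul, h, Matrix.transpose_one]
        calc PDP_mat g * (PDP_mat g⁻¹ * M * (PDP_mat g⁻¹)ᵀ) * (PDP_mat g)ᵀ
            = (PDP_mat g * PDP_mat g⁻¹) * M * ((PDP_mat g⁻¹)ᵀ * (PDP_mat g)ᵀ) := by
              simp only [Matrix.mul_assoc]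
          _ = M := by rw [h, h', Matrix.one_mul, Matrix.mul_one] }
  map_one' := by
    ext M : 1
    show PDP_mat 1 * M * (PDP_mat 1)ᵀ = M
    rw [PDP_mat_one, Matrix.transpose_one, Matrix.one_mul, Matrix.mul_one]
  map_mul' g h := by
    ext M : 1
    show PDP_mat (g * h) * M * (PDP_mat (g * h))ᵀ
      = PDP_mat g * (PDP_mat h * M * (PDP_mat h)ᵀ) * (PDP_mat g)ᵀ
    rw [PDP_mat_mul, Matrix.transpose_mul]
    simp only [Matrix.mul_assoc]

lemma PDP_rho_apply (g : SL(2, ℤ)) (M : Matrix (Fin 2) (Fin 2) ℤ) :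
    PDP_rho g M = PDP_mat g * M * (PDP_mat g)ᵀ := rfl

lemma PDP_rho_neg_one : PDP_rho (-1) = 1 := by
  ext M : 1
  rw [PDP_rho_apply]
  rw [PDP_mat_neg_one]
  simp

/-- The rank one matrix `v vᵀ`, `v = (x, y)`. -/
def PDP_sq (x y : ℤ) : Matrix (Fin 2) (Fin 2) ℤ := !![x * x, x * y; x * y, y * y]

lemma PDP_rho_S_sq (x y : ℤ) : PDP_rho S (PDP_sq x y) = PDP_sq (-y) x := by
  rw [PDP_rho_apply, PDP_mat_S]
  ext i j
  fin_cases i <;> fin_cases j <;>
    simp [PDP_sq, Matrix.mul_apply, Fin.sum_univ_two] <;> ring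

lemma PDP_rho_U_sq (x y : ℤ) : PDP_rho (S * T) (PDP_sq x y) = PDP_sq (-y) (x + y) := by
  rw [PDP_rho_apply, PDP_mat_U]
  ext i j
  fin_cases i <;> fin_cases j <;>
    simp [PDP_sq, Matrix.mul_apply, Fin.sum_univ_two] <;> ring

/-- The ping-pong sets. -/
def PDP_X (b : Bool) : Set (Matrix (Fin 2) (Fin 2) ℤ) :=
  {M | ∃ x y : ℤ, (if b then x * y < 0 else 0 < x * y) ∧ M = PDP_sq x y}

lemma PDP_rho_S_sq_eq : PDP_rho S ^ 2 = 1 := by
  rw [← map_pow, pow_two, Fermat.Agent.S21.S_mul_S_eq_neg_one, PDP_rho_neg_one]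

lemma PDP_rho_U_cube_eq : PDP_rho (S * T) ^ 3 = 1 := by
  rw [← map_pow, pow_succ, pow_two, Fermat.Agent.S21.ST_cube_eq_neg_one, PDP_rho_neg_one]

/-- Orders of the two factors. -/
abbrev PDP_n (b : Bool) : ℕ := cond b 3 2

/-- The two factors `C₂`, `C₃`. -/
abbrev PDP_H (b : Bool) : Type := Multiplicative (ZMod (PDP_n b))

/-- The maps of the factors to the permutation group. -/
noncomputable def PDP_f : ∀ b : Bool, PDP_H b →* Equiv.Perm (Matrix (Fin 2) (Fin 2) ℤ)
  | false => PDP_zmodHom 2 (PDP_rho S) PDP_rho_S_sq_eq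
  | true => PDP_zmodHom 3 (PDP_rho (S * T)) PDP_rho_U_cube_eq

lemma PDP_f_false_one : PDP_f false (Multiplicative.ofAdd (1 : ZMod 2)) = PDP_rho S := by
  have := PDP_zmodHom_apply 2 (PDP_rho S) PDP_rho_S_sq_eq 1
  rw [Int.cast_one, zpow_one] at this
  exact this

lemma PDP_f_true_one : PDP_f true (Multiplicative.ofAdd (1 : ZMod 3)) = PDP_rho (S * T) := by
  have := PDP_zmodHom_apply 3 (PDP_rho (S * T)) PDP_rho_U_cube_eq 1
  rw [Int.cast_one, zpow_one] at this
  exact this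

lemma PDP_f_true_two :
    PDP_f true (Multiplicative.ofAdd (2 : ZMod 3)) = PDP_rho (S * T) * PDP_rho (S * T) := by
  have := PDP_zmodHom_apply 3 (PDP_rho (S * T)) PDP_rho_U_cube_eq 2
  rw [show ((2 : ℤ) : ZMod 3) = 2 by norm_num, zpow_ofNat, pow_two] at this
  exact this

lemma PDP_ppS (h : Multiplicative (ZMod 2)) (hh : h ≠ 1) {M : Matrix (Fin 2) (Fin 2) ℤ}
    (hM : M ∈ PDP_X true) : PDP_f false h M ∈ PDP_X false := by
  obtain ⟨x, y, hxy, rfl⟩ := hM
  simp only [if_true] at hxy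
  have key : ∀ k : ZMod 2, Multiplicative.ofAdd k ≠ 1 →
      PDP_f false (Multiplicative.ofAdd k) (PDP_sq x y) ∈ PDP_X false := by
    intro k hk
    fin_cases k
    · exact absurd rfl hk
    · have e : PDP_f false (Multiplicative.ofAdd (1 : ZMod 2)) = PDP_rho S := PDP_f_false_one
      have e' : PDP_f false (Multiplicative.ofAdd ((⟨1, by decide⟩ : Fin 2) : ZMod 2))
          (PDP_sq x y) = PDP_rho S (PDP_sq x y) := by
        rw [← e]; rfl
      refine ⟨-y, x, ?_, ?_⟩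
      · simp only [Bool.false_eq_true, if_false]
        nlinarith
      · rw [← PDP_rho_S_sq]
        exact e'
  exact key (Multiplicative.toAdd h) hh

lemma PDP_ppU (h : Multiplicative (ZMod 3)) (hh : h ≠ 1) {M : Matrix (Fin 2) (Fin 2) ℤ}
    (hM : M ∈ PDP_X false) : PDP_f true h M ∈ PDP_X true := by
  obtain ⟨x, y, hxy, rfl⟩ := hM
  simp only [Bool.false_eq_true, if_false] at hxy
  have key : ∀ k : ZMod 3, Multiplicative.ofAdd k ≠ 1 →
      PDP_f true (Multiplicative.ofAdd k) (PDP_sq x y) ∈ PDP_X true := by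
    intro k hk
    fin_cases k
    · exact absurd rfl hk
    · have e : PDP_f true (Multiplicative.ofAdd (1 : ZMod 3)) = PDP_rho (S * T) :=
        PDP_f_true_one
      have e' : PDP_f true (Multiplicative.ofAdd ((⟨1, by decide⟩ : Fin 3) : ZMod 3))
          (PDP_sq x y) = PDP_rho (S * T) (PDP_sq x y) := by
        rw [← e]; rfl
      refine ⟨-y, x + y, ?_, ?_⟩
      · simp only [if_true]
        nlinarith [sq_nonneg y, sq_nonneg x]
      · rw [← PDP_rho_U_sq]
        exact e'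
    · have e := PDP_f_true_two
      have e' : PDP_f true (Multiplicative.ofAdd ((⟨2, by decide⟩ : Fin 3) : ZMod 3))
          (PDP_sq x y) = PDP_rho (S * T) (PDP_rho (S * T) (PDP_sq x y)) := by
        have : PDP_f true (Multiplicative.ofAdd ((⟨2, by decide⟩ : Fin 3) : ZMod 3))
            = PDP_rho (S * T) * PDP_rho (S * T) := by
          rw [← e]; rfl
        rw [this]; rfl
      refine ⟨-(x + y), -y + (x + y), ?_, ?_⟩
      · simp only [if_true]
        nlinarith [sq_nonneg y, sq_nonneg x]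
      · rw [← PDP_rho_U_sq, ← PDP_rho_U_sq]
        exact e'
  exact key (Multiplicative.toAdd h) hh

lemma PDP_pp : Pairwise fun i j : Bool => ∀ h : PDP_H i, h ≠ 1 → PDP_f i h • PDP_X j ⊆ PDP_X i := by
  intro i j hij h hh M hM
  obtain ⟨M', hM', rfl⟩ := hM
  cases i <;> cases j
  · exact absurd rfl hij
  · exact PDP_ppS h hh hM'
  · exact PDP_ppU h hh hM'
  · exact absurd rfl hij

lemma PDP_X_nonempty (b : Bool) : (PDP_X b).Nonempty := by
  cases b
  · exact ⟨PDP_sq 1 1, 1, 1, by simp, rfl⟩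
  · exact ⟨PDP_sq 1 (-1), 1, -1, by simp, rfl⟩

lemma PDP_X_disj : Pairwise (Function.onFun Disjoint PDP_X) := by
  intro i j hij
  rw [Function.onFun, Set.disjoint_left]
  rintro M ⟨x, y, hxy, rfl⟩ ⟨x', y', hxy', hM⟩
  have h01 : x * y = x' * y' := by
    have := congrFun (congrFun hM 0) 1
    simpa [PDP_sq] using this
  cases i <;> cases j
  · exact hij rfl
  · simp only [Bool.false_eq_true, if_false] at hxy
    simp only [if_true] at hxy'
    omega
  · simp only [if_true] at hxy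
    simp only [Bool.false_eq_true, if_false] at hxy'
    omega
  · exact hij rfl

lemma PDP_card : 3 ≤ Cardinal.mk Bool ∨ ∃ i, 3 ≤ Cardinal.mk (PDP_H i) := by
  right
  refine ⟨true, ?_⟩
  show (3 : Cardinal) ≤ Cardinal.mk (Multiplicative (ZMod 3))
  rw [Cardinal.mk_fintype, Fintype.card_multiplicative, ZMod.card]
  norm_num

/-- Ping-pong: `C₂ * C₃ → Perm` is injective. -/
theorem PDP_lift_injective : Function.Injective (Monoid.CoprodI.lift PDP_f) :=
  Monoid.CoprodI.lift_injective_of_ping_pong PDP_f PDP_card PDP_X PDP_X_nonempty PDP_X_disj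
    PDP_pp

lemma PDP_rho_mem_range (g : SL(2, ℤ)) : PDP_rho g ∈ (Monoid.CoprodI.lift PDP_f).range := by
  have h : (⊤ : Subgroup SL(2, ℤ)) ≤ (Monoid.CoprodI.lift PDP_f).range.comap PDP_rho := by
    rw [← Fermat.Agent.S21.closure_S_ST, Subgroup.closure_le]
    rintro x (rfl | hx)
    · refine ⟨Monoid.CoprodI.of (i := false) (Multiplicative.ofAdd (1 : ZMod 2)), ?_⟩
      rw [Monoid.CoprodI.lift_of]
      exact PDP_f_false_one
    · rw [Set.mem_singleton_iff] at hx
      subst hx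
      refine ⟨Monoid.CoprodI.of (i := true) (Multiplicative.ofAdd (1 : ZMod 3)), ?_⟩
      rw [Monoid.CoprodI.lift_of]
      exact PDP_f_true_one
  exact h (Subgroup.mem_top g)

/-- The resulting homomorphism `SL(2, ℤ) → C₂ * C₃`. -/
noncomputable def PDP_Phi : SL(2, ℤ) →* Monoid.CoprodI PDP_H :=
  (MonoidHom.ofInjective PDP_lift_injective).symm.toMonoidHom.comp
    (PDP_rho.codRestrict (Monoid.CoprodI.lift PDP_f).range PDP_rho_mem_range)

lemma PDP_Phi_eq {g : SL(2, ℤ)} {w : Monoid.CoprodI PDP_H}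
    (h : Monoid.CoprodI.lift PDP_f w = PDP_rho g) : PDP_Phi g = w := by
  unfold PDP_Phi
  rw [MonoidHom.comp_apply]
  show (MonoidHom.ofInjective PDP_lift_injective).symm _ = w
  rw [MulEquiv.symm_apply_eq]
  apply Subtype.ext
  rw [MonoidHom.ofInjective_apply]
  exact h.symm

/-- **Universal property of `PSL(2, ℤ) = C₂ * C₃`.** -/
theorem PDP_lift {K : Type*} [Group K] (s u : K) (hs : s * s = 1) (hu : u * u * u = 1) :
    ∃ Ψ : SL(2, ℤ) →* K, Ψ S = s ∧ Ψ (S * T) = u := by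
  have hs2 : s ^ 2 = 1 := by rw [pow_two, hs]
  have hu3 : u ^ 3 = 1 := by rw [pow_succ, pow_two, hu]
  let fK : ∀ b : Bool, PDP_H b →* K := fun b =>
    match b with
    | false => PDP_zmodHom 2 s hs2
    | true => PDP_zmodHom 3 u hu3
  refine ⟨(Monoid.CoprodI.lift fK).comp PDP_Phi, ?_, ?_⟩
  · rw [MonoidHom.comp_apply,
      PDP_Phi_eq (w := Monoid.CoprodI.of (i := false) (Multiplicative.ofAdd (1 : ZMod 2)))
        (by rw [Monoid.CoprodI.lift_of]; exact PDP_f_false_one),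
      Monoid.CoprodI.lift_of]
    have := PDP_zmodHom_apply 2 s hs2 1
    rw [Int.cast_one, zpow_one] at this
    exact this
  · rw [MonoidHom.comp_apply,
      PDP_Phi_eq (w := Monoid.CoprodI.of (i := true) (Multiplicative.ofAdd (1 : ZMod 3)))
        (by rw [Monoid.CoprodI.lift_of]; exact PDP_f_true_one),
      Monoid.CoprodI.lift_of]
    have := PDP_zmodHom_apply 3 u hu3 1
    rw [Int.cast_one, zpow_one] at this
    exact this

end PDPres

end Fermat.Agent.S41
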