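import Mathlib
import Fermat.Agent.S41.PDCupA
import Fermat.Agent.S41.PDForm
import Fermat.Agent.S41.PDPres

/-!
# S41, package PD, CUPF part B: the cup-product cochain on `SL(2, ℤ)` for normalised cocycles

For `φ, φ' ∈ parHomsF F Γ ellPred` with primitives `m, m'` and a partition of unity `e`,
`PD_exists_psi` produces a homomorphism `Ψ : SL(2, ℤ) →* PD_Heis F (Perm X) X` (`X = SL(2,ℤ)/Γ`)
whose cocycle components are the normalised cocycles `cocF φ − d m`, `cocF φ' − d m'`, with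
prescribed cochain components at `S` and `U = S T`.
-/

set_option autoImplicit false
set_option linter.unusedSectionVars false

open Matrix MatrixGroups ModularGroup

namespace Fermat.Agent.S41

open Fermat.Agent.S16 Fermat.Agent.S21

section PDCupB

variable {F : Type*} [Field F] {Γ : Subgroup SL(2, ℤ)}

/-- The normalised cocycle at `S`. -/
noncomputable def PD_nrmS (φ : Additive Γ →+ F) (m : SL(2, ℤ) ⧸ Γ → F) : SL(2, ℤ) ⧸ Γ → F :=
  fun x => cocF φ S x - (m (S • x) - m x)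

lemma PD_nrmS_mem (hneg : (-1 : SL(2, ℤ)) ∈ Γ) {φ : Additive Γ →+ F}
    (hφ : φ ∈ parHomsF F Γ ellPred) (m : SL(2, ℤ) ⧸ Γ → F) :
    PD_nrmS φ m ∈ antiInvF F (X := SL(2, ℤ) ⧸ Γ) S := by
  have hA := cocF_mem_antiInvF ellPred_conj hφ (PD_hS2 hneg) PD_ellPred_SS ellPred_S
  rw [mem_antiInvF] at hA ⊢
  intro x
  refine ⟨?_, fun hx => ?_⟩
  · simp only [PD_nrmS, PD_hS2 hneg]
    linear_combination (hA x).1
  · simp only [PD_nrmS, hx, (hA x).2 hx]
    ring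

lemma PD_nrm_mem_triZero (hneg : (-1 : SL(2, ℤ)) ∈ Γ) {φ : Additive Γ →+ F}
    (hφ : φ ∈ parHomsF F Γ ellPred) (m : SL(2, ℤ) ⧸ Γ → F) :
    PD_nrm (S * T) φ m ∈ triZeroF F (X := SL(2, ℤ) ⧸ Γ) (S * T) := by
  have hB := cocF_mem_triZeroF ellPred_conj hφ (PD_hU3 hneg) PD_ellPred_UUU ellPred_ST
  rw [mem_triZeroF] at hB ⊢
  intro x
  refine ⟨?_, fun hx => ?_⟩
  · simp only [PD_nrm, PD_hU3 hneg]
    linear_combination (hB x).1
  · simp only [PD_nrm, hx, (hB x).2 hx]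
    ring

/-- **Existence of the cup-product cochain.** -/
theorem PD_exists_psi (hneg : (-1 : SL(2, ℤ)) ∈ Γ) (h2 : (2 : F) ≠ 0)
    {φ φ' : Additive Γ →+ F} (hφ : φ ∈ parHomsF F Γ ellPred) (hφ' : φ' ∈ parHomsF F Γ ellPred)
    (m m' e : SL(2, ℤ) ⧸ Γ → F) (he : PD_IsUnity (S * T) e) :
    ∃ Ψ : SL(2, ℤ) →* PD_Heis F (Equiv.Perm (SL(2, ℤ) ⧸ Γ)) (SL(2, ℤ) ⧸ Γ), PD_Lifts Ψ ∧
      (∀ g x, (Ψ g).m x = cocF φ g x - (m (g • x) - m x)) ∧
      (∀ g x, (Ψ g).m' x = cocF φ' g x - (m' (g • x) - m' x)) ∧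
      (∀ x, (Ψ S).n x = 2⁻¹ * (PD_nrmS φ m x * PD_nrmS φ' m' x)) ∧
      (∀ x, (Ψ (S * T)).n x
        = - (e x * PD_Q (S * T) (PD_nrm (S * T) φ m) (PD_nrm (S * T) φ' m') x)) := by
  have ha := PD_nrmS_mem hneg hφ m
  have ha' := PD_nrmS_mem hneg hφ' m'
  have hb := PD_nrm_mem_triZero hneg hφ m
  have hb' := PD_nrm_mem_triZero hneg hφ' m'
  obtain ⟨Ψ, hS, hU⟩ := PDP_lift
    (PD_heis_s (X := SL(2, ℤ) ⧸ Γ) S (PD_nrmS φ m) (PD_nrmS φ' m'))
    (PD_heis_u (X := SL(2, ℤ) ⧸ Γ) (S * T) (PD_nrm (S * T) φ m) (PD_nrm (S * T) φ' m') e)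
    (PD_heis_s_sq h2 (PD_hS2 hneg) ha ha') (PD_heis_u_cube (PD_hU3 hneg) hb hb' he)
  have hlift : PD_Lifts Ψ := by
    have : (PD_Heis.proj.comp Ψ : SL(2, ℤ) →* Equiv.Perm (SL(2, ℤ) ⧸ Γ))
        = MulAction.toPermHom SL(2, ℤ) (SL(2, ℤ) ⧸ Γ) := by
      refine MonoidHom.eq_of_eqOn_dense closure_S_ST ?_
      rintro g (rfl | hg)
      · show (Ψ S).g = _
        rw [hS]; rfl
      · rw [Set.mem_singleton_iff] at hg
        subst hg
        show (Ψ (S * T)).g = _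
        rw [hU]; rfl
    intro g
    have := congrArg (fun f => f g) this
    exact this
  have key : ∀ {ψ : Additive Γ →+ F} {μ : SL(2, ℤ) ⧸ Γ → F}
      (c : SL(2, ℤ) → SL(2, ℤ) ⧸ Γ → F)
      (_ : ∀ g h x, c (g * h) x = c g (h • x) + c h x)
      (_ : ∀ x, c S x = PD_nrmS ψ μ x) (_ : ∀ x, c (S * T) x = PD_nrm (S * T) ψ μ x),
      ∀ g x, c g x = cocF ψ g x - (μ (g • x) - μ x) := by
    intro ψ μ c hc hcS hcU g
    have hc1 : ∀ x, c 1 x = 0 := by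
      intro x
      have := hc 1 1 x
      rw [mul_one, one_smul] at this
      linear_combination -this
    refine forall_of_closure_eq_top closure_S_ST
      (fun g => ∀ x, c g x = cocF ψ g x - (μ (g • x) - μ x)) ?_ ?_ ?_ ?_ ?_ g
    · intro x; rw [hc1, cocF_one, one_smul]; ring
    · intro x; rw [hcS]; rfl
    · intro x; rw [hcU]; rfl
    · intro g h hg hh x
      rw [hc, hg, hh, cocF_mul, mul_smul]
      ring
    · intro g hg x
      have h1 := hc g g⁻¹ x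
      rw [mul_inv_cancel, hc1, hg] at h1
      rw [cocF_inv, smul_inv_smul] at *
      linear_combination -h1
  refine ⟨Ψ, hlift, ?_, ?_, ?_, ?_⟩
  · exact key (fun g => (Ψ g).m) (fun g h x => PD_psi_m_mul hlift g h x)
      (fun x => by rw [hS]; rfl) (fun x => by rw [hU]; rfl)
  · exact key (fun g => (Ψ g).m') (fun g h x => PD_psi_m'_mul hlift g h x)
      (fun x => by rw [hS]; rfl) (fun x => by rw [hU]; rfl)
  · intro x; rw [hS]; rfl
  · intro x; rw [hU]; rfl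

end PDCupB

end Fermat.Agent.S41
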