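import Mathlib

/-!
# S41, package PD: elements of trace `±1` of `SL(2, ℤ)` are conjugate to powers of `S * T`  (ELL3)

`PDL_conj_U`: if `γ ∈ SL(2, ℤ)` has `(tr γ)² = 1`, then `γ = g⁻¹ (S T)^j g` for some `g`, `j`.

Proof: descent on `|c|` (reduction of binary quadratic forms of discriminant `-3`):
conjugation by `T^n` makes `|a - d| ≤ |c|`, then `|b| < |c|` as soon as `|c| ≥ 2`, and conjugation
by `S` replaces `c` by `-b`.  For `|c| = 1` conjugation by `T^n` makes `a = 0` and the four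
remaining matrices are `U`, `U⁴`, `T U² T⁻¹`, `T U⁵ T⁻¹` (`U = S T`).
-/

set_option autoImplicit false

open Matrix MatrixGroups ModularGroup

namespace Fermat.Agent.S41

section PDEll

/-- `γ` is conjugate to a power of `S * T`. -/
def PDL_P (γ : SL(2, ℤ)) : Prop :=
  ∃ (g : SL(2, ℤ)) (j : ℤ), γ = g⁻¹ * (S * T) ^ j * g

lemma PDL_P_of_conj (γ h : SL(2, ℤ)) (hP : PDL_P (h⁻¹ * γ * h)) : PDL_P γ := by
  obtain ⟨g, j, hg⟩ := hP
  refine ⟨g * h⁻¹, j, ?_⟩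
  have : γ = h * (h⁻¹ * γ * h) * h⁻¹ := by group
  rw [this, hg]
  group

lemma PDL_ext (A B : SL(2, ℤ)) (h00 : A 0 0 = B 0 0) (h01 : A 0 1 = B 0 1)
    (h10 : A 1 0 = B 1 0) (h11 : A 1 1 = B 1 1) : A = B := by
  apply Subtype.ext
  ext i j
  fin_cases i <;> fin_cases j <;> assumption

lemma PDL_det (γ : SL(2, ℤ)) : γ 0 0 * γ 1 1 - γ 0 1 * γ 1 0 = 1 := by
  have := γ.det_coe
  rwa [Matrix.det_fin_two] at this

/-- entries of `T^(-n) γ T^n` -/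
lemma PDL_conjT (γ : SL(2, ℤ)) (n : ℤ) :
    ((T ^ n)⁻¹ * γ * T ^ n) 0 0 = γ 0 0 - n * γ 1 0 ∧
    ((T ^ n)⁻¹ * γ * T ^ n) 1 0 = γ 1 0 ∧
    ((T ^ n)⁻¹ * γ * T ^ n) 1 1 = γ 1 1 + n * γ 1 0 := by
  rw [← _root_.zpow_neg]
  refine ⟨?_, ?_, ?_⟩ <;>
  simp [Matrix.SpecialLinearGroup.coe_mul, coe_T_zpow, Matrix.mul_apply, Fin.sum_univ_two,
    Matrix.vecMul, dotProduct] <;> ring

/-- entries of `S⁻¹ γ S` -/
lemma PDL_conjS (γ : SL(2, ℤ)) :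
    (S⁻¹ * γ * S) 0 0 = γ 1 1 ∧
    (S⁻¹ * γ * S) 1 0 = - γ 0 1 ∧
    (S⁻¹ * γ * S) 1 1 = γ 0 0 := by
  refine ⟨?_, ?_, ?_⟩ <;>
  simp [Matrix.SpecialLinearGroup.coe_mul, coe_S, Matrix.SpecialLinearGroup.coe_inv,
    Matrix.adjugate_fin_two, Matrix.mul_apply, Fin.sum_univ_two, Matrix.vecMul, dotProduct]

lemma PDL_mul_apply (A B : SL(2, ℤ)) (i j : Fin 2) :
    (A * B) i j = A i 0 * B 0 j + A i 1 * B 1 j := by
  simp [Matrix.SpecialLinearGroup.coe_mul, Matrix.mul_apply, Fin.sum_univ_two]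

lemma PDL_S_entries : (S : SL(2, ℤ)) 0 0 = 0 ∧ (S : SL(2, ℤ)) 0 1 = -1 ∧
    (S : SL(2, ℤ)) 1 0 = 1 ∧ (S : SL(2, ℤ)) 1 1 = 0 := by
  simp [coe_S]

lemma PDL_T_entries : (T : SL(2, ℤ)) 0 0 = 1 ∧ (T : SL(2, ℤ)) 0 1 = 1 ∧
    (T : SL(2, ℤ)) 1 0 = 0 ∧ (T : SL(2, ℤ)) 1 1 = 1 := by
  simp [coe_T]

lemma PDL_Tinv_entries : (T⁻¹ : SL(2, ℤ)) 0 0 = 1 ∧ (T⁻¹ : SL(2, ℤ)) 0 1 = -1 ∧
    (T⁻¹ : SL(2, ℤ)) 1 0 = 0 ∧ (T⁻¹ : SL(2, ℤ)) 1 1 = 1 := by
  simp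

lemma PDL_one_entries : (1 : SL(2, ℤ)) 0 0 = 1 ∧ (1 : SL(2, ℤ)) 0 1 = 0 ∧
    (1 : SL(2, ℤ)) 1 0 = 0 ∧ (1 : SL(2, ℤ)) 1 1 = 1 := by
  simp

/-- the four normalised matrices with `a = 0`, `|c| = 1` -/
lemma PDL_base (γ : SL(2, ℤ)) (ha : γ 0 0 = 0) (hc : γ 1 0 = 1 ∨ γ 1 0 = -1)
    (ht : γ 1 1 = 1 ∨ γ 1 1 = -1) : PDL_P γ := by
  have hdet := PDL_det γ
  rw [ha] at hdet
  obtain ⟨s00, s01, s10, s11⟩ := PDL_S_entries
  obtain ⟨t00, t01, t10, t11⟩ := PDL_T_entries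
  obtain ⟨i00, i01, i10, i11⟩ := PDL_Tinv_entries
  obtain ⟨o00, o01, o10, o11⟩ := PDL_one_entries
  rcases hc with hc | hc <;> rcases ht with ht | ht
  · -- c = 1, d = 1: γ = U
    have hb : γ 0 1 = -1 := by rw [hc] at hdet; linarith
    refine ⟨1, ((1 : ℕ) : ℤ), ?_⟩
    rw [zpow_natCast]
    apply PDL_ext <;>
      simp [PDL_mul_apply, pow_succ, ha, hb, hc, ht, s00, s01, s10, s11, t00, t01, t10, t11]
  · -- c = 1, d = -1: γ = T U² T⁻¹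
    have hb : γ 0 1 = -1 := by rw [hc] at hdet; linarith
    refine ⟨T⁻¹, ((2 : ℕ) : ℤ), ?_⟩
    rw [zpow_natCast, inv_inv]
    apply PDL_ext <;>
      simp [PDL_mul_apply, pow_succ, ha, hb, hc, ht, s00, s01, s10, s11, t00, t01, t10, t11,
        i00, i01, i10, i11]
  · -- c = -1, d = 1: γ = T U⁵ T⁻¹
    have hb : γ 0 1 = 1 := by rw [hc] at hdet; linarith
    refine ⟨T⁻¹, ((5 : ℕ) : ℤ), ?_⟩
    rw [zpow_natCast, inv_inv]
    apply PDL_ext <;>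
      simp [PDL_mul_apply, pow_succ, ha, hb, hc, ht, s00, s01, s10, s11, t00, t01, t10, t11,
        i00, i01, i10, i11]
  · -- c = -1, d = -1: γ = U⁴
    have hb : γ 0 1 = 1 := by rw [hc] at hdet; linarith
    refine ⟨1, ((4 : ℕ) : ℤ), ?_⟩
    rw [zpow_natCast]
    apply PDL_ext <;>
      simp [PDL_mul_apply, pow_succ, ha, hb, hc, ht, s00, s01, s10, s11, t00, t01, t10, t11]

/-- normalisation `|a - d| ≤ |c|` by a power of `T` -/
lemma PDL_round (m c : ℤ) (hc : c ≠ 0) : ∃ n : ℤ, (m - 2 * n * c) ^ 2 ≤ c ^ 2 := by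
  refine ⟨(m + |c|) / (2 * c), ?_⟩
  have h2c : 2 * c ≠ 0 := mul_ne_zero two_ne_zero hc
  have h1 := Int.emod_nonneg (m + |c|) h2c
  have h2 := Int.emod_lt_abs (m + |c|) h2c
  have h3 := Int.emod_add_mul_ediv (m + |c|) (2 * c)
  have h4 : |2 * c| = 2 * |c| := by rw [abs_mul]; simp
  rw [h4] at h2
  have h5 : m - 2 * ((m + |c|) / (2 * c)) * c = (m + |c|) % (2 * c) - |c| := by linarith
  rw [h5, ← sq_abs c]
  apply sq_le_sq' <;> linarith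

theorem PDL_aux : ∀ n : ℕ, ∀ γ : SL(2, ℤ), (γ 0 0 + γ 1 1) ^ 2 = 1 →
    (γ 1 0).natAbs = n → PDL_P γ := by
  intro n
  induction n using Nat.strong_induction_on with
  | _ n ih =>
    intro γ htr hn
    have hdet := PDL_det γ
    rcases Nat.lt_or_ge n 2 with hn2 | hn2
    · interval_cases n
      · -- c = 0 is impossible
        exfalso
        have hc : γ 1 0 = 0 := Int.natAbs_eq_zero.mp hn
        rw [hc] at hdet
        nlinarith [sq_nonneg (γ 0 0 - γ 1 1)]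
      · -- |c| = 1
        have hc : γ 1 0 = 1 ∨ γ 1 0 = -1 := by
          rcases Int.natAbs_eq (γ 1 0) with h | h
          · left; rw [h, hn]; rfl
          · right; rw [h, hn]; rfl
        have hcc : γ 1 0 * γ 1 0 = 1 := by rcases hc with hc | hc <;> rw [hc] <;> norm_num
        apply PDL_P_of_conj γ (T ^ (γ 0 0 * γ 1 0))
        obtain ⟨h00, h10, h11⟩ := PDL_conjT γ (γ 0 0 * γ 1 0)
        apply PDL_base
        · rw [h00, mul_assoc, hcc]; ring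
        · rw [h10]; exact hc
        · rw [h11, mul_assoc, hcc, mul_one, add_comm]
          exact mul_self_eq_one_iff.mp (by rw [← sq]; exact htr)
    · -- descent
      have hc0 : γ 1 0 ≠ 0 := by
        intro h
        rw [h] at hn
        simp at hn
        omega
      obtain ⟨n₀, hn₀⟩ := PDL_round (γ 0 0 - γ 1 1) (γ 1 0) hc0
      apply PDL_P_of_conj γ (T ^ n₀)
      obtain ⟨h00, h10, h11⟩ := PDL_conjT γ n₀
      set γ' := (T ^ n₀)⁻¹ * γ * T ^ n₀ with hγ'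
      have hdet' := PDL_det γ'
      have htr' : (γ' 0 0 + γ' 1 1) ^ 2 = 1 := by
        rw [h00, h11]
        have : γ 0 0 - n₀ * γ 1 0 + (γ 1 1 + n₀ * γ 1 0) = γ 0 0 + γ 1 1 := by ring
        rw [this]; exact htr
      have he : (γ' 0 0 - γ' 1 1) ^ 2 ≤ (γ' 1 0) ^ 2 := by
        rw [h00, h11, h10]
        have : γ 0 0 - n₀ * γ 1 0 - (γ 1 1 + n₀ * γ 1 0) = γ 0 0 - γ 1 1 - 2 * n₀ * γ 1 0 := by
          ring
        rw [this]; exact hn₀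
      have hc4 : (4 : ℤ) ≤ (γ' 1 0) ^ 2 := by
        rw [h10]
        have h2 : (2 : ℤ).natAbs ≤ (γ 1 0).natAbs := by rw [hn]; exact hn2
        have := Int.natAbs_le_iff_sq_le.mp h2
        linarith
      apply PDL_P_of_conj γ' S
      obtain ⟨k00, k10, k11⟩ := PDL_conjS γ'
      apply ih (γ' 0 1).natAbs
      · -- |b'| < |c|
        rw [← hn, ← h10]
        apply Int.natAbs_lt_iff_sq_lt.mpr
        by_contra hcon0
        have hcon := not_lt.mp hcon0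
        have key : 4 * (γ' 0 1 * γ' 1 0) = -(3 + (γ' 0 0 - γ' 1 1) ^ 2) := by
          nlinarith
        nlinarith [sq_nonneg (γ' 0 0 - γ' 1 1), sq_nonneg (γ' 0 1), sq_nonneg (γ' 1 0),
          mul_le_mul hcon (le_refl ((γ' 1 0) ^ 2)) (sq_nonneg _) (sq_nonneg _)]
      · rw [k00, k11, add_comm]; exact htr'
      · rw [k10, Int.natAbs_neg]

/-- **ELL3.** An element of `SL(2, ℤ)` of trace `±1` is conjugate to a power of `S * T`. -/
theorem PDL_conj_U (γ : SL(2, ℤ)) (h : (γ : Matrix (Fin 2) (Fin 2) ℤ).trace ^ 2 = 1) :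
    ∃ (g : SL(2, ℤ)) (j : ℤ), γ = g⁻¹ * (S * T) ^ j * g := by
  rw [Matrix.trace_fin_two] at h
  exact PDL_aux _ γ h rfl

end PDEll

end Fermat.Agent.S41
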