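import Mathlib
import Fermat.Agent.S41.PDCupB
import Fermat.Agent.S41.PDDefs
import Fermat.Agent.S41.PDEll

/-!
# S41, package PD, CUPF + COMP: existence of admissible cochains and the comparison
`2 · cuspSum = PD_form`

`S41P_exists_adm_of_ell`: for `φ, φ' ∈ parHomsF F Γ ellPred` (`Γ ≤ SL(2, ℤ)` of finite index,
`-1 ∈ Γ`, `2 ≠ 0` in `F`) there is an admissible cochain `A` (in the sense of `S41P_Adm`) with
`2 * S41P_cuspSum Γ A = PD_form φ φ'`.  The only input which is not proved here is the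
classification of the elements of trace `±1` (`hELL`, package ELL3, `PDL_conj_U`);
`S41P_exists_adm` is the unconditional statement.
-/

set_option autoImplicit false
set_option linter.unusedSectionVars false

open Matrix MatrixGroups ModularGroup

namespace Fermat.Agent.S41

open Fermat.Agent.S16 Fermat.Agent.S21

section PDOrbit

variable {F : Type*} [Field F]

/-- Sums over `ZMod w` as sums over `range w`. -/
lemma PD_sum_zmod (w : ℕ) [NeZero w] (h : ℤ → F) :
    ∑ k : ZMod w, h (ZMod.cast k : ℤ) = ∑ j ∈ Finset.range w, h (j : ℤ) := by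
  obtain ⟨n, rfl⟩ : ∃ n, w = n + 1 := Nat.exists_eq_succ_of_ne_zero (NeZero.ne w)
  exact Fin.sum_univ_eq_sum_range (fun j => h (j : ℤ)) (n + 1)

/-- Sums over `G ⧸ Γ` decompose along the orbits of a cyclic subgroup. -/
theorem PD_orbit_sum {G : Type*} [Group G] (Γ : Subgroup G) [Fintype (G ⧸ Γ)] (g : G)
    [Fintype (Quotient (MulAction.orbitRel (Subgroup.zpowers g) (G ⧸ Γ)))] (f : G ⧸ Γ → F) :
    ∑ x, f x = ∑ q : Quotient (MulAction.orbitRel (Subgroup.zpowers g) (G ⧸ Γ)),
      ∑ j ∈ Finset.range (Function.minimalPeriod (g • ·) q.out), f (g ^ j • q.out) := by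
  classical
  calc ∑ x, f x
      = ∑ p : (Σ q : MulAction.orbitRel.Quotient (Subgroup.zpowers g) (G ⧸ Γ),
          ZMod (Function.minimalPeriod (g • ·) q.out)),
          f ((Subgroup.quotientEquivSigmaZMod Γ g).symm p) :=
        ((Subgroup.quotientEquivSigmaZMod Γ g).symm.sum_comp f).symm
    _ = ∑ q : MulAction.orbitRel.Quotient (Subgroup.zpowers g) (G ⧸ Γ),
          ∑ k : ZMod (Function.minimalPeriod (g • ·) q.out),
            f ((Subgroup.quotientEquivSigmaZMod Γ g).symm ⟨q, k⟩) :=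
        Fintype.sum_sigma _
    _ = _ := by
        refine Fintype.sum_congr _ _ fun q => ?_
        simp only [Subgroup.quotientEquivSigmaZMod_symm_apply]
        rw [PD_sum_zmod (Function.minimalPeriod (g • ·) q.out) (fun k => f (g ^ k • q.out))]
        refine Finset.sum_congr rfl fun j _ => ?_
        rw [zpow_natCast]

end PDOrbit

section PDCup

variable {F : Type*} [Field F] {Γ : Subgroup SL(2, ℤ)} [Γ.FiniteIndex]

/-- The trace is invariant under conjugation. -/
lemma PD_trace_conj (g h : SL(2, ℤ)) :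
    ((g⁻¹ * h * g : SL(2, ℤ)) : Matrix (Fin 2) (Fin 2) ℤ).trace
      = (h : Matrix (Fin 2) (Fin 2) ℤ).trace := by
  rw [Matrix.SpecialLinearGroup.coe_mul, Matrix.trace_mul_comm,
    ← Matrix.SpecialLinearGroup.coe_mul, ← mul_assoc, mul_inv_cancel, one_mul]

set_option maxHeartbeats 1600000 in
/-- **CUPF + COMP**, modulo the classification of the elements of trace `±1`. -/
theorem S41P_exists_adm_of_ell
    (hELL : ∀ γ : SL(2, ℤ), (γ : Matrix (Fin 2) (Fin 2) ℤ).trace ^ 2 = 1 →
      ∃ (g : SL(2, ℤ)) (j : ℤ), γ = g⁻¹ * (S * T) ^ j * g)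
    (hneg : (-1 : SL(2, ℤ)) ∈ Γ) (h2 : (2 : F) ≠ 0)
    {φ φ' : Additive Γ →+ F} (hφ : φ ∈ parHomsF F Γ ellPred) (hφ' : φ' ∈ parHomsF F Γ ellPred) :
    ∃ A : Γ → F, S41P_Adm Γ φ φ' A ∧ 2 * S41P_cuspSum Γ A = PD_form φ φ' := by
  classical
  have hfin : Finite (SL(2, ℤ) ⧸ Γ) := Subgroup.finite_quotient_of_finiteIndex
  let _ : Fintype (SL(2, ℤ) ⧸ Γ) := Fintype.ofFinite _
  have hm := PD_prim_spec hφ
  have hm' := PD_prim_spec hφ'
  have he : PD_IsUnity (S * T) (PD_e F Γ) := PD_e_spec hneg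
  obtain ⟨Ψ, hlift, hΨm, hΨm', hΨS, hΨU⟩ :=
    PD_exists_psi hneg h2 hφ hφ' (PD_prim φ) (PD_prim φ') (PD_e F Γ) he
  set m := PD_prim φ with hmdef
  set m' := PD_prim φ' with hm'def
  set e := PD_e F Γ with hedef
  set U : SL(2, ℤ) := S * T with hUdef
  set b := PD_nrm U φ m with hbdef
  set b' := PD_nrm U φ' m' with hb'def
  set x₀ : SL(2, ℤ) ⧸ Γ := ((1 : SL(2, ℤ)) : SL(2, ℤ) ⧸ Γ) with hx₀
  have hb := PD_nrm_mem_triZero hneg hφ m
  have hb' := PD_nrm_mem_triZero hneg hφ' m'
  have hU3 : ∀ x : SL(2, ℤ) ⧸ Γ, U • U • U • x = x := PD_hU3 hneg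
  -- values of the cocycles at the base point
  have hbase : ∀ γ : Γ, (Ψ (γ : SL(2, ℤ))).m x₀ = φ (Additive.ofMul γ) := by
    intro γ
    rw [hΨm, smul_one_coset, sub_self, sub_zero, cocF_base]
  have hbase' : ∀ γ : Γ, (Ψ (γ : SL(2, ℤ))).m' x₀ = φ' (Additive.ofMul γ) := by
    intro γ
    rw [hΨm', smul_one_coset, sub_self, sub_zero, cocF_base]
  -- the cocycles vanish at `T`
  have hTm : ∀ x, (Ψ T).m x = 0 := fun x => by
    rw [hΨm]; linear_combination -(hm x)
  have hTm' : ∀ x, (Ψ T).m' x = 0 := fun x => by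
    rw [hΨm']; linear_combination -(hm' x)
  -- the value at `-1`
  have hnegx : (-1 : SL(2, ℤ)) • x₀ = x₀ := PD_neg_one_smul hneg x₀
  have hφneg : (Ψ (-1)).m x₀ = 0 := by
    have := hbase ⟨-1, hneg⟩
    rw [this]
    exact hφ ⟨-1, hneg⟩ (ellPred_of_trPred trPred_neg_one)
  have hneg1 : (Ψ (-1)).n x₀ = 0 := by
    have h1 := PD_psi_n_mul hlift (-1) (-1) x₀
    rw [neg_mul_neg, one_mul, PD_psi_n_one, hnegx, hφneg, zero_mul, add_zero] at h1
    have h3 : (2 : F) * (Ψ (-1)).n x₀ = 0 := by linear_combination -h1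
    rcases mul_eq_zero.mp h3 with h4 | h4
    · exact absurd h4 h2
    · exact h4
  -- the cochain rule
  have hrule : ∀ γ₁ γ₂ : Γ, (Ψ ((γ₁ * γ₂ : Γ) : SL(2, ℤ))).n x₀
      = (Ψ (γ₁ : SL(2, ℤ))).n x₀ + (Ψ (γ₂ : SL(2, ℤ))).n x₀
        + φ (Additive.ofMul γ₁) * φ' (Additive.ofMul γ₂) := by
    intro γ₁ γ₂
    rw [Subgroup.coe_mul, PD_psi_n_mul hlift, smul_one_coset Γ γ₂, hbase, hbase']
  refine ⟨fun γ => (Ψ (γ : SL(2, ℤ))).n x₀, ⟨hrule, ?_, ?_⟩, ?_⟩
  · -- elliptic elements
    intro γ hγ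
    show (Ψ (γ : SL(2, ℤ))).n x₀ = 0
    set t := ((γ : SL(2, ℤ)) : Matrix (Fin 2) (Fin 2) ℤ).trace with ht
    have hsq := sl2_sq (γ : SL(2, ℤ))
    rw [← ht] at hsq
    have hφγ : φ (Additive.ofMul γ) = 0 := hφ γ (by unfold ellPred; rw [← ht]; omega)
    have ht3 : t = 0 ∨ t ^ 2 = 1 := by
      have h1 : -2 < t := by nlinarith
      have h3 : t < 2 := by nlinarith
      have : t = -1 ∨ t = 0 ∨ t = 1 := by omega
      rcases this with h | h | h
      · right; rw [h]; norm_num
      · left; exact h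
      · right; rw [h]; norm_num
    rcases ht3 with h0 | h1
    · -- trace `0`: `γ² = -1`
      have hγ2 : ((γ * γ : Γ) : SL(2, ℤ)) = -1 := by
        apply Subtype.ext
        rw [Subgroup.coe_mul, Matrix.SpecialLinearGroup.coe_mul, hsq, h0, zero_smul, zero_sub]
        rfl
      have h4 := hrule γ γ
      rw [hγ2, hneg1, hφγ, zero_mul, add_zero] at h4
      have h5 : (2 : F) * (Ψ (γ : SL(2, ℤ))).n x₀ = 0 := by linear_combination -h4
      rcases mul_eq_zero.mp h5 with h6 | h6
      · exact absurd h6 h2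
      · exact h6
    · -- trace `±1`
      obtain ⟨g, j, hgj⟩ := hELL (γ : SL(2, ℤ)) h1
      set x : SL(2, ℤ) ⧸ Γ := g • x₀ with hx
      have hfix : U ^ j • x = x := by
        have h3 : (γ : SL(2, ℤ)) • x₀ = x₀ := smul_one_coset Γ γ
        rw [hgj, mul_smul, mul_smul, inv_smul_eq_iff] at h3
        exact h3
      have hU3' : U ^ 3 • x = x := by
        rw [pow_succ, pow_two, mul_smul, mul_smul]; exact hU3 x
      have hUx : U • x = x := by
        have hd3 : Function.minimalPeriod (U • ·) x ∣ 3 :=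
          MulAction.pow_smul_eq_iff_minimalPeriod_dvd.mp hU3'
        have hdj : (Function.minimalPeriod (U • ·) x : ℤ) ∣ j :=
          MulAction.zpow_smul_eq_iff_minimalPeriod_dvd.mp hfix
        rcases (Nat.dvd_prime Nat.prime_three).mp hd3 with h4 | h4
        · have : U ^ 1 • x = x :=
            MulAction.pow_smul_eq_iff_minimalPeriod_dvd.mpr (by rw [h4])
          rwa [pow_one] at this
        · exfalso
          rw [h4] at hdj
          obtain ⟨k, hk⟩ := hdj
          have hU6 : U ^ (6 : ℤ) = 1 := by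
            have h6 : U ^ (6 : ℕ) = 1 := by
              have : U ^ (6 : ℕ) = (U * U * U) * (U * U * U) := by
                simp only [pow_succ, pow_zero, one_mul, mul_assoc]
              rw [this, hUdef, ST_cube_eq_neg_one, neg_mul_neg, one_mul]
            exact_mod_cast h6
          have hUj2 : U ^ j * U ^ j = 1 := by
            rw [← _root_.zpow_add, hk]
            have : ((3 : ℕ) : ℤ) * k + ((3 : ℕ) : ℤ) * k = 6 * k := by push_cast; ring
            rw [this, _root_.zpow_mul, hU6, _root_.one_zpow]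
          have hγγ : (γ : SL(2, ℤ)) * γ = 1 := by
            rw [hgj]
            calc g⁻¹ * U ^ j * g * (g⁻¹ * U ^ j * g) = g⁻¹ * (U ^ j * U ^ j) * g := by group
              _ = 1 := by rw [hUj2]; group
          have h5 : ((γ : SL(2, ℤ)) : Matrix (Fin 2) (Fin 2) ℤ)
              * ((γ : SL(2, ℤ)) : Matrix (Fin 2) (Fin 2) ℤ) = 1 := by
            rw [← Matrix.SpecialLinearGroup.coe_mul, hγγ]
            rfl
          rw [h5] at hsq
          have h6 := congrArg Matrix.trace hsq
          rw [Matrix.trace_sub, Matrix.trace_smul, ← ht, Matrix.trace_one] at h6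
          simp only [Fintype.card_fin, smul_eq_mul] at h6
          have h7 : t * t = 4 := by push_cast at h6; linarith
          have h8 : t ^ 2 = 4 := by rw [pow_two]; exact h7
          omega
      have hbx : b x = 0 := (mem_triZeroF.mp hb x).2 hUx
      have hb'x : b' x = 0 := (mem_triZeroF.mp hb' x).2 hUx
      have hUm : (Ψ U).m x = 0 := by
        rw [hΨm]; exact hbx
      have hUm' : (Ψ U).m' x = 0 := by
        rw [hΨm']; exact hb'x
      have hUn : (Ψ U).n x = 0 := by
        rw [hΨU, PD_Q_fixed hb hUx, mul_zero, neg_zero]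
      obtain ⟨z1, z2, z3⟩ := PD_psi_zpow_fixed hlift U x hUx hUm hUm' hUn j
      have h9 := PD_psi_conj hlift (U ^ j) g x hfix z1 z2
      rw [hx, inv_smul_smul, ← hgj, z3] at h9
      exact h9
  · -- `-1`
    intro γ hγ
    show (Ψ (γ : SL(2, ℤ))).n x₀ = 0
    rw [hγ]
    exact hneg1
  · -- the cusp sum
    have hA : ∀ O : S41P_Cusps Γ, (Ψ ((S41P_cuspGen Γ (Quotient.out O) : Γ) : SL(2, ℤ))).n x₀
        = ∑ j ∈ Finset.range (Function.minimalPeriod (fun y : SL(2, ℤ) ⧸ Γ => T • y)
            (Quotient.out O)), (Ψ T).n (T ^ j • Quotient.out O) := by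
      intro O
      set x := Quotient.out O with hx
      set w := Function.minimalPeriod (fun y : SL(2, ℤ) ⧸ Γ => T • y) x with hw
      have hper : T ^ w • x = x := MulAction.pow_smul_eq_iff_minimalPeriod_dvd.mpr dvd_rfl
      obtain ⟨p1, p2, p3⟩ := PD_psi_pow hlift T hTm hTm' w
      have h9 := PD_psi_conj hlift (T ^ w) (Quotient.out x) x hper (p1 x) (p2 x)
      have hout : (Quotient.out x : SL(2, ℤ))⁻¹ • x = x₀ := by
        rw [inv_smul_eq_iff]
        show x = (((Quotient.out x : SL(2, ℤ)) * 1 : SL(2, ℤ)) : SL(2, ℤ) ⧸ Γ)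
        rw [mul_one]
        exact (QuotientGroup.out_eq' x).symm
      rw [hout, p3] at h9
      rw [← h9]
      congr 2
      unfold S41P_cuspGen
      rw [coe_gam_of_smul_eq Γ hper]
    have hsum : S41P_cuspSum Γ (fun γ => (Ψ (γ : SL(2, ℤ))).n x₀) = ∑ x, (Ψ T).n x := by
      let _ : Fintype (S41P_Cusps Γ) := Fintype.ofFinite _
      unfold S41P_cuspSum
      rw [finsum_eq_sum_of_fintype, PD_orbit_sum Γ T (fun x => (Ψ T).n x)]
      exact Finset.sum_congr rfl fun O _ => hA O
    -- `F̃(T) = F̃(U) − F̃(S) ∘ T`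
    have hba : ∀ x, PD_nrmS φ m (T • x) = b x := by
      intro x
      have h1 : cocF φ U x = cocF φ S (T • x) + cocF φ T x := by
        rw [hUdef, cocF_mul]
      have h3 : U • x = S • T • x := by rw [hUdef, mul_smul]
      simp only [hbdef, PD_nrm, PD_nrmS, h1, h3]
      linear_combination hm x
    have hba' : ∀ x, PD_nrmS φ' m' (T • x) = b' x := by
      intro x
      have h1 : cocF φ' U x = cocF φ' S (T • x) + cocF φ' T x := by
        rw [hUdef, cocF_mul]
      have h3 : U • x = S • T • x := by rw [hUdef, mul_smul]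
      simp only [hb'def, PD_nrm, PD_nrmS, h1, h3]
      linear_combination hm' x
    have hTn : ∀ x, (Ψ T).n x = - (e x * PD_Q U b b' x) - 2⁻¹ * (b x * b' x) := by
      intro x
      have h1 := PD_psi_n_mul hlift S T x
      rw [hTm', mul_zero, add_zero, hΨU, hΨS, hba, hba'] at h1
      linear_combination -h1
    have h2' : (2 : F) * 2⁻¹ = 1 := mul_inv_cancel₀ h2
    have hbb : ∑ x, b x * b' x = ∑ x, e x * symF3 F U (fun y => b y * b' y) x :=
      PD_sum_eq hU3 he (fun y => b y * b' y)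
    have hform : PD_form φ φ' = PD_omegaE U e b b' := PD_form_eq hneg hφ hφ' he hm hm'
    rw [hsum, hform]
    unfold PD_omegaE
    have e1 : 2 * ∑ x, (Ψ T).n x
        = ∑ x, e x * (-2 * PD_Q U b b' x - symF3 F U (fun y => b y * b' y) x) := by
      have : ∑ x, (Ψ T).n x = - ∑ x, e x * PD_Q U b b' x - 2⁻¹ * ∑ x, b x * b' x := by
        rw [Finset.mul_sum, ← Finset.sum_neg_distrib, ← Finset.sum_sub_distrib]
        exact Finset.sum_congr rfl fun x _ => hTn x
      rw [this, hbb]
      have e2 : ∑ x, e x * (-2 * PD_Q U b b' x - symF3 F U (fun y => b y * b' y) x)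
          = -2 * ∑ x, e x * PD_Q U b b' x - ∑ x, e x * symF3 F U (fun y => b y * b' y) x := by
        rw [Finset.mul_sum, ← Finset.sum_sub_distrib]
        exact Finset.sum_congr rfl fun x _ => by ring
      rw [e2]
      linear_combination (- ∑ x, e x * symF3 F U (fun y => b y * b' y) x) * h2'
    rw [e1]
    refine Finset.sum_congr rfl fun x _ => ?_
    congr 1
    rw [symF3_apply]
    by_cases hx : U • x = x
    · have hbx : b x = 0 := (mem_triZeroF.mp hb x).2 hx
      have hQ : PD_Q U b b' x = 0 := PD_Q_fixed hb hx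
      rw [if_pos hx, hQ, hx, hbx]
      ring
    · rw [if_neg hx]
      have h1 := (mem_triZeroF.mp hb x).1
      have h3 := (mem_triZeroF.mp hb' x).1
      simp only [PD_Q]
      linear_combination (-(b' x + b' (U • x))) * h1 - (b (U • U • x)) * h3

/-- **CUPF + COMP** (statement (E) of the PD package): for parabolic classes `φ, φ'` on a
finite-index subgroup `Γ ∋ -1` of `SL(2, ℤ)` there is an admissible cochain `A` whose cusp sum
computes the pairing: `2 * S41P_cuspSum Γ A = PD_form φ φ'`. -/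
theorem S41P_exists_adm
    (hneg : (-1 : SL(2, ℤ)) ∈ Γ) (h2 : (2 : F) ≠ 0)
    {φ φ' : Additive Γ →+ F} (hφ : φ ∈ parHomsF F Γ ellPred) (hφ' : φ' ∈ parHomsF F Γ ellPred) :
    ∃ A : Γ → F, S41P_Adm Γ φ φ' A ∧ 2 * S41P_cuspSum Γ A = PD_form φ φ' :=
  S41P_exists_adm_of_ell PDL_conj_U hneg h2 hφ hφ'

end PDCup

end Fermat.Agent.S41
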