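import Mathlib
import Fermat.Agent.S41.PDCup
import Fermat.Agent.S41.PDConjE

/-!
# S41, package PD: the statements (E) and κ-INV, unconditionally

* `S41PK_existsAdm` : `S41PK_ExistsAdm F` (helper28's packaging of (E)) for every field `F` with
  `2 ≠ 0`;
* `S41PA_conjInv` : `S41PA_ConjInv F` (helper5's conjugation invariance of `PD_form`) for every
  field `F` with `2 ≠ 0`.
-/

set_option autoImplicit false

open Matrix MatrixGroups ModularGroup

namespace Fermat.Agent.S41

open Fermat.Agent.S16

/-- **(E)**: admissible cochains computing `PD_form` exist. -/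
theorem S41PK_existsAdm {F : Type*} [Field F] (h2 : (2 : F) ≠ 0) : S41PK_ExistsAdm F :=
  fun _ _ hneg _ _ hφ hφ' => S41P_exists_adm hneg h2 hφ hφ'

/-- **κ-INV**: the pairing `PD_form` is invariant under conjugation by integral matrices of
positive determinant. -/
theorem S41PA_conjInv {F : Type*} [Field F] (h2 : (2 : F) ≠ 0) : S41PA_ConjInv F :=
  S41PK_conjInv_of_E h2 (S41PK_existsAdm h2)

end Fermat.Agent.S41
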