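import Fermat.Agent.S41.AlgLin

/-!
# S41 (level raising), package ALG, part 2: the integral key lemma

`Ψ : L' → W` (`W` finitely generated free), `e' : L' → L'`, `e : W → W` with `Ψ ∘ e' = e ∘ Ψ` and
`e = Ψ ∘ G + p • E` (i.e. `e` kills the cokernel of `Ψ` mod `p`).  Then a power of `e'` maps
`Ψ⁻¹(p W)` into `ker Ψ + p L'`, and in factorised form
`e' ^ m = ι ∘ Π₀ + H ∘ Ψ + p • E''` with `Π₀ : L' → ker Ψ`.
-/

open TensorProduct

set_option linter.style.longLine false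
set_option linter.unusedSectionVars false
set_option linter.unusedVariables false

/-- Artin–Rees for the range of `Ψ`. -/
theorem S41G_artinRees {L' W : Type*} [AddCommGroup L'] [AddCommGroup W] [Module.Finite ℤ W]
    (Ψ : L' →ₗ[ℤ] W) (p : ℤ) :
    ∃ c : ℕ, ∀ z : L', (∃ w : W, Ψ z = p ^ (c + 1) • w) → ∃ z' : L', Ψ z = p • Ψ z' := by
  obtain ⟨c, hc⟩ := Ideal.exists_pow_inf_eq_pow_smul (Ideal.span {p}) (LinearMap.range Ψ)
  refine ⟨c, fun z ⟨w, hw⟩ => ?_⟩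
  have h1 : Ψ z ∈ Ideal.span {p} ^ (c + 1) • (⊤ : Submodule ℤ W) ⊓ LinearMap.range Ψ := by
    refine ⟨?_, ⟨z, rfl⟩⟩
    rw [Ideal.span_singleton_pow, Submodule.ideal_span_singleton_smul, hw]
    exact Submodule.smul_mem_pointwise_smul _ _ _ Submodule.mem_top
  rw [hc (c + 1) (Nat.le_succ c), Nat.add_sub_cancel_left, pow_one,
    Submodule.ideal_span_singleton_smul] at h1
  obtain ⟨y, hy, hya⟩ := (Submodule.mem_smul_pointwise_iff_exists _ _ _).mp h1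
  obtain ⟨z', rfl⟩ := hy.2
  exact ⟨z', hya.symm⟩

/-- the iteration step. -/
theorem S41G_iterate {L' W : Type*} [AddCommGroup L'] [AddCommGroup W]
    (Ψ : L' →ₗ[ℤ] W) (e' : Module.End ℤ L') (e : Module.End ℤ W)
    (hcomm : Ψ ∘ₗ e' = e ∘ₗ Ψ) (p : ℤ) (G : W →ₗ[ℤ] L') (E : Module.End ℤ W)
    (he : e = Ψ ∘ₗ G + p • E) (j : ℕ) (z : L') (hz : ∃ w : W, Ψ z = p • w) :
    ∃ (zj : L') (wj : W) (z'' : L'), Ψ zj = p ^ (j + 1) • wj ∧ (e' ^ j) z - zj = p • z'' := by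
  induction j with
  | zero =>
    obtain ⟨w, hw⟩ := hz
    exact ⟨z, w, 0, by simpa using hw, by simp⟩
  | succ j ih =>
    obtain ⟨zj, wj, z'', h1, h2⟩ := ih
    refine ⟨e' zj - p ^ (j + 1) • G wj, E wj, e' z'' + p ^ j • G wj, ?_, ?_⟩
    · have h3 : Ψ (e' zj) = e (Ψ zj) := LinearMap.congr_fun hcomm zj
      rw [map_sub, h3, h1, map_smul, map_smul, he, LinearMap.add_apply, LinearMap.comp_apply,
        LinearMap.smul_apply, smul_add, add_sub_cancel_left, smul_smul, ← pow_succ]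
    · rw [pow_succ', Module.End.mul_apply]
      have h4 : (e' ^ j) z = zj + p • z'' := by rw [← h2]; abel
      rw [h4, map_add, map_smul, smul_add, smul_smul, ← pow_succ']
      abel

/-- the integral key statement. -/
theorem S41G_key {L' W : Type*} [AddCommGroup L'] [AddCommGroup W] [Module.Finite ℤ W]
    (Ψ : L' →ₗ[ℤ] W) (e' : Module.End ℤ L') (e : Module.End ℤ W)
    (hcomm : Ψ ∘ₗ e' = e ∘ₗ Ψ) (p : ℤ) (G : W →ₗ[ℤ] L') (E : Module.End ℤ W)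
    (he : e = Ψ ∘ₗ G + p • E) :
    ∃ m : ℕ, ∀ z : L', (∃ w : W, Ψ z = p • w) →
      ∃ (b : L') (z'' : L'), Ψ b = 0 ∧ (e' ^ m) z = b + p • z'' := by
  obtain ⟨c, hc⟩ := S41G_artinRees Ψ p
  refine ⟨c, fun z hz => ?_⟩
  obtain ⟨zj, wj, z'', h1, h2⟩ := S41G_iterate Ψ e' e hcomm p G E he c z hz
  obtain ⟨z', hz'⟩ := hc zj ⟨wj, h1⟩
  refine ⟨zj - p • z', z' + z'', ?_, ?_⟩
  · rw [map_sub, map_smul, hz', sub_self]
  · have h4 : (e' ^ c) z = zj + p • z'' := by rw [← h2]; abel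
    rw [h4, smul_add]; abel

/-- factorised form of the key statement. -/
theorem S41G_split (p : ℕ) [Fact p.Prime] {L' W : Type*} [AddCommGroup L'] [AddCommGroup W]
    [Module.Free ℤ L'] [Module.Free ℤ W] [Module.Finite ℤ W]
    (Ψ : L' →ₗ[ℤ] W) (e' : Module.End ℤ L') (e : Module.End ℤ W)
    (hcomm : Ψ ∘ₗ e' = e ∘ₗ Ψ) (G : W →ₗ[ℤ] L') (E : Module.End ℤ W)
    (he : e = Ψ ∘ₗ G + (p : ℤ) • E) :
    ∃ (m : ℕ) (P₀ : L' →ₗ[ℤ] ↥(LinearMap.ker Ψ)) (H : W →ₗ[ℤ] L') (E'' : Module.End ℤ L'),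
      e' ^ m = (LinearMap.ker Ψ).subtype ∘ₗ P₀ + H ∘ₗ Ψ + (p : ℤ) • E'' := by
  classical
  obtain ⟨m, hm⟩ := S41G_key Ψ e' e hcomm (p : ℤ) G E he
  -- the range of Ψ is free
  have : Module.Free ℤ ↥(LinearMap.range Ψ) := inferInstance
  set Ψ' : L' →ₗ[ℤ] ↥(LinearMap.range Ψ) := Ψ.rangeRestrict with hΨ'
  have hsurj : Function.Surjective Ψ' := LinearMap.surjective_rangeRestrict Ψ
  have hfac : ∀ z : L', (∃ w, Ψ z = (p : ℤ) • w) → ∃ wb, (Ψ' ∘ₗ (e' ^ m)) z = (p : ℤ) • wb := by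
    intro z hz
    obtain ⟨b, z'', hb, hbz⟩ := hm z hz
    refine ⟨Ψ' z'', ?_⟩
    rw [LinearMap.comp_apply, hbz, map_add, map_smul]
    have : Ψ' b = 0 := by
      apply Subtype.ext
      simpa [hΨ'] using hb
    rw [this, zero_add]
  obtain ⟨G'', E₁, hGE⟩ := S41G_factor_ker p Ψ (Ψ' ∘ₗ (e' ^ m)) hfac
  obtain ⟨H, hH⟩ := Module.projective_lifting_property Ψ' G'' hsurj
  obtain ⟨E'', hE''⟩ := Module.projective_lifting_property Ψ' E₁ hsurj
  have hker : ∀ z : L', (e' ^ m - H ∘ₗ Ψ - (p : ℤ) • E'') z ∈ LinearMap.ker Ψ := by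
    intro z
    rw [LinearMap.mem_ker]
    have h1 : Ψ' ((e' ^ m - H ∘ₗ Ψ - (p : ℤ) • E'') z) = 0 := by
      have h2 := LinearMap.congr_fun hGE z
      rw [LinearMap.comp_apply, LinearMap.add_apply, LinearMap.comp_apply,
        LinearMap.smul_apply] at h2
      rw [LinearMap.sub_apply, LinearMap.sub_apply, map_sub, map_sub, h2, LinearMap.comp_apply,
        LinearMap.smul_apply, map_smul]
      have h3 : Ψ' (H (Ψ z)) = G'' (Ψ z) := LinearMap.congr_fun hH (Ψ z)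
      have h4 : Ψ' (E'' z) = E₁ z := LinearMap.congr_fun hE'' z
      rw [h3, h4]; abel
    have := congrArg Subtype.val h1
    simpa [hΨ'] using this
  refine ⟨m, LinearMap.codRestrict (LinearMap.ker Ψ) _ hker, H, E'', ?_⟩
  ext z
  simp only [LinearMap.add_apply, LinearMap.comp_apply, Submodule.subtype_apply,
    LinearMap.codRestrict_apply, LinearMap.sub_apply, LinearMap.smul_apply]
  abel
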