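import Mathlib

/-!
# S41 (level raising), package ALG, part 1: linear algebra over `ℤ` modulo `p`

Prefix `S41G_`.  Everything here is abstract (no modular forms).

* `S41G_exists_factor` : over a field, `ker f ≤ ker g → ∃ h, h ∘ f = g`.
* `S41G_tmul_eq_zero_iff` : in `ZMod p ⊗[ℤ] V` (`V` free), `1 ⊗ v = 0 ↔ v ∈ p V`.
* `S41G_exists_div` : a `ℤ`-linear map from a free module with values in `p W` is `p • E`.
* `S41G_factor_coker` : `(∀ w, ∃ y w', e w - Ψ y = p • w') → ∃ G E, e = Ψ ∘ G + p • E`.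
* `S41G_factor_ker` : `(∀ v, Φ v ∈ p V' → e v ∈ p W) → ∃ G E, e = G ∘ Φ + p • E`.
-/

open TensorProduct

set_option linter.style.longLine false
set_option linter.unusedSectionVars false
set_option linter.unusedVariables false

theorem S41G_exists_factor {F V V' W : Type*} [Field F] [AddCommGroup V] [AddCommGroup V']
    [AddCommGroup W] [Module F V] [Module F V'] [Module F W]
    (f : V →ₗ[F] V') (g : V →ₗ[F] W) (h : LinearMap.ker f ≤ LinearMap.ker g) :
    ∃ h' : V' →ₗ[F] W, h' ∘ₗ f = g := by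
  set g₀ : LinearMap.range f →ₗ[F] W :=
    ((LinearMap.ker f).liftQ g h) ∘ₗ (LinearMap.quotKerEquivRange f).symm.toLinearMap with hg₀
  obtain ⟨h', hh'⟩ := LinearMap.exists_extend g₀
  refine ⟨h', ?_⟩
  ext v
  have h1 : h' (f v) = (h' ∘ₗ (LinearMap.range f).subtype) ⟨f v, LinearMap.mem_range_self f v⟩ := rfl
  rw [LinearMap.comp_apply, h1, hh', hg₀, LinearMap.comp_apply]
  have h2 : (LinearMap.quotKerEquivRange f).symm ⟨f v, LinearMap.mem_range_self f v⟩
      = Submodule.Quotient.mk v := by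
    rw [LinearEquiv.symm_apply_eq]
    rfl
  rw [LinearEquiv.coe_coe, h2, Submodule.liftQ_apply]

/-- every element of `ZMod p ⊗[ℤ] V` is of the form `1 ⊗ v`. -/
theorem S41G_exists_one_tmul (p : ℕ) [NeZero p] {V : Type*} [AddCommGroup V]
    (z : ZMod p ⊗[ℤ] V) : ∃ v : V, z = (1 : ZMod p) ⊗ₜ[ℤ] v := by
  induction z using TensorProduct.induction_on with
  | zero => exact ⟨0, by rw [TensorProduct.tmul_zero]⟩
  | tmul a v =>
    refine ⟨(a.val : ℤ) • v, ?_⟩
    rw [TensorProduct.tmul_smul, TensorProduct.smul_tmul']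
    congr 1
    rw [zsmul_eq_mul, mul_one]
    simp
  | add x y hx hy =>
    obtain ⟨v, rfl⟩ := hx
    obtain ⟨w, rfl⟩ := hy
    exact ⟨v + w, by rw [TensorProduct.tmul_add]⟩

theorem S41G_tmul_eq_zero_iff (p : ℕ) {V : Type*} [AddCommGroup V] [Module.Free ℤ V] (v : V) :
    (1 : ZMod p) ⊗ₜ[ℤ] v = (0 : ZMod p ⊗[ℤ] V) ↔ ∃ w : V, v = (p : ℤ) • w := by
  classical
  constructor
  · intro h
    set b := Module.Free.chooseBasis ℤ V with hb
    have h1 : ∀ i, (p : ℤ) ∣ b.repr v i := by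
      intro i
      have h2 : (b.baseChange (ZMod p)).repr ((1 : ZMod p) ⊗ₜ[ℤ] v) i = 0 := by
        rw [h]; simp
      rw [Module.Basis.baseChange_repr_tmul] at h2
      have h3 : ((b.repr v i : ℤ) : ZMod p) = 0 := by
        simpa [Algebra.smul_def] using h2
      exact (ZMod.intCast_zmod_eq_zero_iff_dvd _ _).mp h3
    choose c hc using h1
    refine ⟨∑ i ∈ (b.repr v).support, c i • b i, ?_⟩
    conv_lhs => rw [← b.linearCombination_repr v, Finsupp.linearCombination_apply, Finsupp.sum]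
    rw [Finset.smul_sum]
    refine Finset.sum_congr rfl fun i _ => ?_
    rw [smul_smul, ← hc i]
  · rintro ⟨w, rfl⟩
    rw [TensorProduct.tmul_smul, TensorProduct.smul_tmul', zsmul_eq_mul, mul_one]
    simp

/-- a `ℤ`-linear map out of a free module all of whose values are divisible by `p` is `p • E`. -/
theorem S41G_exists_div (p : ℤ) {V W : Type*} [AddCommGroup V] [AddCommGroup W] [Module.Free ℤ V]
    (f : V →ₗ[ℤ] W) (hf : ∀ v, ∃ w, f v = p • w) : ∃ E : V →ₗ[ℤ] W, f = p • E := by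
  classical
  set b := Module.Free.chooseBasis ℤ V with hb
  choose c hc using fun i => hf (b i)
  refine ⟨b.constr ℤ c, ?_⟩
  apply b.ext
  intro i
  rw [LinearMap.smul_apply, Module.Basis.constr_basis, hc]

/-- cokernel form ⇒ factorisation. -/
theorem S41G_factor_coker (p : ℤ) {V V' W : Type*} [AddCommGroup V] [AddCommGroup V']
    [AddCommGroup W] [Module.Free ℤ V]
    (Ψ : V' →ₗ[ℤ] W) (e : V →ₗ[ℤ] W) (h : ∀ w : V, ∃ (y : V') (w' : W), e w - Ψ y = p • w') :
    ∃ (G : V →ₗ[ℤ] V') (E : V →ₗ[ℤ] W), e = Ψ ∘ₗ G + p • E := by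
  classical
  set b := Module.Free.chooseBasis ℤ V with hb
  choose y w' hyw using fun i => h (b i)
  refine ⟨b.constr ℤ y, b.constr ℤ w', ?_⟩
  apply b.ext
  intro i
  rw [LinearMap.add_apply, LinearMap.comp_apply, LinearMap.smul_apply, Module.Basis.constr_basis,
    Module.Basis.constr_basis, ← hyw i]
  abel

/-- kernel form ⇒ factorisation. -/
theorem S41G_factor_ker (p : ℕ) [Fact p.Prime] {V V' W : Type*} [AddCommGroup V] [AddCommGroup V']
    [AddCommGroup W] [Module.Free ℤ V] [Module.Free ℤ V'] [Module.Free ℤ W]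
    (Φ : V →ₗ[ℤ] V') (e : V →ₗ[ℤ] W)
    (h : ∀ v : V, (∃ w', Φ v = (p : ℤ) • w') → ∃ w, e v = (p : ℤ) • w) :
    ∃ (G : V' →ₗ[ℤ] W) (E : V →ₗ[ℤ] W), e = G ∘ₗ Φ + (p : ℤ) • E := by
  classical
  have : NeZero p := ⟨(Fact.out : p.Prime).ne_zero⟩
  -- mod p
  have hker : LinearMap.ker (Φ.baseChange (ZMod p)) ≤ LinearMap.ker (e.baseChange (ZMod p)) := by
    intro z hz
    obtain ⟨v, rfl⟩ := S41G_exists_one_tmul p z
    rw [LinearMap.mem_ker, LinearMap.baseChange_tmul] at hz ⊢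
    rw [S41G_tmul_eq_zero_iff] at hz ⊢
    exact h v hz
  obtain ⟨g, hg⟩ := S41G_exists_factor _ _ hker
  -- lift g
  have hsurj : Function.Surjective (TensorProduct.mk ℤ (ZMod p) W 1) := by
    intro z
    obtain ⟨w, rfl⟩ := S41G_exists_one_tmul p z
    exact ⟨w, rfl⟩
  obtain ⟨G, hG⟩ := Module.projective_lifting_property (TensorProduct.mk ℤ (ZMod p) W 1)
    ((g.restrictScalars ℤ) ∘ₗ (TensorProduct.mk ℤ (ZMod p) V' 1)) hsurj
  have hdiv : ∀ v, ∃ w, (e - G ∘ₗ Φ) v = (p : ℤ) • w := by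
    intro v
    rw [← S41G_tmul_eq_zero_iff]
    rw [LinearMap.sub_apply, TensorProduct.tmul_sub, LinearMap.comp_apply]
    have h1 : (1 : ZMod p) ⊗ₜ[ℤ] G (Φ v) = g ((1 : ZMod p) ⊗ₜ[ℤ] Φ v) := by
      exact LinearMap.congr_fun hG (Φ v)
    have h2 : g ((1 : ZMod p) ⊗ₜ[ℤ] Φ v) = (1 : ZMod p) ⊗ₜ[ℤ] e v := by
      have := LinearMap.congr_fun hg ((1 : ZMod p) ⊗ₜ[ℤ] v)
      simpa using this
    rw [h1, h2, sub_self]
  obtain ⟨E, hE⟩ := S41G_exists_div (p : ℤ) _ hdiv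
  refine ⟨G, E, ?_⟩
  rw [← hE]
  abel
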