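import Mathlib
import Fermat.Agent.S41.EisPar
import Fermat.Agent.GalRep.DimHecke

/-!
# S41, package EIS, integral form

For `x ∈ parInt N` whose reduction modulo `m` is trivial on `Γ₀(N) ∩ Γ(R)`:
`T_ℓ x ≡ (ℓ + 1) x  mod m` for EVERY prime `ℓ ∤ N R` (`S41E_parInt_eisenstein`).
-/

set_option autoImplicit false

open CongruenceSubgroup Matrix Matrix.SpecialLinearGroup ModularCurve.Period
open scoped MatrixGroups
open P2MW.S_ModularForm_heckeT_slash_eq_self_of_mem_Gamma0.ModularForm.HeckeSlashInvariance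
open ModularForm

namespace Fermat.Agent.S41

open Fermat.Agent.S16 Fermat.Agent.GalRep

/-- **EIS, integral form.** -/
theorem S41E_parInt_eisenstein {N : ℕ} [NeZero N] (x : ↥(parInt N)) (m : ℤ) (R : ℕ) (hR : 0 < R)
    (hcong : ∀ γ : Gamma0 N, (γ : SL(2, ℤ)) ∈ Gamma R →
      m ∣ (x : Additive (Gamma0 N) →+ ℤ) (Additive.ofMul γ))
    (ℓ : Nat.Primes) [Fact (ℓ : ℕ).Prime] (hℓN : ¬ (ℓ : ℕ) ∣ N) (hℓR : ¬ (ℓ : ℕ) ∣ R)
    (γ : Gamma0 N) :
    m ∣ ((GRD_heckeL N (ModularCurve.heckeGen ℓ) x : ↥(parInt N)) : Additive (Gamma0 N) →+ ℤ)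
          (Additive.ofMul γ)
        - ((ℓ : ℕ) + 1 : ℤ) * (x : Additive (Gamma0 N) →+ ℤ) (Additive.ofMul γ) := by
  -- the class modulo `m`
  let q : ℤ →+ ℤ ⧸ AddSubgroup.zmultiples m := QuotientAddGroup.mk' _
  have hq : ∀ a : ℤ, q a = 0 ↔ m ∣ a := by
    intro a
    rw [show q a = (a : ℤ ⧸ AddSubgroup.zmultiples m) from rfl, QuotientAddGroup.eq_zero_iff,
      Int.mem_zmultiples_iff]
  let χ : Additive (Gamma0 N) →+ ℤ ⧸ AddSubgroup.zmultiples m :=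
    q.comp (x : Additive (Gamma0 N) →+ ℤ)
  have hpar : IsParabolicHom (Gamma0 N) χ := by
    intro γ hγ
    show q ((x : Additive (Gamma0 N) →+ ℤ) (Additive.ofMul γ)) = 0
    rw [x.2 γ hγ, map_zero]
  have hc : ∀ γ : Gamma0 N, (γ : SL(2, ℤ)) ∈ Gamma R → χ (Additive.ofMul γ) = 0 :=
    fun γ hγ => (hq _).mpr (hcong γ hγ)
  obtain ⟨σ, g', hmul⟩ := S16_exists_heckeT_data (N := N) hℓN γ
  have h1 := S41E_eisenstein χ hpar R hR hc hℓN hℓR γ σ g' hmul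
  have h2 := GRD_heckeL_heckeT (N := N) ℓ hℓN x γ σ g' hmul
  rw [← hq, map_sub, h2, map_sum]
  have h3 : ∑ i, q ((x : Additive (Gamma0 N) →+ ℤ) (Additive.ofMul (g' i)))
      = ((ℓ : ℕ) + 1) • q ((x : Additive (Gamma0 N) →+ ℤ) (Additive.ofMul γ)) := h1
  rw [h3, sub_eq_zero, ← map_nsmul]
  congr 1

end Fermat.Agent.S41
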