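import Fermat.Agent.S41.AmalgamDefs

/-!
# S41 / HK-CORE (helper7), part 1: reduction `ℤ[1/q] → 𝔽_r` and the orbit-sum lemma

* `S41H_cast_add/mul/sub/neg` : `Rat.cast : ℚ → ZMod r` is additive and multiplicative on
  `S41A_R q = ℤ[1/q]` (`r` a prime `≠ q`);
* `S41H_cast_eq_zero` : its kernel on `ℤ[1/q]` is `r ℤ[1/q]`;
* `S41H_inv_not_mem` : `1/r ∉ ℤ[1/q]`;
* `S41H_orbit_sum` : a function on `ZMod r` which is invariant under multiplication by an element
  `Q` whose multiplicative order is divisible by `p = char k` has `∑_{y ≠ 0} Φ y = 0`.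
-/

set_option autoImplicit false

open Matrix
open scoped MatrixGroups

noncomputable section

section red

variable {q r : ℕ}

/-- the denominator of an element of `ℤ[1/q]` divides a power of `q`. -/
theorem S41H_den_dvd (hq : q ≠ 0) {x : ℚ} (hx : x ∈ S41A_R q) : ∃ k : ℕ, x.den ∣ q ^ k := by
  obtain ⟨m, k, rfl⟩ := (S41A_mem_R_iff hq x).1 hx
  refine ⟨k, ?_⟩
  have h : ((m : ℚ) / (q : ℚ) ^ k) = Rat.divInt m ((q : ℤ) ^ k) := by
    rw [Rat.divInt_eq_div]; push_cast; rfl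
  rw [h]
  have := Rat.den_dvd m ((q : ℤ) ^ k)
  exact_mod_cast this

theorem S41H_den_ne_zero (hq : q.Prime) [Fact r.Prime] (hrq : r ≠ q) {x : ℚ}
    (hx : x ∈ S41A_R q) : ((x.den : ℕ) : ZMod r) ≠ 0 := by
  obtain ⟨k, hk⟩ := S41H_den_dvd hq.ne_zero hx
  intro h0
  have hr : r.Prime := Fact.out
  have h1 : r ∣ x.den := (ZMod.natCast_eq_zero_iff _ _).1 h0
  have h2 : r ∣ q ^ k := h1.trans hk
  have h3 : r ∣ q := hr.dvd_of_dvd_pow h2
  exact hrq ((Nat.prime_dvd_prime_iff_eq hr hq).1 h3)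

theorem S41H_cast_add (hq : q.Prime) [Fact r.Prime] (hrq : r ≠ q) {x y : ℚ}
    (hx : x ∈ S41A_R q) (hy : y ∈ S41A_R q) :
    (((x + y : ℚ)) : ZMod r) = (x : ZMod r) + (y : ZMod r) :=
  Rat.cast_add_of_ne_zero (S41H_den_ne_zero hq hrq hx) (S41H_den_ne_zero hq hrq hy)

theorem S41H_cast_mul (hq : q.Prime) [Fact r.Prime] (hrq : r ≠ q) {x y : ℚ}
    (hx : x ∈ S41A_R q) (hy : y ∈ S41A_R q) :
    (((x * y : ℚ)) : ZMod r) = (x : ZMod r) * (y : ZMod r) :=
  Rat.cast_mul_of_ne_zero (S41H_den_ne_zero hq hrq hx) (S41H_den_ne_zero hq hrq hy)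

theorem S41H_cast_neg [Fact r.Prime] (x : ℚ) : (((-x : ℚ)) : ZMod r) = -(x : ZMod r) :=
  Rat.cast_neg x

theorem S41H_cast_sub (hq : q.Prime) [Fact r.Prime] (hrq : r ≠ q) {x y : ℚ}
    (hx : x ∈ S41A_R q) (hy : y ∈ S41A_R q) :
    (((x - y : ℚ)) : ZMod r) = (x : ZMod r) - (y : ZMod r) := by
  rw [sub_eq_add_neg, S41H_cast_add hq hrq hx (neg_mem hy), S41H_cast_neg, sub_eq_add_neg]

theorem S41H_cast_nat [Fact r.Prime] (n : ℕ) : (((n : ℚ)) : ZMod r) = (n : ZMod r) :=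
  Rat.cast_natCast n

theorem S41H_cast_int [Fact r.Prime] (n : ℤ) : (((n : ℚ)) : ZMod r) = (n : ZMod r) :=
  Rat.cast_intCast n

theorem S41H_cast_r [Fact r.Prime] : (((r : ℚ)) : ZMod r) = 0 := by
  rw [S41H_cast_nat, ZMod.natCast_self]

theorem S41H_cast_pow (hq : q.Prime) [Fact r.Prime] (hrq : r ≠ q) {x : ℚ}
    (hx : x ∈ S41A_R q) (n : ℕ) : (((x ^ n : ℚ)) : ZMod r) = (x : ZMod r) ^ n := by
  induction n with
  | zero => simp
  | succ n ih => rw [pow_succ, S41H_cast_mul hq hrq (pow_mem hx n) hx, ih, pow_succ]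

/-- multiples of `r` reduce to `0`. -/
theorem S41H_cast_r_mul (hq : q.Prime) [Fact r.Prime] (hrq : r ≠ q) {z : ℚ}
    (hz : z ∈ S41A_R q) : ((((r : ℚ) * z : ℚ)) : ZMod r) = 0 := by
  rw [S41H_cast_mul hq hrq (S41A_nat_mem_R q r) hz, S41H_cast_r, zero_mul]

/-- the kernel of the reduction on `ℤ[1/q]` is `r ℤ[1/q]`. -/
theorem S41H_cast_eq_zero (hq : q.Prime) [Fact r.Prime] (hrq : r ≠ q) {x : ℚ}
    (hx : x ∈ S41A_R q) (h0 : ((x : ℚ) : ZMod r) = 0) : ∃ z ∈ S41A_R q, x = (r : ℚ) * z := by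
  have hr : r.Prime := Fact.out
  have hq0 : (q : ℚ) ≠ 0 := by exact_mod_cast hq.ne_zero
  obtain ⟨m, k, rfl⟩ := (S41A_mem_R_iff hq.ne_zero x).1 hx
  have hm : (m : ℚ) = ((m : ℚ) / (q : ℚ) ^ k) * (q : ℚ) ^ k := by field_simp
  have h1 : (((m : ℚ)) : ZMod r) = 0 := by
    rw [hm, S41H_cast_mul hq hrq hx (pow_mem (S41A_nat_mem_R q q) k), h0, zero_mul]
  rw [S41H_cast_int, ZMod.intCast_zmod_eq_zero_iff_dvd] at h1
  obtain ⟨m', rfl⟩ := h1
  refine ⟨(m' : ℚ) / (q : ℚ) ^ k, S41A_div_pow_mem_R q m' k, ?_⟩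
  push_cast
  ring

/-- `1/r ∉ ℤ[1/q]`. -/
theorem S41H_inv_not_mem (hq : q.Prime) [Fact r.Prime] (hrq : r ≠ q) :
    ((r : ℚ))⁻¹ ∉ S41A_R q := by
  intro h
  have hr : r.Prime := Fact.out
  have hr0 : (r : ℚ) ≠ 0 := by exact_mod_cast hr.ne_zero
  have h1 := S41H_cast_r_mul hq hrq h
  rw [mul_inv_cancel₀ hr0] at h1
  simp at h1

end red

section orbit

/-- a function on a finite group which is invariant under left multiplication by an element whose
order is divisible by `p = char k` has sum `0`. -/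
theorem S41H_group_orbit_sum {G : Type*} [Group G] [Fintype G] {p : ℕ} {k : Type*} [Field k]
    [CharP k p] (hp : p.Prime) (g : G) (hord : p ∣ orderOf g) (F : G → k)
    (hF : ∀ x, F (g * x) = F x) : ∑ x, F x = 0 := by
  classical
  have : Fact p.Prime := ⟨hp⟩
  -- an element of order `p`
  obtain ⟨m, hm⟩ := hord
  set u : G := g ^ m with hu
  have hgpos : 0 < orderOf g := by
    rcases Nat.eq_zero_or_pos (orderOf g) with h | h
    · exact absurd (orderOf_eq_zero_iff.1 h) (not_not.2 (isOfFinOrder_of_finite g))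
    · exact h
  have hm0 : m ≠ 0 := by
    rintro rfl
    rw [mul_zero] at hm
    exact hgpos.ne' hm
  have hup : u ^ p = 1 := by
    rw [hu, ← pow_mul, mul_comm, ← hm, pow_orderOf_eq_one]
  have hu1 : u ≠ 1 := by
    intro h
    have h1 : orderOf g ∣ m := orderOf_dvd_of_pow_eq_one h
    rw [hm] at h1
    have h2 : p * m ≤ m := Nat.le_of_dvd (Nat.pos_of_ne_zero hm0) h1
    have h3 : 2 * m ≤ p * m := Nat.mul_le_mul_right m hp.two_le
    omega
  have hFu : ∀ x, F (u * x) = F x := by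
    have : ∀ n : ℕ, ∀ x, F (g ^ n * x) = F x := by
      intro n
      induction n with
      | zero => intro x; simp
      | succ n ih => intro x; rw [pow_succ, mul_assoc, ih, hF]
    exact this m
  -- fibrewise
  rw [show ∑ x, F x = ∑ x ∈ (Finset.univ : Finset G), id (F x) from rfl, Finset.sum_comp id F]
  apply Finset.sum_eq_zero
  intro b _
  have hcard : p ∣ (Finset.univ.filter (fun x => F x = b)).card := by
    -- the permutation `x ↦ u * x` of the fibre
    let τ : Equiv.Perm {x : G // F x = b} :=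
      (Equiv.mulLeft u).subtypePerm (fun x => by
        show F (u * x) = b ↔ F x = b
        rw [hFu])
    have hτpow : ∀ n : ℕ, ∀ x : {x : G // F x = b}, ((τ ^ n) x : G) = u ^ n * x := by
      intro n
      induction n with
      | zero => intro x; simp
      | succ n ih =>
        intro x
        rw [pow_succ', Equiv.Perm.mul_apply]
        show u * ((τ ^ n) x : G) = _
        rw [ih, ← mul_assoc, ← pow_succ']
    have hτ : τ ^ p ^ 1 = 1 := by
      ext x
      rw [pow_one, hτpow, hup, one_mul]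
      rfl
    by_contra hnd
    have hnd' : ¬ p ∣ Fintype.card {x : G // F x = b} := by
      rwa [Fintype.card_subtype]
    obtain ⟨a, ha⟩ := Equiv.Perm.exists_fixed_point_of_prime hnd' hτ
    have h1 : u * (a : G) = a := congrArg Subtype.val ha
    exact hu1 (mul_right_cancel (h1.trans (one_mul _).symm))
  obtain ⟨n, hn⟩ := hcard
  rw [hn, id, mul_nsmul, nsmul_eq_mul (n := p), CharP.cast_eq_zero, zero_mul, smul_zero]

/-- the version on `ZMod r`. -/
theorem S41H_orbit_sum {r p : ℕ} [Fact r.Prime] {k : Type*} [Field k] [CharP k p]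
    (hp : p.Prime) (Q : ZMod r) (hQ : Q ≠ 0) (hord : p ∣ orderOf Q) (Φ : ZMod r → k)
    (hΦ : ∀ y : ZMod r, y ≠ 0 → Φ (Q * y) = Φ y) :
    ∑ y : ZMod r, Φ y = Φ 0 := by
  classical
  have h1 : ∑ u : (ZMod r)ˣ, Φ (u : ZMod r) = 0 := by
    apply S41H_group_orbit_sum hp (Units.mk0 Q hQ) _ (fun u : (ZMod r)ˣ => Φ (u : ZMod r))
    · intro u
      show Φ (Q * (u : ZMod r)) = Φ u
      exact hΦ _ u.ne_zero
    · rw [← orderOf_units]
      exact hord
  have h2 : ∑ y ∈ (Finset.univ : Finset (ZMod r)).erase 0, Φ y = ∑ u : (ZMod r)ˣ, Φ (u : ZMod r) := by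
    symm
    apply Finset.sum_bij (fun (u : (ZMod r)ˣ) _ => (u : ZMod r))
    · intro u _
      exact Finset.mem_erase.2 ⟨u.ne_zero, Finset.mem_univ _⟩
    · intro u _ v _ h
      exact Units.ext h
    · intro y hy
      exact ⟨Units.mk0 y (Finset.mem_erase.1 hy).1, Finset.mem_univ _, rfl⟩
    · intro u _
      rfl
  rw [← Finset.add_sum_erase Finset.univ Φ (Finset.mem_univ (0 : ZMod r)), h2, h1, add_zero]


end orbit

end
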