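import Mathlib
import Fermat.Agent.S41.IharaAsm
import Fermat.Agent.S41.IharaPair
import Fermat.Agent.S41.IharaNE

/-!
# S41, package IHARA-ASM-B (helper8): unconditional form of `hIh`

`S41J_ihara'` / `S41J_ihara`: `S41J_hIh'` / `S41J_hIh` with the two inputs supplied by
helper6's `S41K_pair` and helper27's `S41I_main`.  The only remaining hypothesis is `hNE`.
-/

set_option autoImplicit false

open Matrix MatrixGroups CongruenceSubgroup Matrix.SpecialLinearGroup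
open ModularCurve ModularCurve.Period

namespace Fermat.Agent.S41

open Fermat.Agent.S16 Fermat.Agent.GalRep

variable (N q : ℕ) [NeZero N] [Fact q.Prime]

theorem S41J_pairStmt (hqN : ¬ q ∣ N) (p : ℕ) : S41J_PairStmt N q p := by
  have hq : q.Prime := Fact.out
  have : NeZero q := ⟨hq.ne_zero⟩
  intro v₁ v₂ w h
  exact S41K_pair hq hqN p v₁ v₂ w h

theorem S41J_mainStmt (hqN : ¬ q ∣ N) (p : ℕ) [Fact p.Prime] (hp2 : p ≠ 2) (hpq : p ≠ q) :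
    S41J_MainStmt N q p := by
  have hq : q.Prime := Fact.out
  have hp : p.Prime := Fact.out
  intro v χ hχ r hrN hrq _ γ hd _ hr
  exact S41I_main hq hqN hp hp2 hpq v χ hχ r hrN hrq γ hd hr

/-- **IHARA (A), explicit annihilator form, unconditional** (only `hNE` is left). -/
theorem S41J_ihara' (hqN : ¬ q ∣ N) (p : ℕ) [Fact p.Prime] (hp2 : p ≠ 2) (hpq : p ≠ q)
    {k : Type*} [Field k] (θ : S41D_R q →+* k)
    (hNE : ∀ M : ℕ, 0 < M → ∃ ℓ : {ℓ : Nat.Primes // (ℓ : ℕ) ≠ q},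
      ((ℓ.1 : Nat.Primes) : ℕ) ≡ 1 [MOD M] ∧ ¬ ((ℓ.1 : Nat.Primes) : ℕ) ∣ N ∧
      ((ℓ.1 : Nat.Primes) : ℕ) ≠ p ∧ θ (S41J_r q ℓ) ≠ 0) :
    ∃ ℓ : {ℓ : Nat.Primes // (ℓ : ℕ) ≠ q}, ¬ ((ℓ.1 : Nat.Primes) : ℕ) ∣ N ∧
      ((ℓ.1 : Nat.Primes) : ℕ) ≠ p ∧ θ (S41J_r q ℓ) ≠ 0 ∧
      ∀ v₁ v₂ : ↥(parInt N),
        (∃ w, S41D_alpha N q v₁ + S41D_beta N q v₂ = (p : ℤ) • w) →
        (∃ w₁, S41D_rho N q (S41J_r q ℓ) v₁ = (p : ℤ) • w₁) ∧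
        (∃ w₂, S41D_rho N q (S41J_r q ℓ) v₂ = (p : ℤ) • w₂) :=
  S41J_hIh' N q hqN p (S41J_pairStmt N q hqN p) (S41J_mainStmt N q hqN p hp2 hpq) θ hNE

/-- **IHARA (A)** in the shape `hIh` of `S41G_main'`, unconditional (only `hNE` is left). -/
theorem S41J_ihara (hqN : ¬ q ∣ N) (p : ℕ) [Fact p.Prime] (hp2 : p ≠ 2) (hpq : p ≠ q)
    {k : Type*} [Field k] (θ : S41D_R q →+* k)
    (hNE : ∀ M : ℕ, 0 < M → ∃ ℓ : {ℓ : Nat.Primes // (ℓ : ℕ) ≠ q},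
      ((ℓ.1 : Nat.Primes) : ℕ) ≡ 1 [MOD M] ∧ ¬ ((ℓ.1 : Nat.Primes) : ℕ) ∣ N ∧
      ((ℓ.1 : Nat.Primes) : ℕ) ≠ p ∧ θ (S41J_r q ℓ) ≠ 0) :
    ∃ r : S41D_R q, θ r ≠ 0 ∧ ∀ v₁ v₂ : ↥(parInt N),
      (∃ w, S41D_alpha N q v₁ + S41D_beta N q v₂ = (p : ℤ) • w) →
      (∃ w₁, S41D_rho N q r v₁ = (p : ℤ) • w₁) ∧ (∃ w₂, S41D_rho N q r v₂ = (p : ℤ) • w₂) :=
  S41J_hIh N q hqN p (S41J_pairStmt N q hqN p) (S41J_mainStmt N q hqN p hp2 hpq) θ hNE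

end Fermat.Agent.S41
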