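import Mathlib
import Fermat.Agent.S41.IharaNE
import Fermat.Agent.S41.IharaAsm

/-!
# S41, IHARA: wiring of `S41I_main` into the hypothesis `S41J_MainStmt` of IHARA-ASM-B (helper27)
-/

set_option autoImplicit false

open CongruenceSubgroup Matrix Matrix.SpecialLinearGroup ModularCurve.Period
open scoped MatrixGroups

namespace Fermat.Agent.S41

open Fermat.Agent.S16 Fermat.Agent.GalRep

/-- the pointwise Ihara step in the form required by `S41J_hIh`. -/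
theorem S41I_mainStmt {N q p : ℕ} [NeZero N] (hq : q.Prime) (hqN : ¬ q ∣ N) (hp : p.Prime)
    (hp2 : p ≠ 2) (hpq : p ≠ q) : S41J_MainStmt N q p :=
  fun v χ hχ r hrN hrq _ γ hd _ hr => S41I_main hq hqN hp hp2 hpq v χ hχ r hrN hrq γ hd hr

/-- `hIh` of `S41G_main'` from the gluing statement and the non-Eisenstein hypothesis. -/
theorem S41I_hIh {N q : ℕ} [NeZero N] [Fact q.Prime] (hqN : ¬ q ∣ N) (p : ℕ) [Fact p.Prime]
    (hp2 : p ≠ 2) (hpq : p ≠ q) (hPair : S41J_PairStmt N q p)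
    {k : Type*} [Field k] (θ : S41D_R q →+* k)
    (hNE : ∀ M : ℕ, 0 < M → ∃ ℓ : {ℓ : Nat.Primes // (ℓ : ℕ) ≠ q},
      ((ℓ.1 : Nat.Primes) : ℕ) ≡ 1 [MOD M] ∧ ¬ ((ℓ.1 : Nat.Primes) : ℕ) ∣ N ∧
      ((ℓ.1 : Nat.Primes) : ℕ) ≠ p ∧ θ (S41J_r q ℓ) ≠ 0) :
    ∃ r : S41D_R q, θ r ≠ 0 ∧ ∀ v₁ v₂ : ↥(parInt N),
      (∃ w, S41D_alpha N q v₁ + S41D_beta N q v₂ = (p : ℤ) • w) →
      (∃ w₁, S41D_rho N q r v₁ = (p : ℤ) • w₁) ∧ (∃ w₂, S41D_rho N q r v₂ = (p : ℤ) • w₂) :=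
  S41J_hIh N q hqN p hPair (S41I_mainStmt Fact.out hqN Fact.out hp2 hpq) θ hNE

end Fermat.Agent.S41
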