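import Mathlib
import Fermat.Agent.S41.NERed
import Fermat.Agent.S41.NERoots

/-!
# S41, package NE⁺ (helper28), pieces K0 and K1: Kummer theory by hand

`β ∈ ℚ̄` with `β ^ p = q` (`q` prime, `p` an odd prime), `ζ` a primitive `n`-th root of unity,
`p ∣ n`.

* `S41NK_frob_fix` (K1): a Frobenius element `σ` at `ℓ ≡ 1 mod p`, `ℓ ≠ p, q`, with
  `q ^ ((ℓ - 1) / p) ≡ 1 mod ℓ` fixes `β`;
* `S41NK_exists_moving` (K0): some `σ₀ ∈ G_ℚ` fixes `ζ` and moves `β`.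
-/

set_option autoImplicit false
set_option linter.unusedSectionVars false
set_option linter.unusedVariables false
set_option linter.style.haveILetI false

namespace Fermat.Agent.S41

open Fermat.Agent.GalRep Fermat.Agent.Lib

local notation "ℚbar" => AlgebraicClosure ℚ

section valuation

variable (A : ValuationSubring ℚbar)

lemma S41NK_nonunits_mul {x y : ℚbar} (hx : x ∈ A) (hy : y ∈ A.nonunits) :
    x * y ∈ A.nonunits := by
  rw [A.mem_nonunits_iff] at hy ⊢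
  rw [← A.valuation_le_one_iff] at hx
  rw [map_mul]
  exact mul_lt_one_of_nonneg_of_lt_one_right hx zero_le hy

lemma S41NK_nonunits_add {x y : ℚbar} (hx : x ∈ A.nonunits) (hy : y ∈ A.nonunits) :
    x + y ∈ A.nonunits := by
  rw [A.mem_nonunits_iff] at hx hy ⊢
  exact A.valuation.map_add_lt hx hy

lemma S41NK_intCast_mem_nonunits {ℓ : ℕ} (hA : A.LiesOverPrime ℓ) {a : ℤ}
    (h : (ℓ : ℤ) ∣ a) : (a : ℚbar) ∈ A.nonunits := by
  obtain ⟨b, rfl⟩ := h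
  have : (((ℓ : ℤ) * b : ℤ) : ℚbar) = (b : ℚbar) * (ℓ : ℚbar) := by push_cast; ring
  rw [this]
  exact S41NK_nonunits_mul A (intCast_mem A b) hA

end valuation

/-- **K1**: a Frobenius element at `ℓ` fixes the `p`-th roots of `q` if `q ^ ((ℓ-1)/p) ≡ 1`. -/
theorem S41NK_frob_fix (A : ValuationSubring ℚbar) {ℓ p q : ℕ} (hℓ : ℓ.Prime)
    (hA : A.LiesOverPrime ℓ) (hp : p.Prime) (hq : q.Prime) (hℓp : ℓ ≠ p) (hℓq : ℓ ≠ q)
    (hpℓ : p ∣ ℓ - 1) (σ : GQ) (hσ : A.IsFrobeniusAt σ ℓ) {β : ℚbar} (hβ : β ^ p = q)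
    (hE : (q : ZMod ℓ) ^ ((ℓ - 1) / p) = 1) : σ β = β := by
  have hvq : A.valuation (q : ℚbar) = 1 := S41NE_valuation_prime A hℓ hA hq hℓq
  have hvp : A.valuation (p : ℚbar) = 1 := S41NE_valuation_prime A hℓ hA hp hℓp
  have hvβ : A.valuation β = 1 := by
    have h1 : A.valuation β ^ p = 1 := by rw [← map_pow, hβ, hvq]
    exact (pow_eq_one_iff.1 h1).resolve_right hp.ne_zero
  have hβA : β ∈ A := (A.valuation_le_one_iff β).1 hvβ.le
  have hβ0 : β ≠ 0 := by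
    rintro rfl
    rw [map_zero] at hvβ
    exact zero_ne_one hvβ
  set k : ℕ := (ℓ - 1) / p with hk
  have hkp : p * k = ℓ - 1 := Nat.mul_div_cancel' hpℓ
  -- `β ^ (ℓ - 1) = q ^ k`
  have h1 : β ^ (ℓ - 1) = (q : ℚbar) ^ k := by rw [← hkp, pow_mul, hβ]
  have h2 : (ℓ : ℤ) ∣ (q : ℤ) ^ k - 1 := by
    rw [← ZMod.intCast_zmod_eq_zero_iff_dvd]
    push_cast
    rw [hE, sub_self]
  have h3 : (((q : ℤ) ^ k - 1 : ℤ) : ℚbar) ∈ A.nonunits := S41NK_intCast_mem_nonunits A hA h2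
  have h4 : β ^ ℓ - β ∈ A.nonunits := by
    have e : β ^ ℓ - β = β * (((q : ℤ) ^ k - 1 : ℤ) : ℚbar) := by
      have hℓ1 : ℓ = (ℓ - 1) + 1 := (Nat.sub_add_cancel hℓ.one_le).symm
      push_cast
      rw [← h1]
      conv_lhs => rw [hℓ1, pow_succ]
      ring
    rw [e]
    exact S41NK_nonunits_mul A hβA h3
  have h5 : σ β - β ^ ℓ ∈ A.nonunits := GR_frob_congr hσ β hβA
  have h6 : σ β - β ∈ A.nonunits := by
    have e : σ β - β = (σ β - β ^ ℓ) + (β ^ ℓ - β) := by ring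
    rw [e]
    exact S41NK_nonunits_add A h5 h4
  -- `ω = σ β / β` is a `p`-th root of unity congruent to `1`
  set ω : ℚbar := σ β * β⁻¹ with hω
  have hωp : ω ^ p = 1 := by
    rw [hω, mul_pow, ← map_pow, hβ, map_natCast, inv_pow, hβ]
    exact mul_inv_cancel₀ (Nat.cast_ne_zero.2 hq.ne_zero)
  have hω1 : ω - 1 ∈ A.nonunits := by
    have e : ω - 1 = β⁻¹ * (σ β - β) := by
      rw [hω]
      field_simp
    rw [e]
    refine S41NK_nonunits_mul A ?_ h6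
    rw [← A.valuation_le_one_iff, map_inv₀, hvβ, inv_one]
  have hpn : (p : ℚbar) ∉ A.nonunits := by
    rw [A.mem_nonunits_iff, hvp]
    exact lt_irrefl _
  have hω_one : ω = 1 := GR_cyc_eq_one_of_sub_mem A hωp hpn hω1
  have : σ β = ω * β := by
    rw [hω, mul_assoc, inv_mul_cancel₀ hβ0, mul_one]
  rw [this, hω_one, one_mul]

/-- elements fixed by `G_ℚ` are rational. -/
lemma S41NK_fixed_rational (x : ℚbar) (h : ∀ g : GQ, g x = x) :
    ∃ r : ℚ, algebraMap ℚ ℚbar r = x := by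
  haveI : IsGalois ℚ ℚbar := frobExists_isGalois
  exact (InfiniteGalois.mem_range_algebraMap_iff_fixed x).2 h

/-- a prime is not a `p`-th power in `ℚ`. -/
lemma S41NK_not_pow {p q : ℕ} (hp : p.Prime) (hq : q.Prime) (r : ℚ) : r ^ p ≠ (q : ℚ) := by
  intro h
  haveI : Fact q.Prime := ⟨hq⟩
  have h1 := congrArg (padicValRat q) h
  rw [padicValRat.pow, padicValRat.self hq.one_lt] at h1
  have h2 : (p : ℤ) ∣ 1 := ⟨_, h1.symm⟩
  have h3 : p ∣ 1 := by exact_mod_cast h2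
  exact hp.one_lt.ne' (Nat.dvd_one.1 h3)

/-- a root of unity of odd prime order with square `1` is `1`. -/
lemma S41NK_eq_one_of_sq {p : ℕ} (hp : p.Prime) (hp2 : p ≠ 2) {ω : ℚbar} (h1 : ω ^ p = 1)
    (h2 : ω ^ 2 = 1) : ω = 1 := by
  obtain ⟨k, hk⟩ := hp.odd_of_ne_two hp2
  rw [hk, pow_succ, pow_mul, h2, one_pow, one_mul] at h1
  exact h1

section K0

variable {n p q : ℕ} {ζ β : ℚbar}

/-- an automorphism fixing `ζ` fixes every `n`-th root of unity. -/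
lemma S41NK_fix_root (hζ : IsPrimitiveRoot ζ n) (hn : 0 < n) {η : ℚbar} (hη : η ^ n = 1)
    (g : GQ) (hg : g ζ = ζ) : g η = η := by
  haveI : NeZero n := ⟨hn.ne'⟩
  obtain ⟨i, -, rfl⟩ := hζ.eq_pow_of_pow_eq_one hη
  rw [map_pow, hg]

/-- an automorphism inverting `ζ` inverts every `n`-th root of unity. -/
lemma S41NK_inv_root (hζ : IsPrimitiveRoot ζ n) (hn : 0 < n) {η : ℚbar} (hη : η ^ n = 1)
    (c : GQ) (hc : c ζ = ζ⁻¹) : c η = η⁻¹ := by
  haveI : NeZero n := ⟨hn.ne'⟩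
  obtain ⟨i, -, rfl⟩ := hζ.eq_pow_of_pow_eq_one hη
  rw [map_pow, hc, inv_pow]

/-- `p`-th roots of unity are `n`-th roots of unity. -/
lemma S41NK_pow_n (hpn : p ∣ n) {η : ℚbar} (hη : η ^ p = 1) : η ^ n = 1 := by
  obtain ⟨d, rfl⟩ := hpn
  rw [pow_mul, hη, one_pow]

/-- the ratio `g β / β` is a `p`-th root of unity. -/
lemma S41NK_ratio (hq : q.Prime) (hβ : β ^ p = q) (g : GQ) :
    (g β * β⁻¹) ^ p = 1 ∧ g β = (g β * β⁻¹) * β := by
  have hβ0 : β ≠ 0 := by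
    rintro rfl
    by_cases hp0 : p = 0
    · subst hp0
      rw [pow_zero] at hβ
      have : (q : ℚbar) = ((1 : ℕ) : ℚbar) := by rw [← hβ]; simp
      exact hq.one_lt.ne' (Nat.cast_injective this)
    · rw [zero_pow hp0] at hβ
      exact (Nat.cast_ne_zero.2 hq.ne_zero) hβ.symm
  refine ⟨?_, ?_⟩
  · rw [mul_pow, ← map_pow, hβ, map_natCast, inv_pow, hβ]
    exact mul_inv_cancel₀ (Nat.cast_ne_zero.2 hq.ne_zero)
  · rw [mul_assoc, inv_mul_cancel₀ hβ0, mul_one]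

/-- **K0**: some automorphism fixes `ζ` and moves `β`. -/
theorem S41NK_exists_moving (hζ : IsPrimitiveRoot ζ n) (hn : 0 < n) (hp : p.Prime)
    (hp2 : p ≠ 2) (hpn : p ∣ n) (hq : q.Prime) (hβ : β ^ p = q) :
    ∃ σ₀ : GQ, σ₀ ζ = ζ ∧ σ₀ β ≠ β := by
  by_contra hcon
  push Not at hcon
  have hβ0 : β ≠ 0 := by
    rintro rfl
    rw [zero_pow hp.ne_zero] at hβ
    exact (Nat.cast_ne_zero.2 hq.ne_zero) hβ.symm
  obtain ⟨c, hc⟩ := S41NE_exists_inv hζ hn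
  -- `η = c β / β`, `ε² = η`
  obtain ⟨hηp, hcβ⟩ := S41NK_ratio (p := p) hq hβ c
  set η : ℚbar := c β * β⁻¹ with hη
  obtain ⟨k, hk⟩ := hp.odd_of_ne_two hp2
  set ε : ℚbar := η ^ (k + 1) with hε
  have hε2 : ε ^ 2 = η := by
    rw [hε, ← pow_mul]
    have : (k + 1) * 2 = p + 1 := by omega
    rw [this, pow_succ, hηp, one_mul]
  have hεp : ε ^ p = 1 := by rw [hε, ← pow_mul, mul_comm, pow_mul, hηp, one_pow]
  have hε0 : ε ≠ 0 := by
    intro h0
    rw [h0, zero_pow hp.ne_zero] at hεp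
    exact zero_ne_one hεp
  have hcε : c ε = ε⁻¹ := S41NK_inv_root hζ hn (S41NK_pow_n hpn hεp) c hc
  -- `β' = ε β` is fixed by `c`
  set β' : ℚbar := ε * β with hβ'
  have hβ'0 : β' ≠ 0 := mul_ne_zero hε0 hβ0
  have hβ'p : β' ^ p = q := by rw [hβ', mul_pow, hεp, one_mul, hβ]
  have hcβ' : c β' = β' := by
    rw [hβ', map_mul, hcε, hcβ, ← hε2]
    field_simp
  -- elements fixing `ζ` fix `β'`
  have hfix : ∀ g : GQ, g ζ = ζ → g β' = β' := by
    intro g hg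
    rw [hβ', map_mul, hcon g hg, S41NK_fix_root hζ hn (S41NK_pow_n hpn hεp) g hg]
  -- every `g` fixes `β'`
  have hall : ∀ g : GQ, g β' = β' := by
    intro g
    obtain ⟨hωp, hgβ'⟩ := S41NK_ratio (p := p) hq hβ'p g
    set ω : ℚbar := g β' * β'⁻¹ with hω
    have hcomm := hfix _ (S41NE_stab_comm hζ hn g c)
    -- `(c g)⁻¹ (g c) β' = β'`, so `g c β' = c g β'`
    have h1 : (g * c) β' = (c * g) β' := by
      have : (c * g) (((c * g)⁻¹ * (g * c)) β') = (c * g) β' := by rw [hcomm]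
      have e : (c * g) (((c * g)⁻¹ * (g * c)) β') = ((c * g) * ((c * g)⁻¹ * (g * c))) β' := rfl
      rw [e, mul_inv_cancel_left] at this
      exact this
    have h2 : (g * c) β' = ω * β' := by
      show g (c β') = ω * β'
      rw [hcβ', ← hgβ']
    have h3 : (c * g) β' = ω⁻¹ * β' := by
      show c (g β') = ω⁻¹ * β'
      rw [hgβ', map_mul, hcβ', S41NK_inv_root hζ hn (S41NK_pow_n hpn hωp) c hc]
    have h4 : ω = ω⁻¹ := by
      have : ω * β' = ω⁻¹ * β' := by rw [← h2, ← h3, h1]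
      exact mul_right_cancel₀ hβ'0 this
    have hω0 : ω ≠ 0 := by
      intro h0
      rw [h0, zero_pow hp.ne_zero] at hωp
      exact zero_ne_one hωp
    have h5 : ω ^ 2 = 1 := by
      rw [pow_two]
      nth_rewrite 2 [h4]
      exact mul_inv_cancel₀ hω0
    rw [hgβ', S41NK_eq_one_of_sq hp hp2 hωp h5, one_mul]
  obtain ⟨r, hr⟩ := S41NK_fixed_rational β' hall
  apply S41NK_not_pow hp hq r
  have : algebraMap ℚ ℚbar (r ^ p) = algebraMap ℚ ℚbar (q : ℚ) := by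
    rw [map_pow, hr, hβ'p, map_natCast]
  exact (algebraMap ℚ ℚbar).injective this

/-- the square of an automorphism fixing `ζ` and moving `β` moves `β`. -/
theorem S41NK_sq_moving (hζ : IsPrimitiveRoot ζ n) (hn : 0 < n) (hp : p.Prime)
    (hp2 : p ≠ 2) (hpn : p ∣ n) (hq : q.Prime) (hβ : β ^ p = q) (σ₀ : GQ) (h1 : σ₀ ζ = ζ)
    (h2 : σ₀ β ≠ β) : (σ₀ * σ₀) β ≠ β := by
  have hβ0 : β ≠ 0 := by
    rintro rfl
    rw [zero_pow hp.ne_zero] at hβ
    exact (Nat.cast_ne_zero.2 hq.ne_zero) hβ.symm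
  obtain ⟨hωp, hσβ⟩ := S41NK_ratio (p := p) hq hβ σ₀
  set ω : ℚbar := σ₀ β * β⁻¹ with hω
  intro h
  have e1 : σ₀ ω = ω := S41NK_fix_root hζ hn (S41NK_pow_n hpn hωp) σ₀ h1
  have e : (σ₀ * σ₀) β = ω ^ 2 * β := by
    show σ₀ (σ₀ β) = ω ^ 2 * β
    have e2 : σ₀ (σ₀ β) = σ₀ (ω * β) := congrArg σ₀ hσβ
    rw [e2, map_mul, e1, hσβ]
    ring
  rw [e] at h
  have h3 : ω ^ 2 = 1 := by
    have : ω ^ 2 * β = 1 * β := by rw [h, one_mul]
    exact mul_right_cancel₀ hβ0 this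
  apply h2
  rw [hσβ, S41NK_eq_one_of_sq hp hp2 hωp h3, one_mul]

end K0

end Fermat.Agent.S41
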