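import Mathlib

/-!
# S41, package NE⁺ (helper28), piece K3: unipotent elements in a group of order `p²`

`V` an abelian group of order `p²` killed by `p`.  An additive endomorphism `f` is called
unipotent if `f (f v) = 2 • f v - v` for all `v` (i.e. `(f - 1)² = 0`).

* `S41NK_sub_mem_zmultiples` : a unipotent `f` fixing `w ≠ 0` satisfies `f v - v ∈ ℤ w`;
* `S41NK_unip_of_mul` : if `u`, `u ∘ h` and `u ∘ u ∘ h` are unipotent, so is `h`.
-/

set_option autoImplicit false
set_option linter.unusedSectionVars false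
set_option linter.unusedVariables false
set_option linter.style.haveILetI false

namespace Fermat.Agent.S41

variable {V : Type*} [AddCommGroup V]

/-- a unipotent endomorphism is injective. -/
lemma S41NK_unip_injective (f : V →+ V) (hf : ∀ v, f (f v) = 2 • f v - v) :
    Function.Injective f := by
  rw [injective_iff_map_eq_zero]
  intro v hv
  have := hf v
  rw [hv, map_zero, smul_zero, zero_sub] at this
  exact neg_eq_zero.1 this.symm

/-- `f v - v` is fixed by a unipotent `f`. -/
lemma S41NK_unip_fix (f : V →+ V) (hf : ∀ v, f (f v) = 2 • f v - v) (v : V) :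
    f (f v - v) = f v - v := by
  rw [map_sub, hf v, two_nsmul]
  abel

/-- a unipotent endomorphism of a nontrivial group has a nonzero fixed vector. -/
lemma S41NK_unip_exists_fixed [Nontrivial V] (f : V →+ V) (hf : ∀ v, f (f v) = 2 • f v - v) :
    ∃ w : V, w ≠ 0 ∧ f w = w := by
  obtain ⟨v, hv⟩ := exists_ne (0 : V)
  by_cases h : f v = v
  · exact ⟨v, hv, h⟩
  · exact ⟨f v - v, sub_ne_zero.2 h, S41NK_unip_fix f hf v⟩

variable {p : ℕ}

/-- a unipotent `f` fixing `w ≠ 0` is trivial modulo `w`. -/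
theorem S41NK_sub_mem_zmultiples (hp : p.Prime) (hV : ∀ v : V, p • v = 0)
    (hcard : Nat.card V = p ^ 2) (f : V →+ V) (hf : ∀ v, f (f v) = 2 • f v - v)
    {w : V} (hw : w ≠ 0) (hfw : f w = w) (v : V) : f v - v ∈ AddSubgroup.zmultiples w := by
  haveI : Finite V := Nat.finite_of_card_ne_zero (by rw [hcard]; exact pow_ne_zero 2 hp.ne_zero)
  set K : AddSubgroup V := (f - AddMonoidHom.id V).ker with hK
  have hmemK : ∀ x : V, x ∈ K ↔ f x = x := by
    intro x
    rw [hK, AddMonoidHom.mem_ker, AddMonoidHom.sub_apply, AddMonoidHom.id_apply, sub_eq_zero]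
  have hwK : w ∈ K := (hmemK w).2 hfw
  have hle : AddSubgroup.zmultiples w ≤ K := (AddSubgroup.zmultiples_le).2 hwK
  haveI : Fact p.Prime := ⟨hp⟩
  have hordw : addOrderOf w = p := addOrderOf_eq_prime (hV w) hw
  have hcw : Nat.card (AddSubgroup.zmultiples w) = p := by
    rw [Nat.card_zmultiples, hordw]
  have hd1 : Nat.card K ∣ p ^ 2 := hcard ▸ AddSubgroup.card_addSubgroup_dvd_card K
  have hd2 : p ∣ Nat.card K := hcw ▸ AddSubgroup.card_dvd_of_le hle
  obtain ⟨k, hk2, hk⟩ := (Nat.dvd_prime_pow hp).1 hd1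
  have hfix : f v - v ∈ K := (hmemK _).2 (S41NK_unip_fix f hf v)
  have hk0 : k ≠ 0 := by
    rintro rfl
    rw [hk, pow_zero] at hd2
    exact hp.one_lt.ne' (Nat.dvd_one.1 hd2)
  have hk12 : k = 1 ∨ k = 2 := by omega
  rcases hk12 with rfl | rfl
  · -- `K = ℤ w`
    have heq : AddSubgroup.zmultiples w = K := by
      apply AddSubgroup.eq_of_le_of_card_ge hle
      rw [hcw, hk, pow_one]
    rw [heq]
    exact hfix
  · -- `K = ⊤`
    have htop : K = ⊤ := AddSubgroup.eq_top_of_card_eq K (by rw [hk, hcard])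
    have : v ∈ K := by rw [htop]; exact AddSubgroup.mem_top v
    rw [(hmemK v).1 this, sub_self]
    exact AddSubgroup.zero_mem _

/-- **K3**: if `u`, `u ∘ h`, `u ∘ u ∘ h` are unipotent, then so is `h`. -/
theorem S41NK_unip_of_mul (hp : p.Prime) (hV : ∀ v : V, p • v = 0)
    (hcard : Nat.card V = p ^ 2) (u h : V →+ V) (hu : ∀ v, u (u v) = 2 • u v - v)
    (h1 : ∀ v, u (h (u (h v))) = 2 • u (h v) - v)
    (h2 : ∀ v, u (u (h (u (u (h v))))) = 2 • u (u (h v)) - v) :
    ∀ v, h (h v) = 2 • h v - v := by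
  haveI : Finite V := Nat.finite_of_card_ne_zero (by rw [hcard]; exact pow_ne_zero 2 hp.ne_zero)
  haveI : Nontrivial V := by
    apply Finite.one_lt_card_iff_nontrivial.1
    rw [hcard]
    exact Nat.one_lt_pow two_ne_zero hp.one_lt
  have huinj := S41NK_unip_injective u hu
  set g₁ : V →+ V := u.comp h with hg₁
  have hg₁u : ∀ v, g₁ (g₁ v) = 2 • g₁ v - v := fun v => h1 v
  -- a common fixed vector of `u` and `g₁`
  have hcommon : ∃ w : V, w ≠ 0 ∧ u w = w ∧ g₁ w = w := by
    by_contra hcon
    push Not at hcon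
    obtain ⟨w, hw0, hgw⟩ := S41NK_unip_exists_fixed g₁ hg₁u
    have huw : u w ≠ w := fun h => hcon w hw0 h hgw
    set x : V := u w - w with hx
    have hx0 : x ≠ 0 := sub_ne_zero.2 huw
    have hux : u x = x := S41NK_unip_fix u hu w
    have hgx : g₁ x ≠ x := fun h => hcon x hx0 hux h
    set y : V := g₁ x - x with hy
    have hy0 : y ≠ 0 := sub_ne_zero.2 hgx
    have e1 : u (g₁ w) = w + x := by rw [hgw, hx]; abel
    have e2 : u (g₁ x) = x + u y := by
      have : g₁ x = x + y := by rw [hy]; abel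
      rw [this, map_add, hux]
    have e3 := h2 w
    have e4 : u (u (h w)) = u (g₁ w) := rfl
    have e5 : u (u (h (w + x))) = u (g₁ (w + x)) := rfl
    rw [e4, e1, e5, map_add, map_add, e1, e2, two_nsmul] at e3
    have e6 : u y = 0 := by
      have : u y = (w + x + (x + u y)) - (w + x + (w + x) - w) := by abel
      rw [this, e3, sub_self]
    exact hy0 (huinj (by rw [e6, map_zero]))
  obtain ⟨w, hw0, huw, hgw⟩ := hcommon
  have hhw : h w = w := huinj (by rw [huw]; exact hgw)
  -- everything is trivial modulo `w`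
  have hmod : ∀ v, h v - v ∈ AddSubgroup.zmultiples w := by
    intro v
    have a1 := S41NK_sub_mem_zmultiples hp hV hcard g₁ hg₁u hw0 hgw v
    have a2 := S41NK_sub_mem_zmultiples hp hV hcard u hu hw0 huw (h v)
    have : h v - v = (g₁ v - v) - (u (h v) - h v) := by
      show h v - v = (u (h v) - v) - (u (h v) - h v)
      abel
    rw [this]
    exact AddSubgroup.sub_mem _ a1 a2
  intro v
  obtain ⟨k, hk⟩ := AddSubgroup.mem_zmultiples_iff.1 (hmod v)
  have e : h v = v + k • w := by rw [hk]; abel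
  have e' : h (k • w) = k • w := by rw [map_zsmul, hhw]
  rw [e, map_add, e', e, two_nsmul]
  abel

end Fermat.Agent.S41
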