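import Mathlib
import Fermat.Agent.S41.NECore
import Fermat.Agent.S41.NEKLin
import Fermat.Agent.S41.NEKKum

/-!
# S41, package NE⁺ (helper28), pieces K2 and K4

* `S41NK_core_of_unip` : if the stabiliser of `ζ_n` (`p ∣ n`, `n ≥ 3`) acts on `W[p](ℚ̄)` through
  a group of exponent `p`, then `W[p](ℚ̄)` has a proper nonzero `G_ℚ`-stable subgroup;
* `S41NK_unip_moving` (K2) : under the Kummer–Eisenstein hypothesis every `g` fixing `ζ` and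
  moving `β` is unipotent on `W[p](ℚ̄)`;
* `S41NK_unip_all` : hence every `g` fixing `ζ` is unipotent;
* `S41NK_core` : the Kummer–Eisenstein hypothesis implies reducibility.
-/

set_option autoImplicit false
set_option linter.unusedSectionVars false
set_option linter.unusedVariables false
set_option linter.style.haveILetI false

namespace Fermat.Agent.S41

open WeierstrassCurve Fermat.Agent.Lib Fermat.Agent.GalRep

local notation "ℚbar" => AlgebraicClosure ℚ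

variable (W : WeierstrassCurve ℤ) (p : ℕ)

/-- **the core, from unipotency**. -/
theorem S41NK_core_of_unip (hΔ : W.Δ ≠ 0) {p : ℕ} (hp : p.Prime) (hp2 : p ≠ 2) {n : ℕ}
    (hn3 : 3 ≤ n) (hpn : p ∣ n) {ζ : ℚbar} (hζ : IsPrimitiveRoot ζ n)
    (hunip : ∀ g : GQ, g ζ = ζ → (S41NE_rho W p g) ^ p = 1) :
    ∃ N : AddSubgroup (W.baseChange ℚbar).toAffine.Point,
      (∀ P ∈ N, p • P = 0) ∧ (∀ σ : GQ, ∀ P ∈ N, σ • P ∈ N) ∧ N ≠ ⊥ ∧
      ∃ P : (W.baseChange ℚbar).toAffine.Point, p • P = 0 ∧ P ∉ N := by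
  classical
  have hn : 0 < n := by omega
  have hζ0 : ζ ≠ 0 := hζ.ne_zero hn.ne'
  set T' : Finset ℕ := (n * W.Δ.natAbs).primeFactors ∪ {p} with hT'_def
  have hT' : ∀ ℓ : ℕ, ℓ.Prime → ℓ ∉ T' → ¬ ℓ ∣ n ∧ ¬ (ℓ : ℤ) ∣ W.Δ ∧ ℓ ≠ p := by
    intro ℓ hℓ hℓT'
    simp only [hT'_def, Finset.mem_union, Finset.mem_singleton, not_or] at hℓT'
    obtain ⟨h2, h3⟩ := hℓT'
    have h4 : n * W.Δ.natAbs ≠ 0 := Nat.mul_ne_zero hn.ne' (Int.natAbs_ne_zero.2 hΔ)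
    have h5 : ¬ ℓ ∣ n * W.Δ.natAbs := fun h => h2 (Nat.mem_primeFactors.2 ⟨hℓ, h, h4⟩)
    refine ⟨fun h => h5 (dvd_mul_of_dvd_left h _), fun h => h5 ?_, h3⟩
    exact dvd_mul_of_dvd_right (Int.natCast_dvd.1 h) _
  -- a nonzero fixed point
  obtain ⟨Q, hQ0, hpQ, hQfix⟩ :=
    S41NE_exists_fixed_pt W hΔ hp hp2 (S41NE_stab ζ) (fun g hg => hunip g hg)
  by_cases hB : ∀ P : (W.baseChange ℚbar).toAffine.Point, p • P = 0 →
      P ∈ S41NE_fixedSub W p {g | g ζ = ζ}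
  swap
  · push Not at hB
    obtain ⟨P, hP, hPN⟩ := hB
    refine ⟨S41NE_fixedSub W p {g | g ζ = ζ}, fun P hP => hP.1, ?_, ?_, ⟨P, hP, hPN⟩⟩
    · rintro τ P ⟨hP1, hP2⟩
      refine ⟨S41NE_torsion_smul W p τ hP1, fun g hg => ?_⟩
      have h1 : (τ⁻¹ * g * τ) ζ = ζ := S41NE_stab_conj hζ hn τ g hg
      have h2 := hP2 _ h1
      have h3 : g * τ = τ * (τ⁻¹ * g * τ) := by group
      rw [← S41NE_gsmul_mul, h3, S41NE_gsmul_mul, h2]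
    · intro hbot
      have hQN : Q ∈ S41NE_fixedSub W p {g | g ζ = ζ} := ⟨hpQ, fun g hg => hQfix g hg⟩
      rw [hbot] at hQN
      exact hQ0 (AddSubgroup.mem_bot.1 hQN)
  -- Case B: the stabiliser of `ζ` acts trivially
  have hB' : ∀ g : GQ, g ζ = ζ → ∀ P : (W.baseChange ℚbar).toAffine.Point, p • P = 0 →
      g • P = P := fun g hg P hP => (hB P hP).2 g hg
  obtain ⟨c, hc⟩ := S41NE_exists_inv hζ hn
  haveI := S41NE_field_finiteDimensional W hΔ hp hp2 ζ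
  obtain ⟨ℓ, σ, m, m', hℓ, hℓT', ⟨A, hA, hσA⟩, hcσ, hσc⟩ :=
    S41NE_fde c (S41NE_field W p ζ) T'
  obtain ⟨hℓn, hgood, hℓp⟩ := hT' ℓ hℓ hℓT'
  have hσζ : σ ζ = ζ⁻¹ := by
    rcases Nat.even_or_odd' m' with ⟨k, hk | hk⟩
    · exfalso
      have h1 : σ ζ = ζ := by
        rw [hσc ζ (S41NE_zeta_mem_field W p ζ), hk]
        exact (S41NE_inv_pow_apply c hc k).1
      have h2 : c ζ = ζ := by
        rw [hcσ ζ (S41NE_zeta_mem_field W p ζ)]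
        exact S41NE_pow_fix σ h1 m
      have h3 : ζ ^ 2 = 1 := by
        have h4 : ζ⁻¹ = ζ := hc.symm.trans h2
        rw [pow_two]
        nth_rewrite 1 [← h4]
        exact inv_mul_cancel₀ hζ0
      have h4 : n ∣ 2 := (hζ.pow_eq_one_iff_dvd 2).1 h3
      have := Nat.le_of_dvd (by norm_num) h4
      omega
    · rw [hσc ζ (S41NE_zeta_mem_field W p ζ), hk]
      exact (S41NE_inv_pow_apply c hc k).2
  have hζℓ : ζ ^ ℓ = ζ⁻¹ := by rw [← S41NE_zeta_frob hζ hn hℓ hℓn A hA σ hσA, hσζ]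
  have hζℓ1 : ζ ^ (ℓ + 1) = 1 := by rw [pow_succ, hζℓ, inv_mul_cancel₀ hζ0]
  have hnℓ : n ∣ ℓ + 1 := (hζ.pow_eq_one_iff_dvd _).1 hζℓ1
  have hpℓ : (p : ℤ) ∣ (ℓ : ℤ) + 1 := by
    have : p ∣ ℓ + 1 := dvd_trans hpn hnℓ
    exact_mod_cast this
  have hσσζ : (σ * σ) ζ = ζ := by
    show σ (σ ζ) = ζ
    rw [hσζ, map_inv₀, hσζ, inv_inv]
  have hσσ : ∀ P : (W.baseChange ℚbar).toAffine.Point, p • P = 0 → σ • σ • P = P := by
    intro P hP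
    rw [← S41NE_gsmul_mul]
    exact hB' (σ * σ) hσσζ P hP
  have haσ : ∀ P : (W.baseChange ℚbar).toAffine.Point, p • P = 0 →
      W.apOfModel ℓ • σ • P = 0 := by
    intro P hP
    have hes := S41NE_es W A hℓ hA hgood hp hℓp σ hσA P hP
    have e2 : (ℓ : ℤ) • P = (-1 : ℤ) • P :=
      S41NE_zsmul_congr p (by simpa using hpℓ) hP
    rw [hσσ P hP, e2, neg_smul, one_smul] at hes
    have e3 : W.apOfModel ℓ • σ • P = -(P - W.apOfModel ℓ • σ • P + -P) := by abel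
    rw [e3, hes, neg_zero]
  have hpa : (p : ℤ) ∣ W.apOfModel ℓ := by
    by_contra hnd
    have hσQ : p • (σ • Q) = 0 := S41NE_torsion_smul W p σ hpQ
    have h1 : σ • Q = 0 := S41NE_bezout_zero hp hnd hσQ (haσ Q hpQ)
    have h2 : Q = 0 := by
      have e : σ⁻¹ • σ • Q = Q := by
        rw [← S41NE_gsmul_mul, inv_mul_cancel, S41NE_gsmul_one]
      rw [← e, h1, S41NE_gsmul_zero]
    exact hQ0 h2
  have hd1 : (p : ℤ) ∣ (ℓ : ℤ) + 1 - W.apOfModel ℓ := dvd_sub hpℓ hpa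
  have hd2 : (p : ℤ) ∣ (ℓ : ℤ) + 1 + W.apOfModel ℓ := dvd_add hpℓ hpa
  obtain ⟨P₁, hP₁0, hpP₁, hσP₁⟩ := S41NE_eig W A hℓ hA hgood hp hp2 hℓp σ hσA hd1
  obtain ⟨P₂, hP₂0, hpP₂, hσP₂⟩ := S41NE_eig_neg W A hℓ hA hgood hp hp2 hℓp σ hσA hd2
  refine ⟨S41NE_fixedSub W p {σ}, fun P hP => hP.1, ?_, ?_, ⟨P₂, hpP₂, ?_⟩⟩
  · rintro τ P ⟨hP1, hP2⟩
    refine ⟨S41NE_torsion_smul W p τ hP1, fun g hg => ?_⟩
    have hg' : g = σ := hg
    subst hg'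
    have hcomm : ((τ * g)⁻¹ * (g * τ)) ζ = ζ := S41NE_stab_comm hζ hn g τ
    have h1 := hB' _ hcomm P hP1
    have h2 : g * τ = (τ * g) * ((τ * g)⁻¹ * (g * τ)) := by group
    rw [← S41NE_gsmul_mul, h2, S41NE_gsmul_mul, h1, S41NE_gsmul_mul, hP2 g rfl]
  · intro hbot
    have hPN : P₁ ∈ S41NE_fixedSub W p {σ} := ⟨hpP₁, fun g hg => by
      have hg' : g = σ := hg
      rw [hg', hσP₁]⟩
    rw [hbot] at hPN
    exact hP₁0 (AddSubgroup.mem_bot.1 hPN)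
  · rintro ⟨-, h⟩
    have h1 : σ • P₂ = P₂ := h σ rfl
    rw [hσP₂] at h1
    exact hP₂0 (S41NE_eq_zero_of_two hp hp2 hpP₂ h1.symm)

/-! ### the field containing `ζ`, `β` and the coordinates -/

/-- the field generated by the coordinates of the points of `X`, by `ζ` and by `β`. -/
noncomputable def S41NK_field (ζ β : ℚbar) : IntermediateField ℚ ℚbar :=
  IntermediateField.adjoin ℚ (S41NE_gens W p ζ ∪ {β})

lemma S41NK_field_le (ζ β : ℚbar) : S41NE_field W p ζ ≤ S41NK_field W p ζ β :=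
  IntermediateField.adjoin.mono ℚ _ _ Set.subset_union_left

lemma S41NK_beta_mem_field (ζ β : ℚbar) : β ∈ S41NK_field W p ζ β :=
  IntermediateField.subset_adjoin ℚ _ (Or.inr rfl)

lemma S41NK_zeta_mem_field (ζ β : ℚbar) : ζ ∈ S41NK_field W p ζ β :=
  S41NK_field_le W p ζ β (S41NE_zeta_mem_field W p ζ)

theorem S41NK_field_finiteDimensional (hΔ : W.Δ ≠ 0) {p : ℕ} (hp : p.Prime) (hp2 : p ≠ 2)
    (ζ β : ℚbar) : FiniteDimensional ℚ (S41NK_field W p ζ β) := by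
  haveI := S41NE_finite_X W hΔ hp hp2
  have hfin : (S41NE_gens W p ζ ∪ {β}).Finite :=
    (((Set.finite_iUnion fun P => S41NE_coords_finite W _).union
      (Set.finite_singleton ζ))).union (Set.finite_singleton β)
  haveI : Finite (S41NE_gens W p ζ ∪ {β} : Set ℚbar) := hfin.to_subtype
  exact IntermediateField.finiteDimensional_adjoin
    (fun x _ => (AlgebraicClosure.isAlgebraic ℚ).isIntegral.isIntegral x)

/-- Euler's criterion, easy direction. -/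
lemma S41NK_not_pow_of_euler {ℓ p q : ℕ} (hℓ : ℓ.Prime) (hℓq : ℓ ≠ q) (hq : q.Prime)
    (hpℓ : p ∣ ℓ - 1) (hE : (q : ZMod ℓ) ^ ((ℓ - 1) / p) ≠ 1) (x : ZMod ℓ) :
    x ^ p ≠ (q : ZMod ℓ) := by
  haveI : Fact ℓ.Prime := ⟨hℓ⟩
  intro hx
  apply hE
  have hq0 : (q : ZMod ℓ) ≠ 0 := by
    intro h0
    rw [ZMod.natCast_eq_zero_iff] at h0
    exact hℓq ((Nat.prime_dvd_prime_iff_eq hℓ hq).1 h0)
  have hx0 : x ≠ 0 := by
    rintro rfl
    by_cases hp0 : p = 0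
    · subst hp0
      simp only [zero_dvd_iff] at hpℓ
      have := hℓ.one_lt
      omega
    · rw [zero_pow hp0] at hx
      exact hq0 hx.symm
  rw [← hx, ← pow_mul, Nat.mul_div_cancel' hpℓ]
  exact ZMod.pow_card_sub_one_eq_one hx0

/-- **K2**: under the Kummer–Eisenstein hypothesis, every `g` fixing `ζ` and moving `β` is
unipotent on `W[p](ℚ̄)`. -/
theorem S41NK_unip_moving (hΔ : W.Δ ≠ 0) {p : ℕ} (hp : p.Prime) (hp2 : p ≠ 2) {M : ℕ}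
    (hM : 0 < M) {q : ℕ} (hq : q.Prime) {ζ : ℚbar} (hζ : IsPrimitiveRoot ζ (M * p))
    {β : ℚbar} (hβ : β ^ p = q) (T : Finset ℕ)
    (hyp : ∀ ℓ : ℕ, ℓ.Prime → ℓ ∉ T → ℓ ≡ 1 [MOD M] → ℓ ≡ 1 [MOD p] → ¬ (ℓ : ℤ) ∣ W.Δ →
      ℓ ≠ p → ℓ ≠ q → (q : ZMod ℓ) ^ ((ℓ - 1) / p) ≠ 1 →
      (p : ℤ) ∣ W.apOfModel ℓ - (ℓ + 1))
    (g : GQ) (hg : g ζ = ζ) (hgβ : g β ≠ β)
    (P : (W.baseChange ℚbar).toAffine.Point) (hP : p • P = 0) :
    g • g • P = 2 • g • P - P := by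
  classical
  set n : ℕ := M * p with hn_def
  have hn : 0 < n := Nat.mul_pos hM hp.pos
  set T' : Finset ℕ := T ∪ (n * W.Δ.natAbs).primeFactors ∪ {p} ∪ {q} with hT'_def
  have hT' : ∀ ℓ : ℕ, ℓ.Prime → ℓ ∉ T' →
      ℓ ∉ T ∧ ¬ ℓ ∣ n ∧ ¬ (ℓ : ℤ) ∣ W.Δ ∧ ℓ ≠ p ∧ ℓ ≠ q := by
    intro ℓ hℓ hℓT'
    simp only [hT'_def, Finset.mem_union, Finset.mem_singleton, not_or] at hℓT'
    obtain ⟨⟨⟨h1, h2⟩, h3⟩, h3'⟩ := hℓT'
    have h4 : n * W.Δ.natAbs ≠ 0 := Nat.mul_ne_zero hn.ne' (Int.natAbs_ne_zero.2 hΔ)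
    have h5 : ¬ ℓ ∣ n * W.Δ.natAbs := fun h => h2 (Nat.mem_primeFactors.2 ⟨hℓ, h, h4⟩)
    refine ⟨h1, fun h => h5 (dvd_mul_of_dvd_left h _), fun h => h5 ?_, h3, h3'⟩
    exact dvd_mul_of_dvd_right (Int.natCast_dvd.1 h) _
  haveI := S41NK_field_finiteDimensional W hΔ hp hp2 ζ β
  obtain ⟨ℓ, σ, m, m', hℓ, hℓT', ⟨A, hA, hσA⟩, hgσ, hσg⟩ :=
    S41NE_fde g (S41NK_field W p ζ β) T'
  obtain ⟨hℓT, hℓn, hgood, hℓp, hℓq⟩ := hT' ℓ hℓ hℓT'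
  -- `ℓ ≡ 1 mod n`
  have h1 : σ ζ = ζ := by
    rw [hσg ζ (S41NK_zeta_mem_field W p ζ β)]
    exact S41NE_pow_fix g hg m'
  have h2 : ζ ^ ℓ = ζ := by rw [← S41NE_zeta_frob hζ hn hℓ hℓn A hA σ hσA, h1]
  have hζ0 : ζ ≠ 0 := hζ.ne_zero hn.ne'
  have h3 : n ∣ ℓ - 1 := by
    rw [← hζ.pow_eq_one_iff_dvd]
    have h4 : ζ ^ (ℓ - 1) * ζ = 1 * ζ := by
      rw [← pow_succ, Nat.sub_add_cancel hℓ.one_le, h2, one_mul]
    exact mul_right_cancel₀ hζ0 h4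
  have h5 : ℓ ≡ 1 [MOD n] := ((Nat.modEq_iff_dvd' hℓ.one_le).2 h3).symm
  have h6 : ℓ ≡ 1 [MOD M] := h5.of_dvd (dvd_mul_right M p)
  have h7 : ℓ ≡ 1 [MOD p] := h5.of_dvd (dvd_mul_left p M)
  have hpℓ : p ∣ ℓ - 1 := dvd_trans (dvd_mul_left p M) h3
  -- `σ` moves `β`
  have hσβ : σ β ≠ β := by
    intro h
    apply hgβ
    rw [hgσ β (S41NK_beta_mem_field W p ζ β)]
    exact S41NE_pow_fix σ h m
  have hE : (q : ZMod ℓ) ^ ((ℓ - 1) / p) ≠ 1 := fun hE =>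
    hσβ (S41NK_frob_fix A hℓ hA hp hq hℓp hℓq hpℓ σ hσA hβ hE)
  have h8 : (p : ℤ) ∣ W.apOfModel ℓ - (ℓ + 1) := hyp ℓ hℓ hℓT h6 h7 hgood hℓp hℓq hE
  have h9 : (p : ℤ) ∣ (ℓ : ℤ) - 1 := by
    have h' : ((ℓ - 1 : ℕ) : ℤ) = (ℓ : ℤ) - 1 := by
      rw [Nat.cast_sub hℓ.one_le]; simp
    rw [← h']
    exact_mod_cast hpℓ
  have h10 : (p : ℤ) ∣ W.apOfModel ℓ - 2 := by
    have : W.apOfModel ℓ - 2 = (W.apOfModel ℓ - (ℓ + 1)) + ((ℓ : ℤ) - 1) := by ring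
    rw [this]
    exact dvd_add h8 h9
  -- `σ` is unipotent on the `p`-torsion
  have hσ : ∀ P : (W.baseChange ℚbar).toAffine.Point, p • P = 0 →
      σ • σ • P = 2 • σ • P - P := by
    intro P hP
    have hes := S41NE_es W A hℓ hA hgood hp hℓp σ hσA P hP
    have e1 : W.apOfModel ℓ • σ • P = (2 : ℤ) • σ • P :=
      S41NE_zsmul_congr p h10 (S41NE_torsion_smul W p σ hP)
    have e2 : (ℓ : ℤ) • P = (1 : ℤ) • P := S41NE_zsmul_congr p h9 hP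
    rw [e1, e2, one_smul] at hes
    have e3 : (2 : ℤ) • σ • P = 2 • σ • P := by
      rw [← natCast_zsmul]; rfl
    rw [e3] at hes
    rw [← sub_eq_zero, ← hes]
    abel
  -- `g = σ ^ m` on the torsion
  have hρg : S41NE_rho W p g = S41NE_rho W p (σ ^ m) :=
    S41NE_rho_eq_of_agree W p ζ g (σ ^ m) (fun x hx => hgσ x (S41NK_field_le W p ζ β hx))
  have hact : ∀ R : (W.baseChange ℚbar).toAffine.Point, p • R = 0 → g • R = (σ ^ m) • R := by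
    intro R hR
    exact congrArg (fun f => (f (S41NE_X.mk' R hR)).pt) hρg
  rw [hact _ (S41NE_torsion_smul W p g hP), hact P hP, ← S41NE_gsmul_mul, ← pow_add,
    S41NE_pow_formula W p σ hσ _ P hP, S41NE_pow_formula W p σ hσ _ P hP, add_nsmul, two_nsmul]
  abel

/-! ### the torsion as a group with operators -/

/-- the `p`-torsion subgroup. -/
noncomputable def S41NK_V : AddSubgroup (W.baseChange ℚbar).toAffine.Point where
  carrier := {P | p • P = 0}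
  add_mem' := by
    intro P Q hP hQ
    have hP' : p • P = 0 := hP
    have hQ' : p • Q = 0 := hQ
    show p • (P + Q) = 0
    rw [nsmul_add, hP', hQ', add_zero]
  zero_mem' := nsmul_zero p
  neg_mem' := by
    intro P hP
    have hP' : p • P = 0 := hP
    show p • (-P) = 0
    rw [neg_nsmul, hP', neg_zero]

lemma S41NK_mem_V {P : (W.baseChange ℚbar).toAffine.Point} : P ∈ S41NK_V W p ↔ p • P = 0 :=
  Iff.rfl

/-- the action of `g` on the torsion subgroup. -/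
noncomputable def S41NK_act (g : GQ) : S41NK_V W p →+ S41NK_V W p where
  toFun P := ⟨g • P.1, S41NE_torsion_smul W p g P.2⟩
  map_zero' := Subtype.ext (S41NE_gsmul_zero W g)
  map_add' P Q := Subtype.ext (S41NE_gsmul_add W g P.1 Q.1)

lemma S41NK_act_coe (g : GQ) (P : S41NK_V W p) : ((S41NK_act W p g P : S41NK_V W p) :
    (W.baseChange ℚbar).toAffine.Point) = g • (P : (W.baseChange ℚbar).toAffine.Point) := rfl

lemma S41NK_card_V (hΔ : W.Δ ≠ 0) {p : ℕ} (hp : p.Prime) (hp2 : p ≠ 2) :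
    Nat.card (S41NK_V W p) = p ^ 2 := by
  rw [← S41NE_card_X W hΔ hp hp2]
  exact Nat.card_congr (Equiv.subtypeEquivRight (fun P => Iff.rfl))

lemma S41NK_V_torsion (v : S41NK_V W p) : p • v = 0 := by
  apply Subtype.ext
  rw [AddSubgroup.coe_nsmul]
  exact v.2

/-- unipotency in terms of `S41NK_act`. -/
lemma S41NK_act_unip_iff (g : GQ) :
    (∀ v : S41NK_V W p, S41NK_act W p g (S41NK_act W p g v) = 2 • S41NK_act W p g v - v) ↔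
      ∀ P : (W.baseChange ℚbar).toAffine.Point, p • P = 0 → g • g • P = 2 • g • P - P := by
  constructor
  · intro h P hP
    have := congrArg Subtype.val (h ⟨P, hP⟩)
    simpa [S41NK_act_coe] using this
  · intro h v
    apply Subtype.ext
    rw [AddSubgroup.coe_sub, AddSubgroup.coe_nsmul, S41NK_act_coe, S41NK_act_coe]
    exact h v.1 v.2

/-- **all elements fixing `ζ` are unipotent** under the Kummer–Eisenstein hypothesis. -/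
theorem S41NK_unip_all (hΔ : W.Δ ≠ 0) {p : ℕ} (hp : p.Prime) (hp2 : p ≠ 2) {M : ℕ}
    (hM : 0 < M) {q : ℕ} (hq : q.Prime) {ζ : ℚbar} (hζ : IsPrimitiveRoot ζ (M * p))
    {β : ℚbar} (hβ : β ^ p = q) (T : Finset ℕ)
    (hyp : ∀ ℓ : ℕ, ℓ.Prime → ℓ ∉ T → ℓ ≡ 1 [MOD M] → ℓ ≡ 1 [MOD p] → ¬ (ℓ : ℤ) ∣ W.Δ →
      ℓ ≠ p → ℓ ≠ q → (q : ZMod ℓ) ^ ((ℓ - 1) / p) ≠ 1 →
      (p : ℤ) ∣ W.apOfModel ℓ - (ℓ + 1))
    (h : GQ) (hh : h ζ = ζ)
    (P : (W.baseChange ℚbar).toAffine.Point) (hP : p • P = 0) :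
    h • h • P = 2 • h • P - P := by
  have hn : 0 < M * p := Nat.mul_pos hM hp.pos
  have hpn : p ∣ M * p := dvd_mul_left p M
  have key := S41NK_unip_moving W hΔ hp hp2 hM hq hζ hβ T hyp
  by_cases hhβ : h β = β
  swap
  · exact key h hh hhβ P hP
  obtain ⟨σ₀, hσ₀ζ, hσ₀β⟩ := S41NK_exists_moving hζ hn hp hp2 hpn hq hβ
  have hσσβ := S41NK_sq_moving hζ hn hp hp2 hpn hq hβ σ₀ hσ₀ζ hσ₀β
  revert P
  rw [← S41NK_act_unip_iff]
  refine S41NK_unip_of_mul hp (S41NK_V_torsion W p) (S41NK_card_V W hΔ hp hp2)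
    (S41NK_act W p σ₀) (S41NK_act W p h) ?_ ?_ ?_
  · rw [S41NK_act_unip_iff]
    exact key σ₀ hσ₀ζ hσ₀β
  · have h1 : (σ₀ * h) ζ = ζ := by
      show σ₀ (h ζ) = ζ
      rw [hh, hσ₀ζ]
    have h2 : (σ₀ * h) β ≠ β := by
      show σ₀ (h β) ≠ β
      rw [hhβ]
      exact hσ₀β
    intro v
    apply Subtype.ext
    rw [AddSubgroup.coe_sub, AddSubgroup.coe_nsmul]
    have := key (σ₀ * h) h1 h2 v.1 v.2
    rw [S41NE_gsmul_mul, S41NE_gsmul_mul] at this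
    exact this
  · have h1 : (σ₀ * σ₀ * h) ζ = ζ := by
      show σ₀ (σ₀ (h ζ)) = ζ
      rw [hh, hσ₀ζ, hσ₀ζ]
    have h2 : (σ₀ * σ₀ * h) β ≠ β := by
      show (σ₀ * σ₀) (h β) ≠ β
      rw [hhβ]
      exact hσσβ
    intro v
    apply Subtype.ext
    rw [AddSubgroup.coe_sub, AddSubgroup.coe_nsmul]
    have := key (σ₀ * σ₀ * h) h1 h2 v.1 v.2
    rw [S41NE_gsmul_mul, S41NE_gsmul_mul, S41NE_gsmul_mul, S41NE_gsmul_mul] at this
    exact this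

/-- **the core with the Kummer condition**. -/
theorem S41NK_core (hΔ : W.Δ ≠ 0) {p : ℕ} (hp : p.Prime) (hp2 : p ≠ 2) {M : ℕ} (hM : 0 < M)
    {q : ℕ} (hq : q.Prime) (T : Finset ℕ)
    (hyp : ∀ ℓ : ℕ, ℓ.Prime → ℓ ∉ T → ℓ ≡ 1 [MOD M] → ℓ ≡ 1 [MOD p] → ¬ (ℓ : ℤ) ∣ W.Δ →
      ℓ ≠ p → ℓ ≠ q → (q : ZMod ℓ) ^ ((ℓ - 1) / p) ≠ 1 →
      (p : ℤ) ∣ W.apOfModel ℓ - (ℓ + 1)) :
    ∃ N : AddSubgroup (W.baseChange ℚbar).toAffine.Point,
      (∀ P ∈ N, p • P = 0) ∧ (∀ σ : GQ, ∀ P ∈ N, σ • P ∈ N) ∧ N ≠ ⊥ ∧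
      ∃ P : (W.baseChange ℚbar).toAffine.Point, p • P = 0 ∧ P ∉ N := by
  set n : ℕ := M * p with hn_def
  have hn : 0 < n := Nat.mul_pos hM hp.pos
  have hp3 : 3 ≤ p := by
    have := hp.two_le
    omega
  have hn3 : 3 ≤ n := le_trans hp3 (Nat.le_mul_of_pos_left p hM)
  haveI : NeZero ((n : ℕ) : ℚ) := ⟨Nat.cast_ne_zero.2 hn.ne'⟩
  obtain ⟨ζ, hζ⟩ := HasEnoughRootsOfUnity.exists_primitiveRoot ℚbar n
  obtain ⟨β, hβ⟩ : ∃ β : ℚbar, β ^ p = (q : ℚbar) :=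
    IsAlgClosed.exists_pow_nat_eq (q : ℚbar) hp.pos
  refine S41NK_core_of_unip W hΔ hp hp2 hn3 (dvd_mul_left p M) hζ (fun g hg => ?_)
  exact S41NE_rho_pow_eq_one W p g (S41NK_unip_all W hΔ hp hp2 hM hq hζ hβ T hyp g hg)

end Fermat.Agent.S41
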