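import Mathlib
import Fermat.Agent.S41.NERoots

/-!
# S41, package NE-K (helper28 + helper12), pieces (K0), (K1): the Kummer element

`β ∈ ℚ̄` with `β ^ p = q` (`q` prime, `p` an odd prime), `ζ` a primitive `n`-th root of unity,
`p ∣ n`.
* `S41NKF_frob_fix` (K1): a Frobenius `σ` at `ℓ ≡ 1 (p)`, `ℓ ≠ q`, with `q ^ ((ℓ-1)/p) = 1` in
  `ZMod ℓ` fixes `β`.
* `S41NKF_exists_move` (K0): some `σ₀ ∈ G_ℚ` fixes `ζ` and moves `β`.
-/

set_option autoImplicit false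
set_option linter.unusedSectionVars false
set_option linter.unusedVariables false
set_option linter.style.haveILetI false

namespace Fermat.Agent.S41

open Fermat.Agent.GalRep Fermat.Agent.Lib

local notation "ℚbar" => AlgebraicClosure ℚ

/-- an element whose `p`-th power has valuation `1` has valuation `1`. -/
lemma S41NKF_val_eq_one (A : ValuationSubring ℚbar) {β : ℚbar} {p : ℕ} (hp : p ≠ 0)
    (h : A.valuation (β ^ p) = 1) : A.valuation β = 1 := by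
  rw [map_pow] at h
  rcases lt_trichotomy (A.valuation β) 1 with h1 | h1 | h1
  · have h2 : A.valuation β ^ p < 1 := pow_lt_one₀ zero_le h1 hp
    rw [h] at h2
    exact absurd h2 (lt_irrefl _)
  · exact h1
  · have h2 : 1 < A.valuation β ^ p := one_lt_pow₀ h1 hp
    rw [h] at h2
    exact absurd h2 (lt_irrefl _)

/-- a natural number prime to the residue characteristic has valuation `1`. -/
lemma S41NKF_val_natCast (A : ValuationSubring ℚbar) {ℓ m : ℕ} (hA : A.LiesOverPrime ℓ)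
    (hc : Nat.Coprime m ℓ) : A.valuation (m : ℚbar) = 1 := by
  have h1 : A.valuation (m : ℚbar) ≤ 1 := (A.valuation_le_one_iff _).mpr (natCast_mem A m)
  have h2 := GR_cyc_coprime_not_mem A hA hc
  rw [A.mem_nonunits_iff, not_lt] at h2
  exact le_antisymm h1 h2

/-- **(K1)** A Frobenius element at `ℓ ≡ 1 (p)`, `ℓ ≠ q`, with `q ^ ((ℓ-1)/p) = 1` in `ZMod ℓ`
fixes every `p`-th root `β` of `q`. -/
theorem S41NKF_frob_fix {p q ℓ : ℕ} (hp : p.Prime) (hq : q.Prime) (hℓ : ℓ.Prime)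
    (hℓp : ℓ ≡ 1 [MOD p]) (hℓq : ℓ ≠ q) {β : ℚbar} (hβ : β ^ p = (q : ℚbar))
    (A : ValuationSubring ℚbar) (hA : A.LiesOverPrime ℓ) (σ : GQ)
    (hσ : A.IsFrobeniusAt σ ℓ) (hq1 : (q : ZMod ℓ) ^ ((ℓ - 1) / p) = 1) : σ β = β := by
  have hℓ_ne_p : ℓ ≠ p := by
    rintro rfl
    have h1 : ℓ ∣ 1 := by
      have := (Nat.modEq_iff_dvd' hℓ.one_le).mp hℓp.symm
      have h2 : ℓ ∣ ℓ := dvd_rfl
      exact (Nat.dvd_sub_iff_right hℓ.one_le h2).mp this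
    exact hℓ.one_lt.ne' (Nat.dvd_one.mp h1)
  have hpdvd : p ∣ ℓ - 1 := (Nat.modEq_iff_dvd' hℓ.one_le).mp hℓp.symm
  obtain ⟨k, hk⟩ := hpdvd
  have hk' : (ℓ - 1) / p = k := by rw [hk]; exact Nat.mul_div_cancel_left k hp.pos
  have hvq : A.valuation (q : ℚbar) = 1 :=
    S41NKF_val_natCast A hA ((Nat.coprime_primes hq hℓ).2 hℓq.symm)
  have hpA : (p : ℚbar) ∉ A.nonunits :=
    GR_cyc_coprime_not_mem A hA ((Nat.coprime_primes hp hℓ).2 hℓ_ne_p.symm)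
  have hvβ : A.valuation β = 1 := S41NKF_val_eq_one A hp.ne_zero (by rw [hβ, hvq])
  have hβA : β ∈ A := (A.valuation_le_one_iff _).mp hvβ.le
  have hβ0 : β ≠ 0 := by
    rintro rfl
    rw [map_zero] at hvβ
    exact zero_ne_one hvβ
  have h1 := GR_frob_congr hσ β hβA
  have hℓeq : ℓ = 1 + p * k := by
    have := hℓ.one_le
    omega
  have h2 : β ^ ℓ = β * (q : ℚbar) ^ k := by
    rw [hℓeq, pow_add, pow_one, pow_mul, hβ]
  have h3 : ((q : ℚbar) ^ k - 1) ∈ A.nonunits := by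
    have h5 : (ℓ : ℤ) ∣ (q : ℤ) ^ k - 1 := by
      rw [← ZMod.intCast_zmod_eq_zero_iff_dvd]
      push_cast
      rw [sub_eq_zero, ← hk']
      exact hq1
    obtain ⟨m, hm⟩ := h5
    have h6 : ((q : ℚbar) ^ k - 1) = (ℓ : ℚbar) * (m : ℚbar) := by
      exact_mod_cast congrArg (Int.cast : ℤ → ℚbar) hm
    rw [h6, A.mem_nonunits_iff, map_mul]
    have hm1 : A.valuation (m : ℚbar) ≤ 1 := (A.valuation_le_one_iff _).mpr (intCast_mem A m)
    calc A.valuation (ℓ : ℚbar) * A.valuation (m : ℚbar)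
        ≤ A.valuation (ℓ : ℚbar) * 1 := mul_le_mul_right hm1 _
      _ = A.valuation (ℓ : ℚbar) := mul_one _
      _ < 1 := A.mem_nonunits_iff.mp hA
  -- `σ β - β` is a nonunit
  have h4 : σ β - β ∈ A.nonunits := by
    have h7 : σ β - β = (σ β - β ^ ℓ) + β * ((q : ℚbar) ^ k - 1) := by rw [h2]; ring
    rw [h7, A.mem_nonunits_iff]
    refine lt_of_le_of_lt (Valuation.map_add _ _ _) (max_lt (A.mem_nonunits_iff.mp h1) ?_)
    rw [map_mul, hvβ, one_mul]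
    exact A.mem_nonunits_iff.mp h3
  -- the root of unity `ω = σ β / β`
  have hω : (σ β * β⁻¹) ^ p = 1 := by
    rw [mul_pow, ← map_pow, hβ, map_natCast, inv_pow, hβ]
    exact mul_inv_cancel₀ (Nat.cast_ne_zero.mpr hq.ne_zero)
  have h8 : σ β * β⁻¹ - 1 ∈ A.nonunits := by
    have h9 : σ β * β⁻¹ - 1 = β⁻¹ * (σ β - β) := by field_simp
    rw [h9, A.mem_nonunits_iff, map_mul, map_inv₀, hvβ, inv_one, one_mul]
    exact A.mem_nonunits_iff.mp h4
  have h10 := GR_cyc_eq_one_of_sub_mem A hω hpA h8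
  field_simp at h10
  exact h10

/-- a prime is not a `p`-th power of a rational number (`p ≥ 2`). -/
lemma S41NKF_not_pow {p q : ℕ} (hp : 2 ≤ p) (hq : q.Prime) (r : ℚ) : r ^ p ≠ (q : ℚ) := by
  intro h
  haveI : Fact q.Prime := ⟨hq⟩
  have h1 : padicValRat q (r ^ p) = p * padicValRat q r := padicValRat.pow r
  have h2 : padicValRat q (q : ℚ) = 1 := padicValRat.self hq.one_lt
  rw [h, h2] at h1
  have h3 : (p : ℤ) ∣ 1 := ⟨_, h1⟩
  have h4 : p ∣ 1 := by exact_mod_cast h3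
  have := Nat.dvd_one.mp h4
  omega

/-- **(K0)** Some element of `G_ℚ` fixes the primitive `n`-th root of unity `ζ` (`p ∣ n`) and
moves the `p`-th root `β` of the prime `q` (`p` an odd prime). -/
theorem S41NKF_exists_move {n : ℕ} {ζ : ℚbar} (hζ : IsPrimitiveRoot ζ n) (hn : 0 < n)
    {p q : ℕ} (hp : p.Prime) (hp2 : p ≠ 2) (hpn : p ∣ n) (hq : q.Prime) {β : ℚbar}
    (hβ : β ^ p = (q : ℚbar)) : ∃ σ₀ : GQ, σ₀ ζ = ζ ∧ σ₀ β ≠ β := by
  by_contra hcon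
  push Not at hcon
  haveI : NeZero n := ⟨hn.ne'⟩
  have hq0 : (q : ℚbar) ≠ 0 := Nat.cast_ne_zero.mpr hq.ne_zero
  have hβ0 : β ≠ 0 := by
    rintro rfl
    rw [zero_pow hp.ne_zero] at hβ
    exact hq0 hβ.symm
  have hζ0 : ζ ≠ 0 := hζ.ne_zero hn.ne'
  -- `p` is odd
  obtain ⟨m, hm⟩ : ∃ m, p = 2 * m + 1 := by
    rcases hp.eq_two_or_odd with h | h
    · exact absurd h hp2
    · exact ⟨p / 2, by omega⟩
  -- elements of `μ_p` are powers of `ζ`
  have hmu : ∀ w : ℚbar, w ^ p = 1 → ∃ j : ℕ, w = ζ ^ j := by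
    intro w hw
    obtain ⟨d, hd⟩ := hpn
    have h1 : w ^ n = 1 := by rw [hd, pow_mul, hw, one_pow]
    obtain ⟨j, -, hj⟩ := hζ.eq_pow_of_pow_eq_one h1
    exact ⟨j, hj.symm⟩
  -- the action on `ζ` is abelian
  have hcommζ : ∀ g₁ g₂ : GQ, g₁ (g₂ ζ) = g₂ (g₁ ζ) := by
    intro g₁ g₂
    obtain ⟨j₁, hj₁⟩ := S41NE_zeta_pow hζ hn g₁
    obtain ⟨j₂, hj₂⟩ := S41NE_zeta_pow hζ hn g₂
    rw [hj₁, hj₂, map_pow, map_pow, hj₁, hj₂, ← pow_mul, ← pow_mul, mul_comm]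
  -- hence (by hypothesis) the action on `β` commutes as well
  have hcommβ : ∀ g₁ g₂ : GQ, g₁ (g₂ β) = g₂ (g₁ β) := by
    intro g₁ g₂
    have h1 := hcon _ (S41NE_stab_comm hζ hn g₁ g₂)
    have h2 : ((g₂ * g₁)⁻¹ * (g₁ * g₂)) β = ((g₂ * g₁)⁻¹ : GQ) ((g₁ * g₂) β) := rfl
    rw [h2] at h1
    have h3 : (g₂ * g₁ : GQ) (((g₂ * g₁)⁻¹ : GQ) ((g₁ * g₂) β)) = (g₂ * g₁ : GQ) β :=
      congrArg (fun x ↦ (g₂ * g₁ : GQ) x) h1
    have h4 : (g₂ * g₁ : GQ) (((g₂ * g₁)⁻¹ : GQ) ((g₁ * g₂) β)) = (g₁ * g₂) β := by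
      show ((g₂ * g₁) * (g₂ * g₁)⁻¹ : GQ) ((g₁ * g₂) β) = _
      rw [mul_inv_cancel]
      rfl
    rw [h4] at h3
    exact h3
  -- the inverting element
  obtain ⟨c, hc⟩ := S41NE_exists_inv hζ hn
  have hω : (c β * β⁻¹) ^ p = 1 := by
    rw [mul_pow, ← map_pow, hβ, map_natCast, inv_pow, hβ]
    exact mul_inv_cancel₀ hq0
  obtain ⟨j, hj⟩ := hmu _ hω
  -- `ε = ω ^ (m+1)`, `ε ^ 2 = ω`
  obtain ⟨ε, hε⟩ : ∃ ε : ℚbar, ε = ζ ^ (j * (m + 1)) := ⟨_, rfl⟩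
  have hζjp : (ζ ^ j) ^ p = 1 := by rw [← hj]; exact hω
  have hε2 : ε ^ 2 = c β * β⁻¹ := by
    have h1 : j * (m + 1) * 2 = j * p + j := by rw [hm]; ring
    rw [hε, ← pow_mul, h1, pow_add, pow_mul, hζjp, one_mul, hj]
  have hεp : ε ^ p = 1 := by
    rw [hε, pow_mul, ← pow_mul, mul_comm, pow_mul, hζjp, one_pow]
  have hε0 : ε ≠ 0 := by rw [hε]; exact pow_ne_zero _ hζ0
  have hcε : c ε = ε⁻¹ := by
    rw [hε, map_pow, hc, inv_pow]
  obtain ⟨β', hβ'⟩ : ∃ β' : ℚbar, β' = ε * β := ⟨_, rfl⟩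
  have hβ'0 : β' ≠ 0 := by rw [hβ']; exact mul_ne_zero hε0 hβ0
  have hβ'p : β' ^ p = (q : ℚbar) := by
    rw [hβ', mul_pow, hεp, one_mul, hβ]
  have hcβ' : c β' = β' := by
    have h1 : c β = ε ^ 2 * β := by
      rw [hε2]; field_simp
    rw [hβ', map_mul, hcε, h1]
    field_simp
  -- every `g` fixes `β'`
  have hfix : ∀ g : GQ, g β' = β' := by
    intro g
    have hw : (g β' * β'⁻¹) ^ p = 1 := by
      rw [mul_pow, ← map_pow, hβ'p, map_natCast, inv_pow, hβ'p]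
      exact mul_inv_cancel₀ hq0
    obtain ⟨i, hi⟩ := hmu _ hw
    have hgβ' : g β' = ζ ^ i * β' := by
      rw [← hi]; field_simp
    -- commutation on `β'`
    have hcomm : g (c β') = c (g β') := by
      rw [hβ', map_mul, map_mul, map_mul, map_mul, hcommβ g c]
      congr 1
      rw [hε, map_pow, map_pow, map_pow, map_pow, hcommζ g c]
    rw [hcβ', hgβ', map_mul, map_pow, hc, hcβ'] at hcomm
    have h1 : ζ ^ i = (ζ ^ i)⁻¹ := by
      have h2 := mul_right_cancel₀ hβ'0 hcomm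
      rw [inv_pow] at h2
      exact h2
    have hζi0 : ζ ^ i ≠ 0 := pow_ne_zero _ hζ0
    have h3 : (ζ ^ i) ^ 2 = 1 := by
      rw [pow_two]
      nth_rewrite 2 [h1]
      exact mul_inv_cancel₀ hζi0
    have h4 : (ζ ^ i) ^ p = 1 := by rw [← hi]; exact hw
    have h5 : ζ ^ i = 1 := by
      have h6 : (ζ ^ i) ^ p = ((ζ ^ i) ^ 2) ^ m * ζ ^ i := by
        rw [hm, pow_add, pow_mul, pow_one]
      rw [h4, h3, one_pow, one_mul] at h6
      exact h6.symm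
    rw [hgβ', h5, one_mul]
  -- so `β'` is rational
  haveI : IsGalois ℚ ℚbar := frobExists_isGalois
  obtain ⟨r, hr⟩ := (InfiniteGalois.mem_range_algebraMap_iff_fixed (k := ℚ) (K := ℚbar) β').mpr hfix
  have h1 : algebraMap ℚ ℚbar (r ^ p) = algebraMap ℚ ℚbar (q : ℚ) := by
    rw [map_pow, hr, hβ'p, map_natCast]
  exact S41NKF_not_pow hp.two_le hq r ((algebraMap ℚ ℚbar).injective h1)

end Fermat.Agent.S41
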