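import Mathlib
import Fermat.Prelude.Def_FLTPrelim_ModularRep
import Fermat.Agent.S41.NEKCore
import Fermat.Agent.S41.NEMain

/-!
# S41, package NE⁺ (helper28): non-Eisenstein primes with a Kummer condition

`S41NK_main` : if the mod-`p` representation of `E` is irreducible (`p` odd), `W` is an integral
model of `E` and `q` is a prime, then for every `M > 0` and every finite set `T` there is a good
prime `ℓ ∉ T`, `ℓ ≡ 1 mod M`, `ℓ ≡ 1 mod p`, `ℓ ≠ p, q`, such that `q` is not a `p`-th power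
modulo `ℓ` (even `q ^ ((ℓ-1)/p) ≢ 1`) and `a_ℓ(W) ≢ ℓ + 1 mod p`.

`S41NK_main_form` : the same for an eigenform congruent to `W` modulo a maximal ideal over `p`.
-/

set_option autoImplicit false
set_option linter.unusedSectionVars false
set_option linter.unusedVariables false
set_option linter.style.haveILetI false

namespace Fermat.Agent.S41

open WeierstrassCurve WeierstrassCurve.Affine WeierstrassCurve.Affine.Point Fermat.Agent.Lib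
  Fermat.Agent.GalRep

/-- **NE⁺ (NE with the Kummer condition).** -/
theorem S41NK_main (E : WeierstrassCurve ℚ) [E.IsElliptic] {W : WeierstrassCurve ℤ}
    (hW : W.IsIntegralModelOf E) {p q : ℕ} (hp : p.Prime) (hp2 : p ≠ 2) (hq : q.Prime)
    (hirr : GaloisRepIsIrreducible (K := AlgebraicClosure ℚ) ℚ E p)
    (M : ℕ) (hM : 0 < M) (T : Finset ℕ) :
    ∃ ℓ : ℕ, ℓ.Prime ∧ ℓ ∉ T ∧ ℓ ≡ 1 [MOD M] ∧ ℓ ≡ 1 [MOD p] ∧ W.IsGoodPrimeFor ℓ ∧ ℓ ≠ p ∧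
      ℓ ≠ q ∧ (q : ZMod ℓ) ^ ((ℓ - 1) / p) ≠ 1 ∧ (∀ x : ZMod ℓ, x ^ p ≠ (q : ZMod ℓ)) ∧
      ¬ (p : ℤ) ∣ W.apOfModel ℓ - (ℓ + 1) := by
  by_contra hcon
  push Not at hcon
  obtain ⟨hΔ, hN⟩ := S41NT_irr E hW hp hirr
  obtain ⟨N, h1, h2, h3, P, hP, hPN⟩ := S41NK_core W hΔ hp hp2 hM hq T
    (fun ℓ hℓ hT hM1 hp1 hg hℓp hℓq hE => by
      have hpℓ : p ∣ ℓ - 1 := (Nat.modEq_iff_dvd' hℓ.one_le).1 hp1.symm
      exact hcon ℓ hℓ hT hM1 hp1 hg hℓp hℓq hE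
        (S41NK_not_pow_of_euler hℓ hℓq hq hpℓ hE))
  rcases hN N h1 h2 with h | h
  · exact h3 h
  · exact hPN (h P hP)

/-- **NE⁺ for an eigenform congruent to `W`.** -/
theorem S41NK_main_form (E : WeierstrassCurve ℚ) [E.IsElliptic] {W : WeierstrassCurve ℤ}
    (hW : W.IsIntegralModelOf E) {p q N : ℕ} (hp : p.Prime) (hp2 : p ≠ 2) (hq : q.Prime)
    (hN : 0 < N) (hirr : GaloisRepIsIrreducible (K := AlgebraicClosure ℚ) ℚ E p)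
    (f : CuspForm (CongruenceSubgroup.Gamma0 N) 2) (𝔪 : Ideal (integralClosure ℤ ℂ))
    (hmax : 𝔪.IsMaximal) (hpm : (p : integralClosure ℤ ℂ) ∈ 𝔪)
    (hcong : ∀ ℓ : ℕ, ℓ.Prime → W.IsGoodPrimeFor ℓ → ¬ ℓ ∣ N → ℓ ≠ p →
      ∃ a : integralClosure ℤ ℂ, (a : ℂ) = ModularFormClass.qCoeff f ℓ ∧
        a - ((W.apOfModel ℓ : ℤ) : integralClosure ℤ ℂ) ∈ 𝔪)
    (M : ℕ) (hM : 0 < M) (T : Finset ℕ) :
    ∃ ℓ : ℕ, ℓ.Prime ∧ ℓ ∉ T ∧ ℓ ≡ 1 [MOD M] ∧ ℓ ≡ 1 [MOD p] ∧ W.IsGoodPrimeFor ℓ ∧ ¬ ℓ ∣ N ∧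
      ℓ ≠ p ∧ ℓ ≠ q ∧ (q : ZMod ℓ) ^ ((ℓ - 1) / p) ≠ 1 ∧
      (∀ x : ZMod ℓ, x ^ p ≠ (q : ZMod ℓ)) ∧
      ∀ a : integralClosure ℤ ℂ, (a : ℂ) = ModularFormClass.qCoeff f ℓ →
        a - ((ℓ : integralClosure ℤ ℂ) + 1) ∉ 𝔪 := by
  obtain ⟨ℓ, hℓ, hℓT, hℓM, hℓp1, hgood, hℓp, hℓq, hE, hpow, hnd⟩ :=
    S41NK_main E hW hp hp2 hq hirr M hM (T ∪ N.primeFactors)
  rw [Finset.mem_union, not_or] at hℓT
  have hℓN : ¬ ℓ ∣ N := fun h => hℓT.2 (Nat.mem_primeFactors.2 ⟨hℓ, h, hN.ne'⟩)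
  refine ⟨ℓ, hℓ, hℓT.1, hℓM, hℓp1, hgood, hℓN, hℓp, hℓq, hE, hpow, ?_⟩
  intro a ha hmem
  obtain ⟨a₀, ha₀, hmem₀⟩ := hcong ℓ hℓ hgood hℓN hℓp
  have haa : a = a₀ := Subtype.ext (ha.trans ha₀.symm)
  subst haa
  apply hnd
  apply S41NE_dvd_of_mem hmax hp hpm
  have h1 : (((W.apOfModel ℓ - (ℓ + 1) : ℤ)) : integralClosure ℤ ℂ) =
      (a - ((ℓ : integralClosure ℤ ℂ) + 1)) -
        (a - ((W.apOfModel ℓ : ℤ) : integralClosure ℤ ℂ)) := by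
    push_cast
    ring
  rw [h1]
  exact 𝔪.sub_mem hmem hmem₀

end Fermat.Agent.S41
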