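import Mathlib
import Fermat.Agent.S41.PDCusp

/-!
# S41, package PD, slice COMP-1: the cusp sum of a twisted cocycle

`Ft : SL(2,ℤ) → (X → F)` (`X = SL(2,ℤ) ⧸ Γ`) with
`Ft (g h) x = Ft g (h x) + Ft h x + c g (h x) * c' h x` for two cocycles `c, c'` which vanish at `T`.
For `A γ := Ft γ x₀` (`x₀` the base coset) the cusp sum is

  `S41P_cuspSum Γ A = ∑ x, Ft T x`   (`S41PS_cuspSum_eq_sum`).
-/

set_option autoImplicit false

open Matrix MatrixGroups ModularGroup

namespace Fermat.Agent.S41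

section calculus

variable {F : Type*} [Field F] {G : Type*} [Group G] {X : Type*} [MulAction G X]
  (c c' Ft : G → X → F)

lemma S41PS_coc_one (hc : ∀ g h x, c (g * h) x = c g (h • x) + c h x) (x : X) : c 1 x = 0 := by
  have := hc 1 1 x
  rw [mul_one, one_smul] at this
  linear_combination -this

lemma S41PS_Ft_one (hc : ∀ g h x, c (g * h) x = c g (h • x) + c h x)
    (hF : ∀ g h x, Ft (g * h) x = Ft g (h • x) + Ft h x + c g (h • x) * c' h x) (x : X) :
    Ft 1 x = 0 := by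
  have := hF 1 1 x
  rw [mul_one, one_smul, S41PS_coc_one c hc, zero_mul, add_zero] at this
  linear_combination -this

lemma S41PS_coc_pow (hc : ∀ g h x, c (g * h) x = c g (h • x) + c h x) (t : G)
    (ht : ∀ x, c t x = 0) (n : ℕ) (x : X) : c (t ^ n) x = 0 := by
  induction n generalizing x with
  | zero => rw [pow_zero]; exact S41PS_coc_one c hc x
  | succ k ih => rw [pow_succ, hc, ih, ht, add_zero]

lemma S41PS_Ft_pow (hc : ∀ g h x, c (g * h) x = c g (h • x) + c h x)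
    (hF : ∀ g h x, Ft (g * h) x = Ft g (h • x) + Ft h x + c g (h • x) * c' h x) (t : G)
    (ht : ∀ x, c t x = 0) (n : ℕ) (x : X) :
    Ft (t ^ n) x = ∑ i ∈ Finset.range n, Ft t (t ^ i • x) := by
  induction n with
  | zero => rw [pow_zero, Finset.range_zero, Finset.sum_empty]; exact S41PS_Ft_one c c' Ft hc hF x
  | succ k ih =>
    rw [pow_succ', hF, Finset.sum_range_succ, ih, ht, zero_mul, add_zero, add_comm]

/-- The value of a twisted cocycle at a conjugate `r⁻¹ g r` of an element `g` fixing `x = r x₀`. -/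
lemma S41PS_Ft_conj (hc : ∀ g h x, c (g * h) x = c g (h • x) + c h x)
    (hF : ∀ g h x, Ft (g * h) x = Ft g (h • x) + Ft h x + c g (h • x) * c' h x)
    (g r : G) (x x₀ : X) (hrx : r • x₀ = x) (hgx : g • x = x)
    (hcg : c g x = 0) (hc'g : c' g x = 0) :
    Ft (r⁻¹ * g * r) x₀ = Ft g x := by
  have h1 := hF (r⁻¹ * g) r x₀
  have h2 := hF r⁻¹ g x
  have h3 := hc r⁻¹ g x
  have h4 := hF r⁻¹ r x₀
  rw [inv_mul_cancel, S41PS_Ft_one c c' Ft hc hF] at h4
  rw [hrx] at h1 h4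
  rw [hgx] at h2 h3
  rw [h1, h2, h3, hcg, hc'g]
  linear_combination -h4

end calculus

section zmod

/-- A sum over `ZMod n` in terms of a sum over `range n`. -/
lemma S41PS_sum_zmod {M : Type*} [AddCommMonoid M] (n : ℕ) [NeZero n] (h : ℤ → M) :
    ∑ k : ZMod n, h (ZMod.cast k : ℤ) = ∑ i ∈ Finset.range n, h (i : ℤ) := by
  refine Finset.sum_bij (fun k _ => k.val) (fun k _ => Finset.mem_range.mpr (ZMod.val_lt k))
    (fun a _ b _ hab => ZMod.val_injective n hab) (fun i hi => ?_) (fun k _ => ?_)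
  · refine ⟨(i : ZMod n), Finset.mem_univ _, ?_⟩
    exact ZMod.val_natCast_of_lt (Finset.mem_range.mp hi)
  · rw [ZMod.natCast_val]

end zmod

variable {F : Type*} [Field F]

/-- **COMP-1.** The cusp sum of the restriction to `Γ` of a twisted cocycle (relative to two
cocycles vanishing at `T`) is the sum over `X` of its value at `T`. -/
theorem S41PS_cuspSum_eq_sum (Γ : Subgroup SL(2, ℤ)) [Γ.FiniteIndex]
    [Fintype (SL(2, ℤ) ⧸ Γ)]
    (c c' Ft : SL(2, ℤ) → (SL(2, ℤ) ⧸ Γ) → F)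
    (hc : ∀ g h x, c (g * h) x = c g (h • x) + c h x)
    (hc' : ∀ g h x, c' (g * h) x = c' g (h • x) + c' h x)
    (hF : ∀ g h x, Ft (g * h) x = Ft g (h • x) + Ft h x + c g (h • x) * c' h x)
    (hcT : ∀ x, c T x = 0) (hc'T : ∀ x, c' T x = 0)
    (A : Γ → F)
    (hA : ∀ γ : Γ, A γ = Ft (γ : SL(2, ℤ)) ((1 : SL(2, ℤ)) : SL(2, ℤ) ⧸ Γ)) :
    S41P_cuspSum Γ A = ∑ x, Ft T x := by
  classical
  have hfin : Finite (SL(2, ℤ) ⧸ Γ) := Subgroup.finite_quotient_of_finiteIndex
  let _ : Fintype (S41P_Cusps Γ) := Fintype.ofFinite _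
  -- value at a cusp generator
  have hval : ∀ x : SL(2, ℤ) ⧸ Γ, A (S41P_cuspGen Γ x)
      = ∑ i ∈ Finset.range (S41PC_w Γ x), Ft T (T ^ i • x) := by
    intro x
    rw [hA, S41PC_cuspGen_coe, zpow_natCast,
      S41PS_Ft_conj c c' Ft hc hF (T ^ S41PC_w Γ x) (Quotient.out x) x _ ?_
        (S41PC_pow_w_smul Γ x) (S41PS_coc_pow c hc T hcT _ x) (S41PS_coc_pow c' hc' T hc'T _ x),
      S41PS_Ft_pow c c' Ft hc hF T hcT]
    rw [MulAction.Quotient.smul_mk, smul_eq_mul, mul_one]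
    exact QuotientGroup.out_eq' x
  unfold S41P_cuspSum
  rw [finsum_eq_sum_of_fintype]
  -- orbit decomposition
  rw [← Equiv.sum_comp (Subgroup.quotientEquivSigmaZMod Γ (T : SL(2, ℤ))).symm (fun x => Ft T x)]
  rw [Fintype.sum_sigma]
  refine Finset.sum_congr rfl fun O _ => ?_
  rw [hval]
  have hne : NeZero (Function.minimalPeriod (fun y : SL(2, ℤ) ⧸ Γ => T • y) (Quotient.out O)) :=
    ⟨(S41PC_w_pos Γ (Quotient.out O)).ne'⟩
  have := S41PS_sum_zmod (Function.minimalPeriod (fun y : SL(2, ℤ) ⧸ Γ => T • y) (Quotient.out O))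
    (fun k : ℤ => Ft T (T ^ k • Quotient.out O))
  simp only [zpow_natCast] at this
  rw [← this]
  rfl

end Fermat.Agent.S41
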