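import Mathlib
import Fermat.Agent.S41.PDCompSum
import Fermat.Agent.S41.PDForm

/-!
# S41, package PD, slice COMP-2: the cusp sum of a twisted cocycle is half the pairing

* `S41PS_two_mul_sum_eq_omega` : orbit computation
  `2 Σ_x (n x − b x b' x / 2) = ω_e(b, b')` if `n + n∘U + n∘U² = −Q` on the free `U`-orbits;
* `S41PS_Ft_T` : `F̃(T) = F̃(U) − b b'/2` if `F̃(S) = a a'/2`;
* `S41PS_comp` : for the normalised cocycles `c̃ = cocF φ − d m`, `c̃' = cocF φ' − d m'` and a twisted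
  cocycle `F̃` with `F̃(S) = a a'/2`, `F̃(U) = n` as above:
  `2 * S41P_cuspSum Γ (γ ↦ F̃ γ x₀) = PD_form φ φ'`.
-/

set_option autoImplicit false

open Matrix MatrixGroups ModularGroup

namespace Fermat.Agent.S41

open Fermat.Agent.S16 Fermat.Agent.S21

section abstract

variable {F : Type*} [Field F] {G X : Type*} [Group G] [MulAction G X]

/-- Orbit computation. -/
lemma S41PS_two_mul_sum_eq_omega [Fintype X] (h2 : (2 : F) ≠ 0) {U : G}
    (hU3 : ∀ x : X, U • U • U • x = x)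
    {b b' n : X → F} (hb : b ∈ triZeroF F (X := X) U) (hb' : b' ∈ triZeroF F (X := X) U)
    (hn0 : ∀ x, U • x = x → n x = 0)
    (hn : ∀ x, U • x ≠ x → n x + n (U • x) + n (U • U • x)
      = -(b (U • U • x) * b' (U • x) + b (U • U • x) * b' x + b (U • x) * b' x))
    {e : X → F} (he : PD_IsUnity U e) :
    2 * ∑ x, (n x - b x * b' x / 2) = PD_omegaE U e b b' := by
  rw [PD_sum_eq hU3 he, Finset.mul_sum]
  unfold PD_omegaE
  refine Finset.sum_congr rfl fun x _ => ?_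
  rw [symF3_apply]
  rw [mem_triZeroF] at hb hb'
  by_cases hx : U • x = x
  · rw [if_pos hx, hx, hn0 x hx, (hb x).2 hx]
    ring
  · rw [if_neg hx]
    have e1 := (hb x).1
    have e2 := (hb' x).1
    have e3 := hn x hx
    have hb2 : b (U • U • x) = -b x - b (U • x) := by linear_combination e1
    have hb2' : b' (U • U • x) = -b' x - b' (U • x) := by linear_combination e2
    rw [hb2] at e3
    rw [hb2, hb2']
    field_simp
    linear_combination (2 * e x) * e3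

/-- `F̃(T) = F̃(U) − b b'/2`. -/
lemma S41PS_Ft_T (c c' Ft : G → X → F)
    (hc : ∀ g h x, c (g * h) x = c g (h • x) + c h x)
    (hc' : ∀ g h x, c' (g * h) x = c' g (h • x) + c' h x)
    (hF : ∀ g h x, Ft (g * h) x = Ft g (h • x) + Ft h x + c g (h • x) * c' h x)
    {S T : G} (hcT : ∀ x, c T x = 0) (hc'T : ∀ x, c' T x = 0)
    (hS : ∀ x, Ft S x = c S x * c' S x / 2) (x : X) :
    Ft T x = Ft (S * T) x - c (S * T) x * c' (S * T) x / 2 := by
  have h1 := hF S T x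
  have h2 := hc S T x
  have h3 := hc' S T x
  rw [hcT, add_zero] at h2
  rw [hc'T, add_zero] at h3
  rw [hc'T, mul_zero, add_zero, hS] at h1
  rw [h2, h3]
  linear_combination -h1

end abstract

end Fermat.Agent.S41

namespace Fermat.Agent.S41

open Fermat.Agent.S16 Fermat.Agent.S21

section concrete

variable {F : Type*} [Field F] {Γ : Subgroup SL(2, ℤ)}

/-- The normalised cocycle `cocF φ − d m`. -/
noncomputable def S41PS_nc (φ : Additive Γ →+ F) (m : SL(2, ℤ) ⧸ Γ → F) (g : SL(2, ℤ))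
    (x : SL(2, ℤ) ⧸ Γ) : F :=
  cocF φ g x - (m (g • x) - m x)

lemma S41PS_nc_mul (φ : Additive Γ →+ F) (m : SL(2, ℤ) ⧸ Γ → F) (g h : SL(2, ℤ))
    (x : SL(2, ℤ) ⧸ Γ) :
    S41PS_nc φ m (g * h) x = S41PS_nc φ m g (h • x) + S41PS_nc φ m h x := by
  unfold S41PS_nc
  rw [cocF_mul, mul_smul]
  ring

lemma S41PS_nc_T {φ : Additive Γ →+ F} {m : SL(2, ℤ) ⧸ Γ → F} (hm : PD_IsPrim T φ m)
    (x : SL(2, ℤ) ⧸ Γ) : S41PS_nc φ m T x = 0 := by
  unfold S41PS_nc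
  rw [hm x, sub_self]

lemma S41PS_nc_U (φ : Additive Γ →+ F) (m : SL(2, ℤ) ⧸ Γ → F) :
    S41PS_nc φ m (S * T) = PD_nrm (S * T) φ m := rfl

lemma S41PS_nc_base (φ : Additive Γ →+ F) (m : SL(2, ℤ) ⧸ Γ → F) (γ : Γ) :
    S41PS_nc φ m (γ : SL(2, ℤ)) ((1 : SL(2, ℤ)) : SL(2, ℤ) ⧸ Γ) = φ (Additive.ofMul γ) := by
  unfold S41PS_nc
  rw [cocF_base, Fermat.Agent.S21.smul_one_coset, sub_self, sub_zero]

variable [Γ.FiniteIndex]

/-- **COMP.** For a twisted cocycle `Ft` relative to the normalised cocycles of `φ, φ'`, with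
`Ft S = a a'/2` and `Ft U = n`, `n + n∘U + n∘U² = −Q` on the free `U`-orbits, `n = 0` at the
`U`-fixed points, the cusp sum of `γ ↦ Ft γ x₀` is half the pairing `PD_form φ φ'`. -/
theorem S41PS_comp (hneg : (-1 : SL(2, ℤ)) ∈ Γ) (h2 : (2 : F) ≠ 0)
    {φ φ' : Additive Γ →+ F} (hφ : φ ∈ parHomsF F Γ ellPred) (hφ' : φ' ∈ parHomsF F Γ ellPred)
    {m m' : SL(2, ℤ) ⧸ Γ → F} (hm : PD_IsPrim T φ m) (hm' : PD_IsPrim T φ' m')
    (Ft : SL(2, ℤ) → (SL(2, ℤ) ⧸ Γ) → F)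
    (hF : ∀ g h x, Ft (g * h) x
      = Ft g (h • x) + Ft h x + S41PS_nc φ m g (h • x) * S41PS_nc φ' m' h x)
    (hS : ∀ x, Ft S x = S41PS_nc φ m S x * S41PS_nc φ' m' S x / 2)
    (hn0 : ∀ x, (S * T) • x = x → Ft (S * T) x = 0)
    (hn : ∀ x, (S * T) • x ≠ x →
      Ft (S * T) x + Ft (S * T) ((S * T) • x) + Ft (S * T) ((S * T) • (S * T) • x)
        = -(PD_nrm (S * T) φ m ((S * T) • (S * T) • x) * PD_nrm (S * T) φ' m' ((S * T) • x)
          + PD_nrm (S * T) φ m ((S * T) • (S * T) • x) * PD_nrm (S * T) φ' m' x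
          + PD_nrm (S * T) φ m ((S * T) • x) * PD_nrm (S * T) φ' m' x))
    (A : Γ → F)
    (hA : ∀ γ : Γ, A γ = Ft (γ : SL(2, ℤ)) ((1 : SL(2, ℤ)) : SL(2, ℤ) ⧸ Γ)) :
    2 * S41P_cuspSum Γ A = PD_form φ φ' := by
  classical
  have hfin : Finite (SL(2, ℤ) ⧸ Γ) := Subgroup.finite_quotient_of_finiteIndex
  let _ : Fintype (SL(2, ℤ) ⧸ Γ) := Fintype.ofFinite _
  rw [S41PS_cuspSum_eq_sum Γ (S41PS_nc φ m) (S41PS_nc φ' m') Ft (S41PS_nc_mul φ m)
    (S41PS_nc_mul φ' m') hF (S41PS_nc_T hm) (S41PS_nc_T hm') A hA]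
  have hT : ∀ x, Ft T x = Ft (S * T) x
      - PD_nrm (S * T) φ m x * PD_nrm (S * T) φ' m' x / 2 := fun x =>
    S41PS_Ft_T (S41PS_nc φ m) (S41PS_nc φ' m') Ft (S41PS_nc_mul φ m) (S41PS_nc_mul φ' m') hF
      (S41PS_nc_T hm) (S41PS_nc_T hm') hS x
  simp_rw [hT]
  have hb : PD_nrm (S * T) φ m ∈ triZeroF F (X := SL(2, ℤ) ⧸ Γ) (S * T) :=
    (PD_nrm_mem ellPred_conj hφ rfl (PD_hS2 hneg) (PD_hU3 hneg) PD_ellPred_SS PD_ellPred_UUU
      ellPred_S ellPred_ST hm).2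
  have hb' : PD_nrm (S * T) φ' m' ∈ triZeroF F (X := SL(2, ℤ) ⧸ Γ) (S * T) :=
    (PD_nrm_mem ellPred_conj hφ' rfl (PD_hS2 hneg) (PD_hU3 hneg) PD_ellPred_SS PD_ellPred_UUU
      ellPred_S ellPred_ST hm').2
  rw [S41PS_two_mul_sum_eq_omega h2 (PD_hU3 hneg) hb hb' hn0 hn (PD_e_spec (F := F) hneg)]
  exact (PD_form_eq hneg hφ hφ' (PD_e_spec hneg) hm hm').symm

end concrete

end Fermat.Agent.S41
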