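import Mathlib
import Fermat.Agent.S41.PDCompOmega
import Fermat.Agent.S41.PDEll

/-!
# S41, package PD, slice ADM: admissibility of the restriction of a twisted cocycle

`S41PS_adm`: for a twisted cocycle `Ft` relative to the normalised cocycles of `φ, φ'`
(`φ, φ' ∈ parHomsF F Γ ellPred`) with `Ft (-1) = 0` and `Ft (S*T) x = 0` at the fixed points of
`S * T`, the cochain `A γ := Ft γ x₀` is admissible (`S41P_Adm Γ φ φ' A`).
-/

set_option autoImplicit false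

open Matrix MatrixGroups ModularGroup

namespace Fermat.Agent.S41

open Fermat.Agent.S16 Fermat.Agent.S21

section matrices

/-- A matrix of trace `0` in `SL(2, ℤ)` has square `-1`. -/
lemma S41PS_sq_of_trace_zero (γ : SL(2, ℤ))
    (h : (γ : Matrix (Fin 2) (Fin 2) ℤ).trace = 0) : γ * γ = -1 := by
  have hdet := S41PC_det γ
  rw [Matrix.trace_fin_two] at h
  have h11 : γ 1 1 = -γ 0 0 := by linarith
  apply Subtype.ext
  rw [Matrix.SpecialLinearGroup.coe_mul, Matrix.SpecialLinearGroup.coe_neg,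
    Matrix.SpecialLinearGroup.coe_one]
  ext i j
  fin_cases i <;> fin_cases j <;>
    simp only [Matrix.mul_apply, Fin.sum_univ_two, Matrix.neg_apply, Matrix.one_apply_eq,
      Matrix.one_apply_ne, ne_eq, zero_ne_one, one_ne_zero, not_false_eq_true, neg_zero,
      Fin.zero_eta, Fin.mk_one, Fin.isValue]
  · rw [h11] at hdet; linear_combination -hdet
  · rw [h11]; ring
  · rw [h11]; ring
  · rw [h11] at hdet ⊢; linear_combination -hdet

lemma S41PS_trace_cases (t : ℤ) (h : t ^ 2 < 4) : t = 0 ∨ t ^ 2 = 1 := by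
  have h1 : -2 < t := by nlinarith
  have h2 : t < 2 := by nlinarith
  have h3 : t = -1 ∨ t = 0 ∨ t = 1 := by omega
  rcases h3 with rfl | rfl | rfl
  · right; norm_num
  · left; rfl
  · right; norm_num

lemma S41PS_neg_one_zpow (k : ℤ) :
    ((-1 : SL(2, ℤ)) ^ k = 1) ∨ ((-1 : SL(2, ℤ)) ^ k = -1) := by
  have h2 : ((-1 : SL(2, ℤ)) ^ (2 : ℤ)) = 1 := by
    rw [show (2 : ℤ) = ((2 : ℕ) : ℤ) from rfl, zpow_natCast, pow_two]
    simp
  rcases Int.even_or_odd' k with ⟨l, rfl | rfl⟩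
  · left
    rw [_root_.zpow_mul, h2, _root_.one_zpow]
  · right
    rw [_root_.zpow_add, _root_.zpow_mul, h2, _root_.one_zpow, one_mul, zpow_one]

lemma S41PS_U_cube : ((S * T : SL(2, ℤ)) ^ (3 : ℤ)) = -1 := by
  rw [show (3 : ℤ) = ((3 : ℕ) : ℤ) from rfl, zpow_natCast, pow_succ, pow_two]
  exact Fermat.Agent.S21.ST_cube_eq_neg_one

end matrices

section fixed

variable {F : Type*} [Field F] {G X : Type*} [Group G] [MulAction G X]

/-- At a fixed point `x` of `u` where `c u`, `c' u` and `Ft u` vanish, `c`, `c'` and `Ft`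
vanish at all natural powers of `u`. -/
lemma S41PS_fixed_pow (c c' Ft : G → X → F)
    (hc : ∀ g h x, c (g * h) x = c g (h • x) + c h x)
    (hc' : ∀ g h x, c' (g * h) x = c' g (h • x) + c' h x)
    (hF : ∀ g h x, Ft (g * h) x = Ft g (h • x) + Ft h x + c g (h • x) * c' h x)
    (u : G) (x : X) (hx : u • x = x) (hcu : c u x = 0) (hc'u : c' u x = 0) (hFu : Ft u x = 0)
    (k : ℕ) : c (u ^ k) x = 0 ∧ c' (u ^ k) x = 0 ∧ Ft (u ^ k) x = 0 := by
  induction k with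
  | zero =>
    rw [pow_zero]
    exact ⟨S41PS_coc_one c hc x, S41PS_coc_one c' hc' x, S41PS_Ft_one c c' Ft hc hF x⟩
  | succ k ih =>
    obtain ⟨h1, h2, h3⟩ := ih
    rw [pow_succ]
    refine ⟨?_, ?_, ?_⟩
    · rw [hc, hx, h1, hcu, add_zero]
    · rw [hc', hx, h2, hc'u, add_zero]
    · rw [hF, hx, h3, hFu, hc'u, mul_zero, add_zero, add_zero]

/-- Same for the inverse. -/
lemma S41PS_fixed_inv (c c' Ft : G → X → F)
    (hc : ∀ g h x, c (g * h) x = c g (h • x) + c h x)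
    (hc' : ∀ g h x, c' (g * h) x = c' g (h • x) + c' h x)
    (hF : ∀ g h x, Ft (g * h) x = Ft g (h • x) + Ft h x + c g (h • x) * c' h x)
    (u : G) (x : X) (hx : u • x = x) (hcu : c u x = 0) (hc'u : c' u x = 0) (hFu : Ft u x = 0) :
    c u⁻¹ x = 0 ∧ c' u⁻¹ x = 0 ∧ Ft u⁻¹ x = 0 := by
  have h1 := hc u⁻¹ u x
  have h2 := hc' u⁻¹ u x
  have h3 := hF u⁻¹ u x
  rw [inv_mul_cancel, S41PS_coc_one c hc, hx, hcu, add_zero] at h1
  rw [inv_mul_cancel, S41PS_coc_one c' hc', hx, hc'u, add_zero] at h2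
  rw [inv_mul_cancel, S41PS_Ft_one c c' Ft hc hF, hx, hFu, hc'u, mul_zero, add_zero,
    add_zero] at h3
  exact ⟨h1.symm, h2.symm, h3.symm⟩

/-- Same for all integral powers. -/
lemma S41PS_fixed_zpow (c c' Ft : G → X → F)
    (hc : ∀ g h x, c (g * h) x = c g (h • x) + c h x)
    (hc' : ∀ g h x, c' (g * h) x = c' g (h • x) + c' h x)
    (hF : ∀ g h x, Ft (g * h) x = Ft g (h • x) + Ft h x + c g (h • x) * c' h x)
    (u : G) (x : X) (hx : u • x = x) (hcu : c u x = 0) (hc'u : c' u x = 0) (hFu : Ft u x = 0)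
    (j : ℤ) : c (u ^ j) x = 0 ∧ c' (u ^ j) x = 0 ∧ Ft (u ^ j) x = 0 := by
  rcases Int.eq_nat_or_neg j with ⟨k, rfl | rfl⟩
  · rw [zpow_natCast]
    exact S41PS_fixed_pow c c' Ft hc hc' hF u x hx hcu hc'u hFu k
  · rw [_root_.zpow_neg, zpow_natCast]
    obtain ⟨h1, h2, h3⟩ := S41PS_fixed_pow c c' Ft hc hc' hF u x hx hcu hc'u hFu k
    have hxk : u ^ k • x = x := by
      clear h1 h2 h3
      induction k with
      | zero => rw [pow_zero, one_smul]
      | succ k ih => rw [pow_succ, mul_smul, hx, ih]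
    exact S41PS_fixed_inv c c' Ft hc hc' hF (u ^ k) x hxk h1 h2 h3

end fixed

section adm

variable {F : Type*} [Field F] {Γ : Subgroup SL(2, ℤ)}

/-- A point fixed by a power of `U = S * T` of trace `±1` is fixed by `U`. -/
lemma S41PS_fixed_of_zpow (hneg : (-1 : SL(2, ℤ)) ∈ Γ) (x : SL(2, ℤ) ⧸ Γ) (j : ℤ)
    (hj : (S * T : SL(2, ℤ)) ^ j • x = x)
    (htr : (((S * T : SL(2, ℤ)) ^ j : SL(2, ℤ)) : Matrix (Fin 2) (Fin 2) ℤ).trace ^ 2 = 1) :
    (S * T : SL(2, ℤ)) • x = x := by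
  have h3 : (S * T : SL(2, ℤ)) ^ (3 : ℤ) • x = x := by
    rw [S41PS_U_cube]
    exact PD_neg_one_smul hneg x
  rw [MulAction.zpow_smul_eq_iff_minimalPeriod_dvd] at hj h3
  have hd : Function.minimalPeriod (fun y : SL(2, ℤ) ⧸ Γ => (S * T : SL(2, ℤ)) • y) x ∣ 3 := by
    exact_mod_cast h3
  rcases (Nat.dvd_prime Nat.prime_three).mp hd with h1 | h1
  · have := Function.isPeriodicPt_minimalPeriod
      (fun y : SL(2, ℤ) ⧸ Γ => (S * T : SL(2, ℤ)) • y) x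
    rw [h1] at this
    exact this
  · exfalso
    rw [h1] at hj
    obtain ⟨k, rfl⟩ := hj
    rw [show ((3 : ℕ) : ℤ) = 3 from rfl, _root_.zpow_mul, S41PS_U_cube] at htr
    rcases S41PS_neg_one_zpow k with h | h
    · rw [h] at htr
      simp at htr
    · rw [h] at htr
      simp at htr

/-- **ADM.** The restriction to `Γ` (at the base point) of a twisted cocycle is admissible. -/
theorem S41PS_adm (hneg : (-1 : SL(2, ℤ)) ∈ Γ) (h2 : (2 : F) ≠ 0)
    {φ φ' : Additive Γ →+ F} (hφ : φ ∈ parHomsF F Γ ellPred) (hφ' : φ' ∈ parHomsF F Γ ellPred)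
    {m m' : SL(2, ℤ) ⧸ Γ → F} (hm : PD_IsPrim T φ m) (hm' : PD_IsPrim T φ' m')
    (Ft : SL(2, ℤ) → (SL(2, ℤ) ⧸ Γ) → F)
    (hF : ∀ g h x, Ft (g * h) x
      = Ft g (h • x) + Ft h x + S41PS_nc φ m g (h • x) * S41PS_nc φ' m' h x)
    (hn0 : ∀ x, (S * T) • x = x → Ft (S * T) x = 0)
    (hneg1 : ∀ x, Ft (-1) x = 0)
    (A : Γ → F)
    (hA : ∀ γ : Γ, A γ = Ft (γ : SL(2, ℤ)) ((1 : SL(2, ℤ)) : SL(2, ℤ) ⧸ Γ)) :
    S41P_Adm Γ φ φ' A := by
  have hmul : ∀ γ₁ γ₂ : Γ, A (γ₁ * γ₂)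
      = A γ₁ + A γ₂ + φ (Additive.ofMul γ₁) * φ' (Additive.ofMul γ₂) := by
    intro γ₁ γ₂
    rw [hA, hA, hA, Subgroup.coe_mul, hF, Fermat.Agent.S21.smul_one_coset, S41PS_nc_base,
      S41PS_nc_base]
  have hm1 : ∀ γ : Γ, (γ : SL(2, ℤ)) = -1 → A γ = 0 := by
    intro γ hγ
    rw [hA, hγ, hneg1]
  have hb : PD_nrm (S * T) φ m ∈ triZeroF F (X := SL(2, ℤ) ⧸ Γ) (S * T) :=
    (PD_nrm_mem ellPred_conj hφ rfl (PD_hS2 hneg) (PD_hU3 hneg) PD_ellPred_SS PD_ellPred_UUU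
      ellPred_S ellPred_ST hm).2
  have hb' : PD_nrm (S * T) φ' m' ∈ triZeroF F (X := SL(2, ℤ) ⧸ Γ) (S * T) :=
    (PD_nrm_mem ellPred_conj hφ' rfl (PD_hS2 hneg) (PD_hU3 hneg) PD_ellPred_SS PD_ellPred_UUU
      ellPred_S ellPred_ST hm').2
  rw [mem_triZeroF] at hb hb'
  refine ⟨hmul, ?_, hm1⟩
  intro γ hγ
  have hell : ellPred (γ : SL(2, ℤ)) := by
    unfold ellPred
    exact le_of_lt hγ
  rcases S41PS_trace_cases _ hγ with h0 | h1
  · -- trace `0`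
    have hsq : γ * γ = ⟨-1, hneg⟩ := by
      apply Subtype.ext
      rw [Subgroup.coe_mul]
      exact S41PS_sq_of_trace_zero _ h0
    have e1 := hmul γ γ
    rw [hsq, hm1 ⟨-1, hneg⟩ rfl, hφ γ hell, zero_mul, add_zero] at e1
    have e2 : 2 * A γ = 0 := by linear_combination -e1
    rcases mul_eq_zero.mp e2 with h | h
    · exact absurd h h2
    · exact h
  · -- trace `±1`
    obtain ⟨g, j, hgj⟩ := PDL_conj_U (γ : SL(2, ℤ)) h1
    set x : SL(2, ℤ) ⧸ Γ := (g : SL(2, ℤ) ⧸ Γ) with hx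
    have hfixj : (S * T : SL(2, ℤ)) ^ j • x = x := by
      rw [hx, S41PC_smul_mk_iff, ← hgj]
      exact γ.2
    have htrj : (((S * T : SL(2, ℤ)) ^ j : SL(2, ℤ)) : Matrix (Fin 2) (Fin 2) ℤ).trace ^ 2
        = 1 := by
      rw [← S41PC_trace_conj g, ← hgj]
      exact h1
    have hfix : (S * T : SL(2, ℤ)) • x = x := S41PS_fixed_of_zpow hneg x j hfixj htrj
    obtain ⟨k1, k2, k3⟩ := S41PS_fixed_zpow (S41PS_nc φ m) (S41PS_nc φ' m') Ft
      (S41PS_nc_mul φ m) (S41PS_nc_mul φ' m') hF (S * T) x hfix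
      ((hb x).2 hfix) ((hb' x).2 hfix) (hn0 x hfix) j
    rw [hA, hgj, S41PS_Ft_conj (S41PS_nc φ m) (S41PS_nc φ' m') Ft (S41PS_nc_mul φ m) hF
      ((S * T) ^ j) g x _ ?_ hfixj k1 k2, k3]
    rw [MulAction.Quotient.smul_mk, smul_eq_mul, mul_one]

end adm

end Fermat.Agent.S41
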