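import Mathlib
import Fermat.Agent.S41.PDDual
import Fermat.Agent.S41.PDAdjWire
import Fermat.Agent.S41.PDAdjB
import Fermat.Agent.S41.DegPoly

/-!
# S41, package PD, piece (P5) DUAL: the concrete statement on `parInt`

`L = parInt N`, `L' = parInt (N q)`, pairings `S41PA_pair N p`, `S41PA_pair (N q) p` (helper5),
`α, β, trA, trB = S41D_alpha, S41D_beta, S41D_trA, S41D_trB`, Hecke action `S41D_rho N q`.

* `S41PD_selfadj_sub_C` : if `ρ(X_ℓ)` is self-adjoint, so is `ρ(X_ℓ - C a)`.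
* `S41PD_dual_general` : Ihara in annihilator form for a self-adjoint `ρ r` ⇒ dual Ihara for `r`
  (inputs: (ADJ-β) and the self-adjointness of `ρ r` as hypotheses; (ADJ-α) and the
  nondegeneracy mod `p` are `S41PA_adjA`, `S41PA_pair_nondeg`).
* `S41PD_hDual_of_hIh` : the same in the `∃ r, θ r ≠ 0 ∧ …` shape of `S41G_main'`, for
  `r = X_ℓ - C a`.
* `S41PD_hDual` : the same with (ADJ-β) and the self-adjointness of `T_ℓ` (`ℓ ∤ N`) supplied by
  helper5's `S41PA_adjB`, `S41PA_rho_selfadj`; the only hypothesis left is the conjugation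
  invariance `S41PA_ConjInv (ZMod p)` of the Poincaré pairing.
-/

set_option autoImplicit false

open Matrix MatrixGroups CongruenceSubgroup Matrix.SpecialLinearGroup
open ModularCurve ModularCurve.Period

namespace Fermat.Agent.S41

open Fermat.Agent.S16 Fermat.Agent.GalRep

variable (N q p : ℕ) [NeZero N] [Fact q.Prime] [Fact p.Prime]

omit [Fact q.Prime] in
/-- if `ρ t` is self-adjoint then so is `ρ (t - C a)`. -/
theorem S41PD_selfadj_sub_C (t : S41D_R q) (a : ℤ)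
    (hT : ∀ x y : ↥(parInt N), S41PA_pair N p (S41D_rho N q t x) y
      = S41PA_pair N p x (S41D_rho N q t y)) (x y : ↥(parInt N)) :
    S41PA_pair N p (S41D_rho N q (t - MvPolynomial.C a) x) y
      = S41PA_pair N p x (S41D_rho N q (t - MvPolynomial.C a) y) := by
  have e : ∀ z : ↥(parInt N),
      S41D_rho N q (t - MvPolynomial.C a) z = S41D_rho N q t z - a • z := by
    intro z
    rw [map_sub, S41D_rho_C]
    rfl
  have h1 : S41PA_pair N p (S41D_rho N q t x - a • x) y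
      = S41PA_pair N p (S41D_rho N q t x) y - a • S41PA_pair N p x y := by
    have e1 : S41PA_pair N p (S41D_rho N q t x - a • x)
        = S41PA_pair N p (S41D_rho N q t x) - S41PA_pair N p (a • x) :=
      (S41PA_pair N p).map_sub _ _
    have e2 : S41PA_pair N p (a • x) = a • S41PA_pair N p x := (S41PA_pair N p).map_zsmul a x
    have e3 := congrArg (fun f : ↥(parInt N) →+ ZMod p => f y) e1
    have e4 := congrArg (fun f : ↥(parInt N) →+ ZMod p => f y) e2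
    exact e3.trans (congrArg (fun z : ZMod p => S41PA_pair N p (S41D_rho N q t x) y - z) e4)
  have h2 : S41PA_pair N p x (S41D_rho N q t y - a • y)
      = S41PA_pair N p x (S41D_rho N q t y) - a • S41PA_pair N p x y :=
    ((S41PA_pair N p x).map_sub _ _).trans
      (congrArg (fun z : ZMod p => S41PA_pair N p x (S41D_rho N q t y) - z)
        ((S41PA_pair N p x).map_zsmul a y))
  exact (congrArg (fun z => S41PA_pair N p z y) (e x)).trans
    (h1.trans ((congrArg (fun z : ZMod p => z - a • S41PA_pair N p x y) (hT x y)).trans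
      (h2.symm.trans (congrArg (fun z => S41PA_pair N p x z) (e y)).symm)))

/-- **(P5) DUAL on `parInt`, general self-adjoint `r`.** -/
theorem S41PD_dual_general (hp2 : p ≠ 2) (r : S41D_R q)
    (hadjB : ∀ (x : ↥(parInt N)) (y : ↥(parInt (N * q))),
      S41PA_pair (N * q) p (S41D_beta N q x) y = S41PA_pair N p x (S41D_trB N q y))
    (hr : ∀ x y : ↥(parInt N), S41PA_pair N p (S41D_rho N q r x) y
      = S41PA_pair N p x (S41D_rho N q r y))
    (hIh : ∀ v₁ v₂ : ↥(parInt N),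
      (∃ w, S41D_alpha N q v₁ + S41D_beta N q v₂ = (p : ℤ) • w) →
        (∃ w₁, S41D_rho N q r v₁ = (p : ℤ) • w₁) ∧ (∃ w₂, S41D_rho N q r v₂ = (p : ℤ) • w₂)) :
    ∀ w₁ w₂ : ↥(parInt N), ∃ (y : ↥(parInt (N * q))) (z₁ z₂ : ↥(parInt N)),
      S41D_rho N q r w₁ - S41D_trA N q y = (p : ℤ) • z₁ ∧
      S41D_rho N q r w₂ - S41D_trB N q y = (p : ℤ) • z₂ := by
  have hq0 : NeZero q := ⟨(Fact.out : q.Prime).ne_zero⟩
  have hfin : Module.Finite ℤ ↥(parInt N) := finite_parInt N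
  exact S41PD_dual_abstract p (S41PA_pair N p) (S41PA_pair (N * q) p)
    (S41PA_pair_nondeg N p hp2) (S41PA_pair_nondeg (N * q) p hp2)
    (S41D_alpha N q) (S41D_beta N q) (S41D_trA N q) (S41D_trB N q) (S41D_rho N q r)
    (S41PA_adjA N q p) hadjB hr hIh

/-- **(P5) DUAL in the shape of `S41G_main'`**: `hIh` with `r = X_ℓ - C a` gives `hDual`. -/
theorem S41PD_hDual_of_hIh (hp2 : p ≠ 2) {k : Type*} [Field k] (θ : S41D_R q →+* k)
    (hadjB : ∀ (x : ↥(parInt N)) (y : ↥(parInt (N * q))),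
      S41PA_pair (N * q) p (S41D_beta N q x) y = S41PA_pair N p x (S41D_trB N q y))
    (ℓ : {ℓ : Nat.Primes // (ℓ : ℕ) ≠ q}) (a : ℤ)
    (hT : ∀ x y : ↥(parInt N), S41PA_pair N p (S41D_rho N q (MvPolynomial.X ℓ) x) y
      = S41PA_pair N p x (S41D_rho N q (MvPolynomial.X ℓ) y))
    (hθ : θ (MvPolynomial.X ℓ - MvPolynomial.C a) ≠ 0)
    (hIh : ∀ v₁ v₂ : ↥(parInt N),
      (∃ w, S41D_alpha N q v₁ + S41D_beta N q v₂ = (p : ℤ) • w) →
        (∃ w₁, S41D_rho N q (MvPolynomial.X ℓ - MvPolynomial.C a) v₁ = (p : ℤ) • w₁) ∧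
        (∃ w₂, S41D_rho N q (MvPolynomial.X ℓ - MvPolynomial.C a) v₂ = (p : ℤ) • w₂)) :
    ∃ r' : S41D_R q, θ r' ≠ 0 ∧ ∀ w₁ w₂ : ↥(parInt N),
      ∃ (y : ↥(parInt (N * q))) (z₁ z₂ : ↥(parInt N)),
        S41D_rho N q r' w₁ - S41D_trA N q y = (p : ℤ) • z₁ ∧
        S41D_rho N q r' w₂ - S41D_trB N q y = (p : ℤ) • z₂ :=
  ⟨MvPolynomial.X ℓ - MvPolynomial.C a, hθ,
    S41PD_dual_general N q p hp2 _ hadjB (S41PD_selfadj_sub_C N q p _ a hT) hIh⟩

/-- **(P5) DUAL, final form**: for a prime `ℓ ∤ N`, `ℓ ≠ q`, Ihara's lemma in annihilator form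
for `r = X_ℓ - C a` implies the dual statement `hDual` of `S41G_main'` / `S41T_S41_of`, given the
conjugation invariance of the Poincaré pairing. -/
theorem S41PD_hDual (hp2 : p ≠ 2) (hconj : S41PA_ConjInv (ZMod p))
    {k : Type*} [Field k] (θ : S41D_R q →+* k)
    (ℓ : {ℓ : Nat.Primes // (ℓ : ℕ) ≠ q}) (hℓN : ¬ ((ℓ.1 : ℕ) ∣ N)) (a : ℤ)
    (hθ : θ (MvPolynomial.X ℓ - MvPolynomial.C a) ≠ 0)
    (hIh : ∀ v₁ v₂ : ↥(parInt N),
      (∃ w, S41D_alpha N q v₁ + S41D_beta N q v₂ = (p : ℤ) • w) →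
        (∃ w₁, S41D_rho N q (MvPolynomial.X ℓ - MvPolynomial.C a) v₁ = (p : ℤ) • w₁) ∧
        (∃ w₂, S41D_rho N q (MvPolynomial.X ℓ - MvPolynomial.C a) v₂ = (p : ℤ) • w₂)) :
    ∃ r' : S41D_R q, θ r' ≠ 0 ∧ ∀ w₁ w₂ : ↥(parInt N),
      ∃ (y : ↥(parInt (N * q))) (z₁ z₂ : ↥(parInt N)),
        S41D_rho N q r' w₁ - S41D_trA N q y = (p : ℤ) • z₁ ∧
        S41D_rho N q r' w₂ - S41D_trB N q y = (p : ℤ) • z₂ := by
  have hq0 : NeZero q := ⟨(Fact.out : q.Prime).ne_zero⟩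
  exact ⟨MvPolynomial.X ℓ - MvPolynomial.C a, hθ,
    S41PD_dual_general N q p hp2 _ (S41PA_adjB N q p hconj)
      (S41PA_rho_selfadj N q p hconj ℓ hℓN a) hIh⟩

end Fermat.Agent.S41
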