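import Mathlib
import Fermat.Agent.S41.PDEll

/-!
# S41, package PD: parabolic elements of `SL(2, ℤ)`  (inputs of CUSP)

* `PDQ_par`: a parabolic element `t` (`tr t = 2`, `t ≠ 1`) with `0 ≤ t 0 1`, `t 1 0 ≤ 0`
  is `g⁻¹ T^m g` with `m > 0`.
* `PDQ_par'`: a parabolic element is `g⁻¹ T^m g` with `m ≠ 0` (`m : ℤ`).
* `PDQ_cent`: `h T^w = T^w' h`, `w ≠ 0` forces `h 1 0 = 0`, `w = w'`, and `h = T^a` or `h = -T^a`.
-/

set_option autoImplicit false

open Matrix MatrixGroups ModularGroup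

namespace Fermat.Agent.S41

section PDPar

/-- `γ` is conjugate to a positive power of `T`. -/
def PDQ_P (γ : SL(2, ℤ)) : Prop :=
  ∃ (g : SL(2, ℤ)) (m : ℕ), 0 < m ∧ γ = g⁻¹ * T ^ m * g

lemma PDQ_P_of_conj (γ h : SL(2, ℤ)) (hP : PDQ_P (h⁻¹ * γ * h)) : PDQ_P γ := by
  obtain ⟨g, j, hj, hg⟩ := hP
  refine ⟨g * h⁻¹, j, hj, ?_⟩
  have : γ = h * (h⁻¹ * γ * h) * h⁻¹ := by group
  rw [this, hg]
  group

/-- entries of `T^(-n) γ T^n`, upper right entry included -/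
lemma PDQ_conjT01 (γ : SL(2, ℤ)) (n : ℤ) :
    ((T ^ n)⁻¹ * γ * T ^ n) 0 1 = γ 0 1 + n * (γ 0 0 - γ 1 1) - n * n * γ 1 0 := by
  rw [← _root_.zpow_neg]
  simp [Matrix.SpecialLinearGroup.coe_mul, coe_T_zpow, Matrix.mul_apply, Fin.sum_univ_two,
    Matrix.vecMul, dotProduct]
  ring

lemma PDQ_conjS01 (γ : SL(2, ℤ)) : (S⁻¹ * γ * S) 0 1 = - γ 1 0 := by
  simp [Matrix.SpecialLinearGroup.coe_mul, coe_S, Matrix.SpecialLinearGroup.coe_inv,
    Matrix.adjugate_fin_two, Matrix.mul_apply, Fin.sum_univ_two, Matrix.vecMul, dotProduct]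

theorem PDQ_aux : ∀ n : ℕ, ∀ γ : SL(2, ℤ), γ 0 0 + γ 1 1 = 2 → γ ≠ 1 → 0 ≤ γ 0 1 → γ 1 0 ≤ 0 →
    (γ 1 0).natAbs = n → PDQ_P γ := by
  intro n
  induction n using Nat.strong_induction_on with
  | _ n ih =>
    intro γ htr hne hb hc hn
    have hdet := PDL_det γ
    rcases Nat.eq_zero_or_pos n with hn0 | hnpos
    · -- c = 0
      subst hn0
      have hc0 : γ 1 0 = 0 := Int.natAbs_eq_zero.mp hn
      rw [hc0] at hdet
      have had : γ 0 0 * γ 1 1 = 1 := by linarith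
      have ha : γ 0 0 = 1 := by nlinarith [sq_nonneg (γ 0 0 - γ 1 1), sq_nonneg (γ 0 0 - 1)]
      have hd : γ 1 1 = 1 := by linarith
      have hb0 : γ 0 1 ≠ 0 := by
        intro hb0
        apply hne
        apply PDL_ext <;> simp [ha, hb0, hc0, hd]
      have hbpos : 0 < γ 0 1 := lt_of_le_of_ne hb (Ne.symm hb0)
      refine ⟨1, (γ 0 1).toNat, by omega, ?_⟩
      have hT : (T ^ (γ 0 1).toNat : SL(2, ℤ)) = T ^ (γ 0 1) := by
        rw [← zpow_natCast, Int.toNat_of_nonneg hb]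
      rw [hT]
      apply PDL_ext <;>
        simp [coe_T_zpow, ha, hc0, hd]
    · -- descent
      have hc0 : γ 1 0 ≠ 0 := by
        intro h
        rw [h] at hn
        simp at hn
        omega
      have hcneg : γ 1 0 < 0 := lt_of_le_of_ne hc hc0
      obtain ⟨n₀, hn₀⟩ := PDL_round (γ 0 0 - γ 1 1) (γ 1 0) hc0
      apply PDQ_P_of_conj γ (T ^ n₀)
      obtain ⟨h00, h10, h11⟩ := PDL_conjT γ n₀
      set γ' := (T ^ n₀)⁻¹ * γ * T ^ n₀ with hγ'
      have hdet' := PDL_det γ'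
      have htr' : γ' 0 0 + γ' 1 1 = 2 := by
        rw [h00, h11]; linarith
      have he : (γ' 0 0 - γ' 1 1) ^ 2 ≤ (γ' 1 0) ^ 2 := by
        rw [h00, h11, h10]
        have : γ 0 0 - n₀ * γ 1 0 - (γ 1 1 + n₀ * γ 1 0) = γ 0 0 - γ 1 1 - 2 * n₀ * γ 1 0 := by
          ring
        rw [this]; exact hn₀
      have hne' : γ' ≠ 1 := by
        intro h
        apply hne
        have : γ = T ^ n₀ * γ' * (T ^ n₀)⁻¹ := by rw [hγ']; group
        rw [this, h]; group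
      have key : 4 * (γ' 0 1 * γ' 1 0) = -((γ' 0 0 - γ' 1 1) ^ 2) := by
        nlinarith
      have hc' : γ' 1 0 < 0 := by rw [h10]; exact hcneg
      have hb' : 0 ≤ γ' 0 1 := by
        by_contra hcon
        have hcon' := not_le.mp hcon
        nlinarith [mul_pos_of_neg_of_neg hcon' hc', sq_nonneg (γ' 0 0 - γ' 1 1)]
      apply PDQ_P_of_conj γ' S
      obtain ⟨k00, k10, k11⟩ := PDL_conjS γ'
      have k01 := PDQ_conjS01 γ'
      apply ih (γ' 0 1).natAbs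
      · -- |b'| < |c|
        rw [← hn, ← h10]
        apply Int.natAbs_lt_iff_sq_lt.mpr
        by_contra hcon0
        have hcon := not_lt.mp hcon0
        have h1 : -γ' 1 0 ≤ γ' 0 1 := by
          have := abs_le_of_sq_le_sq' hcon hb'
          linarith [this.1, this.2]
        nlinarith [sq_nonneg (γ' 0 0 - γ' 1 1), sq_nonneg (γ' 0 1), sq_nonneg (γ' 1 0),
          mul_pos_of_neg_of_neg hc' hc']
      · rw [k00, k11, add_comm]; exact htr'
      · intro h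
        apply hne'
        have : γ' = S * (S⁻¹ * γ' * S) * S⁻¹ := by group
        rw [this, h]; group
      · rw [k01]; linarith
      · rw [k10]; linarith
      · rw [k10, Int.natAbs_neg]

/-- **(P)** A positive parabolic element of `SL(2, ℤ)` is conjugate to a positive power of `T`. -/
theorem PDQ_par (t : SL(2, ℤ)) (htr : (t : Matrix (Fin 2) (Fin 2) ℤ).trace = 2) (hne : t ≠ 1)
    (hb : 0 ≤ t 0 1) (hc : t 1 0 ≤ 0) :
    ∃ (g : SL(2, ℤ)) (m : ℕ), 0 < m ∧ t = g⁻¹ * T ^ m * g := by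
  rw [Matrix.trace_fin_two] at htr
  exact PDQ_aux _ t htr hne hb hc rfl

lemma PDQ_Tz_entries (w : ℤ) : (T ^ w : SL(2, ℤ)) 0 0 = 1 ∧ (T ^ w : SL(2, ℤ)) 0 1 = w ∧
    (T ^ w : SL(2, ℤ)) 1 0 = 0 ∧ (T ^ w : SL(2, ℤ)) 1 1 = 1 := by
  simp [coe_T_zpow]

/-- **(CENT)** If `h T^w = T^w' h` with `w ≠ 0`, then `h` is upper triangular, `w = w'` and
`h = ± T^a`. -/
theorem PDQ_cent (h : SL(2, ℤ)) (w w' : ℤ) (hw : w ≠ 0) (hcomm : h * T ^ w = T ^ w' * h) :
    h 1 0 = 0 ∧ w = w' ∧ ∃ a : ℤ, h = T ^ a ∨ h = -T ^ a := by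
  obtain ⟨a00, a01, a10, a11⟩ := PDQ_Tz_entries w
  obtain ⟨b00, b01, b10, b11⟩ := PDQ_Tz_entries w'
  have e11 : (h * T ^ w) 1 1 = (T ^ w' * h) 1 1 := by rw [hcomm]
  have e01 : (h * T ^ w) 0 1 = (T ^ w' * h) 0 1 := by rw [hcomm]
  rw [PDL_mul_apply, PDL_mul_apply, a01, a11, b10, b11] at e11
  rw [PDL_mul_apply, PDL_mul_apply, a01, a11, b00, b01] at e01
  have hc : h 1 0 = 0 := by
    have : h 1 0 * w = 0 := by linarith
    rcases mul_eq_zero.mp this with h0 | h0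
    · exact h0
    · exact absurd h0 hw
  have hdet := PDL_det h
  rw [hc] at hdet
  have had : h 0 0 * h 1 1 = 1 := by linarith
  have hcases : (h 0 0 = 1 ∧ h 1 1 = 1) ∨ (h 0 0 = -1 ∧ h 1 1 = -1) :=
    Int.mul_eq_one_iff_eq_one_or_neg_one.mp had
  refine ⟨hc, ?_, ?_⟩
  · rcases hcases with ⟨h0, h1⟩ | ⟨h0, h1⟩
    · rw [h0, h1] at e01; linarith
    · rw [h0, h1] at e01; linarith
  · rcases hcases with ⟨h0, h1⟩ | ⟨h0, h1⟩
    · refine ⟨h 0 1, Or.inl ?_⟩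
      obtain ⟨c00, c01, c10, c11⟩ := PDQ_Tz_entries (h 0 1)
      apply PDL_ext
      · rw [h0, c00]
      · rw [c01]
      · rw [hc, c10]
      · rw [h1, c11]
    · refine ⟨-(h 0 1), Or.inr ?_⟩
      obtain ⟨c00, c01, c10, c11⟩ := PDQ_Tz_entries (-(h 0 1))
      apply PDL_ext
      · rw [Matrix.SpecialLinearGroup.coe_neg, Matrix.neg_apply, c00, h0]
      · rw [Matrix.SpecialLinearGroup.coe_neg, Matrix.neg_apply, c01, neg_neg]
      · rw [Matrix.SpecialLinearGroup.coe_neg, Matrix.neg_apply, c10, hc, neg_zero]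
      · rw [Matrix.SpecialLinearGroup.coe_neg, Matrix.neg_apply, c11, h1]

/-- A parabolic element of `SL(2, ℤ)` (`tr = 2`, `≠ 1`) is conjugate to `T^m`, `m ≠ 0`. -/
theorem PDQ_par' (t : SL(2, ℤ)) (htr : (t : Matrix (Fin 2) (Fin 2) ℤ).trace = 2) (hne : t ≠ 1) :
    ∃ (g : SL(2, ℤ)) (m : ℤ), m ≠ 0 ∧ t = g⁻¹ * T ^ m * g := by
  have htr' := htr
  rw [Matrix.trace_fin_two] at htr'
  have hdet := PDL_det t
  have key : 4 * (t 0 1 * t 1 0) = -((t 0 0 - t 1 1) ^ 2) := by nlinarith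
  by_cases hb : 0 ≤ t 0 1
  · by_cases hc : t 1 0 ≤ 0
    · obtain ⟨g, m, hm, hg⟩ := PDQ_par t htr hne hb hc
      exact ⟨g, m, by exact_mod_cast hm.ne', by rw [zpow_natCast]; exact hg⟩
    · -- b ≥ 0, c > 0: then b = 0 and a = d
      have hc' := not_le.mp hc
      have hb0 : t 0 1 = 0 := by
        by_contra hb0
        have hbpos : 0 < t 0 1 := lt_of_le_of_ne hb (Ne.symm hb0)
        nlinarith [mul_pos hbpos hc', sq_nonneg (t 0 0 - t 1 1)]
      -- use the inverse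
      have hinv : PDQ_P t⁻¹ := by
        apply PDQ_aux _ t⁻¹ _ _ _ _ rfl
        · simp [Matrix.SpecialLinearGroup.coe_inv, Matrix.adjugate_fin_two]; linarith
        · intro h; apply hne; exact inv_eq_one.mp h
        · simp [Matrix.SpecialLinearGroup.coe_inv, Matrix.adjugate_fin_two, hb0]
        · simp [Matrix.SpecialLinearGroup.coe_inv, Matrix.adjugate_fin_two]; linarith
      obtain ⟨g, m, hm, hg⟩ := hinv
      refine ⟨g, -(m : ℤ), by simpa using hm.ne', ?_⟩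
      have : t = (g⁻¹ * T ^ m * g)⁻¹ := by rw [← hg, inv_inv]
      rw [this, _root_.zpow_neg, zpow_natCast]
      group
  · -- b < 0: the inverse has b ≥ 0; its c is then ≤ 0 automatically
    have hb' := not_le.mp hb
    have hc : 0 ≤ t 1 0 := by
      by_contra hc
      have hc' := not_le.mp hc
      nlinarith [mul_pos_of_neg_of_neg hb' hc', sq_nonneg (t 0 0 - t 1 1)]
    have hinv : PDQ_P t⁻¹ := by
      apply PDQ_aux _ t⁻¹ _ _ _ _ rfl
      · simp [Matrix.SpecialLinearGroup.coe_inv, Matrix.adjugate_fin_two]; linarith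
      · intro h; apply hne; exact inv_eq_one.mp h
      · simp [Matrix.SpecialLinearGroup.coe_inv, Matrix.adjugate_fin_two]; linarith
      · simp [Matrix.SpecialLinearGroup.coe_inv, Matrix.adjugate_fin_two]; linarith
    obtain ⟨g, m, hm, hg⟩ := hinv
    refine ⟨g, -(m : ℤ), by simpa using hm.ne', ?_⟩
    have : t = (g⁻¹ * T ^ m * g)⁻¹ := by rw [← hg, inv_inv]
    rw [this, _root_.zpow_neg, zpow_natCast]
    group

end PDPar

end Fermat.Agent.S41
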